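import Fermat.Agent.Corollaries.HM.RealFinal
import Fermat.Agent.LT.Quad.Exist

/-!
# Existence of quaternion algebras over an arbitrary number field

`K` an arbitrary number field, `a ∈ Kˣ` not a square.
* `exists_place_pair`: if `x` and `a x` are not squares there are infinitely many places `v` with
  `a ∈ K_v²`, `x ∉ K_v²`;
* `exists_symVec_eq`: all families of local symbols `(a, b_v)_v`, `b_v ∈ K_vˣ`, satisfying the
  product formula are given by an element `b ∈ Kˣ`;
* `exists_ramified_all`: every finite set of places of even cardinality, real places included, is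
  the set of the places where `a x ^ 2 + b y ^ 2 = z ^ 2` has no non-trivial solution.
-/

set_option autoImplicit false

namespace Fermat.Agent.Cor.HM

open IsDedekindDomain NumberField
open Fermat.Agent.Cor.Diff (exists_emb exists_rt exists_frob_sgn sgn_frob_iff exists_nat_mem' Rt GK)
open Fermat.Agent.CFT.Global (locPow E mem_E AboveP ClTrivial exists_good powE mem_powE index_powE
  dvd_ord_of_mem_locPow pow_mem_locPow LocalSymbols symVec symVec_apply exists_ord_eq_one)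
open Fermat.Agent.CFT.Global2 (inputs)
open Fermat.Agent.CFT.SUnits (ord ord_mul ord_inv ord_pow ord_div finite_ord_ne_zero div div_apply)
open Fermat.Agent.LT.Quad (exists_mem_of_isotropic')

section Places

variable {K : Type*} [Field K] [NumberField K]

/-- The square roots of `a` and of `x` are independent. -/
theorem exists_sgn_pair {i : K →+* AlgebraicClosure ℚ} (α β : Rt i)
    (h1 : ∀ c : Kˣ, c ^ 2 ≠ β.x) (h2 : ∀ c : Kˣ, c ^ 2 ≠ α.x * β.x) :
    ∃ g : GK i, α.sgn g = 1 ∧ β.sgn g ≠ 1 := by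
  by_contra! hcon
  obtain ⟨c, hc, h⟩ := Fermat.Agent.Cor.Diff.eq_pow_of_ker β.sgn α.sgn hcon
  interval_cases c
  · obtain ⟨g, hg⟩ := exists_sgn_ne β h1
    exact hg (by rw [h g, pow_zero])
  · obtain ⟨g, hg⟩ := exists_sgn_ne (α.mul β) h2
    apply hg
    rw [α.sgn_mul, h g, pow_one, Int.units_mul_self]

/-- If `x` and `a x` are not squares there are infinitely many places at which `a` is a local
square and `x` is not. -/
theorem exists_place_pair (S₀ : Finset (HeightOneSpectrum (𝓞 K))) {a x : Kˣ}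
    (h1 : ∀ c : Kˣ, c ^ 2 ≠ x) (h2 : ∀ c : Kˣ, c ^ 2 ≠ a * x) :
    ∃ v ∉ S₀, a ∈ locPow 2 v ∧ x ∉ locPow 2 v := by
  classical
  obtain ⟨i⟩ := exists_emb K
  obtain ⟨α, rfl⟩ := exists_rt i a
  obtain ⟨β, rfl⟩ := exists_rt i x
  obtain ⟨g, hgα, hgβ⟩ := exists_sgn_pair α β h1 h2
  obtain ⟨D, hD, hDv⟩ := exists_nat_mem' ((S₀ : Set (HeightOneSpectrum (𝓞 K))) ∪
    ({v | ord v α.x ≠ 0} ∪ {v | ord v β.x ≠ 0}))
    (S₀.finite_toSet.union ((finite_ord_ne_zero K _).union (finite_ord_ne_zero K _)))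
    2 two_ne_zero
  obtain ⟨v, φ, hv, hφ, hs⟩ := exists_frob_sgn g [α, β] ⟨β, by simp, hgβ⟩ hD
  obtain ⟨h3, h4⟩ := hDv v hv
  simp only [Set.mem_union, Set.mem_ofPred_eq, not_or, not_not, Finset.mem_coe] at h3
  refine ⟨v, h3.1, ?_, fun h => hgβ ?_⟩
  · rw [← sgn_frob_iff α hφ h4 h3.2.1, hs α (by simp), hgα]
  · rw [← hs β (by simp)]
    exact (sgn_frob_iff β hφ h4 h3.2.2).mpr h

/-- For suitable large `S`, the `S`-units which are locally in the classes of `1` and `a` at `S` are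
in the class of `1` or `a`. -/
theorem exists_inj_pair (a : Kˣ) (S₀ : Finset (HeightOneSpectrum (𝓞 K))) :
    ∃ S : Finset (HeightOneSpectrum (𝓞 K)), S₀ ⊆ S ∧ AboveP 2 S ∧ ClTrivial S ∧ a ∈ E S ∧
      ∀ y ∈ E S, (∀ v ∈ S, y ∈ locPow 2 v ∨ a * y ∈ locPow 2 v) →
        (∃ b : Kˣ, b ^ 2 = y) ∨ ∃ b : Kˣ, b ^ 2 = a * y := by
  classical
  have hp := Nat.prime_two
  have hζ : IsPrimitiveRoot (-1 : K) 2 := IsPrimitiveRoot.neg_one 0 (by norm_num)
  obtain ⟨S₁, hS₀, hS₁p, hcl, haS⟩ := exists_good (K := K) 2 hp.ne_zero S₀ {a}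
  have ha : a ∈ E S₁ := haS a (Finset.mem_singleton_self a)
  have hfin : Finite (E S₁ ⧸ powE 2 S₁) := by
    apply Nat.finite_of_card_ne_zero
    change (powE 2 S₁).index ≠ 0
    rw [index_powE hp hζ]
    exact pow_ne_zero _ hp.ne_zero
  have := Fintype.ofFinite (E S₁ ⧸ powE 2 S₁)
  choose g hg using QuotientGroup.mk_surjective (s := powE 2 S₁)
  have hv : ∀ e : E S₁ ⧸ powE 2 S₁, ∃ v : HeightOneSpectrum (𝓞 K),
      (∀ b : Kˣ, b ^ 2 ≠ g e) → (∀ b : Kˣ, b ^ 2 ≠ a * g e) →
        a ∈ locPow 2 v ∧ (g e : Kˣ) ∉ locPow 2 v := by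
    intro e
    by_cases h : (∀ b : Kˣ, b ^ 2 ≠ g e) ∧ ∀ b : Kˣ, b ^ 2 ≠ a * g e
    · obtain ⟨v, -, hv⟩ := exists_place_pair ∅ h.1 h.2
      exact ⟨v, fun _ _ => hv⟩
    · obtain ⟨v⟩ := Fermat.Agent.CFT.Global.nonempty_places (K := K)
      exact ⟨v, fun h1 h2 => absurd ⟨h1, h2⟩ h⟩
  choose w hw using hv
  refine ⟨S₁ ∪ Finset.univ.image w, hS₀.trans Finset.subset_union_left,
    fun v hv => Finset.mem_union_left _ (hS₁p v hv), hcl.mono Finset.subset_union_left,
    mem_E.mpr fun v hv => mem_E.mp ha v fun h => hv (Finset.mem_union_left _ h), ?_⟩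
  intro y hy hyS
  -- divide the divisor by `2`
  have hdvd : ∀ v ∉ S₁, ((2 : ℕ) : ℤ) ∣ ord v y := by
    intro v hv
    by_cases h : v ∈ S₁ ∪ Finset.univ.image w
    · rcases hyS v h with h1 | h1
      · exact dvd_ord_of_mem_locPow h1
      · have h2 := dvd_ord_of_mem_locPow h1
        rwa [ord_mul, mem_E.mp ha v hv, zero_add] at h2
    · rw [mem_E.mp hy v h]
      exact dvd_zero _
  obtain ⟨b, hb⟩ := hcl ((div y).mapRange (fun n => n / ((2 : ℕ) : ℤ)) (by simp))
  have he : y / b ^ 2 ∈ E S₁ := by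
    rw [mem_E]
    intro v hv
    rw [ord_div, ord_pow, hb v hv, Finsupp.mapRange_apply, div_apply,
      Int.mul_ediv_cancel' (hdvd v hv), sub_self]
  set e : E S₁ := ⟨y / b ^ 2, he⟩ with hedef
  have hge : ((e : E S₁ ⧸ powE 2 S₁)) = (g (e : E S₁ ⧸ powE 2 S₁)) := (hg _).symm
  obtain ⟨z, hz⟩ := (QuotientGroup.eq.mp hge)
  have hz' : (g (e : E S₁ ⧸ powE 2 S₁) : Kˣ) = y / b ^ 2 * (z : Kˣ) ^ 2 := by
    have h1 : ((e⁻¹ * g (e : E S₁ ⧸ powE 2 S₁) : E S₁) : Kˣ) = (z : Kˣ) ^ 2 := by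
      rw [← hz]
      rfl
    have h2 : (e : Kˣ) = y / b ^ 2 := rfl
    rw [← h1, ← h2]
    push_cast
    rw [mul_inv_cancel_left]
  by_contra hcon
  push Not at hcon
  have h3 : ∀ c : Kˣ, c ^ 2 ≠ g (e : E S₁ ⧸ powE 2 S₁) := by
    intro c hc
    apply hcon.1 (c * b / z)
    rw [hz'] at hc
    rw [_root_.div_pow, mul_pow, hc, div_eq_iff_eq_mul, mul_right_comm, div_mul_cancel]
  have h3' : ∀ c : Kˣ, c ^ 2 ≠ a * g (e : E S₁ ⧸ powE 2 S₁) := by
    intro c hc
    apply hcon.2 (c * b / z)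
    rw [hz'] at hc
    rw [_root_.div_pow, mul_pow, hc, div_eq_iff_eq_mul]
    rw [← mul_assoc, mul_right_comm, mul_assoc a, div_mul_cancel]
  obtain ⟨h5, h6⟩ := hw _ h3 h3'
  apply h6
  rw [hz']
  have h7 : y ∈ locPow 2 (w (e : E S₁ ⧸ powE 2 S₁)) := by
    rcases hyS (w (e : E S₁ ⧸ powE 2 S₁))
      (Finset.mem_union_right _ (Finset.mem_image_of_mem _ (Finset.mem_univ _))) with h | h
    · exact h
    · have h8 := div_mem h h5
      rwa [mul_div_cancel_left] at h8
  exact mul_mem (div_mem h7 (pow_mem_locPow 2 _ b)) (pow_mem_locPow 2 _ _)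

end Places

section Form

variable {K : Type*} [Field K] [NumberField K] (LS : LocalSymbols 2 K)

/-- The form `∑_{v ∈ S} (x, y)_v + ∑_σ [σ x < 0 ∧ σ y < 0]`. -/
noncomputable def formR (S : Finset (HeightOneSpectrum (𝓞 K))) :
    Kˣ →* Kˣ →* Multiplicative (ZMod 2) where
  toFun x :=
    { toFun := fun y => Multiplicative.ofAdd
        (∑ v ∈ S, (LS.sym v x y).toAdd + ∑ σ : K →+* ℝ, sg σ x * sg σ y)
      map_one' := by simp [sg_one]
      map_mul' := fun y z => by
        simp only [map_mul, toAdd_mul, sg_mul, mul_add, Finset.sum_add_distrib, ofAdd_add]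
        rw [mul_mul_mul_comm] }
  map_one' := by
    ext y
    simp [sg_one]
  map_mul' x y := by
    ext z
    simp only [map_mul, MonoidHom.mul_apply, toAdd_mul, sg_mul, add_mul,
      Finset.sum_add_distrib, ofAdd_add, MonoidHom.coe_mk, OneHom.coe_mk]
    exact add_add_add_comm _ _ _ _

lemma formR_apply (S : Finset (HeightOneSpectrum (𝓞 K))) (x y : Kˣ) :
    formR LS S x y = Multiplicative.ofAdd
      (∑ v ∈ S, (LS.sym v x y).toAdd + ∑ σ : K →+* ℝ, sg σ x * sg σ y) := rfl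

lemma formR_right {S : Finset (HeightOneSpectrum (𝓞 K))} (x : Kˣ) {y : Kˣ}
    (hy : ∀ v ∈ S, y ∈ locPow 2 v) (hs : ∀ σ : K →+* ℝ, sg σ y = 0) : formR LS S x y = 1 := by
  rw [formR_apply, Finset.sum_eq_zero (fun v hv => by
    rw [LS.sym_eq_one_of_right (hy v hv)]
    rfl), Finset.sum_eq_zero (fun σ _ => by rw [hs σ, mul_zero])]
  rfl

lemma formR_left {S : Finset (HeightOneSpectrum (𝓞 K))} {x : Kˣ} (y : Kˣ)
    (hx : ∀ v ∈ S, x ∈ locPow 2 v) (hs : ∀ σ : K →+* ℝ, sg σ x = 0) : formR LS S x y = 1 := by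
  rw [formR_apply, Finset.sum_eq_zero (fun v hv => by
    rw [LS.sym_eq_one_of_left (hx v hv)]
    rfl), Finset.sum_eq_zero (fun σ _ => by rw [hs σ, zero_mul])]
  rfl

omit [NumberField K] in
lemma sg_sq (σ : K →+* ℝ) (x : Kˣ) : sg σ (x ^ 2) = 0 := by
  rw [sq, sg_mul]
  exact CharTwo.add_self_eq_zero _

/-- elements with a given class at `v`, trivial at the other places of `S`, totally positive -/
lemma exists_local_pos (hA : ApproxStmt K) (S : Finset (HeightOneSpectrum (𝓞 K)))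
    {v : HeightOneSpectrum (𝓞 K)} (hv : v ∈ S) (y : Kˣ) :
    ∃ z : Kˣ, z / y ∈ locPow 2 v ∧ (∀ w ∈ S, w ≠ v → z ∈ locPow 2 w) ∧
      ∀ σ : K →+* ℝ, sg σ z = 0 := by
  classical
  obtain ⟨z, hz, hzs⟩ := exists_sign_locPow hA S (fun w => if w = v then y else 1)
    (fun _ => False)
  refine ⟨z, ?_, fun w hw hwv => ?_, fun σ =>
    zmod_two_eq_zero fun h' => (hzs σ).mp (sg_eq_one_iff.mp h')⟩
  · have h1 := hz v hv
    rwa [if_pos rfl] at h1
  · have h1 := hz w hw
    rwa [if_neg hwv, div_one] at h1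

/-- localize the form at the place `v` -/
lemma formR_of_local {S : Finset (HeightOneSpectrum (𝓞 K))} {v : HeightOneSpectrum (𝓞 K)}
    (hv : v ∈ S) (x : Kˣ) {y z : Kˣ} (h1 : z / y ∈ locPow 2 v)
    (h2 : ∀ w ∈ S, w ≠ v → z ∈ locPow 2 w) (hs : ∀ σ : K →+* ℝ, sg σ z = 0) :
    formR LS S x z = LS.sym v x y := by
  have h3 : LS.sym v x z = LS.sym v x y := by
    have h5 := LS.sym_eq_one_of_right (a := x) h1
    rwa [_root_.map_div, div_eq_one] at h5
  have h4 : ∑ w ∈ S, (LS.sym w x z).toAdd = (LS.sym v x y).toAdd := by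
    rw [Finset.sum_eq_single_of_mem v hv, h3]
    intro w hw hwv
    rw [LS.sym_eq_one_of_right (h2 w hw hwv), toAdd_one]
  have h6 : ∑ σ : K →+* ℝ, sg σ x * sg σ z = 0 := Finset.sum_eq_zero fun σ _ => by
    rw [hs σ, mul_zero]
  rw [formR_apply, h4, h6, add_zero]
  rfl

/-- A hom to `± 1` separating `y` from a subgroup containing all squares. -/
lemma exists_hom_ne_one {G : Type*} [CommGroup G] {U : Subgroup G} (hU : ∀ x : G, x ^ 2 ∈ U)
    {y : G} (hy : y ∉ U) :
    ∃ φ : G →* Multiplicative (ZMod 2), (∀ u ∈ U, φ u = 1) ∧ φ y ≠ 1 := by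
  let V := Additive (G ⧸ U)
  let _ : Module (ZMod 2) V := AddCommGroup.zmodModule (n := 2) fun x => by
    change x.toMul ^ 2 = 1
    obtain ⟨z, hz⟩ := QuotientGroup.mk_surjective x.toMul
    rw [← hz, ← QuotientGroup.mk_pow, QuotientGroup.eq_one_iff]
    exact hU z
  have h1 : (Additive.ofMul (y : G ⧸ U) : V) ≠ 0 := by
    intro h
    exact hy ((QuotientGroup.eq_one_iff y).mp h)
  obtain ⟨f, hf⟩ : ∃ f : Module.Dual (ZMod 2) V, f (Additive.ofMul (y : G ⧸ U)) ≠ 0 := by
    by_contra! hcon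
    exact h1 ((Module.forall_dual_apply_eq_zero_iff (ZMod 2) _).mp hcon)
  refine ⟨(MonoidHom.toAdditiveLeft.symm (f : V →+ ZMod 2)).comp (QuotientGroup.mk' U),
    fun u hu => ?_, hf⟩
  rw [MonoidHom.comp_apply, QuotientGroup.mk'_apply, (QuotientGroup.eq_one_iff u).mpr hu, map_one]

end Form

section Main

variable {K : Type} [Field K] [NumberField K]

/-- `S`-units are their own orthogonal for the form with the real places. -/
theorem exists_unit_formR (LS : LocalSymbols 2 K) {S : Finset (HeightOneSpectrum (𝓞 K))}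
    (hSp : AboveP 2 S) (hinj : ∀ y ∈ E S, (∀ v ∈ S, y ∈ locPow 2 v) → ∃ b : Kˣ, b ^ 2 = y)
    (φ : Kˣ →* Multiplicative (ZMod 2)) (hφ : ∀ x ∈ E S, φ x = 1)
    (hφ' : ∀ x, (∀ v ∈ S, x ∈ locPow 2 v) → (∀ σ : K →+* ℝ, sg σ x = 0) → φ x = 1) :
    ∃ b ∈ E S, ∀ y : Kˣ, φ y = formR LS S b y := by
  classical
  have hp := Nat.prime_two
  have hζ : IsPrimitiveRoot (-1 : K) 2 := IsPrimitiveRoot.neg_one 0 (by norm_num)
  set P : Subgroup Kˣ := (⨅ v ∈ S, locPow 2 v) ⊓ posR Finset.univ with hPdef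
  have hmemP : ∀ x : Kˣ, x ∈ P ↔ (∀ v ∈ S, x ∈ locPow 2 v) ∧ ∀ σ : K →+* ℝ, sg σ x = 0 := by
    intro x
    rw [hPdef, Subgroup.mem_inf, mem_posR]
    simp only [Subgroup.mem_iInf, Finset.mem_univ, forall_true_left]
  have hcount := (inputs (p := 2)).localCount K (-1) hζ S hSp
  have hPi : P.index ≠ 0 := Subgroup.index_inf_ne_zero
    (by rw [hcount]; exact pow_ne_zero _ two_ne_zero) (index_posR _).1
  have hPle : P.index ≤ 2 ^ (2 * S.card + Module.finrank ℚ K + InfinitePlace.nrRealPlaces K) := by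
    refine Subgroup.index_inf_le.trans ?_
    rw [hcount, pow_add 2 (2 * S.card + Module.finrank ℚ K)]
    refine Nat.mul_le_mul_left _ ((index_posR _).2.trans (Nat.pow_le_pow_right two_pos ?_))
    rw [Finset.card_univ]
    exact card_real_le
  have hrel : P.relIndex (E S) = 2 ^ (Units.rank K + 1 + S.card) := by
    rw [Subgroup.relIndex, ← index_powE hp hζ S]
    congr 1
    ext y
    rw [Subgroup.mem_subgroupOf, mem_powE hp, hmemP]
    constructor
    · exact fun h => hinj y y.2 h.1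
    · rintro ⟨b, hb⟩
      rw [← hb]
      exact ⟨fun v _ => pow_mem_locPow 2 v b, fun σ => sg_sq σ b⟩
  have h2 : 2 * S.card + Module.finrank ℚ K + InfinitePlace.nrRealPlaces K =
      (Units.rank K + 1 + S.card) * 2 := by
    have h3 := InfinitePlace.card_add_two_mul_card_eq_rank K
    have h4 := InfinitePlace.card_eq_nrRealPlaces_add_nrComplexPlaces K
    have h5 : 0 < Fintype.card (InfinitePlace K) := Fintype.card_pos
    rw [Units.rank]
    omega
  refine exists_mem_of_isotropic' 2 P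
    (fun x => (hmemP _).2 ⟨fun v _ => pow_mem_locPow 2 v x, fun σ => sg_sq σ x⟩) (formR LS S)
    (fun x hx y => formR_left LS y ((hmemP x).1 hx).1 ((hmemP x).1 hx).2)
    (fun x y hy => formR_right LS x ((hmemP y).1 hy).1 ((hmemP y).1 hy).2)
    (fun x hx => (hmemP x).2 ⟨fun v hv => ?_, fun σ => ?_⟩) (E S) ?_ hPi ?_ φ hφ
    (fun x hx => hφ' x ((hmemP x).1 hx).1 ((hmemP x).1 hx).2)
  · rw [LS.mem_locPow_iff]
    intro y
    obtain ⟨z, hz, hz', hzs⟩ := exists_local_pos (approxStmt K) S hv y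
    rw [← formR_of_local LS hv x hz hz' hzs]
    exact hx z
  · obtain ⟨z, hz, hzs⟩ := exists_sign_locPow (approxStmt K) S (fun _ => 1) (fun τ => τ = σ)
    have h3 := hx z
    rw [formR_apply, Finset.sum_eq_zero (fun w hw => by
      have h5 := LS.sym_eq_one_of_right (a := x) (hz w hw)
      rw [div_one] at h5
      rw [h5, toAdd_one]), zero_add, Finset.sum_eq_single_of_mem σ (Finset.mem_univ σ)
        (fun τ _ hτ => by
          rw [zmod_two_eq_zero (t := sg τ z) fun h' => hτ ((hzs τ).mp (sg_eq_one_iff.mp h')),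
            mul_zero]),
      sg_eq_one_iff.mpr ((hzs σ).mpr rfl), mul_one] at h3
    exact h3
  · intro x hx y hy
    rw [formR_apply, ← pf_eq_sum LS (fun v hv => LS.sym_unit hSp hx hy hv),
      sum_sym_of (approxStmt K) LS, CharTwo.add_self_eq_zero]
    rfl
  · rw [hrel, ← pow_mul, ← h2]
    exact hPle

/-- **The existence theorem for the local symbols of `a`** over an arbitrary number field: every
family `u`, `r` of local symbols `(a, b_v)_v` (finite and real places) which satisfies the product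
formula is the family of the symbols `(a, b)_v` of an element `b ∈ Kˣ`. -/
theorem exists_symVec_eq (LS : LocalSymbols 2 K) {a : Kˣ} (ha : ∀ c : Kˣ, c ^ 2 ≠ a)
    (u : HeightOneSpectrum (𝓞 K) →₀ ZMod 2) (hu : ∀ v, a ∈ locPow 2 v → u v = 0)
    (r : (K →+* ℝ) → ZMod 2) (hr : ∀ σ : K →+* ℝ, 0 < σ (a : K) → r σ = 0)
    (hs : (u.sum fun _ n => n) = ∑ σ : K →+* ℝ, r σ) :
    ∃ b : Kˣ, symVec LS two_ne_zero a b = u ∧ ∀ σ : K →+* ℝ, sg σ a * sg σ b = r σ := by
  classical
  obtain ⟨v₁, -, hv₁⟩ := exists_notMem_locPow_all ∅ ha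
  obtain ⟨S, hS₀, hSp, -, haS, hinj2⟩ := exists_inj_pair a (insert v₁ u.support)
  have hinj : ∀ y ∈ E S, (∀ v ∈ S, y ∈ locPow 2 v) → ∃ b : Kˣ, b ^ 2 = y := by
    intro y hy h
    rcases hinj2 y hy (fun v hv => Or.inl (h v hv)) with h1 | ⟨b, hb⟩
    · exact h1
    · exfalso
      apply hv₁
      have h2 := div_mem (pow_mem_locPow 2 v₁ b) (h v₁ (hS₀ (Finset.mem_insert_self _ _)))
      rwa [hb, mul_div_cancel_right] at h2
  -- the local data
  have hloc : ∀ v : HeightOneSpectrum (𝓞 K), ∃ e : Kˣ, LS.sym v a e = Multiplicative.ofAdd (u v) := by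
    intro v
    by_cases hv : a ∈ locPow 2 v
    · exact ⟨1, by rw [map_one, hu v hv]; rfl⟩
    · exact LS.sym_surjective Nat.prime_two hv _
  choose e he using hloc
  obtain ⟨y₀, hy₀, hy₀s⟩ := exists_sign_locPow (approxStmt K) S e (fun σ => r σ = 1)
  have hy₁ : ∀ v ∈ S, LS.sym v a y₀ = Multiplicative.ofAdd (u v) := by
    intro v hv
    have h5 := LS.sym_eq_one_of_right (a := a) (hy₀ v hv)
    rw [_root_.map_div, div_eq_one] at h5
    rw [h5, he]
  have hy₂ : ∀ σ : K →+* ℝ, sg σ a * sg σ y₀ = r σ := by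
    intro σ
    by_cases h : r σ = 1
    · rw [sg_eq_one_iff.mpr ((hy₀s σ).mpr h), mul_one, h, sg_eq_one_iff]
      by_contra h1
      have h2 := hr σ (lt_of_le_of_ne (not_lt.mp h1) ((map_ne_zero σ).mpr a.ne_zero).symm)
      rw [h] at h2
      exact absurd h2 (by decide)
    · rw [zmod_two_eq_zero (t := sg σ y₀) fun h' => h ((hy₀s σ).mp (sg_eq_one_iff.mp h')),
        mul_zero, zmod_two_eq_zero h]
  -- the norm group
  let N : Subgroup Kˣ :=
    { carrier := {z | (∀ v ∈ S, LS.sym v a z = 1) ∧ ∀ σ : K →+* ℝ, sg σ a * sg σ z = 0}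
      one_mem' := ⟨fun v _ => map_one _, fun σ => by rw [sg_one, mul_zero]⟩
      mul_mem' := by
        rintro x y ⟨h1, h2⟩ ⟨h3, h4⟩
        exact ⟨fun v hv => by rw [map_mul, h1 v hv, h3 v hv, one_mul],
          fun σ => by rw [sg_mul, mul_add, h2, h4, add_zero]⟩
      inv_mem' := by
        rintro x ⟨h1, h2⟩
        refine ⟨fun v hv => by rw [map_inv, h1 v hv, inv_one], fun σ => ?_⟩
        have h3 := sg_mul σ x x⁻¹
        rw [mul_inv_cancel, sg_one] at h3
        rw [← CharTwo.add_eq_zero.mp h3.symm, h2] }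
  have hN : ∀ z : Kˣ, z ∈ N ↔ (∀ v ∈ S, LS.sym v a z = 1) ∧ ∀ σ : K →+* ℝ, sg σ a * sg σ z = 0 :=
    fun z => Iff.rfl
  have hPN : ∀ z : Kˣ, (∀ v ∈ S, z ∈ locPow 2 v) → (∀ σ : K →+* ℝ, sg σ z = 0) → z ∈ N :=
    fun z h1 h2 => (hN z).mpr ⟨fun v hv => LS.sym_eq_one_of_right (h1 v hv),
      fun σ => by rw [h2, mul_zero]⟩
  have hmem : y₀ ∈ E S ⊔ N := by
    by_contra hcon
    obtain ⟨φ, hφU, hφy⟩ := exists_hom_ne_one (U := E S ⊔ N) (fun x =>
      (le_sup_right : N ≤ E S ⊔ N) (hPN _ (fun v _ => pow_mem_locPow 2 v x) fun σ => sg_sq σ x))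
      hcon
    obtain ⟨x, hx, hφx⟩ := exists_unit_formR LS hSp hinj φ
      (fun z hz => hφU z ((le_sup_left : E S ≤ E S ⊔ N) hz))
      (fun z hz hzs => hφU z ((le_sup_right : N ≤ E S ⊔ N) (hPN z hz hzs)))
    have h1 : ∀ v ∈ S, ∀ y, LS.sym v a y = 1 → LS.sym v x y = 1 := by
      intro v hv y hy
      obtain ⟨z, hz, hz', hzs⟩ := exists_local_pos (approxStmt K) S hv y
      rw [← formR_of_local LS hv x hz hz' hzs, ← hφx]
      refine hφU z ((le_sup_right : N ≤ E S ⊔ N) ((hN z).mpr ⟨fun w hw => ?_, fun σ => by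
        rw [hzs, mul_zero]⟩))
      by_cases h : w = v
      · subst h
        have h5 := LS.sym_eq_one_of_right (a := a) hz
        rw [_root_.map_div, div_eq_one] at h5
        rw [h5, hy]
      · exact LS.sym_eq_one_of_right (hz' w hw h)
    have h2 : ∀ v ∈ S, x ∈ locPow 2 v ∨ a * x ∈ locPow 2 v := by
      intro v hv
      by_contra! hcon2
      by_cases hav : a ∈ locPow 2 v
      · apply hcon2.1
        rw [LS.mem_locPow_iff]
        exact fun y => h1 v hv y (LS.sym_eq_one_of_left hav)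
      · obtain ⟨y, h3, h4⟩ := exists_sym_eq LS hav hcon2.1 hcon2.2 1 (Multiplicative.ofAdd 1)
        rw [h1 v hv y h3] at h4
        exact absurd h4 (by decide)
    apply hφy
    rcases hinj2 x hx h2 with ⟨b, hb⟩ | ⟨b, hb⟩
    · rw [hφx, ← hb]
      exact formR_left LS y₀ (fun v _ => pow_mem_locPow 2 v b) (fun σ => sg_sq σ b)
    · have h3 : formR LS S (a * x) y₀ = 1 := by
        rw [← hb]
        exact formR_left LS y₀ (fun v _ => pow_mem_locPow 2 v b) (fun σ => sg_sq σ b)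
      have h4 : formR LS S a y₀ = 1 := by
        rw [formR_apply, Finset.sum_congr rfl fun v hv => by rw [hy₁ v hv, toAdd_ofAdd],
          Finset.sum_congr rfl fun σ (_ : σ ∈ Finset.univ) => hy₂ σ, ← hs,
          Finsupp.sum_of_support_subset (s := S) _
            ((Finset.subset_insert v₁ u.support).trans hS₀) _ (fun v _ => rfl),
          CharTwo.add_self_eq_zero]
        rfl
      rw [map_mul, MonoidHom.mul_apply, h4, one_mul] at h3
      rw [hφx, h3]
  obtain ⟨b, hb, n, hn, hbn⟩ := Subgroup.mem_sup.mp hmem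
  have hn' := (hN n).mp hn
  refine ⟨b, ?_, fun σ => ?_⟩
  · ext v
    rw [symVec_apply]
    by_cases hv : v ∈ S
    · have h3 := hy₁ v hv
      rw [← hbn, map_mul, hn'.1 v hv, mul_one] at h3
      rw [h3, toAdd_ofAdd]
    · rw [LS.sym_unit hSp haS hb hv, toAdd_one, Finsupp.notMem_support_iff.mp fun h =>
        hv (hS₀ (Finset.mem_insert_of_mem h))]
  · rw [← hy₂ σ, ← hbn, sg_mul, mul_add, hn'.2 σ, add_zero]

/-- **Existence of quaternion algebras with given ramification** over an arbitrary number field: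
`T` is a finite set of finite places, `R` a set of real places, `|T| + |R|` is even.  There are
`a, b ∈ Kˣ` such that `a x ^ 2 + b y ^ 2 = z ^ 2` has no non-trivial solution exactly at the places
in `T` and `R`. -/
theorem exists_ramified_all (T : Finset (HeightOneSpectrum (𝓞 K))) (R : Finset (K →+* ℝ))
    (hTR : Even (T.card + R.card)) :
    ∃ a b : K, a ≠ 0 ∧ b ≠ 0 ∧ (∀ v : HeightOneSpectrum (𝓞 K), ¬ IsSplitAt v a b ↔ v ∈ T) ∧
      ∀ σ : K →+* ℝ, (σ a < 0 ∧ σ b < 0) ↔ σ ∈ R := by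
  classical
  obtain ⟨LS⟩ := Fermat.Agent.CFT.Bridge.nonempty_localSymbols_all K
    (Fermat.Agent.CFT.Global2.Unr.isPrimitiveRoot_neg_one' K)
  choose π hπ using fun v : HeightOneSpectrum (𝓞 K) => exists_ord_eq_one v
  obtain ⟨a, ha, has⟩ := exists_sign_locPow (approxStmt K) T π (fun σ => σ ∈ R)
  have hna : ∀ v ∈ T, a ∉ locPow 2 v := by
    intro v hv h
    have h1 := div_mem h (ha v hv)
    rw [div_div_cancel] at h1
    exact not_mem_locPow_of_ord_eq_one (hπ v) h1
  by_cases hsq : ∃ c : Kˣ, c ^ 2 = a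
  · obtain ⟨c, hc⟩ := hsq
    have hT : T = ∅ := Finset.eq_empty_of_forall_notMem fun v hv => hna v hv (by
      rw [← hc]
      exact pow_mem_locPow 2 v c)
    have hR : R = ∅ := Finset.eq_empty_of_forall_notMem fun σ hσ => by
      have h1 := (has σ).mpr hσ
      rw [← hc, Units.val_pow_eq_pow_val, map_pow] at h1
      exact absurd h1 (not_lt.mpr (sq_nonneg _))
    subst hT hR
    refine ⟨1, 1, one_ne_zero, one_ne_zero, fun v => ?_, fun σ => ?_⟩
    · have h1 : IsSplitAt v (1 : K) 1 := ⟨1, 0, 1, fun h => one_ne_zero h.1, by simp⟩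
      simp [h1]
    · simp
  · push Not at hsq
    obtain ⟨b, hb, hbs⟩ := exists_symVec_eq LS hsq (Finsupp.indicator T fun _ _ => 1) (by
        intro v hv
        rw [Finsupp.indicator_of_notMem]
        exact fun h => hna v h hv) (fun σ => if σ ∈ R then 1 else 0) (by
        intro σ hσ
        exact if_neg fun h => absurd hσ (not_lt.mpr ((has σ).mpr h).le)) (by
        rw [Finsupp.sum_indicator_index _ (fun _ _ => rfl), Finset.sum_ite_mem,
          Finset.univ_inter]
        simp only [Finset.sum_const, nsmul_eq_mul, mul_one]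
        rw [← CharTwo.add_eq_zero, ← Nat.cast_add]
        exact (ZMod.natCast_eq_zero_iff _ 2).mpr hTR.two_dvd)
    refine ⟨a, b, a.ne_zero, b.ne_zero, fun v => ?_, fun σ => ?_⟩
    · rw [← sym_eq_one_iff LS v a b]
      have h1 := DFunLike.congr_fun hb v
      rw [symVec_apply] at h1
      by_cases hv : v ∈ T
      · rw [Finsupp.indicator_of_mem hv] at h1
        refine iff_of_true (fun h => ?_) hv
        rw [h] at h1
        exact absurd h1 (by decide)
      · rw [Finsupp.indicator_of_notMem hv] at h1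
        exact iff_of_false (fun h => h h1) hv
    · have h1 := hbs σ
      rw [← sg_eq_one_iff, ← sg_eq_one_iff]
      by_cases hσ : σ ∈ R
      · rw [if_pos hσ] at h1
        refine iff_of_true ?_ hσ
        revert h1
        generalize sg σ a = s
        generalize sg σ b = t
        revert s t
        decide
      · rw [if_neg hσ] at h1
        refine iff_of_false ?_ hσ
        rintro ⟨h2, h3⟩
        rw [h2, h3] at h1
        exact absurd h1 (by decide)

end Main

end Fermat.Agent.Cor.HM
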