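import Mathlib

/-!
# Diagonal quadratic forms in three, four and five variables: pure algebra

* `isotropic4_of_quad`: if `<a₀, a₁, a₂>` is isotropic over `F(√(a₀a₁a₂a₃))` then
  `<a₀, a₁, a₂, a₃>` is isotropic over `F`;
* `isotropic3_of_isotropic4`: if `a₀a₁a₂a₃` is a square and `<a₀, a₁, a₂, a₃>` is isotropic then
  `<a₀, a₁, a₂>` is isotropic;
* reduction of the number of variables;
* `isotropic_four_of_sqrt`: a diagonal quaternary form of discriminant `d` (up to squares, `d` not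
  a square) that is isotropic over `F(√d)` is isotropic over `F`; Gram determinants of orthogonal
  systems (`prod_value_eq`).

The sections `Four` and `Sub` are by helper99, the others by helper49.
-/

set_option autoImplicit false

namespace Fermat.Agent.Cor.HM

open Finset

section Four

variable {F L : Type*} [Field F] [Field L] [Algebra F L]

/-- **Four variables from three over a quadratic extension.** -/
theorem isotropic4_of_quad (h2 : (2 : F) ≠ 0) {a : Fin 4 → F} (ha : ∀ i, a i ≠ 0) {δ : L}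
    (hδ : δ ^ 2 = algebraMap F L (∏ i, a i))
    (hspan : ∀ z : L, ∃ x y : F, z = algebraMap F L x + algebraMap F L y * δ)
    (hlin : ∀ x y : F, algebraMap F L x + algebraMap F L y * δ = 0 → x = 0 ∧ y = 0)
    (h : ∃ x : Fin 3 → L, x ≠ 0 ∧ ∑ i, algebraMap F L (a i.castSucc) * x i ^ 2 = 0) :
    ∃ x : Fin 4 → F, x ≠ 0 ∧ ∑ i, a i * x i ^ 2 = 0 := by
  obtain ⟨x, hx0, hx⟩ := h
  choose u w huw using fun i => hspan (x i)
  set D : F := ∏ i, a i with hD
  have hD' : D = a 0 * a 1 * a 2 * a 3 := by rw [hD, Fin.prod_univ_four]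
  have e0 : (Fin.castSucc (0 : Fin 3) : Fin 4) = 0 := rfl
  have e1 : (Fin.castSucc (1 : Fin 3) : Fin 4) = 1 := rfl
  have e2 : (Fin.castSucc (2 : Fin 3) : Fin 4) = 2 := rfl
  rw [Fin.sum_univ_three, e0, e1, e2] at hx
  have hq : algebraMap F L ((a 0 * u 0 ^ 2 + a 1 * u 1 ^ 2 + a 2 * u 2 ^ 2) +
      D * (a 0 * w 0 ^ 2 + a 1 * w 1 ^ 2 + a 2 * w 2 ^ 2)) +
      algebraMap F L (2 * (a 0 * u 0 * w 0 + a 1 * u 1 * w 1 + a 2 * u 2 * w 2)) * δ = 0 := by
    rw [← hx, huw 0, huw 1, huw 2]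
    simp only [map_add, map_mul, map_pow, map_ofNat]
    linear_combination (-(algebraMap F L (a 0) * algebraMap F L (w 0) ^ 2 +
      algebraMap F L (a 1) * algebraMap F L (w 1) ^ 2 +
      algebraMap F L (a 2) * algebraMap F L (w 2) ^ 2)) * hδ
  obtain ⟨h1, h3⟩ := hlin _ _ hq
  have hB : a 0 * u 0 * w 0 + a 1 * u 1 * w 1 + a 2 * u 2 * w 2 = 0 :=
    (mul_eq_zero.mp h3).resolve_left h2
  set c : F := a 0 * w 0 ^ 2 + a 1 * w 1 ^ 2 + a 2 * w 2 ^ 2 with hc
  by_cases hc0 : c = 0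
  · -- `w` or `u` is isotropic
    rw [hc0, mul_zero, add_zero] at h1
    by_cases hw : w = 0
    · have hu : u ≠ 0 := by
        intro hu
        apply hx0
        funext i
        rw [huw i, hu, hw]
        simp
      refine ⟨Fin.snoc u 0, fun h => hu ?_, ?_⟩
      · funext i
        have := congrFun h i.castSucc
        simpa using this
      · rw [Fin.sum_univ_castSucc, Fin.sum_univ_three]
        simp only [Fin.snoc_castSucc, Fin.snoc_last]
        rw [e0, e1, e2]
        linear_combination h1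
    · refine ⟨Fin.snoc w 0, fun h => hw ?_, ?_⟩
      · funext i
        have := congrFun h i.castSucc
        simpa using this
      · rw [Fin.sum_univ_castSucc, Fin.sum_univ_three]
        simp only [Fin.snoc_castSucc, Fin.snoc_last]
        rw [e0, e1, e2]
        linear_combination hc0
  · -- `n = G⁻¹ (u × w)`
    have ha0 := ha 0
    have ha1 := ha 1
    have ha2 := ha 2
    refine ⟨![(u 1 * w 2 - u 2 * w 1) / a 0, (u 2 * w 0 - u 0 * w 2) / a 1,
      (u 0 * w 1 - u 1 * w 0) / a 2, c], fun h => hc0 ?_, ?_⟩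
    · have := congrFun h 3
      simpa using this
    · rw [Fin.sum_univ_four]
      simp only [Matrix.cons_val_zero, Matrix.cons_val_one, Matrix.cons_val]
      rw [hD'] at h1
      have key : a 1 * a 2 * (u 1 * w 2 - u 2 * w 1) ^ 2 + a 0 * a 2 * (u 2 * w 0 - u 0 * w 2) ^ 2 +
          a 0 * a 1 * (u 0 * w 1 - u 1 * w 0) ^ 2 =
          (a 0 * u 0 ^ 2 + a 1 * u 1 ^ 2 + a 2 * u 2 ^ 2) * c -
            (a 0 * u 0 * w 0 + a 1 * u 1 * w 1 + a 2 * u 2 * w 2) ^ 2 := by
        rw [hc]; ring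
      rw [hB] at key
      have h4 : a 0 * u 0 ^ 2 + a 1 * u 1 ^ 2 + a 2 * u 2 ^ 2 = -(a 0 * a 1 * a 2 * a 3 * c) := by
        linear_combination h1
      rw [h4] at key
      field_simp
      linear_combination key

/-- **Four variables from three over a quadratic extension**, in coordinates:
`(x + x'√d)² = a (y + y'√d)² + b (z + z'√d)²` has a non-trivial solution over `F(√d)`, then
`x² - a y² - b z² + a b d t²` is isotropic over `F`. -/
theorem isotropic_of_ext {F : Type*} [Field F] {a b d : F}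
    (H : ∃ x y z x' y' z' : F,
      ¬ (x = 0 ∧ y = 0 ∧ z = 0 ∧ x' = 0 ∧ y' = 0 ∧ z' = 0) ∧
      x ^ 2 + d * x' ^ 2 = a * (y ^ 2 + d * y' ^ 2) + b * (z ^ 2 + d * z' ^ 2) ∧
      x * x' = a * (y * y') + b * (z * z')) :
    ∃ x y z t : F, ¬ (x = 0 ∧ y = 0 ∧ z = 0 ∧ t = 0) ∧
      x ^ 2 - a * y ^ 2 - b * z ^ 2 + a * b * d * t ^ 2 = 0 := by
  obtain ⟨x, y, z, x', y', z', h0, h1, h2⟩ := H
  by_cases hc : x' ^ 2 - a * y' ^ 2 - b * z' ^ 2 = 0
  · by_cases hw : x' = 0 ∧ y' = 0 ∧ z' = 0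
    · refine ⟨x, y, z, 0, fun h => h0 ⟨h.1, h.2.1, h.2.2.1, hw⟩, ?_⟩
      linear_combination h1 - d * hc
    · exact ⟨x', y', z', 0, fun h => hw ⟨h.1, h.2.1, h.2.2.1⟩, by linear_combination hc⟩
  · refine ⟨a * b * (y * z' - z * y'), -(b * (z * x' - x * z')), -(a * (x * y' - y * x')),
      x' ^ 2 - a * y' ^ 2 - b * z' ^ 2, fun h => hc h.2.2.2, ?_⟩
    linear_combination a * b * (x' ^ 2 - a * y' ^ 2 - b * z' ^ 2) * h1 -
      a * b * (x * x' - a * (y * y') - b * (z * z')) * h2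

/-- **Three variables from four when the discriminant is a square.** -/
theorem isotropic3_of_isotropic4 {a : Fin 4 → F} (ha : ∀ i, a i ≠ 0) (hs : IsSquare (∏ i, a i))
    (h : ∃ x : Fin 4 → F, x ≠ 0 ∧ ∑ i, a i * x i ^ 2 = 0) :
    ∃ x : Fin 3 → F, x ≠ 0 ∧ ∑ i, a i.castSucc * x i ^ 2 = 0 := by
  obtain ⟨x, hx0, hx⟩ := h
  obtain ⟨s, hs⟩ := hs
  rw [Fin.prod_univ_four] at hs
  rw [Fin.sum_univ_four] at hx
  have e0 : (Fin.castSucc (0 : Fin 3) : Fin 4) = 0 := rfl
  have e1 : (Fin.castSucc (1 : Fin 3) : Fin 4) = 1 := rfl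
  have e2 : (Fin.castSucc (2 : Fin 3) : Fin 4) = 2 := rfl
  have ha0 := ha 0
  have ha1 := ha 1
  have ha2 := ha 2
  have ha3 := ha 3
  have hs0 : s ≠ 0 := by
    rintro rfl
    rw [mul_zero] at hs
    exact (mul_ne_zero (mul_ne_zero (mul_ne_zero ha0 ha1) ha2) ha3) hs
  -- `N (u, v) = u² + a₀ a₁ v²`, `y = s x₃ / (a₀ a₁ a₂)`
  set y : F := s * x 3 / (a 0 * a 1 * a 2) with hy
  have h3 : a 3 * x 3 ^ 2 = a 0 * a 1 * a 2 * y ^ 2 := by
    rw [hy]
    field_simp
    linear_combination x 3 ^ 2 * hs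
  have hN : (a 0 * x 0) ^ 2 + a 0 * a 1 * x 1 ^ 2 = -(a 0 * a 2) * (x 2 ^ 2 + a 0 * a 1 * y ^ 2) := by
    linear_combination a 0 * hx - a 0 * h3
  by_cases hn : x 2 ^ 2 + a 0 * a 1 * y ^ 2 = 0
  · by_cases hxy : x 2 = 0 ∧ x 3 = 0
    · refine ⟨![x 0, x 1, 0], fun h => hx0 ?_, ?_⟩
      · funext i
        fin_cases i
        · exact congrFun h 0
        · exact congrFun h 1
        · exact hxy.1
        · exact hxy.2
      · rw [Fin.sum_univ_three, e0, e1, e2]
        simp only [Matrix.cons_val_zero, Matrix.cons_val_one, Matrix.cons_val]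
        rw [hxy.1, hxy.2] at hx
        linear_combination hx
    · refine ⟨![x 2 / a 0, y, 0], fun h => hxy ?_, ?_⟩
      · have h5 : x 2 / a 0 = 0 := congrFun h 0
        have h6 : y = 0 := congrFun h 1
        refine ⟨(div_eq_zero_iff.mp h5).resolve_right ha0, ?_⟩
        rw [hy, div_eq_zero_iff] at h6
        exact (mul_eq_zero.mp (h6.resolve_right
          (mul_ne_zero (mul_ne_zero ha0 ha1) ha2))).resolve_left hs0
      · rw [Fin.sum_univ_three, e0, e1, e2]
        simp only [Matrix.cons_val_zero, Matrix.cons_val_one, Matrix.cons_val]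
        field_simp
        linear_combination hn
  · set n : F := x 2 ^ 2 + a 0 * a 1 * y ^ 2 with hn'
    -- `p + q √ = (a₀ x₀ + x₁ √) (x₂ - y √) / n`
    refine ⟨![(x 0 * x 2 + a 1 * x 1 * y) / n, (x 1 * x 2 - a 0 * x 0 * y) / n,
      1], fun h => one_ne_zero (congrFun h 2), ?_⟩
    rw [Fin.sum_univ_three, e0, e1, e2]
    simp only [Matrix.cons_val_zero, Matrix.cons_val_one, Matrix.cons_val]
    have key : a 0 * (x 0 * x 2 + a 1 * x 1 * y) ^ 2 + a 1 * (x 1 * x 2 - a 0 * x 0 * y) ^ 2 =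
        -(a 2 * n ^ 2) := by
      refine mul_left_cancel₀ ha0 ?_
      have h7 : a 0 * (a 0 * (x 0 * x 2 + a 1 * x 1 * y) ^ 2 +
          a 1 * (x 1 * x 2 - a 0 * x 0 * y) ^ 2) =
          ((a 0 * x 0) ^ 2 + a 0 * a 1 * x 1 ^ 2) * n := by rw [hn']; ring
      rw [h7, hN]
      ring
    clear_value n y
    field_simp
    linear_combination key

end Four

section Sub

variable {F : Type*} [Field F]

/-- isotropic subforms -/
theorem isotropic_of_sub {m n : ℕ} (e : Fin m ↪ Fin n) {a : Fin n → F}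
    (h : ∃ x : Fin m → F, x ≠ 0 ∧ ∑ i, a (e i) * x i ^ 2 = 0) :
    ∃ x : Fin n → F, x ≠ 0 ∧ ∑ i, a i * x i ^ 2 = 0 := by
  classical
  obtain ⟨x, hx0, hx⟩ := h
  refine ⟨Function.extend e x 0, fun h => hx0 ?_, ?_⟩
  · funext i
    have := congrFun h (e i)
    rwa [e.injective.extend_apply] at this
  · rw [← hx]
    symm
    refine Finset.sum_of_injOn e e.injective.injOn (fun _ _ => Finset.mem_coe.mpr (mem_univ _))
      (fun j _ hj => ?_) (fun i _ => by rw [e.injective.extend_apply])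
    rw [Function.extend_apply' _ _ _ (fun ⟨i, hi⟩ => hj ⟨i, Finset.mem_coe.mpr (mem_univ i), hi⟩)]
    simp

/-- the value `c = a₀ x² + a₁ y² ≠ 0` of a binary form: if `<c, a₂, …>` is isotropic, so is
`<a₀, a₁, a₂, …>`. -/
theorem isotropic_of_value {n : ℕ} {a₀ a₁ c x y : F} {a : Fin n → F} (hc : c = a₀ * x ^ 2 + a₁ * y ^ 2)
    (hc0 : c ≠ 0) (h : ∃ z : Fin (n + 1) → F, z ≠ 0 ∧
      ∑ i, (Fin.cons c a : Fin (n + 1) → F) i * z i ^ 2 = 0) :
    ∃ z : Fin (n + 2) → F, z ≠ 0 ∧
      ∑ i, (Fin.cons a₀ (Fin.cons a₁ a : Fin (n + 1) → F) : Fin (n + 2) → F) i * z i ^ 2 = 0 := by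
  obtain ⟨z, hz0, hz⟩ := h
  rw [Fin.sum_univ_succ] at hz
  simp only [Fin.cons_zero, Fin.cons_succ] at hz
  refine ⟨Fin.cons (z 0 * x) (Fin.cons (z 0 * y) fun i => z i.succ), fun h => hz0 ?_, ?_⟩
  · have h1 : z 0 * x = 0 := congrFun h 0
    have h2 : z 0 * y = 0 := congrFun h 1
    have h3 : z 0 = 0 := by
      by_contra h0
      have hx : x = 0 := (mul_eq_zero.mp h1).resolve_left h0
      have hy : y = 0 := (mul_eq_zero.mp h2).resolve_left h0
      apply hc0
      rw [hc, hx, hy]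
      ring
    funext i
    refine Fin.cases h3 (fun j => ?_) i
    exact congrFun h j.succ.succ
  · rw [Fin.sum_univ_succ, Fin.sum_univ_succ]
    simp only [Fin.cons_zero, Fin.cons_succ]
    rw [← hz, hc]
    ring

/-- scaling of the coefficients by a constant -/
theorem isotropic_smul_iff {n : ℕ} {a : Fin n → F} {c : F} (hc : c ≠ 0) :
    (∃ x : Fin n → F, x ≠ 0 ∧ ∑ i, (c * a i) * x i ^ 2 = 0) ↔
      ∃ x : Fin n → F, x ≠ 0 ∧ ∑ i, a i * x i ^ 2 = 0 := by
  refine exists_congr fun x => and_congr_right fun _ => ?_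
  have h : ∑ i, (c * a i) * x i ^ 2 = c * ∑ i, a i * x i ^ 2 := by
    rw [Finset.mul_sum]
    exact Finset.sum_congr rfl fun i _ => mul_assoc _ _ _
  rw [h, mul_eq_zero, or_iff_right hc]

/-- scaling of the coefficients by squares -/
theorem isotropic_sq_iff {n : ℕ} {a t : Fin n → F} (ht : ∀ i, t i ≠ 0) :
    (∃ x : Fin n → F, x ≠ 0 ∧ ∑ i, (a i * t i ^ 2) * x i ^ 2 = 0) ↔
      ∃ x : Fin n → F, x ≠ 0 ∧ ∑ i, a i * x i ^ 2 = 0 := by
  constructor
  · rintro ⟨x, hx0, hx⟩
    refine ⟨fun i => t i * x i, fun h => hx0 ?_, ?_⟩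
    · funext i
      exact (mul_eq_zero.mp (congrFun h i)).resolve_left (ht i)
    · rw [← hx]
      exact Finset.sum_congr rfl fun i _ => by ring
  · rintro ⟨x, hx0, hx⟩
    refine ⟨fun i => (t i)⁻¹ * x i, fun h => hx0 ?_, ?_⟩
    · funext i
      exact (mul_eq_zero.mp (congrFun h i)).resolve_left (inv_ne_zero (ht i))
    · rw [← hx]
      refine Finset.sum_congr rfl fun i _ => ?_
      have := ht i
      field_simp

/-- a diagonal form with a zero coefficient is isotropic -/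
theorem isotropic_of_coeff_eq_zero {n : ℕ} {a : Fin n → F} {i : Fin n} (hi : a i = 0) :
    ∃ x : Fin n → F, x ≠ 0 ∧ ∑ i, a i * x i ^ 2 = 0 := by
  classical
  refine ⟨Pi.single i 1, fun h => one_ne_zero (α := F) ?_, ?_⟩
  · have h1 := congrFun h i
    rwa [Pi.single_eq_same] at h1
  · refine Finset.sum_eq_zero fun j _ => ?_
    by_cases hj : j = i
    · rw [hj, hi, zero_mul]
    · rw [Pi.single_eq_of_ne hj]
      ring

/-- an isotropic vector with prescribed properties can be transported along a permutation -/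
theorem isotropic_perm_iff {n : ℕ} (σ : Equiv.Perm (Fin n)) {a : Fin n → F} :
    (∃ x : Fin n → F, x ≠ 0 ∧ ∑ i, a (σ i) * x i ^ 2 = 0) ↔
      ∃ x : Fin n → F, x ≠ 0 ∧ ∑ i, a i * x i ^ 2 = 0 := by
  constructor
  · rintro ⟨x, hx0, hx⟩
    refine ⟨x ∘ σ.symm, fun h => hx0 ?_, ?_⟩
    · funext i
      have := congrFun h (σ i)
      simpa using this
    · rw [← hx, ← Equiv.sum_comp σ]
      exact Finset.sum_congr rfl fun i _ => by simp
  · rintro ⟨x, hx0, hx⟩
    refine ⟨x ∘ σ, fun h => hx0 ?_, ?_⟩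
    · funext i
      have := congrFun h (σ.symm i)
      simpa using this
    · rw [← hx]
      exact Equiv.sum_comp σ (fun i => a i * x i ^ 2)

end Sub

section OrthogonalSystems

open Matrix

section Orthogonal

variable {F : Type*} [Field F]

/-- The determinant of an orthogonal system: if the rows of `M` are pairwise orthogonal for
the diagonal form `a`, then the product of their values is the discriminant times a square. -/
theorem prod_value_eq {n : ℕ} (a : Fin n → F) (M : Fin n → Fin n → F)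
    (h : ∀ i j, i ≠ j → ∑ k, a k * M i k * M j k = 0) :
    ∏ i, (∑ k, a k * M i k ^ 2) = (Matrix.of M).det ^ 2 * ∏ k, a k := by
  have key : (Matrix.of M) * Matrix.diagonal a * (Matrix.of M)ᵀ =
      Matrix.diagonal (fun i => ∑ k, a k * M i k ^ 2) := by
    ext i j
    rw [Matrix.mul_apply, Matrix.diagonal_apply]
    simp only [Matrix.mul_diagonal, Matrix.transpose_apply, Matrix.of_apply]
    split_ifs with hij
    · subst hij
      exact Finset.sum_congr rfl fun k _ => by ring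
    · rw [← h i j hij]
      exact Finset.sum_congr rfl fun k _ => by ring
  have h2 := congrArg Matrix.det key
  rw [Matrix.det_mul, Matrix.det_mul, Matrix.det_transpose, Matrix.det_diagonal,
    Matrix.det_diagonal] at h2
  rw [← h2]
  ring

/-- A nonzero vector orthogonal to fewer than `n` given vectors. -/
theorem exists_ne_zero_orthogonal {m n : ℕ} (hmn : m < n) (a : Fin n → F)
    (v : Fin m → Fin n → F) :
    ∃ w : Fin n → F, w ≠ 0 ∧ ∀ i, ∑ k, a k * v i k * w k = 0 := by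
  let A : Matrix (Fin m) (Fin n) F := Matrix.of fun i k => a k * v i k
  have hker : LinearMap.ker (Matrix.mulVecLin A) ≠ ⊥ :=
    LinearMap.ker_ne_bot_of_finrank_lt (by simpa using hmn)
  obtain ⟨w, hw, hw0⟩ := (Submodule.ne_bot_iff _).1 hker
  refine ⟨w, hw0, fun i => ?_⟩
  have h := congrFun (LinearMap.mem_ker.1 hw) i
  simpa [A, Matrix.mulVec, dotProduct] using h

/-- Values of the diagonal form on a sum of two orthogonal vectors. -/
theorem value_add_of_orthogonal {n : ℕ} (a : Fin n → F) (v w : Fin n → F)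
    (h : ∑ k, a k * v k * w k = 0) (s t : F) :
    ∑ k, a k * (s * v k + t * w k) ^ 2 =
      s ^ 2 * ∑ k, a k * v k ^ 2 + t ^ 2 * ∑ k, a k * w k ^ 2 := by
  have : ∑ k, a k * (s * v k + t * w k) ^ 2 =
      s ^ 2 * ∑ k, a k * v k ^ 2 + t ^ 2 * ∑ k, a k * w k ^ 2 +
        2 * s * t * ∑ k, a k * v k * w k := by
    simp only [Finset.mul_sum, ← Finset.sum_add_distrib]
    exact Finset.sum_congr rfl fun k _ => by ring
  rw [this, h, mul_zero, add_zero]

/-- The orthogonal complement of a binary subform of discriminant `-d` in a quaternary form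
of discriminant `d` is a hyperbolic plane: if two orthogonal vectors of a diagonal quaternary
form `a` have values `p, q ≠ 0` and `-p * q * a 0 * a 1 * a 2 * a 3` is a square, then the form
is isotropic. -/
theorem isotropic_of_orthogonal_pair (a : Fin 4 → F)
    (x y : Fin 4 → F) (hxy : ∑ k, a k * x k * y k = 0)
    (hx : ∑ k, a k * x k ^ 2 ≠ 0) (hy : ∑ k, a k * y k ^ 2 ≠ 0)
    (hsq : IsSquare (-((∑ k, a k * x k ^ 2) * (∑ k, a k * y k ^ 2) * ∏ k, a k))) :
    ∃ z : Fin 4 → F, z ≠ 0 ∧ ∑ k, a k * z k ^ 2 = 0 := by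
  obtain ⟨z, hz0, hz⟩ := exists_ne_zero_orthogonal (by norm_num : 2 < 4) a ![x, y]
  have hz1 : ∑ k, a k * x k * z k = 0 := hz 0
  have hz2 : ∑ k, a k * y k * z k = 0 := hz 1
  by_cases hA : ∑ k, a k * z k ^ 2 = 0
  · exact ⟨z, hz0, hA⟩
  obtain ⟨w, hw0, hw⟩ := exists_ne_zero_orthogonal (by norm_num : 3 < 4) a ![x, y, z]
  have hw1 : ∑ k, a k * x k * w k = 0 := hw 0
  have hw2 : ∑ k, a k * y k * w k = 0 := hw 1
  have hw3 : ∑ k, a k * z k * w k = 0 := hw 2
  by_cases hC : ∑ k, a k * w k ^ 2 = 0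
  · exact ⟨w, hw0, hC⟩
  have hsymm : ∀ u v : Fin 4 → F, ∑ k, a k * u k * v k = 0 → ∑ k, a k * v k * u k = 0 := by
    intro u v h
    rw [← h]
    exact Finset.sum_congr rfl fun k _ => by ring
  have hdet := prod_value_eq a ![x, y, z, w] (by
    intro i j hij
    fin_cases i <;> fin_cases j <;> first
      | exact absurd rfl hij
      | assumption
      | exact hsymm _ _ (by assumption))
  have hprod : (∑ k, a k * x k ^ 2) * (∑ k, a k * y k ^ 2) * (∑ k, a k * z k ^ 2) *
      (∑ k, a k * w k ^ 2) = (Matrix.of ![x, y, z, w]).det ^ 2 * ∏ k, a k := by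
    rw [← hdet, Fin.prod_univ_four]
    rfl
  obtain ⟨s, hs⟩ := hsq
  set X := ∑ k, a k * x k ^ 2 with hX
  set Y := ∑ k, a k * y k ^ 2 with hY
  set A := ∑ k, a k * z k ^ 2 with hA'
  set C := ∑ k, a k * w k ^ 2 with hC'
  set D := (Matrix.of ![x, y, z, w]).det with hD
  -- `A * C` is minus a square
  have hAC : (X * Y * A) ^ 2 * (- C) = (D * s) ^ 2 * A := by
    have e1 : D ^ 2 * ∏ k, a k = X * Y * A * C := hprod.symm
    calc (X * Y * A) ^ 2 * (- C) = - (X * Y * A) * (X * Y * A * C) := by ring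
      _ = - (X * Y * A) * (D ^ 2 * ∏ k, a k) := by rw [e1]
      _ = D ^ 2 * (-(X * Y * ∏ k, a k)) * A := by ring
      _ = D ^ 2 * (s * s) * A := by rw [hs]
      _ = (D * s) ^ 2 * A := by ring
  have hne : X * Y * A ≠ 0 := mul_ne_zero (mul_ne_zero hx hy) hA
  refine ⟨fun k => (D * s) * z k + (X * Y * A) * w k, ?_, ?_⟩
  · intro h0
    have h1 : ∑ k, a k * ((D * s) * z k + (X * Y * A) * w k) * w k = 0 :=
      Finset.sum_eq_zero fun k _ => by rw [congrFun h0 k]; simp
    have h2 : ∑ k, a k * ((D * s) * z k + (X * Y * A) * w k) * w k =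
        (D * s) * (∑ k, a k * z k * w k) + (X * Y * A) * C := by
      rw [hC']
      simp only [Finset.mul_sum, ← Finset.sum_add_distrib]
      exact Finset.sum_congr rfl fun k _ => by ring
    rw [h2, hw3, mul_zero, zero_add] at h1
    exact (mul_ne_zero hne hC) h1
  · rw [value_add_of_orthogonal a z w hw3 (D * s) (X * Y * A), ← hA', ← hC', ← hAC]
    ring

/-- **Isotropy over `F(√d)`.**  Let `d` be the discriminant, up to squares, of the diagonal
quaternary form `a`, and suppose `d` is not a square.  A zero `x + r y ≠ 0` with `r² = d` and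
`x, y` with coordinates in `F` (that is `f(x) + d f(y) = 0` and `b(x, y) = 0`) produces a
nontrivial zero over `F`. -/
theorem isotropic_of_pair (a : Fin 4 → F) (d : F) (hd : ¬ IsSquare d)
    (hdisc : IsSquare (d * ∏ k, a k)) (x y : Fin 4 → F) (hne : x ≠ 0 ∨ y ≠ 0)
    (h1 : ∑ k, a k * x k ^ 2 + d * ∑ k, a k * y k ^ 2 = 0)
    (h2 : ∑ k, a k * x k * y k = 0) :
    ∃ z : Fin 4 → F, z ≠ 0 ∧ ∑ k, a k * z k ^ 2 = 0 := by
  by_cases hy : ∑ k, a k * y k ^ 2 = 0
  · rw [hy, mul_zero, add_zero] at h1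
    rcases hne with hx | hy0
    · exact ⟨x, hx, h1⟩
    · exact ⟨y, hy0, hy⟩
  have hd0 : d ≠ 0 := by
    rintro rfl
    exact hd ⟨0, by simp⟩
  have hx : ∑ k, a k * x k ^ 2 = - (d * ∑ k, a k * y k ^ 2) := eq_neg_of_add_eq_zero_left h1
  refine isotropic_of_orthogonal_pair a x y h2 ?_ hy ?_
  · rw [hx]
    exact neg_ne_zero.2 (mul_ne_zero hd0 hy)
  · obtain ⟨t, ht⟩ := hdisc
    refine ⟨(∑ k, a k * y k ^ 2) * t, ?_⟩
    rw [hx]
    linear_combination (∑ k, a k * y k ^ 2) ^ 2 * ht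

end Orthogonal

section Extension

variable {F L : Type*} [Field F] [Field L] [Algebra F L]

/-- In `F(√d)` with `d` not a square, `u + v √d = 0` only for `u = v = 0`. -/
theorem eq_zero_of_add_mul_sqrt {d : F} (hd : ¬ IsSquare d) {r : L}
    (hr : r ^ 2 = algebraMap F L d) {u v : F}
    (h : algebraMap F L u + algebraMap F L v * r = 0) : u = 0 ∧ v = 0 := by
  have hv : v = 0 := by
    by_contra hv
    apply hd
    refine ⟨u / v, ?_⟩
    have h1 : algebraMap F L u = - (algebraMap F L v * r) := eq_neg_of_add_eq_zero_left h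
    have h2 : algebraMap F L (u ^ 2) = algebraMap F L (v ^ 2 * d) := by
      rw [map_pow, h1, map_mul, map_pow, ← hr]
      ring
    have h3 : u ^ 2 = v ^ 2 * d := (algebraMap F L).injective h2
    field_simp
    linear_combination -h3
  refine ⟨?_, hv⟩
  rw [hv, map_zero, zero_mul, add_zero] at h
  exact (map_eq_zero _).1 h

/-- **Isotropy over `F(√d)` implies isotropy over `F`** for a diagonal quaternary form whose
discriminant is `d` up to squares, `d` not a square. -/
theorem isotropic_four_of_sqrt (h2 : (2 : F) ≠ 0) {d : F} (hd : ¬ IsSquare d)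
    {r : L} (hr : r ^ 2 = algebraMap F L d)
    (hspan : ∀ t : L, ∃ u v : F, t = algebraMap F L u + algebraMap F L v * r)
    (a : Fin 4 → F) (hdisc : IsSquare (d * ∏ k, a k))
    (h : ∃ x : Fin 4 → L, x ≠ 0 ∧ ∑ k, algebraMap F L (a k) * x k ^ 2 = 0) :
    ∃ x : Fin 4 → F, x ≠ 0 ∧ ∑ k, a k * x k ^ 2 = 0 := by
  obtain ⟨x, hx0, hx⟩ := h
  choose u v huv using fun k => hspan (x k)
  have e : algebraMap F L (∑ k, a k * u k ^ 2 + d * ∑ k, a k * v k ^ 2) +
      algebraMap F L (2 * ∑ k, a k * u k * v k) * r = 0 := by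
    rw [← hx]
    simp only [map_add, map_mul, map_sum, map_pow, map_ofNat, ← hr, Finset.mul_sum,
      Finset.sum_mul, ← Finset.sum_add_distrib]
    refine Finset.sum_congr rfl fun k _ => ?_
    rw [huv k]
    ring
  obtain ⟨e1, e2⟩ := eq_zero_of_add_mul_sqrt hd hr e
  refine isotropic_of_pair a d hd hdisc u v ?_ e1 ?_
  · by_contra hcon
    push Not at hcon
    apply hx0
    funext k
    rw [huv k, congrFun hcon.1 k, congrFun hcon.2 k]
    simp
  · exact (mul_eq_zero.1 e2).resolve_left h2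

end Extension

end OrthogonalSystems

section Steps

variable {F : Type*} [Field F]

/-- From `n` variables to `n + 1` variables: if `c` is a value of the binary form `<a, b>` at
`(s, t)`, `(s, t) ≠ 0`, and `<c, e₀, …>` is isotropic, then so is `<a, b, e₀, …>`. -/
theorem isotropic_of_value' {n : ℕ} (a b : F) (e : Fin n → F) (s t : F) (hst : s ≠ 0 ∨ t ≠ 0)
    (h : ∃ x : Fin (n + 1) → F, x ≠ 0 ∧
      ∑ k, (Fin.cons (a * s ^ 2 + b * t ^ 2) e : Fin (n + 1) → F) k * x k ^ 2 = 0) :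
    ∃ x : Fin (n + 2) → F, x ≠ 0 ∧
      ∑ k, (Fin.cons a (Fin.cons b e) : Fin (n + 2) → F) k * x k ^ 2 = 0 := by
  obtain ⟨x, hx0, hx⟩ := h
  rw [Fin.sum_univ_succ] at hx
  simp only [Fin.cons_zero, Fin.cons_succ] at hx
  refine ⟨Fin.cons (s * x 0) (Fin.cons (t * x 0) fun k => x k.succ), ?_, ?_⟩
  · intro h0
    apply hx0
    have hs : s * x 0 = 0 := by simpa using congrFun h0 0
    have ht : t * x 0 = 0 := by simpa using congrFun h0 1
    have hx00 : x 0 = 0 := by
      rcases hst with hs' | ht'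
      · exact (mul_eq_zero.1 hs).resolve_left hs'
      · exact (mul_eq_zero.1 ht).resolve_left ht'
    have htail : ∀ k : Fin n, x k.succ = 0 := fun k => by
      simpa using congrFun h0 k.succ.succ
    funext k
    refine Fin.cases ?_ (fun k => ?_) k
    · simpa using hx00
    · simpa using htail k
  · rw [Fin.sum_univ_succ, Fin.sum_univ_succ]
    simp only [Fin.cons_zero, Fin.cons_succ]
    rw [← hx]
    ring

end Steps

end Fermat.Agent.Cor.HM
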