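import Mathlib
import Fermat.Agent.Corollaries.HM.Quad4

/-!
# From diagonal forms to arbitrary quadratic forms

* `exists_diag`, `exists_diag'`: an orthogonal basis turns `Q` and all its base changes into diagonal forms
  with the same coefficients;
* `not_anisotropic_of_five`: the five variables statement for every quadratic form;
* `exists_value_of_isotropic`, `exists_value_of_snoc`: values and isotropy;
* `sum_four_squares_of_five`: sums of four squares;
* `not_anisotropic_of_family`, `exists_value_of_family`: a local-global principle for isotropy of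
  diagonal forms with non-zero coefficients gives the local-global principles for isotropy of, and
  representation of numbers by, arbitrary quadratic forms.
-/

set_option autoImplicit false

namespace Fermat.Agent.Cor.HM

open QuadraticMap TensorProduct

section Basis

variable {F V ι : Type*} [Field F] [AddCommGroup V] [Module F V] [Fintype ι]

/-- The value of a quadratic form in an orthogonal basis. -/
theorem apply_sum_of_isOrtho [Invertible (2 : F)] (Q : QuadraticForm F V)
    (v : Module.Basis ι F V) (hv : (associated (R := F) Q).IsOrthoᵢ v) (x : ι → F) :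
    Q (∑ i, x i • v i) = ∑ i, Q (v i) * x i ^ 2 := by
  have h := congrArg (fun q => q x) (basisRepr_eq_of_iIsOrtho Q v hv)
  simp only [basisRepr_apply, weightedSumSquares_apply, smul_eq_mul] at h
  rw [h]
  exact Finset.sum_congr rfl fun i _ => by rw [pow_two]

/-- In an orthogonal basis, isotropy of `Q` is isotropy of the diagonal form of its values. -/
theorem not_anisotropic_iff_of_isOrtho [Invertible (2 : F)] (Q : QuadraticForm F V)
    (v : Module.Basis ι F V) (hv : (associated (R := F) Q).IsOrthoᵢ v) :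
    ¬ Q.Anisotropic ↔ ∃ x : ι → F, x ≠ 0 ∧ ∑ i, Q (v i) * x i ^ 2 = 0 := by
  constructor
  · intro h
    simp only [QuadraticMap.Anisotropic, not_forall] at h
    obtain ⟨w, hw, hw0⟩ := h
    refine ⟨v.equivFun w, fun h0 => hw0 ?_, ?_⟩
    · exact (map_eq_zero_iff _ v.equivFun.injective).1 h0
    · rw [← apply_sum_of_isOrtho Q v hv, v.sum_equivFun]
      exact hw
  · rintro ⟨x, hx0, hx⟩ h
    apply hx0
    rw [← apply_sum_of_isOrtho Q v hv] at hx
    have h1 := h _ hx
    rw [← v.equivFun_symm_apply] at h1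
    exact (map_eq_zero_iff _ v.equivFun.symm.injective).1 h1

/-- In an orthogonal basis, the values of `Q` are the values of the diagonal form. -/
theorem exists_value_iff_of_isOrtho [Invertible (2 : F)] (Q : QuadraticForm F V)
    (v : Module.Basis ι F V) (hv : (associated (R := F) Q).IsOrthoᵢ v) (c : F) :
    (∃ w : V, Q w = c) ↔ ∃ x : ι → F, ∑ i, Q (v i) * x i ^ 2 = c := by
  constructor
  · rintro ⟨w, rfl⟩
    exact ⟨v.equivFun w, by rw [← apply_sum_of_isOrtho Q v hv, v.sum_equivFun]⟩
  · rintro ⟨x, rfl⟩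
    exact ⟨_, apply_sum_of_isOrtho Q v hv x⟩

omit [Fintype ι] in
/-- The base changed basis is orthogonal for the base changed form. -/
theorem isOrtho_baseChange [Invertible (2 : F)] {L : Type*} [Field L] [Algebra F L]
    [Invertible (2 : L)] (Q : QuadraticForm F V)
    (v : Module.Basis ι F V) (hv : (associated (R := F) Q).IsOrthoᵢ v) :
    (associated (R := L) (Q.baseChange L)).IsOrthoᵢ (Algebra.TensorProduct.basis L v) := by
  intro i j hij
  have h := hv hij
  simp only [Function.onFun] at h ⊢
  rw [QuadraticForm.associated_baseChange, Algebra.TensorProduct.basis_apply,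
    Algebra.TensorProduct.basis_apply, LinearMap.BilinForm.baseChange_tmul, h, zero_smul]

omit [Fintype ι] in
theorem baseChange_basis [Invertible (2 : F)] {L : Type*} [Field L] [Algebra F L]
    (Q : QuadraticForm F V) (v : Module.Basis ι F V) (i : ι) :
    (Q.baseChange L) (Algebra.TensorProduct.basis L v i) = algebraMap F L (Q (v i)) := by
  rw [Algebra.TensorProduct.basis_apply, QuadraticForm.baseChange_tmul, mul_one,
    Algebra.smul_def, mul_one]

/-- In an orthogonal basis, isotropy of the base change of `Q` to `L` is isotropy over `L` of the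
diagonal form of its values. -/
theorem not_anisotropic_baseChange_iff [Invertible (2 : F)] {L : Type*} [Field L] [Algebra F L]
    (Q : QuadraticForm F V)
    (v : Module.Basis ι F V) (hv : (associated (R := F) Q).IsOrthoᵢ v) :
    ¬ (Q.baseChange L).Anisotropic ↔
      ∃ x : ι → L, x ≠ 0 ∧ ∑ i, algebraMap F L (Q (v i)) * x i ^ 2 = 0 := by
  let _ : Invertible (2 : L) := (Invertible.map (algebraMap F L) 2).copy 2 (map_ofNat _ _).symm
  rw [not_anisotropic_iff_of_isOrtho (Q.baseChange L) (Algebra.TensorProduct.basis L v)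
    (isOrtho_baseChange Q v hv)]
  simp only [baseChange_basis]

/-- In an orthogonal basis, the values of the base change of `Q` to `L` are the values over `L`
of the diagonal form. -/
theorem exists_value_baseChange_iff [Invertible (2 : F)] {L : Type*} [Field L] [Algebra F L]
    (Q : QuadraticForm F V)
    (v : Module.Basis ι F V) (hv : (associated (R := F) Q).IsOrthoᵢ v) (c : L) :
    (∃ w : L ⊗[F] V, (Q.baseChange L) w = c) ↔
      ∃ x : ι → L, ∑ i, algebraMap F L (Q (v i)) * x i ^ 2 = c := by
  let _ : Invertible (2 : L) := (Invertible.map (algebraMap F L) 2).copy 2 (map_ofNat _ _).symm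
  rw [exists_value_iff_of_isOrtho (Q.baseChange L) (Algebra.TensorProduct.basis L v)
    (isOrtho_baseChange Q v hv)]
  simp only [baseChange_basis]

end Basis

section Diag

variable {F V : Type*} [Field F] [AddCommGroup V] [Module F V] [FiniteDimensional F V]

/-- **Diagonalisation, compatible with all field extensions.**  There are coefficients `a` such
that `Q` is isotropic iff the diagonal form `a` is, and the base change of `Q` to any extension
`L` of `F` is isotropic iff the diagonal form `a` is isotropic over `L`; the same for values. -/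
theorem exists_diag' [Invertible (2 : F)] (Q : QuadraticForm F V) :
    ∃ a : Fin (Module.finrank F V) → F,
      (¬ Q.Anisotropic ↔ ∃ x : Fin (Module.finrank F V) → F, x ≠ 0 ∧ ∑ i, a i * x i ^ 2 = 0) ∧
      (∀ c : F, (∃ w : V, Q w = c) ↔
        ∃ x : Fin (Module.finrank F V) → F, ∑ i, a i * x i ^ 2 = c) ∧
      ∀ (L : Type*) [Field L] [Algebra F L], (¬ (Q.baseChange L).Anisotropic ↔
        ∃ x : Fin (Module.finrank F V) → L, x ≠ 0 ∧ ∑ i, algebraMap F L (a i) * x i ^ 2 = 0) ∧
        ∀ c : L, (∃ w : L ⊗[F] V, (Q.baseChange L) w = c) ↔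
          ∃ x : Fin (Module.finrank F V) → L, ∑ i, algebraMap F L (a i) * x i ^ 2 = c := by
  obtain ⟨v, hv⟩ := LinearMap.BilinForm.exists_orthogonal_basis
    (QuadraticForm.associated_isSymm F Q)
  exact ⟨fun i => Q (v i), not_anisotropic_iff_of_isOrtho Q v hv,
    exists_value_iff_of_isOrtho Q v hv,
    fun L _ _ => ⟨not_anisotropic_baseChange_iff Q v hv, exists_value_baseChange_iff Q v hv⟩⟩

/-- Diagonalisation, compatible with all field extensions (isotropy only). -/
theorem exists_diag [Invertible (2 : F)] (Q : QuadraticForm F V) :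
    ∃ a : Fin (Module.finrank F V) → F,
      (¬ Q.Anisotropic ↔ ∃ x : Fin (Module.finrank F V) → F, x ≠ 0 ∧ ∑ i, a i * x i ^ 2 = 0) ∧
      ∀ (L : Type*) [Field L] [Algebra F L], (¬ (Q.baseChange L).Anisotropic ↔
        ∃ x : Fin (Module.finrank F V) → L, x ≠ 0 ∧ ∑ i, algebraMap F L (a i) * x i ^ 2 = 0) := by
  obtain ⟨a, h1, -, h2⟩ := exists_diag' Q
  exact ⟨a, h1, fun L _ _ => (h2 L).1⟩

/-- If every diagonal form in five variables with non-zero coefficients is isotropic, then every
quadratic form on a space of dimension at least five is. -/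
theorem not_anisotropic_of_five [Invertible (2 : F)]
    (h5 : ∀ a : Fin 5 → F, (∀ i, a i ≠ 0) → ∃ x : Fin 5 → F, x ≠ 0 ∧ ∑ i, a i * x i ^ 2 = 0)
    (Q : QuadraticForm F V) (hV : 5 ≤ Module.finrank F V) : ¬ Q.Anisotropic := by
  obtain ⟨a, ha, -, -⟩ := exists_diag'.{_, _, 0} Q
  rw [ha]
  by_cases h0 : ∃ i, a i = 0
  · obtain ⟨i, hi⟩ := h0
    exact isotropic_of_coeff_eq_zero hi
  · push Not at h0
    refine isotropic_of_sub (Fin.castLEEmb hV) ?_
    exact h5 _ fun i => h0 _

end Diag

section Values

variable {F : Type*} [Field F]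

/-- An isotropic diagonal form with non-zero coefficients represents every element. -/
theorem exists_value_of_isotropic (h2 : (2 : F) ≠ 0) {n : ℕ} {a : Fin n → F} (ha : ∀ i, a i ≠ 0)
    (h : ∃ x : Fin n → F, x ≠ 0 ∧ ∑ i, a i * x i ^ 2 = 0) (c : F) :
    ∃ x : Fin n → F, ∑ i, a i * x i ^ 2 = c := by
  classical
  obtain ⟨z, hz0, hz⟩ := h
  obtain ⟨k, hk⟩ := Function.ne_iff.1 hz0
  have hk' : z k ≠ 0 := hk
  have hak := ha k
  set s : F := (c - a k) / (2 * a k * z k) with hs
  refine ⟨fun i => s * z i + if i = k then 1 else 0, ?_⟩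
  have h1 : ∑ i, a i * (s * z i + if i = k then 1 else 0) ^ 2 =
      s ^ 2 * ∑ i, a i * z i ^ 2 + ∑ i, if i = k then a i * (2 * s * z i + 1) else 0 := by
    rw [Finset.mul_sum, ← Finset.sum_add_distrib]
    refine Finset.sum_congr rfl fun i _ => ?_
    split_ifs <;> ring
  rw [h1, hz, Finset.sum_ite_eq' Finset.univ k]
  simp only [Finset.mem_univ, if_true]
  rw [hs]
  field_simp
  ring

/-- If `<a₀, …, aₙ₋₁, -c>` is isotropic and all `aᵢ ≠ 0`, then `<a₀, …, aₙ₋₁>` represents `c`. -/
theorem exists_value_of_snoc (h2 : (2 : F) ≠ 0) {n : ℕ} {a : Fin n → F} (ha : ∀ i, a i ≠ 0) {c : F}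
    (h : ∃ x : Fin (n + 1) → F, x ≠ 0 ∧
      ∑ i, (Fin.snoc a (-c) : Fin (n + 1) → F) i * x i ^ 2 = 0) :
    ∃ x : Fin n → F, ∑ i, a i * x i ^ 2 = c := by
  obtain ⟨x, hx0, hx⟩ := h
  rw [Fin.sum_univ_castSucc] at hx
  simp only [Fin.snoc_castSucc, Fin.snoc_last] at hx
  by_cases ht : x (Fin.last n) = 0
  · refine exists_value_of_isotropic h2 ha ⟨fun i => x i.castSucc, fun h0 => hx0 ?_, ?_⟩ c
    · funext i
      refine Fin.lastCases ?_ (fun j => ?_) i
      · simpa using ht
      · simpa using congrFun h0 j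
    · rw [ht] at hx
      simpa using hx
  · refine ⟨fun i => x i.castSucc / x (Fin.last n), ?_⟩
    have h1 : ∑ i : Fin n, a i * (x i.castSucc / x (Fin.last n)) ^ 2 =
        (∑ i : Fin n, a i * x i.castSucc ^ 2) / x (Fin.last n) ^ 2 := by
      rw [Finset.sum_div]
      exact Finset.sum_congr rfl fun i _ => by ring
    rw [h1, div_eq_iff (pow_ne_zero 2 ht)]
    linear_combination hx

/-- Conversely a form that represents `c` becomes isotropic when `-c` is added. -/
theorem isotropic_snoc_of_value {n : ℕ} {a : Fin n → F} {c : F}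
    (h : ∃ x : Fin n → F, ∑ i, a i * x i ^ 2 = c) :
    ∃ x : Fin (n + 1) → F, x ≠ 0 ∧
      ∑ i, (Fin.snoc a (-c) : Fin (n + 1) → F) i * x i ^ 2 = 0 := by
  obtain ⟨x, hx⟩ := h
  refine ⟨Fin.snoc x 1, fun h0 => ?_, ?_⟩
  · have := congrFun h0 (Fin.last n)
    simp at this
  · rw [Fin.sum_univ_castSucc]
    simp only [Fin.snoc_castSucc, Fin.snoc_last]
    rw [hx]
    ring

/-- If every diagonal form in five variables with non-zero coefficients is isotropic, every
diagonal form in four variables with non-zero coefficients represents every element. -/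
theorem exists_value_four_of_five (h2 : (2 : F) ≠ 0)
    (h5 : ∀ a : Fin 5 → F, (∀ i, a i ≠ 0) → ∃ x : Fin 5 → F, x ≠ 0 ∧ ∑ i, a i * x i ^ 2 = 0)
    {a : Fin 4 → F} (ha : ∀ i, a i ≠ 0) (c : F) : ∃ x : Fin 4 → F, ∑ i, a i * x i ^ 2 = c := by
  by_cases hc : c = 0
  · exact ⟨0, by simp [hc]⟩
  refine exists_value_of_snoc h2 ha (h5 _ fun i => ?_)
  refine Fin.lastCases ?_ (fun j => ?_) i
  · rw [Fin.snoc_last]
    exact neg_ne_zero.2 hc
  · rw [Fin.snoc_castSucc]
    exact ha j

/-- If every diagonal form in five variables with non-zero coefficients is isotropic, every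
element is a sum of four squares. -/
theorem sum_four_squares_of_five (h2 : (2 : F) ≠ 0)
    (h5 : ∀ a : Fin 5 → F, (∀ i, a i ≠ 0) → ∃ x : Fin 5 → F, x ≠ 0 ∧ ∑ i, a i * x i ^ 2 = 0)
    (c : F) : ∃ x y z t : F, c = x ^ 2 + y ^ 2 + z ^ 2 + t ^ 2 := by
  obtain ⟨x, hx⟩ := exists_value_four_of_five h2 h5 (a := fun _ => 1) (fun _ => one_ne_zero) c
  refine ⟨x 0, x 1, x 2, x 3, ?_⟩
  rw [← hx, Fin.sum_univ_four]
  ring

end Values

section Family

variable {F : Type*} [Field F] {I : Type*} (L : I → Type*) [∀ v, Field (L v)]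
  [∀ v, Algebra F (L v)]

/-- The local-global principle for isotropy of diagonal forms with non-zero coefficients, with
respect to a family `L v` of extensions of `F`. -/
def DiagLocalGlobal (F : Type*) [Field F] {I : Type*} (L : I → Type*) [∀ v, Field (L v)]
    [∀ v, Algebra F (L v)] : Prop :=
  ∀ (n : ℕ) (a : Fin n → F), (∀ i, a i ≠ 0) →
    (∀ v, ∃ x : Fin n → L v, x ≠ 0 ∧ ∑ i, algebraMap F (L v) (a i) * x i ^ 2 = 0) →
    ∃ x : Fin n → F, x ≠ 0 ∧ ∑ i, a i * x i ^ 2 = 0

variable {L}

theorem DiagLocalGlobal.isotropic (H : DiagLocalGlobal F L) {n : ℕ} (a : Fin n → F)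
    (h : ∀ v, ∃ x : Fin n → L v, x ≠ 0 ∧ ∑ i, algebraMap F (L v) (a i) * x i ^ 2 = 0) :
    ∃ x : Fin n → F, x ≠ 0 ∧ ∑ i, a i * x i ^ 2 = 0 := by
  by_cases h0 : ∃ i, a i = 0
  · obtain ⟨i, hi⟩ := h0
    exact isotropic_of_coeff_eq_zero hi
  · push Not at h0
    exact H n a h0 h

/-- **Local-global principle for isotropy of arbitrary quadratic forms.** -/
theorem not_anisotropic_of_family [Invertible (2 : F)] (H : DiagLocalGlobal F L)
    {V : Type*} [AddCommGroup V] [Module F V] [FiniteDimensional F V] (Q : QuadraticForm F V)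
    (hQ : ∀ v, ¬ (Q.baseChange (L v)).Anisotropic) : ¬ Q.Anisotropic := by
  obtain ⟨a, ha, -, hL⟩ := exists_diag' Q
  rw [ha]
  exact H.isotropic a fun v => (hL (L v)).1.1 (hQ v)

theorem sum_eq_sum_subtype {n m : ℕ} {R : Type*} [CommRing R] (p : Fin n → Prop)
    [DecidablePred p] (e : {i // p i} ≃ Fin m) (g : Fin n → R) (hg : ∀ i, ¬ p i → g i = 0) :
    ∑ i, g i = ∑ j, g (e.symm j).1 := by
  rw [Equiv.sum_comp e.symm (fun i : {i // p i} => g i.1),
    ← Finset.sum_subtype (Finset.univ.filter p) (by simp) g,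
    Finset.sum_filter_of_ne]
  intro i _ hi
  by_contra hp
  exact hi (hg i hp)

/-- **Local-global principle for the values of diagonal forms** (no condition on the
coefficients). -/
theorem DiagLocalGlobal.exists_value (h2 : (2 : F) ≠ 0) (H : DiagLocalGlobal F L) {n : ℕ}
    (a : Fin n → F) (c : F)
    (h : ∀ v, ∃ x : Fin n → L v, ∑ i, algebraMap F (L v) (a i) * x i ^ 2 =
      algebraMap F (L v) c) :
    ∃ x : Fin n → F, ∑ i, a i * x i ^ 2 = c := by
  classical
  by_cases hc : c = 0
  · exact ⟨0, by simp [hc]⟩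
  -- the non-zero coefficients
  let e : {i // a i ≠ 0} ≃ Fin (Fintype.card {i // a i ≠ 0}) := Fintype.equivFin _
  let a' : Fin (Fintype.card {i // a i ≠ 0}) → F := fun j => a (e.symm j).1
  have ha' : ∀ j, a' j ≠ 0 := fun j => (e.symm j).2
  have h1 : ∃ x : Fin (Fintype.card {i // a i ≠ 0}) → F, ∑ j, a' j * x j ^ 2 = c := by
    refine exists_value_of_snoc h2 ha' (H _ _ ?_ fun v => ?_)
    · intro i
      refine Fin.lastCases ?_ (fun j => ?_) i
      · rw [Fin.snoc_last]
        exact neg_ne_zero.2 hc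
      · rw [Fin.snoc_castSucc]
        exact ha' j
    · obtain ⟨x, hx⟩ := h v
      rw [sum_eq_sum_subtype (fun i => a i ≠ 0) e (fun i => algebraMap F (L v) (a i) * x i ^ 2)
        (fun i hi => by
          simp only [not_not] at hi
          simp [hi])] at hx
      have h3 := isotropic_snoc_of_value
        (a := fun j => algebraMap F (L v) (a' j)) (c := algebraMap F (L v) c)
        ⟨fun j => x (e.symm j).1, hx⟩
      obtain ⟨y, hy0, hy⟩ := h3
      refine ⟨y, hy0, ?_⟩
      rw [← hy]
      refine Finset.sum_congr rfl fun i _ => ?_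
      congr 1
      refine Fin.lastCases ?_ (fun j => ?_) i
      · rw [Fin.snoc_last, Fin.snoc_last, map_neg]
      · rw [Fin.snoc_castSucc, Fin.snoc_castSucc]
  obtain ⟨x, hx⟩ := h1
  refine ⟨fun i => if hi : a i ≠ 0 then x (e ⟨i, hi⟩) else 0, ?_⟩
  rw [sum_eq_sum_subtype (fun i => a i ≠ 0) e, ← hx]
  · refine Finset.sum_congr rfl fun j _ => ?_
    have hj : a (e.symm j).1 ≠ 0 := (e.symm j).2
    beta_reduce
    rw [dif_pos hj]
    have h4 : (⟨(e.symm j).1, hj⟩ : {i // a i ≠ 0}) = e.symm j := rfl
    rw [h4, Equiv.apply_symm_apply]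
  · intro i hi
    simp only [not_not] at hi
    simp [hi]

/-- **Local-global principle for the values of arbitrary quadratic forms.** -/
theorem exists_value_of_family [Invertible (2 : F)] (H : DiagLocalGlobal F L)
    {V : Type*} [AddCommGroup V] [Module F V] [FiniteDimensional F V] (Q : QuadraticForm F V)
    (c : F) (hQ : ∀ v, ∃ w : L v ⊗[F] V, (Q.baseChange (L v)) w = algebraMap F (L v) c) :
    ∃ w : V, Q w = c := by
  obtain ⟨a, -, ha, hL⟩ := exists_diag' Q
  rw [ha]
  exact H.exists_value (Invertible.ne_zero 2) a c fun v => ((hL (L v)).2 _).1 (hQ v)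

end Family

section Converse

variable {F L : Type*} [Field F] [Field L] [Algebra F L]

/-- The trivial direction: isotropy goes up. -/
theorem not_anisotropic_baseChange [Invertible (2 : F)]
    {V : Type*} [AddCommGroup V] [Module F V] [FiniteDimensional F V] (Q : QuadraticForm F V)
    (hQ : ¬ Q.Anisotropic) : ¬ (Q.baseChange L).Anisotropic := by
  obtain ⟨a, ha, -, hL⟩ := exists_diag' Q
  rw [ha] at hQ
  rw [(hL L).1]
  obtain ⟨x, hx0, hx⟩ := hQ
  refine ⟨fun i => algebraMap F L (x i), fun h0 => hx0 ?_, ?_⟩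
  · funext i
    exact (map_eq_zero_iff _ (algebraMap F L).injective).1 (congrFun h0 i)
  · have h1 := congrArg (algebraMap F L) hx
    simpa [map_sum, map_mul, map_pow] using h1

end Converse

end Fermat.Agent.Cor.HM
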