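import Fermat.Agent.Corollaries.HM.Five
import Fermat.Agent.Corollaries.HM.Forms

/-!
# The Hasse-Minkowski theorem over totally complex number fields

`K` is a totally complex number field, `K_v = v.adicCompletion K`.

* `hasse_minkowski`: a quadratic form over `K` is isotropic iff it is isotropic over every `K_v`;
* `exists_value_iff`: local-global principle for the representation of elements of `K`;
* `not_anisotropic_of_five_le`: forms in at least five variables are isotropic;
* `sum_four_squares`: every element of `K` is a sum of four squares;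
* `isSquare_iff_local`: the global square theorem;
* `hilbert_reciprocity`: the set of places where `a x ^ 2 + b y ^ 2 = z ^ 2` has no non-trivial
  solution is finite of even cardinality;
* `exists_ramified`: every finite set of (finite) places of even cardinality arises in this way.
-/

set_option autoImplicit false

namespace Fermat.Agent.Cor.HM

open IsDedekindDomain NumberField WithZero
open Fermat.Agent.CFT Fermat.Agent.CFT.Global Fermat.Agent.CFT.Global2 Fermat.Agent.LT.Ext
open scoped TensorProduct

instance nonempty_places (K : Type*) [Field K] [NumberField K] :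
    Nonempty (HeightOneSpectrum (𝓞 K)) := by
  obtain ⟨M, hM⟩ := Ideal.exists_maximal (𝓞 K)
  exact ⟨⟨M, hM.isPrime, Ring.ne_bot_of_isMaximal_of_not_isField hM (RingOfIntegers.not_isField K)⟩⟩

section Main

variable {K : Type} [Field K] [NumberField K] [IsTotallyComplex K]

/-- **Global square theorem.** -/
theorem isSquare_iff_local (x : K) :
    IsSquare x ↔ ∀ v : HeightOneSpectrum (𝓞 K), IsSquare (algebraMap K (v.adicCompletion K) x) := by
  constructor
  · rintro ⟨y, rfl⟩ v
    exact ⟨algebraMap K _ y, map_mul _ _ _⟩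
  · intro h
    by_cases hx : x = 0
    · exact ⟨0, by rw [hx, mul_zero]⟩
    · obtain ⟨y, hy⟩ := exists_sq_of_local (x := Units.mk0 x hx) fun v =>
        (mem_locPow_two_iff _).mpr (h v)
      refine ⟨y, ?_⟩
      have h1 := congrArg (Units.val) hy
      rw [Units.val_pow_eq_pow_val, Units.val_mk0, sq] at h1
      exact h1.symm

variable (K) in
/-- **The Hasse-Minkowski theorem for diagonal forms.** -/
theorem diagLocalGlobal :
    DiagLocalGlobal K fun v : HeightOneSpectrum (𝓞 K) => v.adicCompletion K := by
  intro n a ha h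
  obtain ⟨G⟩ := nonempty_globSym K
  let u : Fin n → Kˣ := fun i => Units.mk0 (a i) (ha i)
  rcases lt_or_ge n 5 with hn | hn
  · interval_cases n
    · obtain ⟨v⟩ := nonempty_places K
      obtain ⟨x, hx0, -⟩ := h v
      exact absurd (Subsingleton.elim x 0) hx0
    · obtain ⟨v⟩ := nonempty_places K
      obtain ⟨x, hx0, hx⟩ := h v
      exfalso
      apply hx0
      rw [Fin.sum_univ_one, mul_eq_zero, map_eq_zero] at hx
      have h1 : x 0 = 0 := by simpa using hx.resolve_left (ha 0)
      funext i
      rw [Subsingleton.elim i 0]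
      exact h1
    · obtain ⟨r, hr⟩ := exists_sq_of_local (x := -(u 0 * u 1)) fun v => by
        obtain ⟨x, hx0, hx⟩ := h v
        rw [Fin.sum_univ_two] at hx
        refine mem_locPow_of_adic (x := x 0) (y := x 1) (fun h' => hx0 ?_) hx
        funext i
        fin_cases i
        · exact h'.1
        · exact h'.2
      obtain ⟨x, y, h0, h1⟩ := isotropic_two ⟨r, hr⟩
      refine ⟨![x, y], fun h' => h0 ⟨congrFun h' 0, congrFun h' 1⟩, ?_⟩
      rw [Fin.sum_univ_two]
      exact h1
    · obtain ⟨x, y, z, h0, h1⟩ := isotropic_three G.LS (a := u 0) (b := u 1) (c := u 2) fun v => by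
        obtain ⟨x, hx0, hx⟩ := h v
        rw [Fin.sum_univ_three] at hx
        refine rep_of_adic_three (x := x 0) (y := x 1) (z := x 2) (fun h' => hx0 ?_) hx
        funext i
        fin_cases i
        · exact h'.1
        · exact h'.2.1
        · exact h'.2.2
      refine ⟨![x, y, z], fun h' => h0 ⟨congrFun h' 0, congrFun h' 1, congrFun h' 2⟩, ?_⟩
      rw [Fin.sum_univ_three]
      exact h1
    · obtain ⟨z, hz0, hz⟩ := isotropic_four G.LS (a := u 0) (b := u 1) (c := u 2) (d := u 3)
        fun v => by
        obtain ⟨x, hx0, hx⟩ := h v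
        rw [Fin.sum_univ_four] at hx
        refine rep_of_adic_four (x := x 0) (y := x 1) (z := x 2) (t := x 3) (fun h' => hx0 ?_) hx
        funext i
        fin_cases i
        · exact h'.1
        · exact h'.2.1
        · exact h'.2.2.1
        · exact h'.2.2.2
      refine ⟨z, hz0, ?_⟩
      rw [← hz]
      refine Finset.sum_congr rfl fun i _ => ?_
      fin_cases i <;> rfl
  · exact isotropic_of_sub (Fin.castLEEmb hn) (isotropic_five (fun i => a (Fin.castLEEmb hn i))
      fun i => ha _)

/-- **The Hasse-Minkowski theorem**, in coordinates. -/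
theorem hasse_minkowski_diag {n : ℕ} (a : Fin n → K) :
    (∃ x : Fin n → K, x ≠ 0 ∧ ∑ i, a i * x i ^ 2 = 0) ↔
      ∀ v : HeightOneSpectrum (𝓞 K), ∃ x : Fin n → v.adicCompletion K, x ≠ 0 ∧
        ∑ i, algebraMap K (v.adicCompletion K) (a i) * x i ^ 2 = 0 := by
  constructor
  · rintro ⟨x, hx0, hx⟩ v
    refine ⟨fun i => algebraMap K _ (x i), fun h => hx0 ?_, ?_⟩
    · funext i
      have h1 := congrFun h i
      rwa [Pi.zero_apply, map_eq_zero] at h1
    · have h1 := congrArg (algebraMap K (v.adicCompletion K)) hx
      rw [map_sum, map_zero] at h1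
      rw [← h1]
      exact Finset.sum_congr rfl fun i _ => by rw [map_mul, map_pow]
  · intro h
    exact (diagLocalGlobal K).isotropic a h

section Forms

variable [Invertible (2 : K)] {V : Type*} [AddCommGroup V] [Module K V] [FiniteDimensional K V]

/-- **The Hasse-Minkowski theorem.** -/
theorem hasse_minkowski (Q : QuadraticForm K V) :
    ¬ Q.Anisotropic ↔
      ∀ v : HeightOneSpectrum (𝓞 K), ¬ (Q.baseChange (v.adicCompletion K)).Anisotropic :=
  ⟨fun h _ => not_anisotropic_baseChange Q h,
    fun h => not_anisotropic_of_family (diagLocalGlobal K) Q h⟩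

/-- **Local-global principle for the representation of elements.** -/
theorem exists_value_iff (Q : QuadraticForm K V) (c : K) :
    (∃ w : V, Q w = c) ↔ ∀ v : HeightOneSpectrum (𝓞 K),
      ∃ w : v.adicCompletion K ⊗[K] V,
        (Q.baseChange (v.adicCompletion K)) w = algebraMap K (v.adicCompletion K) c := by
  constructor
  · rintro ⟨w, rfl⟩ v
    exact ⟨1 ⊗ₜ w, by rw [QuadraticForm.baseChange_tmul, mul_one, Algebra.smul_def, mul_one]⟩
  · exact exists_value_of_family (diagLocalGlobal K) Q c

/-- **Forms in at least five variables over a totally complex number field are isotropic.** -/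
theorem not_anisotropic_of_five_le (Q : QuadraticForm K V) (h : 5 ≤ Module.finrank K V) :
    ¬ Q.Anisotropic := not_anisotropic_of_five isotropic_five Q h

end Forms

/-- Diagonal forms in four variables without zero coefficient are universal. -/
theorem universal_four (a : Fin 4 → K) (ha : ∀ i, a i ≠ 0) (c : K) :
    ∃ x : Fin 4 → K, ∑ i, a i * x i ^ 2 = c :=
  exists_value_four_of_five two_ne_zero isotropic_five ha c

/-- **Every element of a totally complex number field is a sum of four squares.** -/
theorem sum_four_squares (c : K) : ∃ x y z t : K, c = x ^ 2 + y ^ 2 + z ^ 2 + t ^ 2 :=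
  sum_four_squares_of_five two_ne_zero isotropic_five c

end Main

section Hilbert

variable {K : Type} [Field K] [NumberField K]

/-- The Hilbert symbol `(a, b)_v` is trivial: `a x ^ 2 + b y ^ 2 = z ^ 2` has a non-trivial solution
in `K_v`. -/
def IsSplitAt (v : HeightOneSpectrum (𝓞 K)) (a b : K) : Prop :=
  ∃ x y z : v.adicCompletion K, ¬ (x = 0 ∧ y = 0 ∧ z = 0) ∧
    algebraMap K (v.adicCompletion K) a * x ^ 2 + algebraMap K (v.adicCompletion K) b * y ^ 2 =
      z ^ 2

theorem sym_eq_one_iff (LS : LocalSymbols 2 K) (v : HeightOneSpectrum (𝓞 K)) (a b : Kˣ) :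
    LS.sym v a b = 1 ↔ IsSplitAt v (a : K) (b : K) := by
  constructor
  · intro h
    obtain ⟨s, t, c, hc, hbc⟩ := mem_norm_mul_locPow LS v a b h
    obtain ⟨β, hβ⟩ := (mem_locPow_two_iff _).mp hbc
    refine ⟨algebraMap K _ t * β, 1, algebraMap K _ s * β, fun h' => one_ne_zero h'.2.1, ?_⟩
    have h1 : (b : K) = ((b / c : Kˣ) : K) * (s ^ 2 - a * t ^ 2) := by
      rw [← hc, ← Units.val_mul, div_mul_cancel]
    have h2 := congrArg (algebraMap K (v.adicCompletion K)) h1
    rw [map_mul, hβ, map_sub, map_mul, map_pow, map_pow] at h2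
    rw [h2]
    ring
  · rintro ⟨x, y, z, h0, h⟩
    by_cases hy : y = 0
    · have hx : x ≠ 0 := by
        rintro rfl
        apply h0
        refine ⟨rfl, hy, ?_⟩
        rw [hy] at h
        simpa using h.symm
      refine LS.sym_eq_one_of_left ((mem_locPow_two_iff _).mpr ⟨z / x, ?_⟩)
      rw [hy] at h
      field_simp
      linear_combination h
    · refine sym_eq_one_of_adic LS a b ⟨z / y, x / y, ?_⟩
      field_simp
      linear_combination h

variable [IsTotallyComplex K]

/-- **Hilbert's reciprocity law** over a totally complex number field. -/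
theorem hilbert_reciprocity {a b : K} (ha : a ≠ 0) (hb : b ≠ 0) :
    {v : HeightOneSpectrum (𝓞 K) | ¬ IsSplitAt v a b}.Finite ∧
      Even {v : HeightOneSpectrum (𝓞 K) | ¬ IsSplitAt v a b}.ncard := by
  classical
  obtain ⟨G⟩ := nonempty_globSym K
  have hset : {v : HeightOneSpectrum (𝓞 K) | ¬ IsSplitAt v a b} =
      ((symVec G.LS two_ne_zero (Units.mk0 a ha) (Units.mk0 b hb)).support : Set _) := by
    ext v
    rw [Set.mem_ofPred_eq, Finset.mem_coe, Finsupp.mem_support_iff, symVec_apply]
    refine not_congr ?_
    have h1 := sym_eq_one_iff G.LS v (Units.mk0 a ha) (Units.mk0 b hb)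
    rw [Units.val_mk0, Units.val_mk0] at h1
    rw [← h1]
    exact Iff.rfl
  rw [hset]
  refine ⟨Finset.finite_toSet _, ?_⟩
  rw [Set.ncard_coe_finset]
  have h2 := G.prod (Units.mk0 a ha) (Units.mk0 b hb)
  rw [Finsupp.sum] at h2
  have h3 : ∀ t : ZMod 2, t ≠ 0 → t = 1 := by decide
  rw [Finset.sum_congr rfl fun v hv => h3 _ (Finsupp.mem_support_iff.mp hv), Finset.sum_const,
    nsmul_eq_mul, mul_one] at h2
  rw [even_iff_two_dvd]
  exact (ZMod.natCast_eq_zero_iff _ 2).mp h2

/-- **Existence of quaternion algebras with given ramification**: every finite set of finite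
places of even cardinality is the set of places where `a x ^ 2 + b y ^ 2 = z ^ 2` has no
non-trivial solution, for some `a, b ∈ Kˣ`. -/
theorem exists_ramified (T : Finset (HeightOneSpectrum (𝓞 K))) (hT : Even T.card) :
    ∃ a b : K, a ≠ 0 ∧ b ≠ 0 ∧ ∀ v : HeightOneSpectrum (𝓞 K), ¬ IsSplitAt v a b ↔ v ∈ T := by
  classical
  rcases T.eq_empty_or_nonempty with rfl | ⟨v₀, hv₀⟩
  · refine ⟨1, 1, one_ne_zero, one_ne_zero, fun v => ?_⟩
    have h1 : IsSplitAt v (1 : K) 1 := ⟨1, 0, 1, fun h => one_ne_zero h.1, by simp⟩
    simp [h1]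
  obtain ⟨G⟩ := nonempty_globSym K
  choose π hπ using fun v : HeightOneSpectrum (𝓞 K) => exists_ord_eq_one v
  obtain ⟨a, ha⟩ := indep_locPow 2 two_ne_zero T π
  have hna : ∀ v ∈ T, a ∉ locPow 2 v := by
    intro v hv h
    have h1 := div_mem h (ha v hv)
    rw [div_div_cancel] at h1
    exact not_mem_locPow_of_ord_eq_one (hπ v) h1
  obtain ⟨b, hb⟩ := G.exist a (fun b hb => hna v₀ hv₀ (by rw [← hb]; exact pow_mem_locPow 2 v₀ b))
    (Finsupp.indicator T fun _ _ => 1) (by
      intro v hv
      rw [Finsupp.indicator_of_notMem]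
      exact fun h => hna v h hv) (by
      rw [Finsupp.sum_indicator_index _ (fun _ _ => rfl)]
      simp only [Finset.sum_const, nsmul_eq_mul, mul_one]
      exact (ZMod.natCast_eq_zero_iff _ 2).mpr hT.two_dvd)
  refine ⟨a, b, a.ne_zero, b.ne_zero, fun v => ?_⟩
  rw [← sym_eq_one_iff G.LS v a b]
  have h1 := DFunLike.congr_fun hb v
  rw [symVec_apply] at h1
  by_cases hv : v ∈ T
  · rw [Finsupp.indicator_of_mem hv] at h1
    refine iff_of_true (fun h => ?_) hv
    rw [h] at h1
    exact absurd h1 (by decide)
  · rw [Finsupp.indicator_of_notMem hv] at h1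
    exact iff_of_false (fun h => h h1) hv

end Hilbert

end Fermat.Agent.Cor.HM
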