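import Fermat.Agent.Corollaries.HM.Proj
import Fermat.Agent.Corollaries.HM.Main

/-!
# The product formula for totally positive elements

`K` any number field, `a, c ∈ Kˣ`, `c` totally positive: `∑_v (a, c)_v = 0`.
-/

set_option autoImplicit false

namespace Fermat.Agent.Cor.HM

open IsDedekindDomain NumberField WithZero Polynomial
open Fermat.Agent.CFT Fermat.Agent.CFT.Global Fermat.Agent.CFT.Global2 Fermat.Agent.CFT.Bridge
  Fermat.Agent.LT.Ext
open Fermat.Agent.CFT.SUnits (ord)

/-- A number field without real embedding is totally complex. -/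
lemma isTotallyComplex_of_no_real {M : Type*} [Field M] [NumberField M] (h : IsEmpty (M →+* ℝ)) :
    IsTotallyComplex M := by
  constructor
  intro w
  rw [← InfinitePlace.not_isReal_iff_isComplex]
  intro hw
  exact h.elim (InfinitePlace.embedding_of_isReal hw)

/-- Quadratic extensions. -/
theorem exists_quad {K : Type} [Field K] [NumberField K] (D : Kˣ) (hD : ∀ b : Kˣ, b ^ 2 ≠ D) :
    ∃ (M : Type) (_ : Field M) (_ : NumberField M) (_ : Algebra K M) (_ : IsGalois K M)
      (σ : M ≃ₐ[K] M) (r : M), Module.finrank K M = 2 ∧ σ ≠ 1 ∧ r ^ 2 = algebraMap K M D ∧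
      σ r = -r ∧ (∀ z : M, ∃ x y : K, z = algebraMap K M x + algebraMap K M y * r) ∧
      ∀ x y : K, algebraMap K M x + algebraMap K M y * r = 0 → x = 0 ∧ y = 0 := by
  have hF : Fact (Irreducible (X ^ 2 - C (D : K))) := ⟨irreducible_of_not_pow Nat.prime_two hD⟩
  have hN : NumberField (Rad 2 D) := numberField_rad Nat.prime_two
  have hζ : IsPrimitiveRoot (-1 : K) 2 := Unr.isPrimitiveRoot_neg_one' K
  have hζ' : (primitiveRoots 2 K).Nonempty := ⟨-1, (mem_primitiveRoots two_pos).mpr hζ⟩
  have hs := isSplittingField_AdjoinRoot_X_pow_sub_C hζ' hF.out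
  have hG : IsGalois K (Rad 2 D) := isGalois_of_isSplittingField_X_pow_sub_C hζ' hF.out (Rad 2 D)
  have h2 : Module.finrank K (Rad 2 D) = 2 :=
    finrank_of_isSplittingField_X_pow_sub_C hζ' hF.out (Rad 2 D)
  have hfd : FiniteDimensional K (Rad 2 D) := Module.finite_of_finrank_eq_succ h2
  set L := Rad 2 D with hL
  set δ : L := AdjoinRoot.root _ with hδ
  have hδ2 : δ ^ 2 = algebraMap K L (D : K) := root_X_pow_sub_C_pow 2 (D : K)
  have hcoord : ∀ z : L, ∃ u w : K, z = algebraMap K L u + algebraMap K L w * δ := by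
    intro z
    refine ⟨(quadBasis _).repr z 0, (quadBasis _).repr z 1, ?_⟩
    have h1 := (quadBasis (D : K)).sum_repr z
    rw [Fin.sum_univ_two, quadBasis_zero, quadBasis_one] at h1
    rw [← Algebra.smul_def, Algebra.algebraMap_eq_smul_one]
    exact h1.symm
  have hlin : ∀ u w : K, algebraMap K L u + algebraMap K L w * δ = 0 → u = 0 ∧ w = 0 := by
    intro u w huw
    have h1 := (quadBasis (D : K)).linearIndependent
    rw [Fintype.linearIndependent_iff] at h1
    have h2 := h1 ![u, w] (by
      rw [Fin.sum_univ_two, quadBasis_zero, quadBasis_one]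
      rw [← Algebra.smul_def, Algebra.algebraMap_eq_smul_one] at huw
      exact huw)
    exact ⟨h2 0, h2 1⟩
  obtain ⟨σ, hσ⟩ : ∃ σ : L ≃ₐ[K] L, σ ≠ 1 := by
    by_contra! hcon
    have h3 : Nat.card (L ≃ₐ[K] L) = 1 :=
      Nat.card_eq_one_iff_unique.mpr ⟨⟨fun a b => (hcon a).trans (hcon b).symm⟩, ⟨1⟩⟩
    rw [IsGalois.card_aut_eq_finrank, h2] at h3
    exact absurd h3 (by norm_num)
  have h4 : (σ δ - δ) * (σ δ + δ) = 0 := by
    have h5 : σ δ ^ 2 = δ ^ 2 := by rw [← map_pow, hδ2, AlgEquiv.commutes]
    linear_combination h5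
  have hσδ : σ δ = -δ := by
    rcases mul_eq_zero.mp h4 with h | h
    · exfalso
      apply hσ
      ext z
      obtain ⟨u, w, rfl⟩ := hcoord z
      rw [map_add, map_mul, AlgEquiv.commutes, AlgEquiv.commutes, sub_eq_zero.mp h]
      rfl
    · exact eq_neg_of_add_eq_zero_left h
  exact ⟨L, inferInstance, hN, inferInstance, hG, σ, δ, h2, hσ, hδ2, hσδ, hcoord, hlin⟩

section Sum

variable {K M : Type} [Field K] [NumberField K] [Field M] [NumberField M] [Algebra K M]
  [IsGalois K M] (h2 : Module.finrank K M = 2) {σ : M ≃ₐ[K] M} (hσ : σ ≠ 1)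

include h2 hσ in
/-- The sum of the symbols `(a, N y)_v` over all places is the sum over all places of `M` of the
symbols `(a, y)_w`. -/
theorem sum_symVec_normU (LS : LocalSymbols 2 K) (LS' : LocalSymbols 2 M) (a : Kˣ) (y : Mˣ) :
    (symVec LS two_ne_zero a (normU M y)).sum (fun _ n => n) =
      (symVec LS' two_ne_zero (mapU K M a) y).sum (fun _ n => n) := by
  classical
  have h1 : symVec LS two_ne_zero a (normU M y) =
      (symVec LS' two_ne_zero (mapU K M a) y).mapDomain (fun w => w.under (𝓞 K)) := by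
    ext v
    rw [symVec_apply, ← prod_sym_eq_sym_normU h2 hσ LS LS' v a y, toAdd_prod, Finsupp.mapDomain,
      Finsupp.sum_apply, Finsupp.sum]
    rw [← Finset.sum_filter_ne_zero, ← Finset.sum_filter_ne_zero (s := Finsupp.support _)]
    refine Finset.sum_congr ?_ ?_
    · ext w
      simp only [Finset.mem_filter, mem_above, Finset.mem_singleton, Finsupp.mem_support_iff,
        Finsupp.single_apply]
      constructor
      · rintro ⟨h, h'⟩
        rw [if_pos h]
        exact ⟨h', h'⟩
      · rintro ⟨h, h'⟩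
        split_ifs at h' with h3
        · exact ⟨h3, h⟩
        · exact absurd rfl h'
    · intro w hw
      rw [Finset.mem_filter, Finsupp.single_apply] at hw
      rw [Finsupp.single_apply]
      split_ifs at hw ⊢ with h3
      · rfl
      · exact absurd rfl hw.2
  rw [h1, Finsupp.sum_mapDomain_index (fun _ => rfl) (fun _ _ _ => rfl)]

end Sum

section Pos

variable {K : Type} [Field K] [NumberField K]

/-- The symbols are unique. -/
theorem symVec_eq (LS LS' : LocalSymbols 2 K) (a b : Kˣ) :
    symVec LS two_ne_zero a b = symVec LS' two_ne_zero a b := by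
  ext v
  rw [symVec_apply, symVec_apply]
  rcases val_cases (LS.sym v a b) with h | h <;> rcases val_cases (LS'.sym v a b) with h' | h'
  · rw [h, h']
  · rw [sym_eq_one_iff, ← sym_eq_one_iff LS', h'] at h
    exact absurd h (by decide)
  · rw [sym_eq_one_iff, ← sym_eq_one_iff LS, h] at h'
    exact absurd h' (by decide)
  · rw [h, h']

/-- **The product formula for totally positive elements**, over any number field. -/
theorem sum_symVec_of_pos (LS : LocalSymbols 2 K) {c : Kˣ} (hc : ∀ φ : K →+* ℝ, 0 < φ (c : K))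
    (a : Kˣ) : (symVec LS two_ne_zero a c).sum (fun _ n => n) = 0 := by
  by_cases hsq : ∃ b : Kˣ, b ^ 2 = -c
  · obtain ⟨b, hb⟩ := hsq
    have hE : IsEmpty (K →+* ℝ) := by
      refine ⟨fun φ => ?_⟩
      have h1 := congrArg (fun x : Kˣ => φ (x : K)) hb
      simp only [Units.val_pow_eq_pow_val, Units.val_neg, map_pow, map_neg] at h1
      have h2 := hc φ
      have h3 := sq_nonneg (φ (b : K))
      linarith
    have := isTotallyComplex_of_no_real hE
    obtain ⟨G⟩ := nonempty_globSym K
    rw [symVec_eq LS G.LS]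
    exact G.prod a c
  · push Not at hsq
    obtain ⟨M, _, _, _, _, σ, r, h2, hσ, hr, hσr, -, -⟩ := exists_quad (-c) hsq
    have hE : IsEmpty (M →+* ℝ) := by
      refine ⟨fun ψ => ?_⟩
      have h1 := congrArg ψ hr
      rw [map_pow, Units.val_neg, map_neg, map_neg] at h1
      have h3 := hc (ψ.comp (algebraMap K M))
      rw [RingHom.comp_apply] at h3
      have h4 := sq_nonneg (ψ r)
      linarith
    have := isTotallyComplex_of_no_real hE
    obtain ⟨G⟩ := nonempty_globSym M
    have hr0 : r ≠ 0 := by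
      rintro rfl
      rw [zero_pow two_ne_zero] at hr
      exact (map_ne_zero (algebraMap K M)).mpr (-c).ne_zero hr.symm
    have h6 : normU M (Units.mk0 r hr0) = c := by
      apply Units.ext
      apply (algebraMap K M).injective
      have h7 : algebraMap K M ((normU M (Units.mk0 r hr0) : Kˣ) : K) = r * σ r :=
        Unr.norm_eq_mul h2 hσ _
      rw [h7, hσr, mul_neg, ← sq, hr, Units.val_neg, map_neg, neg_neg]
    rw [← h6, sum_symVec_normU h2 hσ LS G.LS]
    exact G.prod _ _

end Pos

end Fermat.Agent.Cor.HM
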