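import Fermat.Agent.Corollaries.HM.ApproxReal
import Fermat.Agent.Corollaries.HM.PosRecip

/-!
# Hilbert's reciprocity law over an arbitrary number field
-/

set_option autoImplicit false

namespace Fermat.Agent.Cor.HM

open IsDedekindDomain NumberField
open Fermat.Agent.CFT.Global (locPow LocalSymbols symVec symVec_apply)
open Fermat.Agent.CFT.Global2 (inputs)

variable {K : Type} [Field K] [NumberField K]

/-- `a x ^ 2 + b y ^ 2 = z ^ 2` has a non-trivial solution in `ℝ` unless `a` and `b` are negative. -/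
theorem isSplit_real_iff (a b : ℝ) (ha : a ≠ 0) (hb : b ≠ 0) :
    (∃ x y z : ℝ, ¬ (x = 0 ∧ y = 0 ∧ z = 0) ∧ a * x ^ 2 + b * y ^ 2 = z ^ 2) ↔
      ¬ (a < 0 ∧ b < 0) := by
  constructor
  · rintro ⟨x, y, z, h0, h⟩ ⟨h1, h2⟩
    apply h0
    have hx : 0 ≤ x ^ 2 := sq_nonneg x
    have hy : 0 ≤ y ^ 2 := sq_nonneg y
    have hz : 0 ≤ z ^ 2 := sq_nonneg z
    have h3 : a * x ^ 2 ≤ 0 := mul_nonpos_of_nonpos_of_nonneg h1.le hx
    have h4 : b * y ^ 2 ≤ 0 := mul_nonpos_of_nonpos_of_nonneg h2.le hy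
    have h5 : z ^ 2 = 0 := by linarith
    have h6 : a * x ^ 2 = 0 := by linarith
    have h7 : b * y ^ 2 = 0 := by linarith
    exact ⟨pow_eq_zero_iff two_ne_zero |>.mp ((mul_eq_zero.mp h6).resolve_left ha),
      pow_eq_zero_iff two_ne_zero |>.mp ((mul_eq_zero.mp h7).resolve_left hb),
      pow_eq_zero_iff two_ne_zero |>.mp h5⟩
  · intro h
    by_cases h1 : 0 < a
    · exact ⟨1, 0, √a, fun h' => one_ne_zero h'.1, by rw [Real.sq_sqrt h1.le]; ring⟩
    · have h2 : 0 < b := by
        by_contra h2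
        exact h ⟨lt_of_le_of_ne (not_lt.mp h1) ha, lt_of_le_of_ne (not_lt.mp h2) hb⟩
      exact ⟨0, 1, √b, fun h' => one_ne_zero h'.2.1, by rw [Real.sq_sqrt h2.le]; ring⟩

/-- **Hilbert's product formula** over an arbitrary number field. -/
theorem sum_sym_of (hA : ApproxStmt K) (LS : LocalSymbols 2 K) (a b : Kˣ) :
    pf LS a b = ∑ σ : K →+* ℝ, sg σ a * sg σ b :=
  pf_eq_sum_sg LS hA (fun a _ hc => sum_symVec_of_pos LS hc a) inputs.localCount a b

/-- **Hilbert's reciprocity law** over an arbitrary number field: the number of the places, real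
places included, at which `a x ^ 2 + b y ^ 2 = z ^ 2` has no non-trivial solution, is even. -/
theorem hilbert_reciprocity_of (hA : ApproxStmt K) {a b : K} (ha : a ≠ 0) (hb : b ≠ 0) :
    {v : HeightOneSpectrum (𝓞 K) | ¬ IsSplitAt v a b}.Finite ∧
      Even ({v : HeightOneSpectrum (𝓞 K) | ¬ IsSplitAt v a b}.ncard +
        {σ : K →+* ℝ | σ a < 0 ∧ σ b < 0}.ncard) := by
  classical
  obtain ⟨LS⟩ := Fermat.Agent.CFT.Bridge.nonempty_localSymbols_all K
    (Fermat.Agent.CFT.Global2.Unr.isPrimitiveRoot_neg_one' K)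
  have hset : {v : HeightOneSpectrum (𝓞 K) | ¬ IsSplitAt v a b} =
      ((symVec LS two_ne_zero (Units.mk0 a ha) (Units.mk0 b hb)).support : Set _) := by
    ext v
    rw [Set.mem_setOf_eq, Finset.mem_coe, Finsupp.mem_support_iff, symVec_apply]
    refine not_congr ?_
    have h1 := sym_eq_one_iff LS v (Units.mk0 a ha) (Units.mk0 b hb)
    rw [Units.val_mk0, Units.val_mk0] at h1
    rw [← h1]
    exact Iff.rfl
  have hset' : {σ : K →+* ℝ | σ a < 0 ∧ σ b < 0} =
      ((Finset.univ.filter fun σ : K →+* ℝ => σ a < 0 ∧ σ b < 0 : Finset (K →+* ℝ)) : Set _) := by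
    ext σ
    simp
  rw [hset, hset']
  refine ⟨Finset.finite_toSet _, ?_⟩
  rw [Set.ncard_coe_finset, Set.ncard_coe_finset, ← ZMod.natCast_eq_zero_iff_even]
  have h2 := sum_sym_of hA LS (Units.mk0 a ha) (Units.mk0 b hb)
  rw [pf, Finsupp.sum] at h2
  have h3 : ∀ t : ZMod 2, t ≠ 0 → t = 1 := by decide
  rw [Finset.sum_congr rfl fun v hv => h3 _ (Finsupp.mem_support_iff.mp hv), Finset.sum_const,
    nsmul_eq_mul, mul_one] at h2
  have h4 : ∑ σ : K →+* ℝ, sg σ (Units.mk0 a ha) * sg σ (Units.mk0 b hb) =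
      ((Finset.univ.filter fun σ : K →+* ℝ => σ a < 0 ∧ σ b < 0).card : ZMod 2) := by
    rw [Finset.card_filter]
    push_cast
    refine Finset.sum_congr rfl fun σ _ => ?_
    split_ifs with h
    · rw [sg_eq_one_iff.mpr (by simpa using h.1), sg_eq_one_iff.mpr (by simpa using h.2), mul_one]
    · rcases not_and_or.mp h with h' | h'
      · rw [zmod_two_eq_zero (t := sg σ (Units.mk0 a ha)) (fun h1 => h' (by
          simpa using sg_eq_one_iff.mp h1)), zero_mul]
      · rw [zmod_two_eq_zero (t := sg σ (Units.mk0 b hb)) (fun h1 => h' (by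
          simpa using sg_eq_one_iff.mp h1)), mul_zero]
  rw [h4] at h2
  push_cast
  rw [h2]
  exact CharTwo.add_self_eq_zero _

/-- **Hilbert's product formula** over an arbitrary number field `K`:
`∑_v (a, b)_v = ∑_σ [σ a < 0 ∧ σ b < 0]`, `v` the finite places, `σ` the real embeddings. -/
theorem sum_sym (LS : LocalSymbols 2 K) (a b : Kˣ) :
    (symVec LS two_ne_zero a b).sum (fun _ n => n) = ∑ σ : K →+* ℝ, sg σ a * sg σ b :=
  sum_sym_of (approxStmt K) LS a b

/-- **Hilbert's reciprocity law** over an arbitrary number field: the number of the places, real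
places included, at which `a x ^ 2 + b y ^ 2 = z ^ 2` has no non-trivial solution, is even. -/
theorem hilbert_reciprocity_all {a b : K} (ha : a ≠ 0) (hb : b ≠ 0) :
    {v : HeightOneSpectrum (𝓞 K) | ¬ IsSplitAt v a b}.Finite ∧
      Even ({v : HeightOneSpectrum (𝓞 K) | ¬ IsSplitAt v a b}.ncard +
        {σ : K →+* ℝ | σ a < 0 ∧ σ b < 0}.ncard) :=
  hilbert_reciprocity_of (approxStmt K) ha hb

end Fermat.Agent.Cor.HM
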