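import Fermat.Agent.LT.AdicInt
import Fermat.Agent.CFT.Global2.GlobSym

/-!
# Squares in the completions of a number field, and `locPow 2 v`

* `isSquare_of_near`: elements of `K_v` close to `1` are squares;
* `exists_eq_mul_sq`: `Kˣ → K_vˣ / squares` is onto;
* `mem_locPow_two_iff`: `x ∈ locPow 2 v` iff `x` is a square in `K_v`;
* `sym_eq_one_of_adic`: if `b = s ^ 2 - a t ^ 2` is solvable in `K_v`, then `(a, b)_v = 1`.
-/

set_option autoImplicit false

namespace Fermat.Agent.Cor.HM

open IsDedekindDomain NumberField WithZero Polynomial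
open Fermat.Agent.CFT.Global Fermat.Agent.CFT.Global2 Fermat.Agent.LT.Ext

section Near

variable {K : Type*} [Field K] [NumberField K] {v : HeightOneSpectrum (𝓞 K)}

theorem four_ne_zero' : (4 : v.adicCompletion K) ≠ 0 := by
  have h : algebraMap K (v.adicCompletion K) 4 ≠ 0 := by
    rw [Ne, map_eq_zero]
    norm_num
  rwa [map_ofNat] at h

theorem two_ne_zero' : (2 : v.adicCompletion K) ≠ 0 := by
  have h : algebraMap K (v.adicCompletion K) 2 ≠ 0 := by
    rw [Ne, map_eq_zero]
    norm_num
  rwa [map_ofNat] at h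

/-- Elements of `K_v` close to `1` are squares. -/
theorem isSquare_of_near {z : v.adicCompletion K}
    (hz : Valued.v (z - 1) < Valued.v (4 : v.adicCompletion K)) : IsSquare z := by
  have h4 := four_ne_zero' (v := v)
  have hm : Valued.v ((z - 1) / 4) < 1 := by
    rw [map_div₀]
    exact (div_lt_one₀ (by rw [zero_lt_iff]; simpa using h4)).mpr hz
  let m : v.adicCompletionIntegers K := ⟨(z - 1) / 4, hm.le⟩
  have hmm : m ∈ IsLocalRing.maximalIdeal (v.adicCompletionIntegers K) :=
    (mem_maximalIdeal m).mpr hm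
  let f : (v.adicCompletionIntegers K)[X] := X ^ 2 + X - C m
  have hf : f.Monic := by
    have h1 : f = X ^ 2 + (X - C m) := by ring
    rw [h1]
    exact monic_X_pow_add (by rw [degree_X_sub_C]; norm_num)
  have h0 : f.eval 0 = -m := by simp [f]
  have h1 : f.derivative.eval 0 = 1 := by simp [f]
  obtain ⟨t, ht, -⟩ := HenselianLocalRing.is_henselian f hf 0
    (by rw [h0]; exact neg_mem hmm) (by rw [h1]; exact isUnit_one)
  have ht' : t ^ 2 + t - m = 0 := by
    have h2 : f.eval t = 0 := ht
    simpa [f] using h2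
  have ht2 := congrArg (Subtype.val) ht'
  have ht3 : (t : v.adicCompletion K) ^ 2 + t - (z - 1) / 4 = 0 := ht2
  refine ⟨1 + 2 * t, ?_⟩
  field_simp at ht3
  linear_combination -ht3

theorem v_four_ne_zero : Valued.v (4 : v.adicCompletion K) ≠ 0 := by
  simpa using four_ne_zero' (v := v)

/-- If `y` is close to `x ≠ 0`, then `x / y` is a square. -/
theorem isSquare_div_of_near {x y : v.adicCompletion K} (hx : x ≠ 0)
    (h : Valued.v (y - x) < Valued.v x * Valued.v (4 : v.adicCompletion K)) :
    y ≠ 0 ∧ IsSquare (y / x) := by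
  have hx' : 0 < Valued.v x := zero_lt_iff.mpr ((Valuation.ne_zero_iff _).mpr hx)
  have h4 : Valued.v (4 : v.adicCompletion K) ≤ 1 := by
    have h5 : algebraMap K (v.adicCompletion K) 4 = 4 := map_ofNat _ 4
    rw [← h5, v_algebraMap]
    exact v.valuation_le_one (K := K) (4 : 𝓞 K)
  have h1 : Valued.v (y / x - 1) < Valued.v (4 : v.adicCompletion K) := by
    have e : y / x - 1 = (y - x) / x := by field_simp
    rw [e, map_div₀, div_lt_iff₀ hx', mul_comm]
    exact h
  refine ⟨?_, isSquare_of_near h1⟩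
  rintro rfl
  rw [zero_div, zero_sub, Valuation.map_neg, map_one] at h1
  exact absurd (h1.trans_le h4) (lt_irrefl _)

/-- `Kˣ → K_vˣ / squares` is onto. -/
theorem exists_eq_mul_sq {x : v.adicCompletion K} (hx : x ≠ 0) :
    ∃ (y : Kˣ) (b : v.adicCompletion K), b ≠ 0 ∧
      x * b ^ 2 = algebraMap K (v.adicCompletion K) y := by
  have hx' : Valued.v x ≠ 0 := (Valuation.ne_zero_iff _).mpr hx
  obtain ⟨k, hk⟩ := exists_sub_lt (v := v) x (mul_ne_zero hx' (v_four_ne_zero (v := v)))
  obtain ⟨h1, b, hb⟩ := isSquare_div_of_near hx hk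
  have hk0 : k ≠ 0 := by
    rintro rfl
    exact h1 (map_zero _)
  refine ⟨Units.mk0 k hk0, b, ?_, ?_⟩
  · rintro rfl
    rw [mul_zero, div_eq_zero_iff] at hb
    exact hb.elim h1 hx
  · rw [sq, ← hb, Units.val_mk0]
    field_simp

/-- `x ∈ locPow 2 v` iff `x` is a square in `K_v`. -/
theorem mem_locPow_two_iff (x : Kˣ) :
    x ∈ locPow 2 v ↔ IsSquare (algebraMap K (v.adicCompletion K) x) := by
  rw [mem_locPow]
  constructor
  · intro h
    obtain ⟨n, hn⟩ := exists_exp_le (v_four_ne_zero (v := v))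
    obtain ⟨y, hy⟩ := h n
    have h1 : Valued.v (algebraMap K (v.adicCompletion K) ((x / y ^ 2 : Kˣ) : K) - 1) <
        Valued.v (4 : v.adicCompletion K) := by
      rw [← map_one (algebraMap K (v.adicCompletion K)), ← map_sub, v_algebraMap]
      refine lt_of_le_of_lt hy (lt_of_le_of_lt ?_ hn)
      rw [exp_le_exp]
      omega
    obtain ⟨b, hb⟩ := isSquare_of_near h1
    refine ⟨b * algebraMap K _ y, ?_⟩
    have h2 : (x : K) = ((x / y ^ 2 : Kˣ) : K) * (y : K) ^ 2 := by
      rw [← Units.val_pow_eq_pow_val, ← Units.val_mul, div_mul_cancel]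
    rw [h2, map_mul, hb, map_pow]
    ring
  · rintro ⟨b, hb⟩ n
    have hx0 : algebraMap K (v.adicCompletion K) x ≠ 0 := (_root_.map_ne_zero _).mpr x.ne_zero
    have hb0 : b ≠ 0 := by
      rintro rfl
      rw [mul_zero] at hb
      exact hx0 hb
    have hb' : Valued.v b ≠ 0 := (Valuation.ne_zero_iff _).mpr hb0
    obtain ⟨y, hy⟩ := exists_sub_lt (v := v) b
      (mul_ne_zero hb' (exp_ne_zero (a := -((n : ℤ) + 1))))
    have hlt : Valued.v (algebraMap K (v.adicCompletion K) y - b) < Valued.v b := by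
      refine hy.trans_le (mul_le_of_le_one_right' ?_)
      rw [← exp_zero, exp_le_exp]
      omega
    have hvy : Valued.v (algebraMap K (v.adicCompletion K) y) = Valued.v b := by
      have e : algebraMap K (v.adicCompletion K) y = b + (algebraMap K _ y - b) := by ring
      rw [e]
      exact Valuation.map_add_eq_of_lt_left _ hlt
    have hy0 : y ≠ 0 := by
      rintro rfl
      rw [map_zero, map_zero] at hvy
      exact hb' hvy.symm
    refine ⟨Units.mk0 y hy0, ?_⟩
    have hyb : algebraMap K (v.adicCompletion K) y ≠ 0 := (_root_.map_ne_zero _).mpr hy0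
    rw [← v_algebraMap (v := v), map_sub, map_one, Units.val_div_eq_div_val,
      Units.val_pow_eq_pow_val, Units.val_mk0, map_div₀, map_pow, hb]
    have e : b * b / algebraMap K (v.adicCompletion K) y ^ 2 - 1 =
        -((algebraMap K _ y - b) * (algebraMap K _ y + b)) / algebraMap K _ y ^ 2 := by
      field_simp
      ring
    rw [e, map_div₀, Valuation.map_neg, map_mul, map_pow, hvy, sq]
    have h3 : Valued.v (algebraMap K (v.adicCompletion K) y + b) ≤ Valued.v b := by
      refine (Valuation.map_add _ _ _).trans (max_le hvy.le le_rfl)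
    have hbpos : 0 < Valued.v b := zero_lt_iff.mpr hb'
    rw [div_le_iff₀ (mul_pos hbpos hbpos)]
    calc Valued.v (algebraMap K (v.adicCompletion K) y - b) *
          Valued.v (algebraMap K (v.adicCompletion K) y + b)
        ≤ (Valued.v b * exp (-((n : ℤ) + 1))) * Valued.v b := mul_le_mul' hy.le h3
      _ = exp (-((n : ℤ) + 1)) * (Valued.v b * Valued.v b) := by
        rw [mul_comm (Valued.v b) (exp _), mul_assoc]

end Near

section Sym

variable {K : Type*} [Field K] [NumberField K] {v : HeightOneSpectrum (𝓞 K)}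

/-- If `b = s ^ 2 - a t ^ 2` is solvable in `K_v`, then it is solvable in `K` with `b` replaced by
an element of the same class modulo local squares. -/
theorem exists_of_adic (a b : Kˣ) (h : ∃ s t : v.adicCompletion K,
    algebraMap K (v.adicCompletion K) b = s ^ 2 - algebraMap K _ a * t ^ 2) :
    ∃ (s t : K) (c : Kˣ), (c : K) = s ^ 2 - a * t ^ 2 ∧ b / c ∈ locPow 2 v := by
  obtain ⟨s, t, hst⟩ := h
  have hb0 : algebraMap K (v.adicCompletion K) b ≠ 0 := (_root_.map_ne_zero _).mpr b.ne_zero
  have hb' : Valued.v (algebraMap K (v.adicCompletion K) b) ≠ 0 :=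
    (Valuation.ne_zero_iff _).mpr hb0
  have hcont : Continuous fun p : v.adicCompletion K × v.adicCompletion K =>
      p.1 ^ 2 - algebraMap K (v.adicCompletion K) a * p.2 ^ 2 := by fun_prop
  have hdense := (v.denseRange_algebraMap K).prodMap (v.denseRange_algebraMap K)
  have hnhds : (fun p : v.adicCompletion K × v.adicCompletion K =>
      p.1 ^ 2 - algebraMap K (v.adicCompletion K) a * p.2 ^ 2) ⁻¹'
      {y | Valued.v (y - algebraMap K (v.adicCompletion K) b) <
        Valued.v (algebraMap K (v.adicCompletion K) b) *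
        Valued.v (4 : v.adicCompletion K)} ∈ nhds (s, t) := by
    refine hcont.continuousAt.preimage_mem_nhds ?_
    change _ ∈ nhds (s ^ 2 - algebraMap K (v.adicCompletion K) a * t ^ 2)
    rw [← hst]
    exact mem_nhds_adic.mpr ⟨_, mul_ne_zero hb' v_four_ne_zero, subset_rfl⟩
  obtain ⟨_, h1, ⟨s', t'⟩, rfl⟩ := mem_closure_iff_nhds.mp (hdense (s, t)) _ hnhds
  change Valued.v (algebraMap K (v.adicCompletion K) s' ^ 2 -
    algebraMap K (v.adicCompletion K) a * algebraMap K (v.adicCompletion K) t' ^ 2 -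
    algebraMap K (v.adicCompletion K) b) < _ at h1
  rw [← map_pow, ← map_pow, ← map_mul, ← map_sub] at h1
  obtain ⟨h2, h3⟩ := isSquare_div_of_near hb0 h1
  have hc0 : s' ^ 2 - (a : K) * t' ^ 2 ≠ 0 := by
    intro h
    rw [h, map_zero] at h2
    exact h2 rfl
  refine ⟨s', t', Units.mk0 _ hc0, rfl, ?_⟩
  rw [← inv_mem_iff, inv_div, mem_locPow_two_iff, Units.val_div_eq_div_val, Units.val_mk0, map_div₀]
  exact h3

/-- If `b = s ^ 2 - a t ^ 2` is solvable in `K_v`, then `(a, b)_v = 1`. -/
theorem sym_eq_one_of_adic (LS : LocalSymbols 2 K) (a b : Kˣ) (h : ∃ s t : v.adicCompletion K,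
    algebraMap K (v.adicCompletion K) b = s ^ 2 - algebraMap K _ a * t ^ 2) :
    LS.sym v a b = 1 := by
  obtain ⟨s, t, c, hc, hbc⟩ := exists_of_adic a b h
  have h1 : LS.sym v a c = 1 := LS.norm_mem v a c ((isNormFrom_two_iff a c).mpr ⟨s, t, hc⟩)
  have h2 : LS.sym v a (b / c) = 1 := LS.sym_eq_one_of_right hbc
  rw [_root_.map_div, h1, div_one] at h2
  exact h2

end Sym

end Fermat.Agent.Cor.HM
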