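import Fermat.Agent.CFT.Bridge.LocNorm
import Fermat.Agent.CFT.Bridge.LocPow
import Fermat.Agent.CFT.Bridge.Symbols
import Fermat.Agent.CFT.Global2.GlobSym

/-!
# Quadratic norms and symbols at a place

`mem_norm_mul_locPow`: if `(a, b)_v = 1` then `b` is, up to an element of `Kˣ` which is a square in
`K_v`, of the form `s² - a t²` with `s`, `t` in `K`.
-/

set_option autoImplicit false

namespace Fermat.Agent.Cor.HM

open Fermat.Agent.CFT Fermat.Agent.CFT.Global Fermat.Agent.CFT.Bridge Fermat.Agent.CFT.Global2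
open NumberField IsDedekindDomain Polynomial IntermediateField
open scoped Topology

/-- The values `s² - a t²` in `kˣ`. -/
def nQ {k : Type*} [Field k] (a : kˣ) : Subgroup kˣ where
  carrier := {x | ∃ s t : k, (x : k) = s ^ 2 - a * t ^ 2}
  one_mem' := ⟨1, 0, by simp⟩
  mul_mem' := by
    rintro x y ⟨s, t, hx⟩ ⟨s', t', hy⟩
    refine ⟨s * s' + a * t * t', s * t' + t * s', ?_⟩
    rw [Units.val_mul, hx, hy]
    ring
  inv_mem' := by
    rintro x ⟨s, t, hx⟩
    refine ⟨s / x, t / x, ?_⟩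
    have h0 : (x : k) ≠ 0 := x.ne_zero
    rw [Units.val_inv_eq_inv_val]
    field_simp
    exact hx

lemma mem_nQ {k : Type*} [Field k] {a x : kˣ} :
    x ∈ nQ a ↔ ∃ s t : k, (x : k) = s ^ 2 - a * t ^ 2 := Iff.rfl

section Local

variable {q : ℕ} [hq : Fact q.Prime]

/-- The quadratic norm group has index two. -/
theorem index_nQ (l : Type) [Field l] [Algebra ℚ_[q] l] [FiniteDimensional ℚ_[q] l] {a : lˣ}
    (ha : ∀ b : lˣ, b ^ 2 ≠ a) : (nQ a).index = 2 := by
  have hchar : CharZero l := charZero_of_injective_algebraMap (algebraMap ℚ_[q] l).injective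
  have hp : Nat.Prime 2 := Nat.prime_two
  have Hirr := irreducible_of_not_pow hp ha
  have : Fact (Irreducible (X ^ 2 - C (a : l))) := ⟨Hirr⟩
  have hroot : (AdjoinRoot.root (X ^ 2 - C (a : l)) : Rad 2 a) ^ 2 =
      algebraMap l (Rad 2 a) (a : l) := by
    have h := AdjoinRoot.eval₂_root (X ^ 2 - C (a : l))
    rw [eval₂_sub, eval₂_X_pow, eval₂_C, sub_eq_zero] at h
    exact h
  have hfin : Module.Finite l (Rad 2 a) := (AdjoinRoot.powerBasis Hirr.ne_zero).finite
  have htop : (IntermediateField.adjoin l {(AdjoinRoot.root (X ^ 2 - C (a : l)) :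
      Rad 2 a)}) = ⊤ := by
    have h : Algebra.adjoin l {(AdjoinRoot.root (X ^ 2 - C (a : l)) : Rad 2 a)} = ⊤ :=
      AdjoinRoot.adjoinRoot_eq_top
    rw [IntermediateField.adjoin_eq_top_iff_of_isAlgebraic]
    · exact h
    · exact fun x _ => Algebra.IsAlgebraic.isAlgebraic x
  have ha' : ∀ b : l, b ^ 2 ≠ (a : l) := by
    intro b hb
    have hb0 : b ≠ 0 := by
      rintro rfl
      rw [zero_pow two_ne_zero] at hb
      exact a.ne_zero hb.symm
    exact ha (Units.mk0 b hb0) (Units.ext hb)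
  have hξ : IsPrimitiveRoot (-1 : l) 2 := IsPrimitiveRoot.neg_one 0 (by norm_num)
  have hfr := KummerExt.finrank_eq hp ha' hroot htop
  obtain ⟨hgal, -⟩ := KummerExt.exists_gen hp hξ ha' hroot htop
  have : FiniteDimensional ℚ_[q] (Rad 2 a) := FiniteDimensional.trans ℚ_[q] l _
  have hidx := CFTLocal.norm_index_local q l (Rad 2 a) 2 hp hfr
  have heq : nQ a = (CFTLocal.normUnits l (Rad 2 a)).range := by
    ext x
    rw [mem_nQ, ← isNormFrom_two_iff]
    constructor
    · rintro ⟨z, hz⟩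
      have hz0 : z ≠ 0 := by
        rintro rfl
        rw [Algebra.norm_zero] at hz
        exact x.ne_zero hz.symm
      exact ⟨Units.mk0 z hz0, Units.ext hz⟩
    · rintro ⟨z, rfl⟩
      exact ⟨(z : Rad 2 a), rfl⟩
  rw [heq, hidx]

variable {K : Type*} [Field K] [NumberField K]

/-- Weak approximation: an element of `Kˣ` which is locally of the form `s² - a t²` is of this
form up to local squares. -/
theorem exists_approx (τ : K →ₐ[ℚ] PadicAlgCl q) {a b : Kˣ} (h : toLocU τ b ∈ nQ (toLocU τ a)) :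
    ∃ s t : K, ∃ c : Kˣ, (c : K) = s ^ 2 - a * t ^ 2 ∧ b / c ∈ locPow 2 (placeOf τ) := by
  obtain ⟨S, T, hST⟩ := h
  obtain ⟨ε, hε, hnear⟩ := exists_pow_eq_of_near (locField τ) two_ne_zero
  have hb0 : toLoc τ (b : K) ≠ 0 := (map_ne_zero (toLoc τ)).mpr b.ne_zero
  have hST0 : S ^ 2 - toLoc τ (a : K) * T ^ 2 ≠ 0 := by
    have h1 : toLoc τ (b : K) = S ^ 2 - toLoc τ (a : K) * T ^ 2 := hST
    rw [← h1]
    exact hb0
  let f : locField τ × locField τ → locField τ := fun z =>
    toLoc τ (b : K) / (z.1 ^ 2 - toLoc τ (a : K) * z.2 ^ 2)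
  have hf : ContinuousAt f (S, T) := by
    refine ContinuousAt.div continuousAt_const ?_ hST0
    fun_prop
  have hf1 : f (S, T) = 1 := by
    have h1 : toLoc τ (b : K) = S ^ 2 - toLoc τ (a : K) * T ^ 2 := hST
    change toLoc τ (b : K) / (S ^ 2 - toLoc τ (a : K) * T ^ 2) = 1
    rw [← h1, div_self hb0]
  have hU : {z : locField τ | ‖z - 1‖ < min ε 1} ∈ 𝓝 (1 : locField τ) := by
    have h1 : {z : locField τ | ‖z - 1‖ < min ε 1} = Metric.ball (1 : locField τ) (min ε 1) := by
      ext z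
      rw [Metric.mem_ball, dist_eq_norm]
      rfl
    rw [h1]
    exact Metric.ball_mem_nhds _ (lt_min hε one_pos)
  have hpre : f ⁻¹' {z : locField τ | ‖z - 1‖ < min ε 1} ∈ 𝓝 (S, T) := by
    apply hf.preimage_mem_nhds
    rw [hf1]
    exact hU
  obtain ⟨⟨s, t⟩, hst⟩ := (DenseRange.prodMap (denseRange_toLoc τ) (denseRange_toLoc τ)).exists_mem_open
    isOpen_interior ⟨(S, T), mem_interior_iff_mem_nhds.mpr hpre⟩
  have hst0 : Prod.map (toLoc τ) (toLoc τ) (s, t) ∈
      f ⁻¹' {z : locField τ | ‖z - 1‖ < min ε 1} := interior_subset hst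
  have hst' : ‖f (toLoc τ s, toLoc τ t) - 1‖ < min ε 1 := hst0
  have hc0 : s ^ 2 - (a : K) * t ^ 2 ≠ 0 := by
    intro h0
    have h1 : toLoc τ s ^ 2 - toLoc τ (a : K) * toLoc τ t ^ 2 = 0 := by
      rw [← map_pow, ← map_pow, ← map_mul, ← map_sub, h0, map_zero]
    have h2 : f (toLoc τ s, toLoc τ t) = 0 := by
      change toLoc τ (b : K) / (toLoc τ s ^ 2 - toLoc τ (a : K) * toLoc τ t ^ 2) = 0
      rw [h1, div_zero]
    rw [h2, zero_sub, norm_neg, norm_one] at hst'
    exact absurd (hst'.trans_le (min_le_right _ _)) (lt_irrefl _)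
  refine ⟨s, t, Units.mk0 _ hc0, rfl, ?_⟩
  rw [mem_locPow_placeOf_iff two_ne_zero]
  apply hnear
  have h3 : toLoc τ ((b / Units.mk0 _ hc0 : Kˣ) : K) = f (toLoc τ s, toLoc τ t) := by
    change _ = toLoc τ (b : K) / (toLoc τ s ^ 2 - toLoc τ (a : K) * toLoc τ t ^ 2)
    rw [Units.val_div_eq_div_val, Units.val_mk0, map_div₀, map_sub, map_mul, map_pow, map_pow]
  rw [h3]
  exact hst'.trans_le (min_le_left _ _)

end Local

/-- **The kernel of `(a, ·)_v`**: if `(a, b)_v = 1` then `b = c * (local square)` with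
`c = s² - a t²`, `s`, `t` in `K`. -/
theorem mem_norm_mul_locPow {K : Type} [Field K] [NumberField K] (LS : LocalSymbols 2 K)
    (v : HeightOneSpectrum (𝓞 K)) (a b : Kˣ) (h : LS.sym v a b = 1) :
    ∃ s t : K, ∃ c : Kˣ, (c : K) = s ^ 2 - a * t ^ 2 ∧ b / c ∈ locPow 2 v := by
  obtain ⟨q, hq, τ, rfl⟩ := exists_prime_placeOf_eq v
  apply exists_approx τ
  by_cases ha : a ∈ locPow 2 (placeOf τ)
  · -- `a` is a local square: the form represents everything
    rw [mem_locPow_placeOf_iff two_ne_zero] at ha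
    obtain ⟨r, hr⟩ := ha
    have hr0 : r ≠ 0 := by
      rintro rfl
      rw [zero_pow two_ne_zero] at hr
      exact (map_ne_zero (toLoc τ)).mpr a.ne_zero hr.symm
    have h2 : (2 : locField τ) ≠ 0 := two_ne_zero
    refine ⟨(toLoc τ (b : K) + 1) / 2, (toLoc τ (b : K) - 1) / (2 * r), ?_⟩
    rw [coe_toLocU, coe_toLocU, ← hr]
    field_simp
    ring
  · -- index two
    have hskew : ∀ y ∈ locPow 2 (placeOf τ), LS.sym (placeOf τ) a y = 1 := by
      intro y hy
      have h1 := LS.skew (placeOf τ) a y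
      rwa [(LS.mem_locPow_iff _ _).mp hy a, mul_one] at h1
    set P : Subgroup Kˣ := (nQ (toLocU τ a)).comap (toLocU τ) with hP
    set M : Subgroup Kˣ := (LS.sym (placeOf τ) a).ker with hM
    have hPM : P ≤ M := by
      intro x hx
      obtain ⟨s, t, c, hc, hxc⟩ := exists_approx τ (Subgroup.mem_comap.mp hx)
      rw [hM, MonoidHom.mem_ker]
      have h1 : x = (x / c) * c := by rw [div_mul_cancel]
      rw [h1, map_mul, hskew _ hxc, one_mul]
      exact LS.norm_mem _ _ _ (isNormFrom_two_of hc)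
    have hMt : M ≠ ⊤ := by
      intro htop
      apply ha
      rw [LS.mem_locPow_iff]
      intro x
      have : x ∈ M := by rw [htop]; trivial
      exact this
    have hns : ∀ b : (locField τ)ˣ, b ^ 2 ≠ toLocU τ a := by
      intro b hb
      apply ha
      rw [mem_locPow_placeOf_iff two_ne_zero]
      exact ⟨(b : locField τ), by rw [← coe_toLocU, ← hb, Units.val_pow_eq_pow_val]⟩
    have hidx := index_nQ (q := q) (locField τ) hns
    have hPidx : P.index ∣ 2 := by
      rw [hP, Subgroup.index_comap, ← hidx]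
      exact Subgroup.relIndex_dvd_index_of_normal _ _
    have h1 : P.relIndex M * M.index = P.index := Subgroup.relIndex_mul_index hPM
    have hM1 : M.index ≠ 1 := by rwa [Ne, Subgroup.index_eq_one]
    have hM2 : M.index ∣ 2 := (Dvd.intro_left _ h1).trans hPidx
    have hM3 : M.index = 2 := ((Nat.dvd_prime Nat.prime_two).mp hM2).resolve_left hM1
    have hP3 : P.index = 2 := by
      refine ((Nat.dvd_prime Nat.prime_two).mp hPidx).resolve_left fun h2 => ?_
      rw [h2, hM3] at h1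
      omega
    rw [hP3, hM3] at h1
    have h2 : P.relIndex M = 1 := by omega
    rw [Subgroup.relIndex_eq_one] at h2
    exact Subgroup.mem_comap.mp (h2 (show b ∈ M from h))

end Fermat.Agent.Cor.HM
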