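import Fermat.Agent.Corollaries.HM.Square
import Fermat.Agent.Corollaries.HM.LocalNorm

/-!
# Isotropic forms over `K_v` in terms of local symbols
-/

set_option autoImplicit false

namespace Fermat.Agent.Cor.HM

open IsDedekindDomain NumberField WithZero
open Fermat.Agent.CFT.Global Fermat.Agent.CFT.Global2 Fermat.Agent.LT.Ext

section Rep

variable {K : Type*} [Field K] [NumberField K]

/-- `e` is represented by `<a, b>` at `v`, in terms of symbols. -/
def Rep (LS : LocalSymbols 2 K) (v : HeightOneSpectrum (𝓞 K)) (a b e : Kˣ) : Prop :=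
  LS.sym v (-(a * b)) (a * e) = 1

variable {LS : LocalSymbols 2 K} {v : HeightOneSpectrum (𝓞 K)}

lemma sq_mem_locPow (x : Kˣ) : x * x ∈ locPow 2 v := by
  rw [← sq]
  exact pow_mem_locPow 2 v x

/-- `<a, b>` represents everything if `-ab` is a square. -/
lemma rep_of_mem {a b : Kˣ} (h : -(a * b) ∈ locPow 2 v) (e : Kˣ) : Rep LS v a b e :=
  LS.sym_eq_one_of_left h

lemma rep_left (a b : Kˣ) : Rep LS v a b a := LS.sym_eq_one_of_right (sq_mem_locPow a)

lemma rep_of_adic {a b e : Kˣ} {x y z : v.adicCompletion K} (hz : z ≠ 0)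
    (h : algebraMap K (v.adicCompletion K) a * x ^ 2 + algebraMap K (v.adicCompletion K) b * y ^ 2 =
      algebraMap K (v.adicCompletion K) e * z ^ 2) : Rep LS v a b e := by
  refine sym_eq_one_of_adic LS _ _ ⟨algebraMap K (v.adicCompletion K) a * x / z, y / z, ?_⟩
  rw [Units.val_mul, Units.val_neg, Units.val_mul, map_neg, map_mul, map_mul]
  field_simp
  linear_combination -h

lemma mem_locPow_of_adic {a b : Kˣ} {x y : v.adicCompletion K} (hxy : ¬ (x = 0 ∧ y = 0))
    (h : algebraMap K (v.adicCompletion K) a * x ^ 2 +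
      algebraMap K (v.adicCompletion K) b * y ^ 2 = 0) : -(a * b) ∈ locPow 2 v := by
  have ha : algebraMap K (v.adicCompletion K) a ≠ 0 := (_root_.map_ne_zero _).mpr a.ne_zero
  have hb : algebraMap K (v.adicCompletion K) b ≠ 0 := (_root_.map_ne_zero _).mpr b.ne_zero
  have hy : y ≠ 0 := by
    rintro rfl
    apply hxy
    have h1 : algebraMap K (v.adicCompletion K) a * x ^ 2 = 0 := by simpa using h
    exact ⟨by simpa [ha] using h1, rfl⟩
  rw [mem_locPow_two_iff]
  refine ⟨algebraMap K (v.adicCompletion K) a * x / y, ?_⟩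
  rw [Units.val_neg, Units.val_mul, map_neg, map_mul]
  field_simp
  linear_combination -h

/-- three variables -/
theorem rep_of_adic_three {a b c : Kˣ} {x y z : v.adicCompletion K}
    (h0 : ¬ (x = 0 ∧ y = 0 ∧ z = 0))
    (h : algebraMap K (v.adicCompletion K) a * x ^ 2 + algebraMap K (v.adicCompletion K) b * y ^ 2 +
      algebraMap K (v.adicCompletion K) c * z ^ 2 = 0) : Rep LS v a b (-c) := by
  by_cases hz : z = 0
  · subst hz
    refine rep_of_mem (mem_locPow_of_adic (x := x) (y := y) (fun h' => h0 ⟨h'.1, h'.2, rfl⟩) ?_) _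
    simpa using h
  · refine rep_of_adic (x := x) (y := y) hz ?_
    rw [Units.val_neg, map_neg]
    linear_combination h

/-- four variables -/
theorem rep_of_adic_four {a b c d : Kˣ} {x y z t : v.adicCompletion K}
    (h0 : ¬ (x = 0 ∧ y = 0 ∧ z = 0 ∧ t = 0))
    (h : algebraMap K (v.adicCompletion K) a * x ^ 2 + algebraMap K (v.adicCompletion K) b * y ^ 2 +
      algebraMap K (v.adicCompletion K) c * z ^ 2 +
      algebraMap K (v.adicCompletion K) d * t ^ 2 = 0) :
    ∃ e : Kˣ, Rep LS v a b e ∧ Rep LS v c d (-e) := by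
  by_cases he : algebraMap K (v.adicCompletion K) a * x ^ 2 +
      algebraMap K (v.adicCompletion K) b * y ^ 2 = 0
  · by_cases hxy : x = 0 ∧ y = 0
    · refine ⟨a, rep_left a b, rep_of_mem (mem_locPow_of_adic (x := z) (y := t)
        (fun h' => h0 ⟨hxy.1, hxy.2, h'.1, h'.2⟩) ?_) _⟩
      linear_combination h - he
    · refine ⟨-c, rep_of_mem (mem_locPow_of_adic hxy he) _, ?_⟩
      rw [neg_neg]
      exact rep_left c d
  · obtain ⟨e, β, hβ, hE⟩ := exists_eq_mul_sq he
    refine ⟨e, rep_of_adic (x := x * β) (y := y * β) (z := 1) one_ne_zero ?_,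
      rep_of_adic (x := z * β) (y := t * β) (z := 1) one_ne_zero ?_⟩
    · rw [← hE]
      ring
    · rw [Units.val_neg, map_neg, ← hE]
      linear_combination β ^ 2 * h

end Rep

end Fermat.Agent.Cor.HM
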