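import Mathlib

/-!
# Norm forms and base change

`NormOver K A F c`: `c ∈ F` is a norm from the algebra `F ⊗ A` over `F` (`A` a finite algebra over the
field `K`, `F` a field over `K`).
-/

set_option autoImplicit false

namespace Fermat.Agent.Cor.HN

open TensorProduct Module

/-- `c` is a norm from the `F`-algebra `F ⊗[K] A`. -/
def NormOver (K A : Type*) [Field K] [CommRing A] [Algebra K A] (F : Type*) [Field F] [Algebra K F]
    (c : F) : Prop := ∃ z : F ⊗[K] A, Algebra.norm F z = c

section

variable {K A : Type*} [Field K] [CommRing A] [Algebra K A] {F : Type*} [Field F] [Algebra K F]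
  {ι : Type*} [Fintype ι] [DecidableEq ι]

/-- The norm form of `A` in the basis `b`, evaluated in `F`. -/
noncomputable def nf (b : Basis ι K A) (x : ι → F) : F :=
  (∑ i, x i • (Algebra.leftMulMatrix b (b i)).map (algebraMap K F)).det

theorem leftMulMatrix_basis (b : Basis ι K A) (a : A) :
    Algebra.leftMulMatrix (Algebra.TensorProduct.basis F b) ((1 : F) ⊗ₜ[K] a) =
      (Algebra.leftMulMatrix b a).map (algebraMap K F) := by
  ext i j
  rw [Algebra.leftMulMatrix_eq_repr_mul, Matrix.map_apply, Algebra.leftMulMatrix_eq_repr_mul,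
    Algebra.TensorProduct.basis_apply, Algebra.TensorProduct.tmul_mul_tmul, one_mul,
    Algebra.TensorProduct.basis_repr_tmul, one_smul, Finsupp.mapRange_apply]

theorem norm_eq_nf (b : Basis ι K A) (x : ι → F) :
    Algebra.norm F (∑ i, x i • ((1 : F) ⊗ₜ[K] b i)) = nf b x := by
  rw [Algebra.norm_eq_matrix_det (Algebra.TensorProduct.basis F b), map_sum, nf]
  congr 1
  refine Finset.sum_congr rfl fun i _ => ?_
  rw [map_smul, leftMulMatrix_basis]

theorem normOver_iff (b : Basis ι K A) (c : F) : NormOver K A F c ↔ ∃ x : ι → F, nf b x = c := by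
  constructor
  · rintro ⟨z, hz⟩
    refine ⟨(Algebra.TensorProduct.basis F b).repr z, ?_⟩
    rw [← norm_eq_nf, ← hz]
    congr 1
    conv_rhs => rw [← (Algebra.TensorProduct.basis F b).sum_repr z]
    refine Finset.sum_congr rfl fun i _ => ?_
    rw [Algebra.TensorProduct.basis_apply]
  · rintro ⟨x, hx⟩
    exact ⟨_, (norm_eq_nf b x).trans hx⟩

theorem nf_map {G : Type*} [Field G] [Algebra K G] (φ : F →ₐ[K] G) (b : Basis ι K A)
    (x : ι → F) : nf b (fun i => φ (x i)) = φ (nf b x) := by
  rw [nf, nf, AlgHom.map_det]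
  congr 1
  ext i j
  rw [AlgHom.mapMatrix_apply, Matrix.map_apply, Matrix.sum_apply, Matrix.sum_apply, map_sum]
  refine Finset.sum_congr rfl fun k _ => ?_
  rw [Matrix.smul_apply, Matrix.smul_apply, Matrix.map_apply, Matrix.map_apply, smul_eq_mul,
    smul_eq_mul, map_mul, AlgHom.commutes]

theorem continuous_nf [TopologicalSpace F] [IsTopologicalRing F] (b : Basis ι K A) :
    Continuous (nf b : (ι → F) → F) := by
  refine Continuous.matrix_det ?_
  exact continuous_finsetSum _ fun i _ => (continuous_apply i).smul continuous_const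

end

section

variable {K A : Type*} [Field K] [CommRing A] [Algebra K A] {F : Type*} [Field F] [Algebra K F]

theorem normOver_self (c : K) : NormOver K A K c ↔ ∃ z : A, Algebra.norm K z = c := by
  constructor
  · rintro ⟨z, hz⟩
    exact ⟨Algebra.TensorProduct.lid K A z, by rw [Algebra.norm_eq_of_algEquiv, hz]⟩
  · rintro ⟨z, hz⟩
    exact ⟨(Algebra.TensorProduct.lid K A).symm z, by rw [Algebra.norm_eq_of_algEquiv, hz]⟩

theorem NormOver.congr {B : Type*} [CommRing B] [Algebra K B] (e : A ≃ₐ[K] B) {c : F}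
    (h : NormOver K A F c) : NormOver K B F c := by
  obtain ⟨z, hz⟩ := h
  exact ⟨Algebra.TensorProduct.congr (AlgEquiv.refl : F ≃ₐ[F] F) e z, by
    rw [Algebra.norm_eq_of_algEquiv, hz]⟩

theorem NormOver.map [Module.Finite K A] {G : Type*} [Field G] [Algebra K G] (φ : F →ₐ[K] G)
    {c : F} (h : NormOver K A F c) : NormOver K A G (φ c) := by
  classical
  rw [normOver_iff (Module.finBasis K A)] at h ⊢
  obtain ⟨x, rfl⟩ := h
  exact ⟨_, nf_map φ _ x⟩

/-- Global norms are local norms. -/
theorem NormOver.of_norm [Module.Finite K A] {c : K} (h : ∃ z : A, Algebra.norm K z = c) :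
    NormOver K A F (algebraMap K F c) :=
  ((normOver_self c).mpr h).map (Algebra.ofId K F)

theorem normOver_baseChange (K' : Type*) [Field K'] [Algebra K K'] [Algebra K' F]
    [IsScalarTower K K' F] (c : F) : NormOver K' (K' ⊗[K] A) F c ↔ NormOver K A F c := by
  constructor
  · rintro ⟨z, hz⟩
    exact ⟨Algebra.TensorProduct.cancelBaseChange K K' F F A z, by
      rw [Algebra.norm_eq_of_algEquiv, hz]⟩
  · rintro ⟨z, hz⟩
    exact ⟨(Algebra.TensorProduct.cancelBaseChange K K' F F A).symm z, by
      rw [Algebra.norm_eq_of_algEquiv, hz]⟩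

theorem NormOver.mul {c d : F} (hc : NormOver K A F c) (hd : NormOver K A F d) :
    NormOver K A F (c * d) := by
  obtain ⟨z, hz⟩ := hc
  obtain ⟨w, hw⟩ := hd
  exact ⟨z * w, by rw [map_mul, hz, hw]⟩

theorem NormOver.pow_finrank [Module.Finite K A] (c : F) :
    NormOver K A F (c ^ finrank K A) := by
  refine ⟨algebraMap F _ c, ?_⟩
  rw [Algebra.norm_algebraMap_of_basis (Algebra.TensorProduct.basis F (Module.finBasis K A)),
    Fintype.card_fin]

/-- Weak approximation for norms: a norm from `F ⊗ A`, `K` dense in `F`, is close to a norm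
from `A`. -/
theorem exists_approx_norm [Module.Finite K A] [TopologicalSpace F] [IsTopologicalRing F]
    (hd : DenseRange (algebraMap K F)) {b : Kˣ} (h : NormOver K A F (algebraMap K F b))
    {U : Set F} (hU : U ∈ nhds (1 : F)) (h0 : (0 : F) ∉ U) :
    ∃ c : Kˣ, (∃ z : A, Algebra.norm K z = c) ∧ algebraMap K F ((c / b : Kˣ) : K) ∈ U := by
  classical
  rw [normOver_iff (Module.finBasis K A)] at h
  obtain ⟨x, hx⟩ := h
  have hb0 : algebraMap K F b ≠ 0 := (_root_.map_ne_zero _).mpr b.ne_zero
  let f : (Fin (finrank K A) → F) → F := fun y => nf (Module.finBasis K A) y * (algebraMap K F b)⁻¹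
  have hf : Continuous f := (continuous_nf _).mul continuous_const
  have hfx : f x = 1 := by
    change nf _ x * _ = 1
    rw [hx, mul_inv_cancel₀ hb0]
  have hpre : f ⁻¹' U ∈ nhds x := hf.continuousAt.preimage_mem_nhds (by rwa [hfx])
  have hdense : DenseRange (Pi.map (fun _ : Fin (finrank K A) => (algebraMap K F : K → F))) :=
    DenseRange.piMap fun _ => hd
  obtain ⟨_, h1, y, rfl⟩ := mem_closure_iff_nhds.mp (hdense x) _ hpre
  have h2 : f (Pi.map (fun _ => (algebraMap K F : K → F)) y) =
      algebraMap K F (nf (Module.finBasis K A) y * (b : K)⁻¹) := by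
    change nf _ (fun i => algebraMap K F (y i)) * _ = _
    have h3 := nf_map (Algebra.ofId K F) (Module.finBasis K A) y
    rw [map_mul, map_inv₀]
    congr 1
  have hU1 : f (Pi.map (fun _ => (algebraMap K F : K → F)) y) ∈ U := h1
  rw [h2] at hU1
  have hc0 : nf (Module.finBasis K A) y ≠ 0 := by
    intro h3
    rw [h3, zero_mul, map_zero] at hU1
    exact h0 hU1
  refine ⟨Units.mk0 _ hc0, (normOver_self _).mp ((normOver_iff (Module.finBasis K A) _).mpr
    ⟨y, rfl⟩), ?_⟩
  rw [Units.val_div_eq_div_val, Units.val_mk0, div_eq_mul_inv]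
  exact hU1

end

end Fermat.Agent.Cor.HN
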