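import Fermat.Agent.LT.AdicInt
import Fermat.Agent.CFT.Global.Approx
import Fermat.Agent.CFT.Bridge.NormBase
import Fermat.Agent.Corollaries.HM.NormForm

/-!
# Powers and norms in the completions of a number field

* `exists_pow_eq_of_near_one`: elements of `K_v` close to `1` are `n`-th powers;
* `mem_locPow_iff_adic`: `x ∈ locPow n v` iff `x` is an `n`-th power in `K_v`;
* `exists_norm_of_pow`: every element is a norm from `k[X] / (X ^ n - r ^ n)`;
* `exists_approx_adic`: weak approximation for norms.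
-/

set_option autoImplicit false

namespace Fermat.Agent.Cor.HN

open IsDedekindDomain NumberField WithZero Polynomial TensorProduct
open Fermat.Agent.CFT.Global Fermat.Agent.LT.Ext

section Near

variable {K : Type*} [Field K] [NumberField K] {v : HeightOneSpectrum (𝓞 K)}

theorem natCast_ne_zero' {n : ℕ} (hn : n ≠ 0) : (n : v.adicCompletion K) ≠ 0 := by
  have h : algebraMap K (v.adicCompletion K) n ≠ 0 := by
    rw [Ne, map_eq_zero, Nat.cast_eq_zero]
    exact hn
  rwa [map_natCast] at h

/-- Elements of `K_v` close to `1` are `n`-th powers. -/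
theorem exists_pow_eq_of_near_one {n : ℕ} (hn : n ≠ 0) {z : v.adicCompletion K}
    (hz : Valued.v (z - 1) < Valued.v ((n : v.adicCompletion K) ^ 2)) :
    ∃ y : v.adicCompletion K, y ^ n = z := by
  have hN : (n : v.adicCompletion K) ≠ 0 := natCast_ne_zero' hn
  have hN2 : ((n : v.adicCompletion K) ^ 2) ≠ 0 := pow_ne_zero _ hN
  have hm : Valued.v ((z - 1) / (n : v.adicCompletion K) ^ 2) < 1 := by
    rw [map_div₀]
    exact (div_lt_one₀ (zero_lt_iff.mpr ((Valuation.ne_zero_iff _).mpr hN2))).mpr hz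
  let m : v.adicCompletionIntegers K := ⟨(z - 1) / (n : v.adicCompletion K) ^ 2, hm.le⟩
  have hmm : m ∈ IsLocalRing.maximalIdeal (v.adicCompletionIntegers K) :=
    (mem_maximalIdeal m).mpr hm
  have hmz : z = 1 + (n : v.adicCompletion K) ^ 2 * (m : v.adicCompletion K) := by
    change z = 1 + (n : v.adicCompletion K) ^ 2 * ((z - 1) / (n : v.adicCompletion K) ^ 2)
    field_simp
    ring
  by_cases hm0 : m = 0
  · refine ⟨1, ?_⟩
    rw [hmz, hm0, one_pow]
    simp
  have hnO : (n : v.adicCompletionIntegers K) ≠ 0 := by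
    intro h
    apply hN
    have := congrArg Subtype.val h
    simpa using this
  set c : v.adicCompletionIntegers K := n * m with hc
  have hc0 : c ≠ 0 := mul_ne_zero hnO hm0
  obtain ⟨k, hk⟩ := Polynomial.powAddExpansion (X : (v.adicCompletionIntegers K)[X]) (C c) n
  have hkdeg : k.degree < n := by
    have h1 : k * C (c ^ 2) = (X + C c) ^ n - X ^ n - (n : (v.adicCompletionIntegers K)[X]) *
        X ^ (n - 1) * C c := by
      rw [hk, C_pow]
      ring
    have h2 : (k * C (c ^ 2)).degree = k.degree := by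
      rw [degree_mul, degree_C (pow_ne_zero 2 hc0), add_zero]
    rw [← h2, h1]
    refine lt_of_le_of_lt (degree_sub_le _ _) (max_lt ?_ ?_)
    · have h3 : ((X + C c) ^ n : (v.adicCompletionIntegers K)[X]).degree = n := by
        rw [degree_pow, degree_X_add_C]
        simp
      rw [← h3]
      refine degree_sub_lt_left ?_ ?_ ?_
      · rw [h3, degree_X_pow]
      · intro h
        rw [h, degree_zero] at h3
        exact absurd h3 (by simp)
      · rw [((monic_X_add_C c).pow n).leadingCoeff, (monic_X_pow n).leadingCoeff]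
    · have h3 : (n : (v.adicCompletionIntegers K)[X]) * X ^ (n - 1) * C c =
          C (n * c) * X ^ (n - 1) := by
        have h4 : C ((n : v.adicCompletionIntegers K) * c) =
          C (n : v.adicCompletionIntegers K) * C c := C_mul
        rw [h4, map_natCast, mul_right_comm]
      rw [h3]
      refine lt_of_le_of_lt (degree_C_mul_X_pow_le _ _) ?_
      exact_mod_cast Nat.sub_lt (Nat.pos_of_ne_zero hn) one_pos
  let f : (v.adicCompletionIntegers K)[X] := X ^ n - (X ^ (n - 1) + C m * k)
  have hf : f.Monic := by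
    refine (monic_X_pow n).sub_of_left ?_
    rw [degree_X_pow]
    refine lt_of_le_of_lt (degree_add_le _ _) (max_lt ?_ ?_)
    · rw [degree_X_pow]
      exact_mod_cast Nat.sub_lt (Nat.pos_of_ne_zero hn) one_pos
    · refine lt_of_le_of_lt (degree_mul_le _ _) ?_
      refine lt_of_le_of_lt (add_le_add degree_C_le le_rfl) ?_
      rwa [zero_add]
  have h0 : f.eval 1 = -(m * k.eval 1) := by
    simp only [f, eval_sub, eval_add, eval_mul, eval_pow, eval_X, eval_C, one_pow]
    ring
  have h1 : f.derivative.eval 1 = 1 - m * k.derivative.eval 1 := by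
    obtain ⟨j, rfl⟩ : ∃ j, n = j + 1 := ⟨n - 1, by omega⟩
    simp only [f, derivative_sub, derivative_add, derivative_X_pow, derivative_C_mul, eval_sub,
      eval_add, eval_mul, eval_pow, eval_X, eval_C, one_pow, Nat.add_sub_cancel]
    push_cast
    ring
  obtain ⟨w, hw, hw1⟩ := HenselianLocalRing.is_henselian f hf 1
    (by rw [h0]; exact neg_mem (Ideal.mul_mem_right _ _ hmm))
    (by
      rw [h1]
      by_contra hcon
      have h2 : (1 : v.adicCompletionIntegers K) - m * k.derivative.eval 1 ∈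
        IsLocalRing.maximalIdeal _ := hcon
      have h3 := add_mem h2 (Ideal.mul_mem_right (k.derivative.eval 1) _ hmm)
      rw [sub_add_cancel] at h3
      exact (Ideal.ne_top_iff_one _).mp (IsLocalRing.maximalIdeal.isMaximal _).ne_top h3)
  have hwu : (w : v.adicCompletion K) ≠ 0 := by
    intro h
    have hw0 : w = 0 := Subtype.ext h
    rw [hw0, zero_sub] at hw1
    have h3 := neg_mem hw1
    rw [neg_neg] at h3
    exact (Ideal.ne_top_iff_one _).mp (IsLocalRing.maximalIdeal.isMaximal _).ne_top h3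
  have hw' : w ^ n - (w ^ (n - 1) + m * k.eval w) = 0 := by
    have h2 : f.eval w = 0 := hw
    simpa [f] using h2
  have hk' : (w + c) ^ n = w ^ n + n * w ^ (n - 1) * c + k.eval w * c ^ 2 := by
    have h2 := congrArg (eval w) hk
    simp only [eval_pow, eval_add, eval_mul, eval_X, eval_C, eval_natCast] at h2
    exact h2
  have hfin : (w + c) ^ n = (1 + (n : v.adicCompletionIntegers K) ^ 2 * m) * w ^ n := by
    rw [hk', hc]
    linear_combination -(n : v.adicCompletionIntegers K) ^ 2 * m * hw'
  have hfin2 := congrArg Subtype.val hfin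
  have hfin3 : ((w : v.adicCompletion K) + (c : v.adicCompletion K)) ^ n =
      (1 + (n : v.adicCompletion K) ^ 2 * (m : v.adicCompletion K)) *
        (w : v.adicCompletion K) ^ n := by
    simpa using hfin2
  refine ⟨((w : v.adicCompletion K) + (c : v.adicCompletion K)) / w, ?_⟩
  rw [div_pow, hfin3, hmz, mul_div_assoc, div_self (pow_ne_zero _ hwu), mul_one]

/-- A neighbourhood of `1` which cuts out `cong v n`. -/
theorem exists_nhds_cong (v : HeightOneSpectrum (𝓞 K)) (n : ℕ) :
    ∃ U ∈ nhds (1 : v.adicCompletion K), (0 : v.adicCompletion K) ∉ U ∧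
      ∀ u : Kˣ, algebraMap K (v.adicCompletion K) u ∈ U → u ∈ cong v n := by
  refine ⟨{u : v.adicCompletion K | Valued.v (u - 1) < exp (-((n : ℤ) + 1))},
    mem_nhds_adic.mpr ⟨_, exp_ne_zero, subset_rfl⟩, ?_, ?_⟩
  · intro h
    have h1 : Valued.v ((0 : v.adicCompletion K) - 1) < exp (-((n : ℤ) + 1)) := h
    rw [zero_sub, Valuation.map_neg, map_one, ← exp_zero, exp_lt_exp] at h1
    omega
  · intro u h
    rw [mem_cong, ← v_algebraMap (v := v), map_sub, map_one]
    exact le_of_lt h

/-- `x ∈ locPow n v` iff `x` is an `n`-th power in `K_v`. -/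
theorem mem_locPow_iff_adic {n : ℕ} (hn : n ≠ 0) (x : Kˣ) :
    x ∈ locPow n v ↔ ∃ y : v.adicCompletion K, y ^ n = algebraMap K (v.adicCompletion K) x := by
  constructor
  · intro h
    rw [mem_locPow] at h
    have hN2 : Valued.v ((n : v.adicCompletion K) ^ 2) ≠ 0 :=
      (Valuation.ne_zero_iff _).mpr (pow_ne_zero _ (natCast_ne_zero' hn))
    obtain ⟨N, hN⟩ := exists_exp_le hN2
    obtain ⟨y, hy⟩ := h N
    have h1 : Valued.v (algebraMap K (v.adicCompletion K) ((x / y ^ n : Kˣ) : K) - 1) <
        Valued.v ((n : v.adicCompletion K) ^ 2) := by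
      rw [← map_one (algebraMap K (v.adicCompletion K)), ← map_sub, v_algebraMap]
      refine lt_of_le_of_lt hy (lt_of_le_of_lt ?_ hN)
      rw [exp_le_exp]
      omega
    obtain ⟨b, hb⟩ := exists_pow_eq_of_near_one hn h1
    refine ⟨b * algebraMap K _ y, ?_⟩
    have h2 : (x : K) = ((x / y ^ n : Kˣ) : K) * (y : K) ^ n := by
      rw [← Units.val_pow_eq_pow_val, ← Units.val_mul, div_mul_cancel]
    rw [mul_pow, hb, ← map_pow, ← map_mul, ← h2]
  · rintro ⟨y, hy⟩
    obtain ⟨N, hN⟩ := exists_cong_le_locPow n hn v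
    have hx0 : algebraMap K (v.adicCompletion K) x ≠ 0 := (_root_.map_ne_zero _).mpr x.ne_zero
    let f : v.adicCompletion K → v.adicCompletion K := fun t =>
      t ^ n * (algebraMap K (v.adicCompletion K) x)⁻¹
    have hf : Continuous f := (continuous_pow n).mul continuous_const
    have hfy : f y = 1 := by
      change y ^ n * _ = 1
      rw [hy, mul_inv_cancel₀ hx0]
    obtain ⟨U, hU, hU0, hUc⟩ := exists_nhds_cong v N
    have hpre : f ⁻¹' U ∈ nhds y := hf.continuousAt.preimage_mem_nhds (by rwa [hfy])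
    obtain ⟨_, h1, ⟨y', rfl⟩⟩ := mem_closure_iff_nhds.mp (v.denseRange_algebraMap K y) _ hpre
    have h2 : f (algebraMap K _ y') = algebraMap K _ (y' ^ n * (x : K)⁻¹) := by
      change algebraMap K _ y' ^ n * _ = _
      rw [map_mul, map_pow, map_inv₀]
    have h3 : f (algebraMap K _ y') ∈ U := h1
    have hy0 : y' ≠ 0 := by
      rintro rfl
      rw [h2, zero_pow hn, zero_mul, map_zero] at h3
      exact hU0 h3
    rw [h2] at h3
    have h4 : (Units.mk0 y' hy0) ^ n / x ∈ locPow n v := by
      apply hN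
      apply hUc
      rw [Units.val_div_eq_div_val, Units.val_pow_eq_pow_val, Units.val_mk0, div_eq_mul_inv]
      exact h3
    have h5 := mul_mem (inv_mem h4) (pow_mem_locPow n v (Units.mk0 y' hy0))
    rwa [inv_div, div_mul_cancel] at h5

end Near

section Pow

/-- Every element is a norm from `k[X] / (X ^ n - r ^ n)`. -/
theorem exists_norm_of_pow {k : Type*} [Field k] {n : ℕ} (hn : (n : k) ≠ 0) {r : k}
    (hr : r ≠ 0) (x : k) :
    ∃ z : AdjoinRoot (X ^ n - C (r ^ n)), Algebra.norm k z = x := by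
  have hn0 : 0 < n := Nat.pos_of_ne_zero (by rintro rfl; simp at hn)
  have hf : (X ^ n - C (r ^ n) : k[X]) ≠ 0 := X_pow_sub_C_ne_zero hn0 _
  let pb := AdjoinRoot.powerBasis hf
  set t : AdjoinRoot (X ^ n - C (r ^ n)) := AdjoinRoot.root _ with ht
  have htn : t ^ n = algebraMap k _ (r ^ n) := by
    have h := AdjoinRoot.eval₂_root (X ^ n - C (r ^ n))
    rw [eval₂_sub, eval₂_X_pow, eval₂_C, sub_eq_zero] at h
    exact h
  let e : AdjoinRoot (X ^ n - C (r ^ n)) :=
    algebraMap k _ ((n : k)⁻¹) * ∑ i ∈ Finset.range n, algebraMap k _ (r⁻¹ ^ i) * t ^ i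
  have he : e * t = algebraMap k _ r * e := by
    have h1 : (∑ i ∈ Finset.range n, algebraMap k (AdjoinRoot (X ^ n - C (r ^ n))) (r⁻¹ ^ i) *
        t ^ i) * t = algebraMap k _ r *
          ∑ i ∈ Finset.range n, algebraMap k _ (r⁻¹ ^ (i + 1)) * t ^ (i + 1) := by
      rw [Finset.sum_mul, Finset.mul_sum]
      refine Finset.sum_congr rfl fun i _ => ?_
      rw [mul_assoc, ← pow_succ, ← mul_assoc, ← map_mul]
      congr 2
      rw [pow_succ]
      field_simp
    have h2 : ∑ i ∈ Finset.range n, algebraMap k (AdjoinRoot (X ^ n - C (r ^ n)))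
        (r⁻¹ ^ (i + 1)) * t ^ (i + 1) =
          ∑ i ∈ Finset.range n, algebraMap k _ (r⁻¹ ^ i) * t ^ i := by
      have h3 := Finset.sum_range_succ (fun i => algebraMap k (AdjoinRoot (X ^ n - C (r ^ n)))
        (r⁻¹ ^ i) * t ^ i) n
      have h4 := Finset.sum_range_succ' (fun i => algebraMap k (AdjoinRoot (X ^ n - C (r ^ n)))
        (r⁻¹ ^ i) * t ^ i) n
      rw [h3] at h4
      rw [htn, ← map_mul, inv_pow, inv_mul_cancel₀ (pow_ne_zero n hr), map_one, pow_zero,
        pow_zero, map_one, mul_one] at h4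
      exact (add_right_cancel h4).symm
    change _ * _ * t = _
    rw [mul_assoc, h1, h2]
    ring
  have hej : ∀ j : ℕ, e * t ^ j = algebraMap k _ (r ^ j) * e := by
    intro j
    induction j with
    | zero => rw [pow_zero, pow_zero, map_one, mul_one, one_mul]
    | succ j ih =>
      rw [pow_succ, ← mul_assoc, ih, mul_assoc, he, pow_succ, map_mul]
      ring
  -- evaluation at `r`
  let ev : AdjoinRoot (X ^ n - C (r ^ n)) →ₐ[k] k :=
    AdjoinRoot.liftAlgHom _ (Algebra.ofId k k) r (by
      rw [eval₂_sub, eval₂_X_pow, eval₂_C]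
      exact sub_self _)
  have hevt : ev t = r := AdjoinRoot.liftAlgHom_root ..
  have heve : ev e = 1 := by
    change ev (_ * _) = 1
    rw [map_mul, map_sum, AlgHom.commutes]
    have h1 : ∀ i ∈ Finset.range n, ev (algebraMap k _ (r⁻¹ ^ i) * t ^ i) = 1 := by
      intro i _
      rw [map_mul, AlgHom.commutes, Algebra.algebraMap_self, RingHom.id_apply, map_pow, hevt,
        ← mul_pow, inv_mul_cancel₀ hr, one_pow]
    rw [Finset.sum_congr rfl h1, Finset.sum_const, Finset.card_range, nsmul_eq_mul, mul_one,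
      Algebra.algebraMap_self, RingHom.id_apply, inv_mul_cancel₀ hn]
  have hgen : pb.gen = t := AdjoinRoot.powerBasis_gen hf
  have hbas : ∀ i, pb.basis i = t ^ (i : ℕ) := fun i => by rw [PowerBasis.basis_eq_pow, hgen]
  refine ⟨1 + algebraMap k _ (x - 1) * e, ?_⟩
  rw [Algebra.norm_eq_matrix_det pb.basis]
  have hmat : Algebra.leftMulMatrix pb.basis (1 + algebraMap k _ (x - 1) * e) =
      1 + Matrix.replicateCol Unit (fun i => (x - 1) * pb.basis.repr e i) *
        Matrix.replicateRow Unit (fun j : Fin pb.dim => r ^ (j : ℕ)) := by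
    rw [map_add, map_one, map_mul, AlgHom.commutes]
    congr 1
    ext i j
    rw [← Algebra.smul_def, Matrix.smul_apply,
      Algebra.leftMulMatrix_eq_repr_mul, hbas, hej, ← Algebra.smul_def, map_smul,
      Finsupp.smul_apply, smul_eq_mul, smul_eq_mul, Matrix.mul_apply]
    simp only [Finset.univ_unique, Matrix.replicateCol_apply, Matrix.replicateRow_apply,
      Finset.sum_singleton]
    ring
  rw [hmat, Matrix.det_one_add_replicateCol_mul_replicateRow]
  have hsum : ev e = ∑ i, pb.basis.repr e i * r ^ (i : ℕ) := by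
    conv_lhs => rw [← pb.basis.sum_repr e]
    rw [map_sum]
    refine Finset.sum_congr rfl fun i _ => ?_
    rw [map_smul, hbas, map_pow ev, hevt, smul_eq_mul]
  have hdot : (fun j : Fin pb.dim => r ^ (j : ℕ)) ⬝ᵥ (fun i => (x - 1) * pb.basis.repr e i) =
      (x - 1) * ev e := by
    rw [hsum, dotProduct, Finset.mul_sum]
    refine Finset.sum_congr rfl fun i _ => ?_
    ring
  rw [hdot, heve]
  ring

variable {K F : Type*} [Field K] [Field F] [Algebra K F]

theorem normOver_adjoinRoot_iff {f : K[X]} (hf : f ≠ 0) (c : F) :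
    NormOver K (AdjoinRoot f) F c ↔
      ∃ z : AdjoinRoot (f.map (algebraMap K F)), Algebra.norm F z = c := by
  let e := AlgEquiv.ofBijective _ (Fermat.Agent.CFT.Bridge.adjoinRootComp_bijective (L := F) f hf)
  constructor
  · rintro ⟨z, hz⟩
    exact ⟨e z, by rw [Algebra.norm_eq_of_algEquiv, hz]⟩
  · rintro ⟨z, hz⟩
    exact ⟨e.symm z, by rw [Algebra.norm_eq_of_algEquiv, hz]⟩

/-- Every element is a norm from `F[X]/(X^n - a)` if `a` is an `n`-th power in `F`. -/
theorem normOver_of_pow {n : ℕ} (hn : (n : F) ≠ 0) {a : Kˣ} {r : F}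
    (hr : r ^ n = algebraMap K F a) (c : F) :
    NormOver K (AdjoinRoot (X ^ n - C (a : K))) F c := by
  have hn0 : 0 < n := Nat.pos_of_ne_zero (by rintro rfl; simp at hn)
  have hr0 : r ≠ 0 := by
    rintro rfl
    rw [zero_pow hn0.ne'] at hr
    exact (_root_.map_ne_zero (algebraMap K F)).mpr a.ne_zero hr.symm
  rw [normOver_adjoinRoot_iff (X_pow_sub_C_ne_zero hn0 _)]
  have he : (X ^ n - C (a : K) : K[X]).map (algebraMap K F) = X ^ n - C (r ^ n) := by
    rw [Polynomial.map_sub, Polynomial.map_pow, map_X, map_C, hr]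
  rw [he]
  exact exists_norm_of_pow hn hr0 c

end Pow

section Approx

variable {K : Type*} [Field K] [NumberField K] {A : Type*} [CommRing A] [Algebra K A]
  [Module.Finite K A]

/-- A norm over `K_v` is a norm over `K` up to `cong v n`. -/
theorem exists_approx_adic (v : HeightOneSpectrum (𝓞 K)) (n : ℕ) {b : Kˣ}
    (h : NormOver K A (v.adicCompletion K) (algebraMap K _ b)) :
    ∃ c : Kˣ, (∃ z : A, Algebra.norm K z = c) ∧ b / c ∈ cong v n := by
  obtain ⟨U, hU, hU0, hUc⟩ := exists_nhds_cong v n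
  obtain ⟨c, hc, h1⟩ := exists_approx_norm (v.denseRange_algebraMap K) h hU hU0
  refine ⟨c, hc, ?_⟩
  have h2 := inv_mem (hUc _ h1)
  rwa [inv_div] at h2

end Approx

end Fermat.Agent.Cor.HN
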