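import Fermat.Agent.Corollaries.HM.InjK
import Fermat.Agent.Corollaries.HM.Main

/-!
# Hilbert's reciprocity law over a number field with real places

`K` an arbitrary number field, `LS` its local symbols (`p = 2`), `pf LS a b = ∑_v (a, b)_v` the sum
over the finite places, as an element of `ZMod 2`.  From the approximation theorem and the
restricted product formula (`pf LS a c = 0` for `c` totally positive) we deduce
`pf LS a b = ∑_σ [σ a < 0 ∧ σ b < 0]`, the sum over the real embeddings (`pf_eq_card_of`).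

* The value `pf LS a b` depends only on the signs of `a` and `b`.
* If no real embedding is negative at both `a` and `b`, we may assume `a + b = 1`, and all the
  symbols are trivial.
* So `pf LS a b = ∑_σ ε_σ [σ a < 0 ∧ σ b < 0]` for some `ε_σ`.  For a suitable large set `S` of
  places the `S`-units form an isotropic subgroup of `∏_{v ∈ S} K_vˣ / 2 × {± 1} ^ {σ | ε_σ = 1}` and
  this forces all `ε_σ` to be `1`.
-/

set_option autoImplicit false
set_option linter.unusedSectionVars false

namespace Fermat.Agent.Cor.HM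

open IsDedekindDomain NumberField WithZero
open Fermat.Agent.CFT.Global (locPow E mem_E AboveP ClTrivial powE mem_powE index_powE
  nonempty_places pow_mem_locPow LocalSymbols symVec symVec_apply symVec_mul card_sq_le
  exists_cong_le_locPow mem_cong cong cong_anti)
open Fermat.Agent.CFT.Global2 (isNormFrom_two_iff inputs)
open Fermat.Agent.CFT.SUnits (ord valuation_eq_exp_neg_ord)

/-! ### The signs -/

section Sign

lemma zmod_two_eq_zero {t : ZMod 2} (h : t ≠ 1) : t = 0 := by
  revert t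
  decide

variable {K : Type*} [Field K]

open Classical in
/-- the sign of `a` at the real embedding `σ` as an element of `ZMod 2` -/
noncomputable def sg (σ : K →+* ℝ) (a : Kˣ) : ZMod 2 := if σ a < 0 then 1 else 0

lemma sg_eq_one_iff {σ : K →+* ℝ} {a : Kˣ} : sg σ a = 1 ↔ σ a < 0 := by
  rw [sg]
  split_ifs with h
  · simp [h]
  · simp [h]

lemma sg_eq_zero_iff {σ : K →+* ℝ} {a : Kˣ} : sg σ a = 0 ↔ 0 < σ a := by
  have h0 : σ a ≠ 0 := (map_ne_zero σ).mpr a.ne_zero
  rw [sg]
  split_ifs with h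
  · simp [h.le]
  · simp only [true_iff]
    exact lt_of_le_of_ne (not_lt.mp h) h0.symm

lemma sg_mul (σ : K →+* ℝ) (a b : Kˣ) : sg σ (a * b) = sg σ a + sg σ b := by
  have ha : σ a ≠ 0 := (map_ne_zero σ).mpr a.ne_zero
  have hb : σ b ≠ 0 := (map_ne_zero σ).mpr b.ne_zero
  have e : σ ((a * b : Kˣ) : K) = σ a * σ b := by rw [Units.val_mul, map_mul]
  rcases lt_or_gt_of_ne ha with h1 | h1 <;> rcases lt_or_gt_of_ne hb with h2 | h2
  · rw [sg_eq_one_iff.mpr h1, sg_eq_one_iff.mpr h2, sg_eq_zero_iff.mpr (by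
      rw [e]
      exact mul_pos_of_neg_of_neg h1 h2)]
    decide
  · rw [sg_eq_one_iff.mpr h1, sg_eq_zero_iff.mpr h2, sg_eq_one_iff.mpr (by
      rw [e]
      exact mul_neg_of_neg_of_pos h1 h2), add_zero]
  · rw [sg_eq_zero_iff.mpr h1, sg_eq_one_iff.mpr h2, sg_eq_one_iff.mpr (by
      rw [e]
      exact mul_neg_of_pos_of_neg h1 h2), zero_add]
  · rw [sg_eq_zero_iff.mpr h1, sg_eq_zero_iff.mpr h2, sg_eq_zero_iff.mpr (by
      rw [e]
      exact mul_pos h1 h2), add_zero]

lemma sg_one (σ : K →+* ℝ) : sg σ 1 = 0 := sg_eq_zero_iff.mpr (by simp)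

lemma sg_congr {σ : K →+* ℝ} {a b : Kˣ} (h : σ a < 0 ↔ σ b < 0) : sg σ a = sg σ b := by
  rw [sg, sg]
  simp only [h]

end Sign

/-! ### The sum of the finite symbols -/

section Pf

universe u

variable {K : Type u} [Field K] [NumberField K] (LS : LocalSymbols 2 K)

/-- the sum of the symbols at the finite places -/
noncomputable def pf (a b : Kˣ) : ZMod 2 := (symVec LS two_ne_zero a b).sum fun _ n => n

lemma pf_eq_sum {U : Finset (HeightOneSpectrum (𝓞 K))} {a b : Kˣ}
    (hU : ∀ v, v ∉ U → LS.sym v a b = 1) : pf LS a b = ∑ v ∈ U, (LS.sym v a b).toAdd := by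
  rw [pf, Finsupp.sum_of_support_subset (s := U) _ (by
    intro v hv
    by_contra h
    rw [Finsupp.mem_support_iff, symVec_apply, hU v h] at hv
    exact hv rfl) _ (fun v _ => rfl)]
  rfl

lemma sym_comm (v : HeightOneSpectrum (𝓞 K)) (a b : Kˣ) : LS.sym v a b = LS.sym v b a := by
  have h := LS.skew v a b
  revert h
  generalize LS.sym v a b = s
  generalize LS.sym v b a = t
  revert s t
  decide

lemma pf_comm (a b : Kˣ) : pf LS a b = pf LS b a := by
  have h : symVec LS two_ne_zero a b = symVec LS two_ne_zero b a := by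
    ext v
    rw [symVec_apply, symVec_apply, sym_comm]
  rw [pf, pf, h]

lemma pf_mul_right (a b c : Kˣ) : pf LS a (b * c) = pf LS a b + pf LS a c := by
  rw [pf, symVec_mul, Finsupp.sum_add_index' (fun _ => rfl) (fun _ _ _ => rfl)]
  rfl

lemma pf_mul_left (a b c : Kˣ) : pf LS (a * b) c = pf LS a c + pf LS b c := by
  rw [pf_comm, pf_mul_right, pf_comm LS c a, pf_comm LS c b]

lemma pf_eq_zero_of_forall {a b : Kˣ} (h : ∀ v, LS.sym v a b = 1) : pf LS a b = 0 := by
  rw [pf_eq_sum LS (U := ∅) (fun v _ => h v), Finset.sum_empty]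

/-- the Steinberg relation -/
lemma pf_steinberg {a b : Kˣ} (h : (a : K) + b = 1) : pf LS a b = 0 := by
  refine pf_eq_zero_of_forall LS fun v => LS.norm_mem v a b ((isNormFrom_two_iff a b).mpr ⟨1, 1, ?_⟩)
  linear_combination h

end Pf

/-! ### Approximation -/

section Approx

variable (K : Type*) [Field K] [NumberField K]

/-- weak approximation at finite places and at the real places -/
def ApproxStmt : Prop :=
  ∀ (S : Finset (HeightOneSpectrum (𝓞 K))) (f : HeightOneSpectrum (𝓞 K) → K) (n : ℕ)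
    (g : (K →+* ℝ) → ℝ) (ε : ℝ), 0 < ε → ∃ x : K,
      (∀ v ∈ S, v.valuation K (x - f v) ≤ exp (-(n : ℤ))) ∧ ∀ σ : K →+* ℝ, |σ x - g σ| < ε

variable {K}

/-- elements of `Kˣ` with given signs and given classes modulo local squares -/
theorem exists_sign_locPow (hA : ApproxStmt K) (S : Finset (HeightOneSpectrum (𝓞 K)))
    (y : HeightOneSpectrum (𝓞 K) → Kˣ) (s : (K →+* ℝ) → Prop) :
    ∃ z : Kˣ, (∀ v ∈ S, z / y v ∈ locPow 2 v) ∧ ∀ σ : K →+* ℝ, (σ z < 0 ↔ s σ) := by
  classical
  obtain ⟨v₀⟩ := nonempty_places (K := K)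
  choose m hm using fun v : HeightOneSpectrum (𝓞 K) => exists_cong_le_locPow 2 two_ne_zero v
  set S' := insert v₀ S with hS'
  set n : ℕ := S'.sup fun v => m v + 1 + (ord v (y v)).natAbs with hn
  obtain ⟨x, hx, hxs⟩ := hA S' (fun v => y v) n (fun σ => if s σ then -1 else 1) (1 / 2)
    (by norm_num)
  have hle : ∀ v ∈ S', v.valuation K (x - y v) ≤
      exp (-((m v : ℤ) + 1)) * v.valuation K (y v : K) := by
    intro v hv
    refine (hx v hv).trans ?_
    rw [valuation_eq_exp_neg_ord, ← exp_add, exp_le_exp]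
    have h1 : m v + 1 + (ord v (y v)).natAbs ≤ n :=
      Finset.le_sup (f := fun v => m v + 1 + (ord v (y v)).natAbs) hv
    omega
  have hlt : ∀ v ∈ S', v.valuation K (x - y v) < v.valuation K (y v : K) := by
    intro v hv
    refine (hle v hv).trans_lt ?_
    rw [valuation_eq_exp_neg_ord, ← exp_add, exp_lt_exp]
    omega
  have hx0 : x ≠ 0 := by
    rintro rfl
    have h1 := hlt v₀ (Finset.mem_insert_self _ _)
    rw [zero_sub, Valuation.map_neg] at h1
    exact lt_irrefl _ h1
  refine ⟨Units.mk0 x hx0, fun v hv => hm v ?_, fun σ => ?_⟩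
  · have hv' : v ∈ S' := Finset.mem_insert_of_mem hv
    rw [mem_cong]
    have hy0 : (y v : K) ≠ 0 := (y v).ne_zero
    have e : ((Units.mk0 x hx0 / y v : Kˣ) : K) - 1 = (x - y v) / y v := by
      rw [Units.val_div_eq_div_val, Units.val_mk0, sub_div, div_self hy0]
    rw [e, map_div₀]
    have h0 : v.valuation K (y v : K) ≠ 0 := (Valuation.ne_zero_iff _).mpr hy0
    exact (div_le_iff₀ (zero_lt_iff.mpr h0)).mpr (hle v hv')
  · rw [Units.val_mk0]
    have h1 := abs_lt.mp (hxs σ)
    by_cases hs : s σ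
    · rw [if_pos hs] at h1
      exact iff_of_true (by linarith [h1.2]) hs
    · rw [if_neg hs] at h1
      exact iff_of_false (by linarith [h1.1]) hs

end Approx

/-! ### The product formula up to constants -/

section Main

universe u

variable {K : Type u} [Field K] [NumberField K] (LS : LocalSymbols 2 K) (hA : ApproxStmt K)
  (hP : ∀ a c : Kˣ, (∀ σ : K →+* ℝ, 0 < σ c) → pf LS a c = 0)

include hP in
lemma pf_congr_right {a b b' : Kˣ} (h : ∀ σ : K →+* ℝ, sg σ b = sg σ b') :
    pf LS a b = pf LS a b' := by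
  have h1 : pf LS a (b * b') = 0 := hP a _ fun σ => by
    rw [← sg_eq_zero_iff, sg_mul, h σ]
    exact CharTwo.add_self_eq_zero _
  rw [pf_mul_right] at h1
  exact CharTwo.add_eq_zero.mp h1

include hP in
lemma pf_congr {a a' b b' : Kˣ} (ha : ∀ σ : K →+* ℝ, sg σ a = sg σ a')
    (hb : ∀ σ : K →+* ℝ, sg σ b = sg σ b') : pf LS a b = pf LS a' b' := by
  rw [pf_congr_right LS hP hb, pf_comm, pf_congr_right LS hP ha, pf_comm]

include hA hP in
/-- elements which are not simultaneously negative -/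
lemma pf_eq_zero_of_disjoint {a b : Kˣ} (h : ∀ σ : K →+* ℝ, ¬ (σ a < 0 ∧ σ b < 0)) :
    pf LS a b = 0 := by
  classical
  by_cases hR : Nonempty (K →+* ℝ)
  swap
  · exact hP a b fun σ => absurd ⟨σ⟩ hR
  obtain ⟨σ₀⟩ := hR
  obtain ⟨x, -, hx⟩ := hA ∅ (fun _ => 0) 0
    (fun σ => if σ a < 0 then -1 else if σ b < 0 then 2 else 1 / 2) (1 / 4) (by norm_num)
  have hx' : ∀ σ : K →+* ℝ, (σ x < 0 ↔ σ a < 0) ∧ (1 < σ x ↔ σ b < 0) ∧ σ x ≠ 0 ∧ σ x ≠ 1 := by
    intro σ
    have h1 := abs_lt.mp (hx σ)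
    by_cases ha : σ a < 0
    · have hb : ¬ σ b < 0 := fun hb => h σ ⟨ha, hb⟩
      rw [if_pos ha] at h1
      refine ⟨iff_of_true (by linarith [h1.2]) ha, iff_of_false (by linarith [h1.2]) hb,
        ?_, ?_⟩ <;> · intro h2; rw [h2] at h1; linarith [h1.1, h1.2]
    · rw [if_neg ha] at h1
      by_cases hb : σ b < 0
      · rw [if_pos hb] at h1
        refine ⟨iff_of_false (by linarith [h1.1]) ha, iff_of_true (by linarith [h1.1]) hb,
          ?_, ?_⟩ <;> · intro h2; rw [h2] at h1; linarith [h1.1, h1.2]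
      · rw [if_neg hb] at h1
        refine ⟨iff_of_false (by linarith [h1.1]) ha, iff_of_false (by linarith [h1.2]) hb,
          ?_, ?_⟩ <;> · intro h2; rw [h2] at h1; linarith [h1.1, h1.2]
  have hx0 : x ≠ 0 := by
    rintro rfl
    exact (hx' σ₀).2.2.1 (map_zero _)
  have hx1 : 1 - x ≠ 0 := by
    intro h1
    apply (hx' σ₀).2.2.2
    rw [← sub_eq_zero.mp h1, map_one]
  rw [← pf_steinberg LS (a := Units.mk0 x hx0) (b := Units.mk0 (1 - x) hx1) (by simp)]
  refine pf_congr LS hP (fun σ => sg_congr ?_) (fun σ => sg_congr ?_)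
  · rw [Units.val_mk0]
    exact (hx' σ).1.symm
  · rw [Units.val_mk0, map_sub, map_one, sub_neg]
    exact (hx' σ).2.1.symm

include hA in
/-- elements which are negative at exactly one real embedding -/
lemma exists_neg_at : ∃ e : (K →+* ℝ) → Kˣ, ∀ σ τ : K →+* ℝ, (τ (e σ) < 0 ↔ τ = σ) := by
  choose e he using fun σ : K →+* ℝ => exists_sign_locPow hA ∅ (fun _ => 1) (fun τ => τ = σ)
  exact ⟨e, fun σ τ => (he σ).2 τ⟩

include hA hP in
open Classical in
/-- The product formula up to constants. -/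
theorem exists_eps : ∃ ε : (K →+* ℝ) → ZMod 2, ∀ a b : Kˣ,
    pf LS a b = ∑ σ : K →+* ℝ, ε σ * (sg σ a * sg σ b) := by
  obtain ⟨e, he⟩ := exists_neg_at hA
  have hse : ∀ σ τ : K →+* ℝ, sg τ (e σ) = if τ = σ then 1 else 0 := by
    intro σ τ
    split_ifs with h
    · exact sg_eq_one_iff.mpr ((he σ τ).mpr h)
    · exact zmod_two_eq_zero fun h' => h ((he σ τ).mp (sg_eq_one_iff.mp h'))
  refine ⟨fun σ => pf LS (e σ) (e σ), fun a b => ?_⟩
  -- one factor
  have h1 : ∀ (σ : K →+* ℝ) (b : Kˣ), pf LS (e σ) b = pf LS (e σ) (e σ) * sg σ b := by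
    intro σ b
    by_cases hb : σ b < 0
    · have h2 : pf LS (e σ) (b * e σ) = 0 := pf_eq_zero_of_disjoint LS hA hP (by
        rintro τ ⟨h3, h4⟩
        rw [he] at h3
        subst h3
        rw [← sg_eq_one_iff, sg_mul, sg_eq_one_iff.mpr hb, hse, if_pos rfl] at h4
        exact absurd h4 (by decide))
      rw [pf_mul_right] at h2
      rw [sg_eq_one_iff.mpr hb, mul_one]
      exact CharTwo.add_eq_zero.mp h2
    · rw [zmod_two_eq_zero fun h' => hb (sg_eq_one_iff.mp h'), mul_zero]
      refine pf_eq_zero_of_disjoint LS hA hP ?_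
      rintro τ ⟨h4, h5⟩
      rw [he] at h4
      subst h4
      exact hb h5
  -- induction on the number of negative embeddings
  have key : ∀ (n : ℕ) (a : Kˣ), (Finset.univ.filter fun σ : K →+* ℝ => σ a < 0).card = n →
      pf LS a b = ∑ σ : K →+* ℝ, pf LS (e σ) (e σ) * (sg σ a * sg σ b) := by
    intro n
    induction n with
    | zero =>
      intro a ha
      rw [Finset.card_eq_zero, Finset.filter_eq_empty_iff] at ha
      have h3 : ∀ σ : K →+* ℝ, 0 < σ a := fun σ =>
        lt_of_le_of_ne (not_lt.mp (ha (Finset.mem_univ σ))) ((map_ne_zero σ).mpr a.ne_zero).symm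
      rw [pf_comm, hP b a h3, Finset.sum_eq_zero]
      intro σ _
      rw [sg_eq_zero_iff.mpr (h3 σ), zero_mul, mul_zero]
    | succ n ih =>
      intro a ha
      obtain ⟨σ, hσ⟩ : (Finset.univ.filter fun σ : K →+* ℝ => σ a < 0).Nonempty := by
        rw [← Finset.card_pos, ha]
        omega
      have hσa : σ a < 0 := (Finset.mem_filter.mp hσ).2
      have h3 : (Finset.univ.filter fun τ : K →+* ℝ => τ ((a * e σ : Kˣ) : K) < 0) =
          (Finset.univ.filter fun σ : K →+* ℝ => σ a < 0).erase σ := by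
        ext τ
        rw [Finset.mem_erase, Finset.mem_filter, Finset.mem_filter, ← sg_eq_one_iff, sg_mul, hse]
        simp only [Finset.mem_univ, true_and]
        by_cases hτ : τ = σ
        · subst hτ
          rw [if_pos rfl, sg_eq_one_iff.mpr hσa]
          simp
        · rw [if_neg hτ, add_zero, sg_eq_one_iff]
          simp [hτ]
      have h4 := ih (a * e σ) (by rw [h3, Finset.card_erase_of_mem hσ, ha]; rfl)
      have h5 : pf LS a b = pf LS (a * e σ) b + pf LS (e σ) b := by
        rw [pf_mul_left, add_assoc, CharTwo.add_self_eq_zero, add_zero]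
      have h6 : pf LS (e σ) b = ∑ τ : K →+* ℝ, pf LS (e τ) (e τ) * (sg τ (e σ) * sg τ b) := by
        rw [h1, Finset.sum_eq_single σ]
        · rw [hse, if_pos rfl, one_mul]
        · intro τ _ hτ
          rw [hse, if_neg hτ, zero_mul, mul_zero]
        · intro h
          exact absurd (Finset.mem_univ _) h
      rw [h5, h4, h6, ← Finset.sum_add_distrib]
      refine Finset.sum_congr rfl fun τ _ => ?_
      rw [sg_mul, add_mul, mul_add, add_assoc, CharTwo.add_self_eq_zero, add_zero]
  exact key _ a rfl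

lemma card_real_le : Fintype.card (K →+* ℝ) ≤ InfinitePlace.nrRealPlaces K := by
  classical
  let f : (K →+* ℝ) → {w : InfinitePlace K // w.IsReal} := fun σ =>
    ⟨InfinitePlace.mk (Complex.ofRealHom.comp σ), by
      rw [InfinitePlace.isReal_mk_iff]
      ext x
      simp [ComplexEmbedding.conjugate_coe_eq]⟩
  refine Fintype.card_le_of_injective f fun σ τ h => ?_
  have h1 := InfinitePlace.mk_eq_iff.mp (congrArg Subtype.val h)
  ext x
  rcases h1 with h1 | h1
  · have h2 : ((σ x : ℝ) : ℂ) = (τ x : ℝ) := RingHom.congr_fun h1 x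
    exact_mod_cast h2
  · have h2 := RingHom.congr_fun h1 x
    rw [ComplexEmbedding.conjugate_coe_eq] at h2
    simp only [RingHom.comp_apply, Complex.ofRealHom_eq_coe, Complex.conj_ofReal] at h2
    exact_mod_cast h2

/-- the subgroup of the elements which are positive at the embeddings in `R` -/
noncomputable def posR (R : Finset (K →+* ℝ)) : Subgroup Kˣ where
  carrier := {x | ∀ σ ∈ R, sg σ x = 0}
  one_mem' := fun σ _ => sg_one σ
  mul_mem' := by
    intro a b ha hb σ hσ
    rw [sg_mul, ha σ hσ, hb σ hσ, add_zero]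
  inv_mem' := by
    intro a ha σ hσ
    have h := sg_mul σ a a⁻¹
    rw [mul_inv_cancel, sg_one, ha σ hσ, zero_add] at h
    exact h.symm

lemma mem_posR {R : Finset (K →+* ℝ)} {x : Kˣ} : x ∈ posR R ↔ ∀ σ ∈ R, sg σ x = 0 := Iff.rfl

lemma index_posR (R : Finset (K →+* ℝ)) : (posR R).index ≠ 0 ∧ (posR R).index ≤ 2 ^ R.card := by
  classical
  let f : Kˣ →* (R → Multiplicative (ZMod 2)) :=
    { toFun := fun x σ => Multiplicative.ofAdd (sg σ.1 x)
      map_one' := by
        funext σ
        change Multiplicative.ofAdd (sg σ.1 1) = 1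
        rw [sg_one]
        rfl
      map_mul' := fun x y => by
        funext σ
        change Multiplicative.ofAdd (sg σ.1 (x * y)) = _
        rw [sg_mul]
        rfl }
  have hf : f.ker = posR R := by
    ext x
    rw [MonoidHom.mem_ker, mem_posR]
    constructor
    · intro h σ hσ
      exact congrFun h ⟨σ, hσ⟩
    · intro h
      funext σ
      exact h σ.1 σ.2
  rw [← hf, Subgroup.index_ker]
  refine ⟨Nat.card_pos.ne', (Subgroup.card_le_card_group _).trans_eq ?_⟩
  rw [Nat.card_pi, Finset.prod_const, Finset.card_univ, Fintype.card_coe]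
  congr 1
  exact Nat.card_zmod 2

include hA hP in
/-- **Hilbert's reciprocity law with real places.** -/
theorem pf_eq_sum_sg (In : Fermat.Agent.CFT.Global.LocalCount.{u} 2) (a b : Kˣ) :
    pf LS a b = ∑ σ : K →+* ℝ, sg σ a * sg σ b := by
  classical
  obtain ⟨ε, hε⟩ := exists_eps LS hA hP
  suffices h1 : ∀ σ, ε σ = 1 by
    rw [hε]
    exact Finset.sum_congr rfl fun σ _ => by rw [h1, one_mul]
  have hp := Nat.prime_two
  have hFp : Fact (Nat.Prime 2) := ⟨hp⟩
  have hζ : IsPrimitiveRoot (-1 : K) 2 := IsPrimitiveRoot.neg_one 0 (by norm_num)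
  obtain ⟨S, -, hSp, -, hinj⟩ := exists_inj_all (K := K) ∅
  set R : Finset (K →+* ℝ) := Finset.univ.filter fun σ => ε σ = 1 with hR
  set P : Subgroup Kˣ := (⨅ v ∈ S, locPow 2 v) ⊓ posR R with hPdef
  have hmemP : ∀ x : Kˣ, x ∈ P ↔ (∀ v ∈ S, x ∈ locPow 2 v) ∧ ∀ σ ∈ R, sg σ x = 0 := by
    intro x
    rw [hPdef, Subgroup.mem_inf, mem_posR]
    simp only [Subgroup.mem_iInf]
  have hcount := In K (-1) hζ S hSp
  have hPi : P.index ≠ 0 := Subgroup.index_inf_ne_zero
    (by rw [hcount]; exact pow_ne_zero _ two_ne_zero) (index_posR R).1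
  have hPle : P.index ≤ 2 ^ (2 * S.card + Module.finrank ℚ K + R.card) := by
    refine Subgroup.index_inf_le.trans ?_
    rw [hcount, pow_add 2 (2 * S.card + Module.finrank ℚ K)]
    exact Nat.mul_le_mul_left _ (index_posR R).2
  set Q := Kˣ ⧸ P with hQ
  have hfin : Finite Q := Nat.finite_of_card_ne_zero hPi
  -- the form
  let B₀ : Kˣ →* Kˣ →* Multiplicative (ZMod 2) :=
    { toFun := fun x =>
        { toFun := fun y => Multiplicative.ofAdd
            (∑ v ∈ S, (LS.sym v x y).toAdd + ∑ σ ∈ R, sg σ x * sg σ y)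
          map_one' := by simp [sg_one]
          map_mul' := fun y z => by
            simp only [map_mul, toAdd_mul, sg_mul, mul_add, Finset.sum_add_distrib, ofAdd_add]
            rw [mul_mul_mul_comm] }
      map_one' := by
        ext y
        simp [sg_one]
      map_mul' := fun x y => by
        ext z
        simp only [map_mul, MonoidHom.mul_apply, toAdd_mul, sg_mul, add_mul,
          Finset.sum_add_distrib, ofAdd_add, MonoidHom.coe_mk, OneHom.coe_mk]
        exact add_add_add_comm _ _ _ _ }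
  have hB₀ : ∀ x y, B₀ x y = Multiplicative.ofAdd
      (∑ v ∈ S, (LS.sym v x y).toAdd + ∑ σ ∈ R, sg σ x * sg σ y) := fun x y => rfl
  have hB₀r : ∀ x, P ≤ (B₀ x).ker := by
    intro x y hy
    rw [hmemP] at hy
    rw [MonoidHom.mem_ker, hB₀, Finset.sum_eq_zero (fun v hv => by
      rw [LS.sym_eq_one_of_right (hy.1 v hv)]
      rfl), Finset.sum_eq_zero (fun σ hσ => by rw [hy.2 σ hσ, mul_zero])]
    rfl
  have hB₀l : ∀ x ∈ P, B₀ x = 1 := by
    intro x hx
    rw [hmemP] at hx
    ext y
    rw [hB₀, Finset.sum_eq_zero (fun v hv => by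
      rw [LS.sym_eq_one_of_left (hx.1 v hv)]
      rfl), Finset.sum_eq_zero (fun σ hσ => by rw [hx.2 σ hσ, zero_mul])]
    rfl
  let B₁ : Kˣ →* Q →* Multiplicative (ZMod 2) :=
    { toFun := fun x => QuotientGroup.lift P (B₀ x) (hB₀r x)
      map_one' := by
        ext y
        simp
      map_mul' := fun x y => by
        ext z
        simp }
  let B : Q →* Q →* Multiplicative (ZMod 2) := QuotientGroup.lift P B₁ (by
    intro x hx
    change B₁ x = 1
    ext y
    change B₀ x y = 1
    rw [hB₀l x hx]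
    rfl)
  have hB : ∀ x y : Kˣ, B (x : Q) (y : Q) = B₀ x y := fun x y => rfl
  have hBnd : ∀ x : Q, (∀ y, B x y = 1) → x = 1 := by
    intro x
    obtain ⟨x, rfl⟩ := QuotientGroup.mk_surjective x
    intro hx
    rw [QuotientGroup.eq_one_iff, hmemP]
    constructor
    · intro v hv
      rw [LS.mem_locPow_iff]
      intro y
      obtain ⟨z, hz, hzs⟩ := exists_sign_locPow hA S (fun w => if w = v then y else 1)
        (fun _ => False)
      have h3 := hx (z : Q)
      rw [hB, hB₀] at h3
      have h4 : ∑ w ∈ S, (LS.sym w x z).toAdd = (LS.sym v x y).toAdd := by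
        rw [Finset.sum_eq_single_of_mem v hv]
        · have h5 := LS.sym_eq_one_of_right (a := x) (hz v hv)
          rw [if_pos rfl, _root_.map_div, div_eq_one] at h5
          rw [h5]
        · intro w hw hwv
          have h5 := LS.sym_eq_one_of_right (a := x) (hz w hw)
          rw [if_neg hwv, div_one] at h5
          rw [h5, toAdd_one]
      have h6 : ∑ σ ∈ R, sg σ x * sg σ z = 0 := Finset.sum_eq_zero fun σ _ => by
        have h7 : sg σ z = 0 :=
          zmod_two_eq_zero fun h' => (hzs σ).mp (sg_eq_one_iff.mp h')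
        rw [h7, mul_zero]
      rw [h4, h6, add_zero] at h3
      exact h3
    · intro σ hσ
      obtain ⟨z, hz, hzs⟩ := exists_sign_locPow hA S (fun _ => 1) (fun τ => τ = σ)
      have h3 := hx (z : Q)
      rw [hB, hB₀] at h3
      have h4 : ∑ w ∈ S, (LS.sym w x z).toAdd = 0 := Finset.sum_eq_zero fun w hw => by
        have h5 := LS.sym_eq_one_of_right (a := x) (hz w hw)
        rw [div_one] at h5
        rw [h5, toAdd_one]
      have h6 : ∑ τ ∈ R, sg τ x * sg τ z = sg σ x := by
        rw [Finset.sum_eq_single_of_mem σ hσ]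
        · rw [sg_eq_one_iff.mpr ((hzs σ).mpr rfl), mul_one]
        · intro τ _ hτ
          have h7 : sg τ z = 0 :=
            zmod_two_eq_zero fun h' => hτ ((hzs τ).mp (sg_eq_one_iff.mp h'))
          rw [h7, mul_zero]
      rw [h4, h6, zero_add] at h3
      exact h3
  have hQp : ∀ x : Q, x ^ 2 = 1 := by
    intro x
    obtain ⟨x, rfl⟩ := QuotientGroup.mk_surjective x
    rw [← QuotientGroup.mk_pow, QuotientGroup.eq_one_iff, hmemP]
    refine ⟨fun v _ => pow_mem_locPow 2 v x, fun σ _ => ?_⟩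
    rw [sq, sg_mul]
    exact CharTwo.add_self_eq_zero _
  have hiso : ∀ x ∈ (E S).map (QuotientGroup.mk' P), ∀ y ∈ (E S).map (QuotientGroup.mk' P),
      B x y = 1 := by
    rintro _ ⟨x, hx, rfl⟩ _ ⟨y, hy, rfl⟩
    change B (x : Q) (y : Q) = 1
    rw [hB, hB₀, ← pf_eq_sum LS (fun v hv => LS.sym_unit hSp hx hy hv), hε]
    have h4 : ∑ σ : K →+* ℝ, ε σ * (sg σ x * sg σ y) = ∑ σ ∈ R, sg σ x * sg σ y := by
      rw [hR, Finset.sum_filter]
      refine Finset.sum_congr rfl fun σ _ => ?_
      split_ifs with h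
      · rw [h, one_mul]
      · rw [zmod_two_eq_zero h, zero_mul]
    rw [h4, CharTwo.add_self_eq_zero]
    rfl
  have hcard : Nat.card ((E S).map (QuotientGroup.mk' P)) ^ 2 ≤ Nat.card Q :=
    card_sq_le (Q := Kˣ ⧸ P) 2 hQp B hBnd _ hiso
  have hcW : Nat.card ((E S).map (QuotientGroup.mk' P)) = 2 ^ (Units.rank K + 1 + S.card) := by
    rw [← Subgroup.relIndex_ker, QuotientGroup.ker_mk', Subgroup.relIndex, ← index_powE hp hζ S]
    congr 1
    ext y
    rw [Subgroup.mem_subgroupOf, mem_powE hp, hmemP]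
    constructor
    · exact fun h => hinj y y.2 h.1
    · rintro ⟨b, hb⟩
      rw [← hb]
      refine ⟨fun v _ => pow_mem_locPow 2 v b, fun σ _ => ?_⟩
      rw [sq, sg_mul]
      exact CharTwo.add_self_eq_zero _
  have h1 : 2 ^ ((Units.rank K + 1 + S.card) * 2) ≤
      2 ^ (2 * S.card + Module.finrank ℚ K + R.card) := by
    rw [pow_mul, ← hcW]
    exact hcard.trans hPle
  have h2 := (Nat.pow_le_pow_iff_right (by norm_num : 1 < 2)).mp h1
  have h3 := InfinitePlace.card_add_two_mul_card_eq_rank K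
  have h4 := InfinitePlace.card_eq_nrRealPlaces_add_nrComplexPlaces K
  have h5 : 0 < Fintype.card (InfinitePlace K) := Fintype.card_pos
  have h6 := card_real_le (K := K)
  have h7 : Fintype.card (K →+* ℝ) ≤ R.card := by
    rw [Units.rank] at h2
    omega
  have h8 : R = Finset.univ :=
    Finset.eq_univ_of_card R (le_antisymm (Finset.card_le_univ R) h7)
  intro σ
  have h9 : σ ∈ R := by rw [h8]; exact Finset.mem_univ σ
  exact (Finset.mem_filter.mp h9).2

end Main

end Fermat.Agent.Cor.HM
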