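import Fermat.Agent.Corollaries.HM.Five
import Fermat.Agent.Corollaries.HM.RealRecip

/-!
# Weak approximation at finite places and at the real places

`K` a number field: `K` is dense in the product of finitely many completions at finite places and
all its real completions (`approxStmt`).  The set of the `z ∈ K` which are small at the finite
places of `S` is stable under multiplication by `ℤ[1 / q]`, `q` a prime not below `S`; its closure in
`∏_σ ℝ` is therefore a real vector space, and it contains the image of `N 𝓞_K`, which spans by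
Dedekind's independence of characters.
-/

set_option autoImplicit false

namespace Fermat.Agent.Cor.HM

open IsDedekindDomain NumberField WithZero Topology
open Fermat.Agent.CFT.SUnits (ord valuation_eq_exp_neg_ord)

/-- `ℤ[1 / q]` is dense in `ℝ`. -/
lemma dense_int_div_pow {q : ℕ} (hq : 1 < q) :
    Dense {d : ℝ | ∃ (m : ℤ) (k : ℕ), d = m / (q : ℝ) ^ k} := by
  rw [Metric.dense_iff]
  intro x r hr
  have hq' : (1 : ℝ) < q := by exact_mod_cast hq
  obtain ⟨k, hk⟩ := pow_unbounded_of_one_lt (1 / r) hq'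
  have hpos : (0 : ℝ) < (q : ℝ) ^ k := by positivity
  refine ⟨(round (x * (q : ℝ) ^ k) : ℝ) / (q : ℝ) ^ k, ?_, ⟨_, k, rfl⟩⟩
  rw [Metric.mem_ball, Real.dist_eq]
  have h1 : (round (x * (q : ℝ) ^ k) : ℝ) / (q : ℝ) ^ k - x =
      -((x * (q : ℝ) ^ k - round (x * (q : ℝ) ^ k)) / (q : ℝ) ^ k) := by
    field_simp
    ring
  rw [h1, abs_neg, abs_div, abs_of_pos hpos, div_lt_iff₀ hpos]
  have h2 := abs_sub_round (x * (q : ℝ) ^ k)
  have h3 : 1 < r * (q : ℝ) ^ k := by
    rw [div_lt_iff₀ hr] at hk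
    linarith
  linarith

variable {K : Type*} [Field K] [NumberField K]

/-- the real embeddings are linearly independent on the integers of `K` -/
lemma eq_zero_of_forall_sum {c : (K →+* ℝ) → ℝ}
    (h : ∀ x : 𝓞 K, ∑ σ : K →+* ℝ, c σ * σ (x : K) = 0) : c = 0 := by
  classical
  have h1 : ∀ y : K, ∑ σ : K →+* ℝ, c σ * σ y = 0 := by
    intro y
    obtain ⟨a, b, hb, rfl⟩ := IsFractionRing.div_surjective (A := 𝓞 K) y
    obtain ⟨m, hm, t, ht⟩ : ∃ m : ℕ, m ≠ 0 ∧ ∃ t : 𝓞 K, b * t = m := by
      have hb0 : b ≠ 0 := nonZeroDivisors.ne_zero hb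
      have hI : Ideal.span {b} ≠ ⊥ := by rwa [Ne, Ideal.span_singleton_eq_bot]
      refine ⟨Ideal.absNorm (Ideal.span {b}), by rwa [Ne, Ideal.absNorm_eq_zero_iff], ?_⟩
      obtain ⟨t, ht⟩ := Ideal.mem_span_singleton'.mp (Ideal.absNorm_mem (Ideal.span {b}))
      exact ⟨t, by rw [mul_comm, ht]⟩
    have hmK : (m : K) ≠ 0 := by exact_mod_cast hm
    have hbK : (algebraMap (𝓞 K) K b) ≠ 0 := IsFractionRing.to_map_ne_zero_of_mem_nonZeroDivisors hb
    have h2 : algebraMap (𝓞 K) K a / algebraMap (𝓞 K) K b = ((a * t : 𝓞 K) : K) / m := by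
      have h3 : (m : K) = algebraMap (𝓞 K) K b * algebraMap (𝓞 K) K t := by
        rw [← map_mul, ht, map_natCast]
      rw [div_eq_div_iff hbK hmK, h3]
      change _ = algebraMap (𝓞 K) K (a * t) * _
      rw [map_mul]
      ring
    rw [h2]
    have h3 : ∀ σ : K →+* ℝ, c σ * σ (((a * t : 𝓞 K) : K) / m) =
        c σ * σ ((a * t : 𝓞 K) : K) / m := by
      intro σ
      rw [map_div₀, map_natCast, mul_div_assoc]
    rw [Finset.sum_congr rfl fun σ _ => h3 σ, ← Finset.sum_div, h, zero_div]
  have hinj : Function.Injective (fun σ : K →+* ℝ => (σ : K →* ℝ)) := fun σ τ h => by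
    ext x
    exact DFunLike.congr_fun h x
  have hli := (linearIndependent_monoidHom K ℝ).comp _ hinj
  rw [Fintype.linearIndependent_iff] at hli
  funext σ
  refine hli c ?_ σ
  funext y
  rw [Finset.sum_apply]
  exact h1 y

variable (K) in
/-- the image of `K` in the product of the real completions -/
def realVec (x : K) : (K →+* ℝ) → ℝ := fun σ => σ x

lemma span_realVec (N : ℕ) (hN : N ≠ 0) :
    Submodule.span ℝ (Set.range fun x : 𝓞 K => realVec K ((N : K) * (x : K))) = ⊤ := by
  classical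
  by_contra hcon
  obtain ⟨f, hf0, hf⟩ := Submodule.exists_le_ker_of_lt_top _ (lt_top_iff_ne_top.mpr hcon)
  apply hf0
  have hf1 : ∀ v : (K →+* ℝ) → ℝ, f v = ∑ σ : K →+* ℝ, f (Pi.single σ 1) * v σ := by
    intro v
    conv_lhs => rw [← Finset.univ_sum_single v]
    rw [map_sum]
    refine Finset.sum_congr rfl fun σ _ => ?_
    have h1 : Pi.single σ (v σ) = v σ • (Pi.single σ (1 : ℝ) : (K →+* ℝ) → ℝ) := by
      rw [← Pi.single_smul', smul_eq_mul, mul_one]
    rw [h1, map_smul, smul_eq_mul, mul_comm]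
  have hc : (fun σ : K →+* ℝ => f (Pi.single σ 1)) = 0 := by
    refine eq_zero_of_forall_sum fun x => ?_
    have h1 : f (realVec K ((N : K) * (x : K))) = 0 :=
      hf (Submodule.subset_span ⟨x, rfl⟩)
    rw [hf1] at h1
    have h2 : ∀ σ : K →+* ℝ, f (Pi.single σ 1) * realVec K ((N : K) * (x : K)) σ =
        (N : ℝ) * (f (Pi.single σ 1) * σ (x : K)) := by
      intro σ
      rw [realVec, map_mul, map_natCast]
      ring
    rw [Finset.sum_congr rfl fun σ _ => h2 σ, ← Finset.mul_sum] at h1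
    exact (mul_eq_zero.mp h1).resolve_left (by exact_mod_cast hN)
  refine LinearMap.ext fun v => ?_
  rw [hf1, LinearMap.zero_apply]
  exact Finset.sum_eq_zero fun σ _ => by rw [congrFun hc σ, Pi.zero_apply, zero_mul]

/-- The elements of `K` which are small at the places of `S` are dense in `∏_σ ℝ`. -/
theorem dense_realVec (S : Finset (HeightOneSpectrum (𝓞 K))) (n : ℕ) :
    Dense (realVec K '' {z : K | ∀ v ∈ S, v.valuation K z ≤ exp (-(n : ℤ))}) := by
  classical
  set Z : Set K := {z : K | ∀ v ∈ S, v.valuation K z ≤ exp (-(n : ℤ))} with hZ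
  -- a prime `q` which is a unit at all places of `S`
  obtain ⟨q, hq1, hqp⟩ := Nat.exists_infinite_primes (∏ v ∈ S, Ideal.absNorm v.asIdeal + 1)
  have hprod : ∏ v ∈ S, Ideal.absNorm v.asIdeal ≠ 0 := by
    rw [Finset.prod_ne_zero_iff]
    intro v _
    rw [Ne, Ideal.absNorm_eq_zero_iff]
    exact v.ne_bot
  have hqS : ∀ v ∈ S, v.valuation K (q : K) = 1 := by
    intro v hv
    have h1 : ((q : ℕ) : 𝓞 K) ∉ v.asIdeal := by
      intro h2
      have hcop : Nat.Coprime q (∏ v ∈ S, Ideal.absNorm v.asIdeal) :=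
        (Nat.Prime.coprime_iff_not_dvd hqp).mpr fun h =>
          absurd (Nat.le_of_dvd (Nat.pos_of_ne_zero hprod) h) (by omega)
      have h3 : ((∏ v ∈ S, Ideal.absNorm v.asIdeal : ℕ) : 𝓞 K) ∈ v.asIdeal := by
        obtain ⟨c, hc⟩ := Finset.dvd_prod_of_mem (fun v : HeightOneSpectrum (𝓞 K) =>
          Ideal.absNorm v.asIdeal) hv
        rw [hc, Nat.cast_mul]
        exact v.asIdeal.mul_mem_right _ (Ideal.absNorm_mem _)
      obtain ⟨a, b, hab⟩ := Nat.isCoprime_iff_coprime.mpr hcop
      apply v.isPrime.ne_top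
      rw [Ideal.eq_top_iff_one]
      have h4 : (1 : 𝓞 K) = (a : 𝓞 K) * (q : 𝓞 K) +
          (b : 𝓞 K) * ((∏ v ∈ S, Ideal.absNorm v.asIdeal : ℕ) : 𝓞 K) := by
        exact_mod_cast congrArg (fun z : ℤ => (z : 𝓞 K)) hab.symm
      rw [h4]
      exact v.asIdeal.add_mem (v.asIdeal.mul_mem_left _ h2) (v.asIdeal.mul_mem_left _ h3)
    have h2 := (v.valuation_eq_one_iff_notMem (K := K)).mpr h1
    rwa [map_natCast] at h2
  -- the closure is a real vector space
  let V : Submodule ℝ ((K →+* ℝ) → ℝ) :=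
    { carrier := closure (realVec K '' Z)
      zero_mem' := subset_closure ⟨0, fun v _ => by rw [map_zero]; exact zero_le, by
        funext σ
        exact map_zero σ⟩
      add_mem' := by
        intro a b ha hb
        refine map_mem_closure₂ (f := fun a b => a + b) continuous_add ha hb ?_
        rintro _ ⟨x, hx, rfl⟩ _ ⟨y, hy, rfl⟩
        refine ⟨x + y, fun v hv => (Valuation.map_add _ _ _).trans (max_le (hx v hv) (hy v hv)), ?_⟩
        funext σ
        exact map_add σ x y
      smul_mem' := by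
        intro c a ha
        have hc : c ∈ closure {d : ℝ | ∃ (m : ℤ) (k : ℕ), d = m / (q : ℝ) ^ k} :=
          dense_int_div_pow hqp.one_lt c
        refine map_mem_closure₂ (f := fun (c : ℝ) (a : (K →+* ℝ) → ℝ) => c • a)
          continuous_smul hc ha ?_
        rintro _ ⟨m, k, rfl⟩ _ ⟨x, hx, rfl⟩
        refine ⟨(m : K) / (q : K) ^ k * x, fun v hv => ?_, ?_⟩
        · rw [map_mul, map_div₀, map_pow, hqS v hv, one_pow, div_one]
          have h1 : v.valuation K (m : K) ≤ 1 := by
            have e : (m : K) = algebraMap (𝓞 K) K (m : 𝓞 K) := (map_intCast _ m).symm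
            rw [e]
            exact v.valuation_le_one _
          calc v.valuation K (m : K) * v.valuation K x ≤ 1 * v.valuation K x :=
                mul_le_mul_left h1 _
            _ ≤ _ := by
                rw [one_mul]
                exact hx v hv
        · funext σ
          change σ ((m : K) / (q : K) ^ k * x) = (m : ℝ) / (q : ℝ) ^ k * σ x
          rw [map_mul, map_div₀, map_pow, map_intCast, map_natCast] }
  -- it contains a spanning set
  obtain ⟨N, hN, hNv⟩ : ∃ N : ℕ, N ≠ 0 ∧ ∀ v ∈ S, v.valuation K (N : K) ≤ exp (-(n : ℤ)) := by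
    refine ⟨(∏ v ∈ S, Ideal.absNorm v.asIdeal) ^ n, pow_ne_zero _ hprod, fun v hv => ?_⟩
    have h3 : ((∏ v ∈ S, Ideal.absNorm v.asIdeal : ℕ) : 𝓞 K) ∈ v.asIdeal := by
      obtain ⟨c, hc⟩ := Finset.dvd_prod_of_mem (fun v : HeightOneSpectrum (𝓞 K) =>
        Ideal.absNorm v.asIdeal) hv
      rw [hc, Nat.cast_mul]
      exact v.asIdeal.mul_mem_right _ (Ideal.absNorm_mem _)
    have h4 : (((∏ v ∈ S, Ideal.absNorm v.asIdeal) ^ n : ℕ) : 𝓞 K) ∈ v.asIdeal ^ n := by
      rw [Nat.cast_pow]
      exact Ideal.pow_mem_pow h3 n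
    rw [← HeightOneSpectrum.intValuation_le_pow_iff_mem,
      ← HeightOneSpectrum.valuation_of_algebraMap (K := K)] at h4
    have e := map_natCast (algebraMap (𝓞 K) K) ((∏ v ∈ S, Ideal.absNorm v.asIdeal) ^ n)
    rw [← e]
    exact h4
  have htop : V = ⊤ := by
    rw [eq_top_iff, ← span_realVec N hN, Submodule.span_le]
    rintro _ ⟨x, rfl⟩
    refine subset_closure ⟨(N : K) * (x : K), fun v hv => ?_, rfl⟩
    rw [map_mul]
    calc v.valuation K (N : K) * v.valuation K (x : K) ≤ v.valuation K (N : K) * 1 :=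
          mul_le_mul_right (v.valuation_le_one x) _
      _ ≤ _ := by
          rw [mul_one]
          exact hNv v hv
  intro t
  have h1 : t ∈ V := by rw [htop]; trivial
  exact h1

/-- **Weak approximation** at finite places and at the real places. -/
theorem approxStmt (K : Type*) [Field K] [NumberField K] : ApproxStmt K := by
  classical
  intro S f n g ε hε
  obtain ⟨x₀, hx₀⟩ := exists_approx_add S f n
  have h1 := Metric.dense_iff.mp (dense_realVec (K := K) S n) (fun σ => g σ - σ x₀) ε hε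
  obtain ⟨_, h2, z, hz, rfl⟩ := h1
  refine ⟨x₀ + z, fun v hv => ?_, fun σ => ?_⟩
  · have e : x₀ + z - f v = (x₀ - f v) + z := by ring
    rw [e]
    exact (Valuation.map_add _ _ _).trans (max_le (hx₀ v hv) (hz v hv))
  · rw [Metric.mem_ball] at h2
    have h3 := (dist_pi_lt_iff hε).mp h2 σ
    rw [Real.dist_eq] at h3
    have e : σ (x₀ + z) - g σ = realVec K z σ - (g σ - σ x₀) := by
      rw [map_add]
      change σ x₀ + σ z - g σ = σ z - _
      ring
    rw [e]
    exact h3

end Fermat.Agent.Cor.HM
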