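import Fermat.Agent.Corollaries.HM.NoHasse
import Fermat.Agent.Corollaries.GW.Field

/-!
# Prime numbers with given quadratic characters

`a`, `b` rational numbers, `a ≠ 0`, `b` and `a b` not squares: there are infinitely many prime numbers
`p` such that `a` is a square in `ℚ_p` and `b` is not.
-/

set_option autoImplicit false

namespace Fermat.Agent.Cor.HN.Biq

open NumberField IsDedekindDomain Polynomial Module
open Fermat.Agent.Cor.ChebK Fermat.Agent.Cor.GW

section Field

variable {K : Type*} [Field K] [NumberField K]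

/-- residue fields of prime order -/
lemma exists_int_sub_mem {p : ℕ} (hp : p.Prime) {v : HeightOneSpectrum (𝓞 K)}
    (hv : Ideal.absNorm v.asIdeal = p) (x : 𝓞 K) : ∃ n : ℤ, x - n ∈ v.asIdeal := by
  have hpf : Fact p.Prime := ⟨hp⟩
  have hpv : (p : 𝓞 K) ∈ v.asIdeal := by
    rw [← hv]
    exact Ideal.absNorm_mem _
  have hcard : Nat.card (𝓞 K ⧸ v.asIdeal) = p := by
    rw [← hv, Ideal.absNorm_apply, Submodule.cardQuot_apply]
  have hfin : Finite (𝓞 K ⧸ v.asIdeal) :=
    Nat.finite_of_card_ne_zero (by rw [hcard]; exact hp.ne_zero)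
  have hnt : Nontrivial (𝓞 K ⧸ v.asIdeal) := Ideal.Quotient.nontrivial_iff.mpr v.isPrime.ne_top
  have hch : CharP (𝓞 K ⧸ v.asIdeal) p := by
    have h0 : ((p : ℕ) : 𝓞 K ⧸ v.asIdeal) = 0 := by
      have := Ideal.Quotient.eq_zero_iff_mem.mpr hpv
      rwa [map_natCast] at this
    have h1 := CharP.ringChar_of_prime_eq_zero hp h0
    rw [← h1]
    infer_instance
  let φ : ZMod p →+* 𝓞 K ⧸ v.asIdeal := ZMod.castHom dvd_rfl _
  have hφ : Function.Injective φ := φ.injective
  have hφs : Function.Surjective φ :=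
    (hφ.bijective_of_nat_card_le (by rw [hcard, Nat.card_zmod])).2
  obtain ⟨y, hy⟩ := hφs (Ideal.Quotient.mk v.asIdeal x)
  obtain ⟨n, rfl⟩ := ZMod.intCast_surjective y
  refine ⟨n, ?_⟩
  rw [← Ideal.Quotient.eq_zero_iff_mem, map_sub, ← hy, map_intCast, map_intCast, sub_self]

end Field

/-- the splitting field of `X ^ 2 - A` -/
lemma quad_of_splitting (A : ℤ) {K : Type*} [Field K] [Algebra ℚ K]
    (hK : IsSplittingField ℚ K (X ^ 2 - C (A : ℚ))) : ∃ r : K, r ^ 2 = (A : K) ∧
      ∀ x : K, ∃ u v : ℚ, x = algebraMap ℚ K u + algebraMap ℚ K v * r := by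
  have hsp := IsSplittingField.splits K (X ^ 2 - C (A : ℚ))
  obtain ⟨r, hr⟩ := Splits.exists_eval_eq_zero hsp
    (by rw [degree_map, degree_X_pow_sub_C (by norm_num)]; norm_num)
  rw [eval_map_algebraMap] at hr
  have hr' : r ^ 2 = (A : K) := by
    simpa [sub_eq_zero] using hr
  refine ⟨r, hr', ?_⟩
  have htop := IsSplittingField.adjoin_rootSet K (X ^ 2 - C (A : ℚ))
  have h0 : (X ^ 2 - C (A : ℚ)) ≠ 0 := X_pow_sub_C_ne_zero (by norm_num) _
  have hle : Algebra.adjoin ℚ (rootSet (X ^ 2 - C (A : ℚ)) K) ≤ Algebra.adjoin ℚ {r} := by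
    rw [Algebra.adjoin_le_iff]
    intro x hx
    rw [mem_rootSet_of_ne h0] at hx
    have hx2 : x ^ 2 = r ^ 2 := by
      rw [hr']
      simpa [sub_eq_zero] using hx
    have h1 : r ∈ Algebra.adjoin ℚ ({r} : Set K) := Algebra.subset_adjoin rfl
    rcases sq_eq_sq_iff_eq_or_eq_neg.mp hx2 with rfl | rfl
    · exact h1
    · exact neg_mem h1
  intro x
  have hx : x ∈ Algebra.adjoin ℚ ({r} : Set K) := hle (by rw [htop]; trivial)
  induction hx using Algebra.adjoin_induction with
  | mem x hx => exact ⟨0, 1, by rw [Set.mem_singleton_iff.mp hx]; simp⟩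
  | algebraMap q => exact ⟨q, 0, by simp⟩
  | add x y _ _ hx hy =>
    obtain ⟨u, v, rfl⟩ := hx
    obtain ⟨u', v', rfl⟩ := hy
    refine ⟨u + u', v + v', ?_⟩
    simp only [map_add]
    ring
  | mul x y _ _ hx hy =>
    obtain ⟨u, v, rfl⟩ := hx
    obtain ⟨u', v', rfl⟩ := hy
    refine ⟨u * u' + A * (v * v'), u * v' + v * u', ?_⟩
    simp only [map_add, map_mul, map_intCast]
    linear_combination (algebraMap ℚ K v * algebraMap ℚ K v') * hr'

/-- the field `ℚ(√A)` -/
lemma exists_quad (A : ℤ) : ∃ (K : Type) (_ : Field K) (_ : NumberField K) (r : 𝓞 K),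
    r ^ 2 = A ∧ ∀ x : K, ∃ u v : ℚ, x = algebraMap ℚ K u + algebraMap ℚ K v * (r : K) := by
  suffices h : ∃ (K : Type) (_ : Field K) (_ : Algebra ℚ K) (_ : FiniteDimensional ℚ K) (r : K),
      r ^ 2 = (A : K) ∧ ∀ x : K, ∃ u v : ℚ, x = algebraMap ℚ K u + algebraMap ℚ K v * r by
    obtain ⟨K, hF, hA, hfin, r, hr, hx⟩ := h
    have hc : CharZero K := algebraRat.charZero K
    obtain rfl : hA = DivisionRing.toRatAlgebra := Subsingleton.elim _ _
    have hN : NumberField K := { to_charZero := hc, to_finiteDimensional := hfin }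
    have hint : IsIntegral ℤ r := by
      refine ⟨X ^ 2 - C A, monic_X_pow_sub_C A two_ne_zero, ?_⟩
      rw [eval₂_sub, eval₂_pow, eval₂_X, eval₂_C, hr, eq_intCast, sub_self]
    obtain ⟨r', rfl⟩ : ∃ r' : 𝓞 K, algebraMap (𝓞 K) K r' = r := ⟨⟨r, hint⟩, rfl⟩
    refine ⟨K, hF, hN, r', ?_, hx⟩
    apply FaithfulSMul.algebraMap_injective (𝓞 K) K
    rw [map_pow, map_intCast]
    exact hr
  exact ⟨(X ^ 2 - C (A : ℚ)).SplittingField, inferInstance, SplittingField.instAlgebra_1 _,
    inferInstance, quad_of_splitting A (IsSplittingField.splittingField _)⟩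

/-- There are infinitely many primes `p` such that `A` is a square modulo `p` and `B` is not. -/
theorem exists_prime_int {A B : ℤ} (hB : ¬ IsSquare (B : ℚ)) (hAB : ¬ IsSquare ((A : ℚ) * B))
    (T : Finset ℕ) : ∃ p : ℕ, p.Prime ∧ p ∉ T ∧ IsSquare (A : ZMod p) ∧ ¬ IsSquare (B : ZMod p) := by
  by_contra hcon
  push Not at hcon
  obtain ⟨K, _, _, r, hr, hK⟩ := exists_quad A
  have hQ : HasDensity {v : HeightOneSpectrum (𝓞 K) | ¬ PowMod 2 (B : 𝓞 K) v} 0 := by
    refine HasDensity.congr_cntP (P := ∅) (T := T) ?_ hasDensity_empty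
    intro p hp hpT
    have h1 : IsEmpty {v : HeightOneSpectrum (𝓞 K) //
        Ideal.absNorm v.asIdeal = p ∧ v ∈ (∅ : Set (HeightOneSpectrum (𝓞 K)))} :=
      ⟨fun v => v.2.2⟩
    have h2 : IsEmpty {v : HeightOneSpectrum (𝓞 K) //
        Ideal.absNorm v.asIdeal = p ∧ v ∈ {v : HeightOneSpectrum (𝓞 K) |
          ¬ PowMod 2 (B : 𝓞 K) v}} := by
      refine ⟨fun ⟨v, hv, hv'⟩ => hv' ?_⟩
      have hpv : (p : 𝓞 K) ∈ v.asIdeal := by
        rw [← hv]
        exact Ideal.absNorm_mem _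
      obtain ⟨n, hn⟩ := exists_int_sub_mem hp hv r
      have hA : IsSquare (A : ZMod p) := by
        refine ⟨(n : ZMod p), ?_⟩
        have h3 : ((A - n * n : ℤ) : 𝓞 K) ∈ v.asIdeal := by
          have e : ((A - n * n : ℤ) : 𝓞 K) = (r - n) * (r + n) := by
            push_cast
            linear_combination -hr
          rw [e]
          exact Ideal.mul_mem_right _ _ hn
        have h4 : (p : ℤ) ∣ A - n * n := by
          by_contra h5
          have h6 : IsCoprime (p : ℤ) (A - n * n) :=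
            ((Nat.prime_iff_prime_int.mp hp).coprime_iff_not_dvd).mpr h5
          obtain ⟨s, t, hst⟩ := h6
          apply v.isPrime.ne_top
          rw [Ideal.eq_top_iff_one]
          have e : (1 : 𝓞 K) = (s : 𝓞 K) * (p : 𝓞 K) + (t : 𝓞 K) * ((A - n * n : ℤ) : 𝓞 K) := by
            have h7 := congrArg (Int.cast : ℤ → 𝓞 K) hst
            push_cast at h7 ⊢
            exact h7.symm
          rw [e]
          exact Ideal.add_mem _ (Ideal.mul_mem_left _ _ hpv) (Ideal.mul_mem_left _ _ h3)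
        have h8 := (ZMod.intCast_zmod_eq_zero_iff_dvd _ _).mpr h4
        push_cast at h8
        exact sub_eq_zero.mp h8
      obtain ⟨m, hm⟩ := hcon p hp hpT hA
      obtain ⟨m, rfl⟩ := ZMod.intCast_surjective m
      have hd : (p : ℤ) ∣ m ^ 2 - B := by
        rw [← ZMod.intCast_zmod_eq_zero_iff_dvd]
        push_cast
        rw [hm, sq, sub_self]
      obtain ⟨k, hk⟩ := hd
      refine ⟨(m : 𝓞 K), ?_⟩
      have e : (m : 𝓞 K) ^ 2 - B = p * k := by exact_mod_cast congrArg (Int.cast : ℤ → 𝓞 K) hk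
      rw [e]
      exact Ideal.mul_mem_right _ _ hpv
    unfold cntP
    rw [Nat.card_of_isEmpty, Nat.card_of_isEmpty]
  obtain ⟨b, hb⟩ := exists_pow_of_not_dvd (n := 2) (by norm_num) (by norm_num) hQ
  obtain ⟨u, v, rfl⟩ := hK b
  have hr' : (r : K) ^ 2 = algebraMap ℚ K A := by
    have := congrArg (algebraMap (𝓞 K) K) hr
    rw [map_pow, map_intCast] at this
    rw [map_intCast]
    exact this
  have hb' : (algebraMap ℚ K u + algebraMap ℚ K v * (r : K)) ^ 2 = algebraMap ℚ K B := by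
    rw [hb, map_intCast]
    exact map_intCast (algebraMap (𝓞 K) K) B
  by_cases huv : u * v = 0
  · rcases mul_eq_zero.mp huv with h | h
    · apply hAB
      refine ⟨A * v, ?_⟩
      apply (algebraMap ℚ K).injective
      rw [h, map_zero] at hb'
      simp only [map_mul] at hb' hr' ⊢
      linear_combination -(algebraMap ℚ K A) * hb' +
        (algebraMap ℚ K A) * (algebraMap ℚ K v) ^ 2 * hr'
    · apply hB
      refine ⟨u, ?_⟩
      apply (algebraMap ℚ K).injective
      rw [h, map_zero] at hb'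
      simp only [map_mul]
      linear_combination -hb'
  · have hr2 : (r : K) = algebraMap ℚ K ((B - u ^ 2 - A * v ^ 2) / (2 * (u * v))) := by
      have h0 : algebraMap ℚ K (2 * (u * v)) ≠ 0 :=
        (_root_.map_ne_zero _).mpr (mul_ne_zero two_ne_zero huv)
      rw [map_div₀, eq_div_iff h0]
      simp only [map_mul, map_sub, map_pow, map_ofNat]
      linear_combination hb' - (algebraMap ℚ K v) ^ 2 * hr'
    apply hB
    refine ⟨u + v * ((B - u ^ 2 - A * v ^ 2) / (2 * (u * v))), ?_⟩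
    apply (algebraMap ℚ K).injective
    rw [map_mul, map_add, map_mul, ← hr2, ← hb']
    ring

/-- a square in `ℚ_p` is a square modulo `p` -/
lemma isSquare_zmod {p : ℕ} [hp : Fact p.Prime] {B : ℤ} (h : IsSquare (B : ℚ_[p])) :
    IsSquare (B : ZMod p) := by
  obtain ⟨y, hy⟩ := h
  have hn : ‖y‖ ≤ 1 := by
    have h1 : ‖y‖ * ‖y‖ ≤ 1 := by
      rw [← norm_mul, ← hy]
      exact Padic.norm_int_le_one B
    by_contra h2
    push Not at h2
    nlinarith
  let z : ℤ_[p] := ⟨y, hn⟩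
  have hz : (B : ℤ_[p]) = z * z := by
    apply PadicInt.ext
    rw [PadicInt.coe_intCast, PadicInt.coe_mul]
    exact hy
  have h3 := congrArg (PadicInt.toZMod (p := p)) hz
  rw [map_intCast, map_mul] at h3
  exact ⟨_, h3⟩

/-- **Primes with given quadratic characters.** -/
theorem exists_prime_padic {a b : ℚ} (ha : a ≠ 0) (hb : ¬ IsSquare b) (hab : ¬ IsSquare (a * b)) :
    ∃ (p : ℕ) (_ : Fact p.Prime), IsSquare (a : ℚ_[p]) ∧ ¬ IsSquare (b : ℚ_[p]) := by
  have hda : (a.den : ℚ) ≠ 0 := by exact_mod_cast a.den_ne_zero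
  have hdb : (b.den : ℚ) ≠ 0 := by exact_mod_cast b.den_ne_zero
  set A : ℤ := a.num * a.den with hA
  set B : ℤ := b.num * b.den with hB
  have eA : (A : ℚ) = a * (a.den : ℚ) ^ 2 := by
    rw [hA]
    push_cast
    have := Rat.num_div_den a
    field_simp at this
    linear_combination (a.den : ℚ) * this
  have eB : (B : ℚ) = b * (b.den : ℚ) ^ 2 := by
    rw [hB]
    push_cast
    have := Rat.num_div_den b
    field_simp at this
    linear_combination (b.den : ℚ) * this
  have hA0 : A ≠ 0 := by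
    intro h0
    rw [h0, Int.cast_zero] at eA
    exact mul_ne_zero ha (pow_ne_zero 2 hda) eA.symm
  obtain ⟨p, hp, hpT, h1, h2⟩ := exists_prime_int (A := A) (B := B) (by
    rintro ⟨r, hr⟩
    apply hb
    refine ⟨r / b.den, ?_⟩
    field_simp
    linear_combination hr - eB) (by
    rintro ⟨r, hr⟩
    apply hab
    refine ⟨r / (a.den * b.den), ?_⟩
    field_simp
    rw [eA, eB] at hr
    linear_combination hr) (insert 2 A.natAbs.primeFactors)
  have hpf : Fact p.Prime := ⟨hp⟩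
  rw [Finset.mem_insert, not_or] at hpT
  have hpA : ¬ (p : ℤ) ∣ A := by
    intro h
    apply hpT.2
    rw [Nat.mem_primeFactors]
    exact ⟨hp, Int.natCast_dvd.mp h, Int.natAbs_ne_zero.mpr hA0⟩
  refine ⟨p, hpf, ?_, ?_⟩
  · obtain ⟨r, hr⟩ := NoHasse.isSquare_padic hpT.1 hpA h1
    refine ⟨r / (a.den : ℚ_[p]), ?_⟩
    have hda' : (a.den : ℚ_[p]) ≠ 0 := by exact_mod_cast a.den_ne_zero
    have eA' : ((A : ℤ) : ℚ_[p]) = a * (a.den : ℚ_[p]) ^ 2 := by exact_mod_cast congrArg (Rat.cast : ℚ → ℚ_[p]) eA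
    field_simp
    rw [← eA', hr, sq]
  · rintro ⟨r, hr⟩
    apply h2
    apply isSquare_zmod
    have eB' : ((B : ℤ) : ℚ_[p]) = b * (b.den : ℚ_[p]) ^ 2 := by exact_mod_cast congrArg (Rat.cast : ℚ → ℚ_[p]) eB
    refine ⟨r * b.den, ?_⟩
    rw [eB', hr]
    ring

end Fermat.Agent.Cor.HN.Biq
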