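import Fermat.Agent.Corollaries.HM.BiquadHolds
import Fermat.Agent.Corollaries.HM.QuadPrimes

/-!
# The Hasse norm principle for biquadratic fields

`a`, `b` rational numbers, `a`, `b`, `a b` not squares, `L = ℚ(√a, √b)`. The Hasse norm principle
holds for `L / ℚ` if and only if none of `a`, `b`, `a b` is a square in `ℚ_p` for some prime `p`.
-/

set_option autoImplicit false

namespace Fermat.Agent.Cor.HN.Biq

open TensorProduct Module
open Fermat.Agent.Cor.Hilb

open Classical in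
/-- A rational number with `(a, x)_v = -1` for `v = p₂, p₃` and `(b, x)_v = -1` for `v = p₁, p₂`. -/
theorem exists_bad {a b : ℚ} (ha : a ≠ 0) (hb : b ≠ 0) {p₁ p₂ p₃ : ℕ} [hp₁ : Fact p₁.Prime]
    [hp₂ : Fact p₂.Prime] [hp₃ : Fact p₃.Prime] (a₁ : IsSquare (a : ℚ_[p₁]))
    (b₁ : ¬ IsSquare (b : ℚ_[p₁])) (ab₂ : IsSquare ((a : ℚ_[p₂]) * b))
    (a₂ : ¬ IsSquare (a : ℚ_[p₂])) (b₃ : IsSquare (b : ℚ_[p₃]))
    (a₃ : ¬ IsSquare (a : ℚ_[p₃])) :
    ∃ x : ℚ, x ≠ 0 ∧
      (∀ p, hilbAt p b x = if p = ⟨p₁, hp₁.out⟩ ∨ p = ⟨p₂, hp₂.out⟩ then -1 else 1) ∧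
      hilbInf b x = 1 := by
  have h12 : p₁ ≠ p₂ := by
    rintro rfl
    exact a₂ a₁
  have h13 : p₁ ≠ p₃ := by
    rintro rfl
    exact a₃ a₁
  have hb2 : ∀ {E : Type} [Field E] [CharZero E], IsSquare ((a : E) * b) → ¬ IsSquare (a : E) →
      ¬ IsSquare (b : E) := by
    rintro E _ _ ⟨c, hc⟩ h1 ⟨d, hd⟩
    apply h1
    have hd0 : d ≠ 0 := by
      rintro rfl
      rw [mul_zero] at hd
      exact hb (by exact_mod_cast hd)
    refine ⟨c / d, ?_⟩
    field_simp
    rw [hd] at hc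
    linear_combination hc
  have h23 : p₂ ≠ p₃ := by
    rintro rfl
    exact hb2 ab₂ a₂ b₃
  set q₁ : Nat.Primes := ⟨p₁, hp₁.out⟩ with hq₁
  set q₂ : Nat.Primes := ⟨p₂, hp₂.out⟩ with hq₂
  set q₃ : Nat.Primes := ⟨p₃, hp₃.out⟩ with hq₃
  have g12 : q₁ ≠ q₂ := fun h => h12 (congrArg Subtype.val h)
  have g13 : q₁ ≠ q₃ := fun h => h13 (congrArg Subtype.val h)
  have g23 : q₂ ≠ q₃ := fun h => h23 (congrArg Subtype.val h)
  let f : Nat.Primes → ℤˣ := fun p => if p = q₂ ∨ p = q₃ then -1 else 1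
  let g : Nat.Primes → ℤˣ := fun p => if p = q₁ ∨ p = q₂ then -1 else 1
  have prod_pair : ∀ {r s : Nat.Primes}, r ≠ s →
      {p : Nat.Primes | (if p = r ∨ p = s then (-1 : ℤˣ) else 1) ≠ 1}.Finite ∧
      (∏ᶠ p, (if p = r ∨ p = s then (-1 : ℤˣ) else 1)) = 1 := by
    intro r s hrs
    have hsub : (Function.mulSupport fun p => (if p = r ∨ p = s then (-1 : ℤˣ) else 1)) ⊆
        (({r, s} : Finset Nat.Primes) : Set Nat.Primes) := by
      intro p hp
      by_contra h
      apply hp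
      simp only [Finset.coe_insert, Finset.coe_singleton, Set.mem_insert_iff,
        Set.mem_singleton_iff] at h
      exact if_neg h
    refine ⟨(Finset.finite_toSet _).subset hsub, ?_⟩
    rw [finprod_eq_prod_of_mulSupport_subset _ hsub, Finset.prod_pair hrs]
    simp
  obtain ⟨x, hx, h1, h2⟩ := (exists_rat_hilb_iff (ι := Fin 2) ![a, b]
    (by intro i; fin_cases i; exacts [ha, hb]) (![f, g]) (![1, 1])).mpr (by
      refine ⟨?_, ?_, ?_, ?_⟩
      · intro i
        fin_cases i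
        · exact (prod_pair g23).1
        · exact (prod_pair g12).1
      · intro i
        fin_cases i
        · change (∏ᶠ p, f p) * 1 = 1
          rw [mul_one]
          exact (prod_pair g23).2
        · change (∏ᶠ p, g p) * 1 = 1
          rw [mul_one]
          exact (prod_pair g12).2
      · intro p hp
        have ha' : (a : ℚ_[p]) ≠ 0 := by exact_mod_cast ha
        have hb' : (b : ℚ_[p]) ≠ 0 := by exact_mod_cast hb
        by_cases e1 : p = p₁
        · subst e1
          obtain ⟨x, hx, hx1⟩ := (good_padic p).nondeg hb' b₁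
          refine ⟨x, hx, fun i => ?_⟩
          fin_cases i
          · change hilb (a : ℚ_[p]) x = f q₁
            rw [hilb_of_isSquare a₁]
            exact (if_neg (by rintro (h | h); exacts [g12 h, g13 h])).symm
          · change hilb (b : ℚ_[p]) x = g q₁
            rw [hx1]
            exact (if_pos (Or.inl rfl)).symm
        by_cases e2 : p = p₂
        · subst e2
          obtain ⟨x, hx, hx1⟩ := (good_padic p).nondeg ha' a₂
          refine ⟨x, hx, fun i => ?_⟩
          fin_cases i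
          · change hilb (a : ℚ_[p]) x = f q₂
            rw [hx1]
            exact (if_pos (Or.inl rfl)).symm
          · change hilb (b : ℚ_[p]) x = g q₂
            have h3 := (good_padic p).mul_left ha' hb' hx
            rw [hilb_of_isSquare ab₂, hx1] at h3
            have h4 : hilb (b : ℚ_[p]) x = -1 := by
              rcases units_eq (hilb (b : ℚ_[p]) x) with h | h
              · rw [h] at h3
                exact absurd h3 (by decide)
              · exact h
            rw [h4]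
            exact (if_pos (Or.inr rfl)).symm
        by_cases e3 : p = p₃
        · subst e3
          obtain ⟨x, hx, hx1⟩ := (good_padic p).nondeg ha' a₃
          refine ⟨x, hx, fun i => ?_⟩
          fin_cases i
          · change hilb (a : ℚ_[p]) x = f q₃
            rw [hx1]
            exact (if_pos (Or.inr rfl)).symm
          · change hilb (b : ℚ_[p]) x = g q₃
            rw [hilb_of_isSquare b₃]
            exact (if_neg (by rintro (h | h); exacts [g13 h.symm, g23 h.symm])).symm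
        · refine ⟨1, one_ne_zero, fun i => ?_⟩
          have n1 : (⟨p, hp.out⟩ : Nat.Primes) ≠ q₁ := fun h => e1 (congrArg Subtype.val h)
          have n2 : (⟨p, hp.out⟩ : Nat.Primes) ≠ q₂ := fun h => e2 (congrArg Subtype.val h)
          have n3 : (⟨p, hp.out⟩ : Nat.Primes) ≠ q₃ := fun h => e3 (congrArg Subtype.val h)
          fin_cases i
          · change hilb (a : ℚ_[p]) 1 = f ⟨p, hp.out⟩
            rw [hilb_one_right]
            exact (if_neg (by rintro (h | h); exacts [n2 h, n3 h])).symm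
          · change hilb (b : ℚ_[p]) 1 = g ⟨p, hp.out⟩
            rw [hilb_one_right]
            exact (if_neg (by rintro (h | h); exacts [n1 h, n2 h])).symm
      · refine ⟨1, one_ne_zero, fun i => ?_⟩
        fin_cases i
        · exact hilb_one_right _
        · exact hilb_one_right _)
  refine ⟨x, hx, fun p => ?_, h2 1⟩
  have h3 : hilbAt p b x = g p := h1 1 p
  refine h3.trans ?_
  by_cases h : p = q₁ ∨ p = q₂
  · rw [if_pos h]
    exact if_pos h
  · rw [if_neg h]
    exact if_neg h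

section Main

variable {a b : ℚ}

/-- The obstruction: `x = n s`, `n` a norm from `ℚ(√a)`, `s` a norm from `E(√b)` for all fields
`E` which contain `√a`. -/
theorem no_factor (ha : a ≠ 0) (hb : b ≠ 0)
    (hloc : ∀ (p : ℕ) [Fact p.Prime], IsSquare (a : ℚ_[p]) ∨ IsSquare (b : ℚ_[p]) ∨
      IsSquare ((a : ℚ_[p]) * b)) {p₁ p₂ : ℕ} [hp₁ : Fact p₁.Prime] [hp₂ : Fact p₂.Prime]
    (a₁ : IsSquare (a : ℚ_[p₁])) (a₂ : ¬ IsSquare (a : ℚ_[p₂])) {x n s u v : ℚ} (hx : x ≠ 0)
    (h1 : ∀ p : Nat.Primes, p ≠ ⟨p₁, hp₁.out⟩ → p ≠ ⟨p₂, hp₂.out⟩ → hilbAt p b x = 1)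
    (h1' : hilbAt ⟨p₁, hp₁.out⟩ b x = -1) (h2 : hilbInf b x = 1) (hns : n * s = x)
    (hn : n = u ^ 2 - a * v ^ 2)
    (hs : ∀ (E : Type) [Field E] [CharZero E] (c : E), c ^ 2 = (a : E) →
      ∃ A B : E, (s : E) = A ^ 2 - b * B ^ 2) : False := by
  have hn0 : n ≠ 0 := by
    rintro rfl
    exact hx (by rw [← hns, zero_mul])
  have hs0 : s ≠ 0 := by
    rintro rfl
    exact hx (by rw [← hns, mul_zero])
  have key : ∀ {E : Type} [Field E] [CharZero E], Good E → (IsSquare (a : E) →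
        hilb (b : E) (n : E) = hilb (b : E) (x : E)) ∧
      (IsSquare (b : E) → hilb (b : E) (n : E) = 1) ∧
      (IsSquare ((a : E) * b) → hilb (b : E) (n : E) = 1) := by
    intro E _ _ hE
    have ha' : (a : E) ≠ 0 := by exact_mod_cast ha
    have hb' : (b : E) ≠ 0 := by exact_mod_cast hb
    have hn' : (n : E) ≠ 0 := by exact_mod_cast hn0
    have hs' : (s : E) ≠ 0 := by exact_mod_cast hs0
    refine ⟨?_, fun h => hilb_of_isSquare h _, ?_⟩
    · rintro ⟨c, hc⟩
      obtain ⟨A, B, hAB⟩ := hs E c (by rw [hc, sq])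
      have h3 : hilb (b : E) (s : E) = 1 :=
        hilb_eq_one_iff.mpr ((sol_iff_norm two_ne_zero hb').mpr ⟨A, B, hAB⟩)
      have h4 := hE.mul hb' hn' hs'
      have h5 : (n : E) * (s : E) = x := by exact_mod_cast congrArg (Rat.cast : ℚ → E) hns
      rw [h3, mul_one, h5] at h4
      exact h4.symm
    · intro h
      have h3 : hilb (a : E) (n : E) = 1 :=
        hilb_eq_one_iff.mpr ((sol_iff_norm two_ne_zero ha').mpr ⟨u, v, by
          rw [hn]
          push_cast
          rfl⟩)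
      have h4 := hE.mul_left ha' hb' hn'
      rw [hilb_of_isSquare h, h3, one_mul] at h4
      exact h4.symm
  have hp : ∀ p : Nat.Primes, p ≠ ⟨p₁, hp₁.out⟩ → hilbAt p b n = 1 := by
    rintro ⟨p, hp⟩ hne
    have hpf : Fact p.Prime := ⟨hp⟩
    obtain ⟨k1, k2, k3⟩ := key (good_padic p)
    change hilb (b : ℚ_[p]) (n : ℚ_[p]) = 1
    rcases hloc p with h | h | h
    · rw [k1 h]
      refine h1 ⟨p, hp⟩ hne fun h6 => ?_
      have h7 : p = p₂ := congrArg Subtype.val h6
      subst h7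
      exact a₂ h
    · exact k2 h
    · exact k3 h
  have hp1 : hilbAt ⟨p₁, hp₁.out⟩ b n = -1 := by
    obtain ⟨k1, -, -⟩ := key (good_padic p₁)
    rw [← h1']
    exact k1 a₁
  have hinf : hilbInf b n = 1 := by
    obtain ⟨k1, k2, k3⟩ := key good_real
    change hilb (b : ℝ) (n : ℝ) = 1
    by_cases ha0 : 0 ≤ a
    · rw [k1 (Real.isSquare_iff.mpr (by exact_mod_cast ha0))]
      exact h2
    · by_cases hb0 : 0 ≤ b
      · exact k2 (Real.isSquare_iff.mpr (by exact_mod_cast hb0))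
      · apply k3
        rw [Real.isSquare_iff]
        have h5 : 0 < a * b := mul_pos_of_neg_of_neg (not_le.mp ha0) (not_le.mp hb0)
        exact_mod_cast h5.le
  have hprod := product_formula hb hn0
  have hfs : (∏ᶠ p : Nat.Primes, hilbAt p b n) = -1 :=
    (finprod_eq_single (fun p : Nat.Primes => hilbAt p b n) ⟨p₁, hp₁.out⟩ hp).trans hp1
  rw [hfs, hinf] at hprod
  exact absurd hprod (by decide)

variable {L : Type*} [Field L] [Algebra ℚ L] {α β : L}

/-- `x ^ 2` is not a norm from `L`. -/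
theorem not_norm_sq (h : IsBiq a b α β)
    (hloc : ∀ (p : ℕ) [Fact p.Prime], IsSquare (a : ℚ_[p]) ∨ IsSquare (b : ℚ_[p]) ∨
      IsSquare ((a : ℚ_[p]) * b)) {p₁ p₂ : ℕ} [hp₁ : Fact p₁.Prime] [hp₂ : Fact p₂.Prime]
    (a₁ : IsSquare (a : ℚ_[p₁])) (a₂ : ¬ IsSquare (a : ℚ_[p₂])) {x : ℚ} (hx : x ≠ 0)
    (h1 : ∀ p : Nat.Primes, p ≠ ⟨p₁, hp₁.out⟩ → p ≠ ⟨p₂, hp₂.out⟩ → hilbAt p b x = 1)
    (h1' : hilbAt ⟨p₁, hp₁.out⟩ b x = -1) (h2 : hilbInf b x = 1) :
    ¬ ∃ z : L, Algebra.norm ℚ z = x ^ 2 := by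
  intro hz
  have ha := ne_zero_of_not h.ha
  have hb := ne_zero_of_not h.hb
  rw [norm_iff_Nf h] at hz
  obtain ⟨y, hy⟩ := hz
  rw [Nf] at hy
  set P : ℚ := y 0 ^ 2 + a * y 1 ^ 2 - b * y 2 ^ 2 - a * b * y 3 ^ 2 with hP
  set Q : ℚ := 2 * y 0 * y 1 - 2 * b * y 2 * y 3 with hQ
  have hrel : ∀ (E : Type) [Field E] [CharZero E] (c : E), c ^ 2 = (a : E) →
      ((y 0 : E) + y 1 * c) ^ 2 - b * ((y 2 : E) + y 3 * c) ^ 2 = P + Q * c := by
    intro E _ _ c hc
    rw [hP, hQ]
    push_cast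
    linear_combination ((y 1 : E) ^ 2 - b * (y 3 : E) ^ 2) * hc
  by_cases hPx : P = -x
  · have hQ0 : Q = 0 := by
      have h3 : a * Q ^ 2 = 0 := by
        rw [hPx] at hy
        linear_combination -hy
      exact pow_eq_zero_iff two_ne_zero |>.mp ((mul_eq_zero.mp h3).resolve_left ha)
    refine no_factor (n := -a) (s := -x / a) (u := 0) (v := 1) ha hb hloc a₁ a₂ hx h1 h1' h2
      (by field_simp) (by ring) ?_
    intro E _ _ c hc
    have ha' : (a : E) ≠ 0 := by exact_mod_cast ha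
    have hc0 : c ≠ 0 := by
      rintro rfl
      rw [zero_pow two_ne_zero] at hc
      exact ha' hc.symm
    refine ⟨((y 0 : E) + y 1 * c) / c, ((y 2 : E) + y 3 * c) / c, ?_⟩
    have h3 := hrel E c hc
    rw [hPx, hQ0] at h3
    rw [div_pow, div_pow, hc]
    push_cast at h3 ⊢
    field_simp
    linear_combination -h3
  · have hxP : x + P ≠ 0 := fun h0 => hPx (by linear_combination h0)
    refine no_factor (n := 2 * x * (x + P)) (s := 1 / (2 * (x + P))) (u := x + P) (v := Q) ha hb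
      hloc a₁ a₂ hx h1 h1' h2 (by field_simp) (by linear_combination -hy) ?_
    intro E _ _ c hc
    set t : E := x + P + Q * c with ht
    have hxE : (P : E) ^ 2 - a * (Q : E) ^ 2 = x ^ 2 := by
      exact_mod_cast congrArg (Rat.cast : ℚ → E) hy
    have hxP' : (x : E) + P ≠ 0 := by exact_mod_cast hxP
    have hx' : (x : E) ≠ 0 := by exact_mod_cast hx
    have ht0 : t ≠ 0 := by
      intro h0
      have h3 : t * (x + P - Q * c) = 2 * x * (x + P) := by
        rw [ht]
        linear_combination hxE - (Q : E) ^ 2 * hc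
      rw [h0, zero_mul] at h3
      exact (mul_ne_zero (mul_ne_zero two_ne_zero hx') hxP') h3.symm
    refine ⟨((y 0 : E) + y 1 * c) / t, ((y 2 : E) + y 3 * c) / t, ?_⟩
    have h3 := hrel E c hc
    have h4 : t ^ 2 = 2 * (x + P) * (P + Q * c) := by
      rw [ht]
      linear_combination -hxE + (Q : E) ^ 2 * hc
    have h5 : (((1 / (2 * (x + P)) : ℚ)) : E) = 1 / (2 * (x + P)) := by push_cast; rfl
    rw [h5, div_pow, div_pow]
    have h6 : ((y 0 : E) + y 1 * c) ^ 2 / t ^ 2 -
        b * (((y 2 : E) + y 3 * c) ^ 2 / t ^ 2) = (P + Q * c) / t ^ 2 := by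
      rw [← h3]
      ring
    rw [h6, eq_div_iff (pow_ne_zero 2 ht0), h4]
    field_simp

/-- **The Hasse norm principle fails for `ℚ(√a, √b)`** if for every prime `p` one of `a`, `b`, `a b`
is a square in `ℚ_p`. -/
theorem hasse_fails (h : IsBiq a b α β)
    (hloc : ∀ (p : ℕ) [Fact p.Prime], IsSquare (a : ℚ_[p]) ∨ IsSquare (b : ℚ_[p]) ∨
      IsSquare ((a : ℚ_[p]) * b)) :
    ∃ x : ℚ, LocNormQ L (x ^ 2) ∧ ¬ ∃ z : L, Algebra.norm ℚ z = x ^ 2 := by
  classical
  have ha := ne_zero_of_not h.ha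
  have hb := ne_zero_of_not h.hb
  have hba : ¬ IsSquare (b * a) := by
    rw [mul_comm]
    exact h.hab
  have haba : ¬ IsSquare (a * b * a) := by
    rintro ⟨c, hc⟩
    apply h.hb
    refine ⟨c / a, ?_⟩
    field_simp
    linear_combination hc
  obtain ⟨p₁, hp₁, a₁, b₁⟩ := exists_prime_padic ha h.hb h.hab
  obtain ⟨p₂, hp₂, ab₂, a₂⟩ := exists_prime_padic (mul_ne_zero ha hb) h.ha haba
  obtain ⟨p₃, hp₃, b₃, a₃⟩ := exists_prime_padic hb h.ha hba
  rw [Rat.cast_mul] at ab₂
  obtain ⟨x, hx, h1, h2⟩ := exists_bad ha hb a₁ b₁ ab₂ a₂ b₃ a₃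
  refine ⟨x, ⟨fun p hp => ?_, ?_⟩, ?_⟩
  · rw [normOver_iff_Nf h, eq_ratCast, eq_ratCast, eq_ratCast, Rat.cast_pow]
    exact Nf_sq (by exact_mod_cast ha) (by exact_mod_cast hb) (hloc p) _
  · rw [normOver_iff_Nf h, eq_ratCast, eq_ratCast, eq_ratCast, Rat.cast_pow]
    refine Nf_sq (by exact_mod_cast ha) (by exact_mod_cast hb) ?_ _
    by_cases ha0 : 0 ≤ a
    · exact Or.inl (Real.isSquare_iff.mpr (by exact_mod_cast ha0))
    · by_cases hb0 : 0 ≤ b
      · exact Or.inr (Or.inl (Real.isSquare_iff.mpr (by exact_mod_cast hb0)))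
      · right; right
        rw [Real.isSquare_iff]
        have h5 : 0 < a * b := mul_pos_of_neg_of_neg (not_le.mp ha0) (not_le.mp hb0)
        exact_mod_cast h5.le
  · refine not_norm_sq h hloc a₁ a₂ hx (fun p hp1 hp2 => ?_) ?_ h2
    · rw [h1 p]
      exact if_neg (by rintro (h | h); exacts [hp1 h, hp2 h])
    · exact (h1 ⟨p₁, hp₁.out⟩).trans (if_pos (Or.inl rfl))

/-- **The Hasse norm principle for biquadratic fields.** Let `L = ℚ(√a, √b)` be of degree `4` over
`ℚ`. Every rational number which is a norm from `ℚ_p ⊗ L` for all primes `p` and from `ℝ ⊗ L` is a norm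
from `L` if and only if there is a prime number `p` such that none of `a`, `b`, `a b` is a square in
`ℚ_p` (i.e. the decomposition group of `p` is the whole Galois group). -/
theorem hasse_norm_principle_iff (h : IsBiq a b α β) :
    (∀ c : ℚ, LocNormQ L c → ∃ z : L, Algebra.norm ℚ z = c) ↔
      ∃ (p : ℕ) (_ : Fact p.Prime), ¬ IsSquare (a : ℚ_[p]) ∧ ¬ IsSquare (b : ℚ_[p]) ∧
        ¬ IsSquare ((a : ℚ_[p]) * b) := by
  constructor
  · intro hH
    by_contra hcon
    push Not at hcon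
    obtain ⟨x, hx, hx'⟩ := hasse_fails h (fun p hp => by
      by_contra h1
      rw [not_or, not_or] at h1
      exact h1.2.2 (hcon p hp h1.1 h1.2.1))
    exact hx' (hH _ hx)
  · rintro ⟨p, hp, h1, h2, h3⟩ c hc
    exact hasse_holds h h1 h2 h3 hc

end Main

end Fermat.Agent.Cor.HN.Biq
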