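import Fermat.Agent.Corollaries.HM.NormForm

/-!
# The norm form of a biquadratic field

`L` a field of degree `4` over `ℚ` with elements `α`, `β`, `α ^ 2 = a`, `β ^ 2 = b`, where `a`, `b`,
`a b` are not squares in `ℚ`.
-/

set_option autoImplicit false

namespace Fermat.Agent.Cor.HN.Biq

open TensorProduct Module

/-- `L` is the field `ℚ(√a, √b)` of degree `4`; `α = √a`, `β = √b`. -/
structure IsBiq (a b : ℚ) {L : Type*} [Field L] [Algebra ℚ L] (α β : L) : Prop where
  ha : ¬ IsSquare a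
  hb : ¬ IsSquare b
  hab : ¬ IsSquare (a * b)
  hα : α ^ 2 = algebraMap ℚ L a
  hβ : β ^ 2 = algebraMap ℚ L b
  hd : finrank ℚ L = 4

variable {L : Type*} [Field L] [Algebra ℚ L] {α β : L} {a b : ℚ}

lemma IsBiq.symm (h : IsBiq a b α β) : IsBiq b a β α :=
  ⟨h.hb, h.ha, by rw [mul_comm]; exact h.hab, h.hβ, h.hα, h.hd⟩

lemma ne_zero_of_not {r : ℚ} (h : ¬ IsSquare r) : r ≠ 0 := fun h0 => h (h0 ▸ IsSquare.zero)

lemma sq_sub_ne (ha : ¬ IsSquare a) {r s : ℚ} (h : r ^ 2 - a * s ^ 2 = 0) : r = 0 ∧ s = 0 := by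
  by_cases hs : s = 0
  · subst hs
    refine ⟨?_, rfl⟩
    simpa using h
  · exfalso
    apply ha
    refine ⟨r / s, ?_⟩
    field_simp
    linear_combination -h

/-- `1, √a` are independent -/
lemma indep_two (ha : ¬ IsSquare a) (hα : α ^ 2 = algebraMap ℚ L a) {r s : ℚ}
    (h : algebraMap ℚ L r + algebraMap ℚ L s * α = 0) : r = 0 ∧ s = 0 := by
  have h1 : algebraMap ℚ L (r ^ 2 - a * s ^ 2) = 0 := by
    have h2 : algebraMap ℚ L (r ^ 2 - a * s ^ 2) =
        (algebraMap ℚ L r) ^ 2 - algebraMap ℚ L a * (algebraMap ℚ L s) ^ 2 := by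
      simp only [map_sub, map_mul, map_pow]
    rw [h2]
    linear_combination (algebraMap ℚ L r - algebraMap ℚ L s * α) * h +
      (algebraMap ℚ L s) ^ 2 * hα
  exact sq_sub_ne ha ((map_eq_zero _).mp h1)

lemma linInd (h : IsBiq a b α β) : LinearIndependent ℚ ![1, α, β, α * β] := by
  obtain ⟨ha, hb, hab, hα, hβ, -⟩ := h
  rw [Fintype.linearIndependent_iff]
  intro g hg
  rw [Fin.sum_univ_four] at hg
  simp only [Matrix.cons_val_zero, Matrix.cons_val_one, Matrix.cons_val, Algebra.smul_def] at hg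
  have h0 : (algebraMap ℚ L (g 0) + algebraMap ℚ L (g 1) * α) +
      (algebraMap ℚ L (g 2) + algebraMap ℚ L (g 3) * α) * β = 0 := by
    rw [← hg]
    ring
  by_cases hN : g 2 ^ 2 - a * g 3 ^ 2 = 0
  · obtain ⟨h2, h3⟩ := sq_sub_ne ha hN
    rw [h2, h3, map_zero, zero_mul, add_zero, zero_mul, add_zero] at h0
    obtain ⟨h4, h5⟩ := indep_two ha hα h0
    intro i
    fin_cases i
    · exact h4
    · exact h5
    · exact h2
    · exact h3
  · exfalso
    set N : ℚ := g 2 ^ 2 - a * g 3 ^ 2 with hNdef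
    set r : ℚ := -(g 0 * g 2 - a * g 1 * g 3) / N with hr
    set s : ℚ := -(g 1 * g 2 - g 0 * g 3) / N with hs
    have hrN : r * N = -(g 0 * g 2 - a * g 1 * g 3) := by rw [hr, div_mul_cancel₀ _ hN]
    have hsN : s * N = -(g 1 * g 2 - g 0 * g 3) := by rw [hs, div_mul_cancel₀ _ hN]
    have hN' : algebraMap ℚ L N ≠ 0 := (_root_.map_ne_zero _).mpr hN
    have hNL : algebraMap ℚ L N = (algebraMap ℚ L (g 2)) ^ 2 -
        algebraMap ℚ L a * (algebraMap ℚ L (g 3)) ^ 2 := by
      simp only [hNdef, map_sub, map_mul, map_pow]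
    have hrL : algebraMap ℚ L r * algebraMap ℚ L N = -(algebraMap ℚ L (g 0) * algebraMap ℚ L (g 2) -
        algebraMap ℚ L a * algebraMap ℚ L (g 1) * algebraMap ℚ L (g 3)) := by
      rw [← map_mul, hrN]
      simp only [map_sub, map_mul, map_neg]
    have hsL : algebraMap ℚ L s * algebraMap ℚ L N = -(algebraMap ℚ L (g 1) * algebraMap ℚ L (g 2) -
        algebraMap ℚ L (g 0) * algebraMap ℚ L (g 3)) := by
      rw [← map_mul, hsN]
      simp only [map_sub, map_mul, map_neg]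
    have hβ' : β = algebraMap ℚ L r + algebraMap ℚ L s * α := by
      apply mul_right_cancel₀ hN'
      have e1 : (algebraMap ℚ L r + algebraMap ℚ L s * α) * algebraMap ℚ L N =
          (algebraMap ℚ L r * algebraMap ℚ L N) + (algebraMap ℚ L s * algebraMap ℚ L N) * α := by
        ring
      rw [e1, hrL, hsL, hNL]
      linear_combination (algebraMap ℚ L (g 2) - algebraMap ℚ L (g 3) * α) * h0 +
        (algebraMap ℚ L (g 1) * algebraMap ℚ L (g 3) +
          (algebraMap ℚ L (g 3)) ^ 2 * β) * hα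
    have h1 := indep_two (L := L) ha hα (r := r ^ 2 + a * s ^ 2 - b) (s := 2 * r * s) (by
      simp only [map_sub, map_add, map_mul, map_pow, map_ofNat]
      rw [hβ'] at hβ
      linear_combination hβ - (algebraMap ℚ L s) ^ 2 * hα)
    have h2 : r = 0 ∨ s = 0 := by
      rcases mul_eq_zero.mp h1.2 with h | h
      · exact Or.inl ((mul_eq_zero.mp h).resolve_left two_ne_zero)
      · exact Or.inr h
    rcases h2 with h2 | h2
    · apply hab
      refine ⟨a * s, ?_⟩
      rw [h2] at h1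
      linear_combination -a * h1.1
    · apply hb
      refine ⟨r, ?_⟩
      rw [h2] at h1
      linear_combination -h1.1

/-- The basis `1, √a, √b, √a √b`. -/
noncomputable def bas (h : IsBiq a b α β) : Basis (Fin 4) ℚ L :=
  basisOfLinearIndependentOfCardEqFinrank (linInd h) (by rw [h.hd]; rfl)

/-- The norm form of `ℚ(√a, √b)`. -/
def Nf {F : Type*} [Field F] (a b : F) (x : Fin 4 → F) : F :=
  (x 0 ^ 2 + a * x 1 ^ 2 - b * x 2 ^ 2 - a * b * x 3 ^ 2) ^ 2 -
    a * (2 * x 0 * x 1 - 2 * b * x 2 * x 3) ^ 2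

/-- multiplication by `√a` -/
def M1 (a : ℚ) : Matrix (Fin 4) (Fin 4) ℚ := !![0, a, 0, 0; 1, 0, 0, 0; 0, 0, 0, a; 0, 0, 1, 0]

/-- multiplication by `√b` -/
def M2 (b : ℚ) : Matrix (Fin 4) (Fin 4) ℚ := !![0, 0, b, 0; 0, 0, 0, b; 1, 0, 0, 0; 0, 1, 0, 0]

lemma leftMul_eq {b : Basis (Fin 4) ℚ L} {a : L} {M : Matrix (Fin 4) (Fin 4) ℚ}
    (h : ∀ j, a * b j = ∑ k, M k j • b k) : Algebra.leftMulMatrix b a = M := by
  ext k j
  rw [Algebra.leftMulMatrix_eq_repr_mul, h, Basis.repr_sum_self]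

theorem nf_bas (h : IsBiq a b α β) {F : Type*} [Field F]
    [Algebra ℚ F] (x : Fin 4 → F) :
    nf (bas h) x = Nf (algebraMap ℚ F a) (algebraMap ℚ F b) x := by
  have b0 : bas h 0 = 1 := by simp [bas]
  have b1 : bas h 1 = α := by simp [bas]
  have b2 : bas h 2 = β := by simp [bas]
  have b3 : bas h 3 = α * β := by simp [bas]
  have hα : α ^ 2 = (a : L) := by rw [h.hα, eq_ratCast]
  have hβ : β ^ 2 = (b : L) := by rw [h.hβ, eq_ratCast]
  have m1 : Algebra.leftMulMatrix (bas h) α = M1 a := by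
    apply leftMul_eq
    intro j
    rw [Fin.sum_univ_four, b0, b1, b2, b3]
    fin_cases j
    · simp [M1, b0]
    · simp [M1, b1, Algebra.smul_def]
      linear_combination hα
    · simp [M1, b2]
    · simp [M1, b3, Algebra.smul_def]
      linear_combination β * hα
  have m2 : Algebra.leftMulMatrix (bas h) β = M2 b := by
    apply leftMul_eq
    intro j
    rw [Fin.sum_univ_four, b0, b1, b2, b3]
    fin_cases j
    · simp [M2, b0]
    · simp [M2, b1, mul_comm]
    · simp [M2, b2, Algebra.smul_def]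
      linear_combination hβ
    · simp [M2, b3, Algebra.smul_def]
      linear_combination α * hβ
  rw [nf, Fin.sum_univ_four, b0, b1, b2, b3, map_one, map_mul, m1, m2]
  rw [eq_ratCast, eq_ratCast]
  set A : F := (a : F) with hA
  set B : F := (b : F) with hB
  have hchar : CharZero F := algebraRat.charZero F
  have hAB : ((a * b : ℚ) : F) = A * B := by rw [Rat.cast_mul]
  have hm : x 0 • (1 : Matrix (Fin 4) (Fin 4) ℚ).map (algebraMap ℚ F) +
      x 1 • (M1 a).map (algebraMap ℚ F) + x 2 • (M2 b).map (algebraMap ℚ F) +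
      x 3 • (M1 a * M2 b).map (algebraMap ℚ F) =
      !![x 0, A * x 1, B * x 2, A * B * x 3; x 1, x 0, B * x 3, B * x 2;
        x 2, A * x 3, x 0, A * x 1; x 3, x 2, x 1, x 0] := by
    ext i j
    fin_cases i <;> fin_cases j <;> simp [M1, M2, ← hA, ← hB, hAB, mul_comm]
  rw [hm, Nf]
  simp [Matrix.det_succ_row_zero, Fin.sum_univ_succ, Fin.succAbove]
  ring

/-- `c` is a norm from `F ⊗ L` iff the norm form represents `c` over `F`. -/
theorem normOver_iff_Nf (h : IsBiq a b α β) {F : Type*} [Field F] [Algebra ℚ F] (c : F) :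
    NormOver ℚ L F c ↔ ∃ x : Fin 4 → F, Nf (algebraMap ℚ F a) (algebraMap ℚ F b) x = c := by
  rw [normOver_iff (bas h)]
  simp only [nf_bas h]

/-- `c` is a norm from `L` iff the norm form represents `c` over `ℚ`. -/
theorem norm_iff_Nf (h : IsBiq a b α β) (c : ℚ) :
    (∃ z : L, Algebra.norm ℚ z = c) ↔ ∃ x : Fin 4 → ℚ, Nf a b x = c := by
  rw [← normOver_self, normOver_iff_Nf h]
  rfl

/-- the norm form is a norm from `F(√a)` -/
lemma Nf_eq {F : Type*} [Field F] (a b : F) (x : Fin 4 → F) : ∃ s t : F,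
    Nf a b x = s ^ 2 - a * t ^ 2 := ⟨_, _, rfl⟩

/-- the norm form is a norm from `F(√b)` -/
lemma Nf_eq' {F : Type*} [Field F] (a b : F) (x : Fin 4 → F) : ∃ s t : F,
    Nf a b x = s ^ 2 - b * t ^ 2 := by
  refine ⟨x 0 ^ 2 + b * x 2 ^ 2 - a * x 1 ^ 2 - a * b * x 3 ^ 2,
    2 * x 0 * x 2 - 2 * a * x 1 * x 3, ?_⟩
  rw [Nf]
  ring

/-- If one of `a`, `b`, `a b` is a square in `F`, every square is represented by the norm form. -/
theorem Nf_sq {F : Type*} [Field F] [CharZero F] {a b : F} (ha : a ≠ 0) (hb : b ≠ 0)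
    (h : IsSquare a ∨ IsSquare b ∨ IsSquare (a * b)) (m : F) :
    ∃ x : Fin 4 → F, Nf a b x = m ^ 2 := by
  rcases h with ⟨c, hc⟩ | ⟨c, hc⟩ | ⟨c, hc⟩
  · have hc0 : c ≠ 0 := by
      rintro rfl
      exact ha (by rw [hc, mul_zero])
    refine ⟨![(m + 1) / 2, (m - 1) / (2 * c), 0, 0], ?_⟩
    rw [Nf]
    simp only [Matrix.cons_val_zero, Matrix.cons_val_one, Matrix.cons_val]
    rw [hc]
    field_simp
    ring
  · have hc0 : c ≠ 0 := by
      rintro rfl
      exact hb (by rw [hc, mul_zero])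
    refine ⟨![(m + 1) / 2, 0, (m - 1) / (2 * c), 0], ?_⟩
    rw [Nf]
    simp only [Matrix.cons_val_zero, Matrix.cons_val_one, Matrix.cons_val]
    rw [hc]
    field_simp
    ring
  · have hc0 : c ≠ 0 := by
      rintro rfl
      exact (mul_ne_zero ha hb) (by rw [hc, mul_zero])
    refine ⟨![(m + 1) / 2, 0, 0, (m - 1) / (2 * c)], ?_⟩
    rw [Nf]
    simp only [Matrix.cons_val_zero, Matrix.cons_val_one, Matrix.cons_val]
    rw [hc]
    field_simp
    ring

end Fermat.Agent.Cor.HN.Biq
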