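import Mathlib.NumberTheory.Padics.HeightOneSpectrum
import Mathlib.NumberTheory.Padics.RingHoms
import Mathlib.NumberTheory.SumTwoSquares

/-!
# Squares and sums of two squares over `ℚ`: the local-global principle

* `isSquare_rat_padic`, `isSquare_rat`: a positive rational number which is a square in `ℚ_p` for
  every prime `p` is a square;
* `sum_two_squares_rat_padic`, `sum_two_squares_rat`: a positive rational number which is a sum of
  two squares in `ℚ_p` for every prime `p` is a sum of two squares of rational numbers.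

The theorems are stated for the fields `ℚ_[p]` and for the completions `v.adicCompletion ℚ`.
Only the primes `p ≡ 3 mod 4` are used for the sums of two squares
(`sum_two_squares_rat_iff`).
-/

set_option autoImplicit false

namespace Fermat.Agent.Cor.HM

open IsDedekindDomain NumberField

namespace RatTwo

/-! ### The local computation -/

section Local

variable {p : ℕ} [hp : Fact p.Prime]

/-- The norm is one exactly if the valuation is zero. -/
theorem valuation_eq_zero_of_norm_eq_one {x : ℚ_[p]} (h : ‖x‖ = 1) : x.valuation = 0 := by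
  have hx : x ≠ 0 := by
    rintro rfl
    rw [norm_zero] at h
    exact zero_ne_one h
  have h1 := Padic.norm_eq_zpow_neg_valuation hx
  rw [h] at h1
  have hp1 : (1 : ℝ) < p := by exact_mod_cast hp.out.one_lt
  have h2 : -x.valuation = 0 := by
    refine zpow_right_injective₀ (zero_lt_one.trans hp1) hp1.ne' ?_
    simpa using h1.symm
  omega

/-- `1 + u²` is a unit of `ℤ_p` if `p ≡ 3 mod 4`. -/
theorem norm_one_add_sq (h3 : p % 4 = 3) (u : ℤ_[p]) : ‖1 + u ^ 2‖ = 1 := by
  rw [← PadicInt.isUnit_iff]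
  by_contra h
  have h1 : (1 + u ^ 2 : ℤ_[p]) ∈ IsLocalRing.maximalIdeal ℤ_[p] :=
    (IsLocalRing.mem_maximalIdeal _).mpr h
  rw [← PadicInt.ker_toZMod, RingHom.mem_ker, map_add, map_one, map_pow] at h1
  have h2 : IsSquare (-1 : ZMod p) := ⟨PadicInt.toZMod u, by linear_combination -h1⟩
  exact (ZMod.exists_sq_eq_neg_one_iff.mp h2) h3

/-- The valuation of a sum of two squares in `ℚ_p`, `p ≡ 3 mod 4`, is even. -/
theorem even_valuation_sq_add_sq (h3 : p % 4 = 3) {x y : ℚ_[p]} (hxy : x ^ 2 + y ^ 2 ≠ 0) :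
    Even (x ^ 2 + y ^ 2).valuation := by
  wlog hle : ‖y‖ ≤ ‖x‖ generalizing x y with H
  · rw [add_comm] at hxy ⊢
    exact H hxy (not_le.mp hle).le
  have hx : x ≠ 0 := by
    rintro rfl
    rw [norm_zero, norm_le_zero_iff] at hle
    exact hxy (by rw [hle]; ring)
  have hu : ‖y / x‖ ≤ 1 := by
    rw [norm_div]
    exact div_le_one_of_le₀ hle (norm_nonneg _)
  have h1 : ‖(1 + (y / x) ^ 2 : ℚ_[p])‖ = 1 := norm_one_add_sq h3 ⟨y / x, hu⟩
  have h2 : x ^ 2 + y ^ 2 = x ^ 2 * (1 + (y / x) ^ 2) := by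
    field_simp
  have h3 : (1 + (y / x) ^ 2 : ℚ_[p]) ≠ 0 := by
    intro h0
    rw [h0, norm_zero] at h1
    exact zero_ne_one h1
  rw [h2, Padic.valuation_mul (pow_ne_zero 2 hx) h3, Padic.valuation_pow,
    valuation_eq_zero_of_norm_eq_one h1, add_zero]
  exact even_two_mul _

/-- The valuation of a square is even. -/
theorem even_valuation_of_isSquare {x : ℚ_[p]} (hx : IsSquare x) : Even x.valuation := by
  obtain ⟨y, rfl⟩ := hx
  rw [← pow_two, Padic.valuation_pow]
  exact even_two_mul _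

end Local

/-! ### Natural numbers -/

/-- A natural number all of whose valuations are even is a square. -/
theorem isSquare_of_even_padicValNat {n : ℕ} (h : ∀ p : ℕ, p.Prime → Even (padicValNat p n)) :
    IsSquare n := by
  rcases Nat.eq_zero_or_pos n with rfl | hn
  · exact ⟨0, rfl⟩
  obtain ⟨b, a, hb, ha, hab, hsq⟩ := Nat.sq_mul_squarefree_of_pos hn
  have hb1 : b = 1 := by
    by_contra hne
    obtain ⟨p, hp, hpb⟩ := Nat.exists_prime_and_dvd hne
    have : Fact p.Prime := ⟨hp⟩
    have h1 := h p hp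
    rw [← hab, padicValNat.mul (pow_ne_zero 2 ha.ne') hb.ne', padicValNat.pow] at h1
    have h2 : padicValNat p b = 1 := by
      refine le_antisymm ?_ (one_le_padicValNat_of_dvd hb.ne' hpb)
      rw [← Nat.factorization_def b hp]
      exact hsq.natFactorization_le_one p
    rw [h2] at h1
    exact (Nat.not_even_iff_odd.mpr ((even_two_mul _).add_one)) h1
  exact ⟨a, by rw [← hab, hb1]; ring⟩

end RatTwo

open RatTwo

/-- **Local-global principle for sums of two squares of natural numbers.** -/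
theorem sum_two_squares_nat {n : ℕ}
    (h : ∀ (p : ℕ) [Fact p.Prime], p % 4 = 3 → ∃ s t : ℚ_[p], (n : ℚ_[p]) = s ^ 2 + t ^ 2) :
    ∃ a b : ℕ, n = a ^ 2 + b ^ 2 := by
  rw [Nat.eq_sq_add_sq_iff]
  intro q hq h3
  have hqp := Nat.prime_of_mem_primeFactors hq
  have : Fact q.Prime := ⟨hqp⟩
  obtain ⟨s, t, hst⟩ := h q h3
  have hn : (n : ℚ_[q]) ≠ 0 := by
    have := (Nat.mem_primeFactors.mp hq).2.2
    exact_mod_cast this
  have h1 := even_valuation_sq_add_sq h3 (x := s) (y := t) (by rwa [← hst])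
  rw [← hst, Padic.valuation_natCast] at h1
  exact_mod_cast h1

/-! ### Rational numbers -/

/-- A positive rational number is a natural number divided by the square of its denominator. -/
theorem RatTwo.rat_mul_den_sq {c : ℚ} (hc : 0 < c) :
    c * (c.den : ℚ) ^ 2 = ((c.num.natAbs * c.den : ℕ) : ℚ) := by
  have h1 : ((c.num.natAbs : ℕ) : ℚ) = c.num := by
    rw [Nat.cast_natAbs, abs_of_pos (Rat.num_pos.mpr hc)]
  have h2 : (c.den : ℚ) ≠ 0 := by exact_mod_cast c.den_nz
  rw [Nat.cast_mul, h1]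
  have h3 := Rat.num_div_den c
  rw [div_eq_iff h2] at h3
  rw [h3]
  ring

theorem RatTwo.rat_mul_den_sq_cast {c : ℚ} (hc : 0 < c) (F : Type*) [Field F] [CharZero F] :
    (c : F) * (c.den : F) ^ 2 = ((c.num.natAbs * c.den : ℕ) : F) := by
  have h := congrArg (fun x : ℚ => (x : F)) (rat_mul_den_sq hc)
  push_cast at h ⊢
  exact h

/-- **Local-global principle for squares of rational numbers**, for the fields `ℚ_p`. -/
theorem isSquare_rat_padic {c : ℚ} (hc : 0 < c)
    (h : ∀ (p : ℕ) [Fact p.Prime], IsSquare ((c : ℚ) : ℚ_[p])) : IsSquare c := by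
  have h1 : IsSquare (c.num.natAbs * c.den : ℕ) := by
    refine isSquare_of_even_padicValNat fun p hp => ?_
    have : Fact p.Prime := ⟨hp⟩
    have h2 : IsSquare (((c.num.natAbs * c.den : ℕ)) : ℚ_[p]) := by
      rw [← rat_mul_den_sq_cast hc]
      exact (h p).mul ⟨_, pow_two _⟩
    have h3 := even_valuation_of_isSquare h2
    rw [Padic.valuation_natCast] at h3
    exact_mod_cast h3
  obtain ⟨m, hm⟩ := h1
  have h2 : (c.den : ℚ) ≠ 0 := by exact_mod_cast c.den_nz
  have h3 := rat_mul_den_sq hc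
  rw [hm] at h3
  refine ⟨m / c.den, ?_⟩
  field_simp
  rw [h3]
  push_cast
  ring

/-- **Local-global principle for sums of two squares of rational numbers**, for the fields `ℚ_p`;
only the primes `p ≡ 3 mod 4` are needed. -/
theorem sum_two_squares_rat_padic {c : ℚ} (hc : 0 < c)
    (h : ∀ (p : ℕ) [Fact p.Prime], p % 4 = 3 → ∃ s t : ℚ_[p], ((c : ℚ) : ℚ_[p]) = s ^ 2 + t ^ 2) :
    ∃ s t : ℚ, c = s ^ 2 + t ^ 2 := by
  obtain ⟨a, b, hab⟩ := sum_two_squares_nat (n := c.num.natAbs * c.den) (fun p _ h3 => by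
    obtain ⟨s, t, hst⟩ := h p h3
    refine ⟨s * c.den, t * c.den, ?_⟩
    rw [← rat_mul_den_sq_cast hc, hst]
    ring)
  have h2 : (c.den : ℚ) ≠ 0 := by exact_mod_cast c.den_nz
  have h3 := rat_mul_den_sq hc
  rw [hab] at h3
  refine ⟨a / c.den, b / c.den, ?_⟩
  field_simp
  rw [h3]
  push_cast
  ring

/-- A positive rational number is a sum of two squares if and only if its valuation at every prime
`p ≡ 3 mod 4` is even. -/
theorem sum_two_squares_rat_iff {c : ℚ} (hc : 0 < c) :
    (∃ s t : ℚ, c = s ^ 2 + t ^ 2) ↔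
      ∀ p : ℕ, p.Prime → p % 4 = 3 → Even (padicValRat p c) := by
  constructor
  · rintro ⟨s, t, hst⟩ p hp h3
    have : Fact p.Prime := ⟨hp⟩
    have h1 : ((c : ℚ) : ℚ_[p]) = (s : ℚ_[p]) ^ 2 + (t : ℚ_[p]) ^ 2 := by
      rw [hst]
      push_cast
      ring
    have h0 : ((c : ℚ) : ℚ_[p]) ≠ 0 := by exact_mod_cast hc.ne'
    have h2 := even_valuation_sq_add_sq h3 (x := (s : ℚ_[p])) (y := (t : ℚ_[p])) (by rwa [← h1])
    rwa [← h1, Padic.valuation_ratCast] at h2
  · intro h
    have h1 : ∃ a b : ℕ, c.num.natAbs * c.den = a ^ 2 + b ^ 2 := by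
      rw [Nat.eq_sq_add_sq_iff]
      intro q hq h3
      have hqp := Nat.prime_of_mem_primeFactors hq
      have : Fact q.Prime := ⟨hqp⟩
      have h2 := h q hqp h3
      have hden : (c.den : ℚ) ≠ 0 := by exact_mod_cast c.den_nz
      have h4 := congrArg (padicValRat q) (rat_mul_den_sq hc)
      rw [padicValRat.mul hc.ne' (pow_ne_zero 2 hden), padicValRat.pow,
        padicValRat.of_nat] at h4
      rw [padicValRat.of_nat] at h4
      have h5 : Even ((padicValNat q (c.num.natAbs * c.den) : ℕ) : ℤ) := by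
        rw [← h4]
        exact h2.add (even_two_mul _)
      exact_mod_cast h5
    obtain ⟨a, b, hab⟩ := h1
    have h2 : (c.den : ℚ) ≠ 0 := by exact_mod_cast c.den_nz
    have h3 := rat_mul_den_sq hc
    rw [hab] at h3
    refine ⟨a / c.den, b / c.den, ?_⟩
    field_simp
    rw [h3]
    push_cast
    ring

/-! ### The completions of `ℚ` -/

/-- An algebraic statement over the completions of `ℚ` gives the statement over `ℚ_p`. -/
theorem RatTwo.exists_place (p : ℕ) [hp : Fact p.Prime] :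
    ∃ v : HeightOneSpectrum (𝓞 ℚ), Nonempty (v.adicCompletion ℚ ≃ₐ[ℚ] ℚ_[p]) :=
  ⟨Rat.HeightOneSpectrum.primesEquiv.symm ⟨p, hp.out⟩,
    ⟨(Padic.adicCompletionEquiv (𝓞 ℚ) ⟨p, hp.out⟩).symm.toAlgEquiv⟩⟩

/-- **Local-global principle for squares of rational numbers.** -/
theorem isSquare_rat (c : ℚ) (hc : 0 < c)
    (h : ∀ v : HeightOneSpectrum (𝓞 ℚ), IsSquare (algebraMap ℚ (v.adicCompletion ℚ) c)) :
    IsSquare c := by
  refine isSquare_rat_padic hc fun p _ => ?_
  obtain ⟨v, ⟨e⟩⟩ := exists_place p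
  have h1 := (h v).map e
  rwa [AlgEquiv.commutes, eq_ratCast] at h1

/-- **Local-global principle for sums of two squares of rational numbers.** -/
theorem sum_two_squares_rat (c : ℚ) (hc : 0 < c)
    (h : ∀ v : HeightOneSpectrum (𝓞 ℚ), ∃ s t : v.adicCompletion ℚ,
      algebraMap ℚ (v.adicCompletion ℚ) c = s ^ 2 + t ^ 2) :
    ∃ s t : ℚ, c = s ^ 2 + t ^ 2 := by
  refine sum_two_squares_rat_padic hc fun p _ _ => ?_
  obtain ⟨v, ⟨e⟩⟩ := exists_place p
  obtain ⟨s, t, hst⟩ := h v
  refine ⟨e s, e t, ?_⟩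
  have h1 := congrArg e hst
  rwa [AlgEquiv.commutes, eq_ratCast, map_add, map_pow, map_pow] at h1

end Fermat.Agent.Cor.HM
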