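import Fermat.Agent.Corollaries.HM.WeakHasse
import Fermat.Agent.Corollaries.HM.RatTwo

/-!
# The completions of `ℚ`

* `isotropic_iff_of_algEquiv`, `value_iff_of_algEquiv`, `anisotropic_iff_of_algEquiv`,
  `exists_value_iff_of_algEquiv`: isotropy and representation of numbers over isomorphic
  extensions;
* `forall_place_iff`, `forall_place_value_iff`, `forall_place_anisotropic_iff`,
  `forall_place_exists_value_iff`: the completions `v.adicCompletion ℚ` may be replaced by the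
  fields `ℚ_[p]`;
* `isotropic_real_iff`: a diagonal form without zero coefficient is isotropic over `ℝ` if and only
  if it is indefinite;
* `Cpl`: the family of all completions `ℝ`, `ℚ_p` of `ℚ`;
* `RatDiag`: the local-global principle for diagonal forms without zero coefficient over `ℚ`, with
  the fields `v.adicCompletion ℚ` and `ℝ` (`ratDiag_iff_indefinite`: it is enough to have it for
  indefinite forms);
* `diagLocalGlobal_rat`, `hasse_minkowski_rat_of`, `exists_value_rat_of`, `equivalent_rat_of`: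
  it gives the theorem of Hasse and Minkowski for all quadratic forms over `ℚ` and the fields
  `ℝ`, `ℚ_[p]`: isotropy, representation of numbers, equivalence of regular forms.
-/

set_option autoImplicit false

noncomputable section

namespace Fermat.Agent.Cor.HM

open IsDedekindDomain NumberField QuadraticMap
open scoped TensorProduct

/-! ### Isomorphic extensions -/

section Transfer

variable {F L L' : Type*} [Field F] [Field L] [Field L'] [Algebra F L] [Algebra F L']

theorem isotropic_of_algHom (e : L →ₐ[F] L') {n : ℕ} (a : Fin n → F)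
    (h : ∃ x : Fin n → L, x ≠ 0 ∧ ∑ i, algebraMap F L (a i) * x i ^ 2 = 0) :
    ∃ x : Fin n → L', x ≠ 0 ∧ ∑ i, algebraMap F L' (a i) * x i ^ 2 = 0 := by
  obtain ⟨x, hx0, hx⟩ := h
  refine ⟨fun i => e (x i), fun h0 => hx0 ?_, ?_⟩
  · funext i
    exact (map_eq_zero_iff e e.toRingHom.injective).1 (congrFun h0 i)
  · have h1 := congrArg e hx
    rw [map_sum, map_zero] at h1
    rw [← h1]
    exact Finset.sum_congr rfl fun i _ => by rw [map_mul, map_pow, AlgHom.commutes]

theorem value_of_algHom (e : L →ₐ[F] L') {n : ℕ} (a : Fin n → F) (c : F)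
    (h : ∃ x : Fin n → L, ∑ i, algebraMap F L (a i) * x i ^ 2 = algebraMap F L c) :
    ∃ x : Fin n → L', ∑ i, algebraMap F L' (a i) * x i ^ 2 = algebraMap F L' c := by
  obtain ⟨x, hx⟩ := h
  refine ⟨fun i => e (x i), ?_⟩
  have h1 := congrArg e hx
  rw [map_sum, AlgHom.commutes] at h1
  rw [← h1]
  exact Finset.sum_congr rfl fun i _ => by rw [map_mul, map_pow, AlgHom.commutes]

/-- Isotropy of a diagonal form over isomorphic extensions. -/
theorem isotropic_iff_of_algEquiv (e : L ≃ₐ[F] L') {n : ℕ} (a : Fin n → F) :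
    (∃ x : Fin n → L, x ≠ 0 ∧ ∑ i, algebraMap F L (a i) * x i ^ 2 = 0) ↔
      ∃ x : Fin n → L', x ≠ 0 ∧ ∑ i, algebraMap F L' (a i) * x i ^ 2 = 0 :=
  ⟨isotropic_of_algHom (e : L →ₐ[F] L') a, isotropic_of_algHom (e.symm : L' →ₐ[F] L) a⟩

/-- Representation of a number by a diagonal form over isomorphic extensions. -/
theorem value_iff_of_algEquiv (e : L ≃ₐ[F] L') {n : ℕ} (a : Fin n → F) (c : F) :
    (∃ x : Fin n → L, ∑ i, algebraMap F L (a i) * x i ^ 2 = algebraMap F L c) ↔
      ∃ x : Fin n → L', ∑ i, algebraMap F L' (a i) * x i ^ 2 = algebraMap F L' c :=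
  ⟨value_of_algHom (e : L →ₐ[F] L') a c, value_of_algHom (e.symm : L' →ₐ[F] L) a c⟩

end Transfer

section TransferForm

universe u

variable {F : Type*} {L L' : Type u} [Field F] [Field L] [Field L'] [Algebra F L] [Algebra F L']
  [Invertible (2 : F)] {V : Type*} [AddCommGroup V] [Module F V] [FiniteDimensional F V]

/-- Isotropy of a quadratic form over isomorphic extensions. -/
theorem anisotropic_iff_of_algEquiv (e : L ≃ₐ[F] L') (Q : QuadraticForm F V) :
    (Q.baseChange L).Anisotropic ↔ (Q.baseChange L').Anisotropic := by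
  obtain ⟨a, -, -, hL⟩ := exists_diag' Q
  rw [← not_iff_not, (hL L).1, (hL L').1]
  exact isotropic_iff_of_algEquiv e a

/-- Representation of a number by a quadratic form over isomorphic extensions. -/
theorem exists_value_iff_of_algEquiv (e : L ≃ₐ[F] L') (Q : QuadraticForm F V) (c : F) :
    (∃ w : L ⊗[F] V, (Q.baseChange L) w = algebraMap F L c) ↔
      ∃ w : L' ⊗[F] V, (Q.baseChange L') w = algebraMap F L' c := by
  obtain ⟨a, -, -, hL⟩ := exists_diag' Q
  rw [(hL L).2, (hL L').2]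
  exact value_iff_of_algEquiv e a c

end TransferForm

/-! ### The places of `ℚ` -/

section Places

/-- For every place `v` of `ℚ` there is a prime `p` with `K_v ≃ ℚ_p`. -/
theorem exists_prime_of_place (v : HeightOneSpectrum (𝓞 ℚ)) :
    ∃ (p : ℕ) (_ : Fact p.Prime), Nonempty (v.adicCompletion ℚ ≃ₐ[ℚ] ℚ_[p]) :=
  have : Fact (Rat.HeightOneSpectrum.primesEquiv v : ℕ).Prime :=
    ⟨(Rat.HeightOneSpectrum.primesEquiv v).2⟩
  ⟨Rat.HeightOneSpectrum.primesEquiv v, this,
    ⟨(Rat.HeightOneSpectrum.adicCompletion.padicEquiv v).toAlgEquiv⟩⟩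

/-- **The completions `v.adicCompletion ℚ` may be replaced by the fields `ℚ_[p]`** (isotropy). -/
theorem forall_place_iff {n : ℕ} (a : Fin n → ℚ) :
    (∀ v : HeightOneSpectrum (𝓞 ℚ), ∃ x : Fin n → v.adicCompletion ℚ, x ≠ 0 ∧
        ∑ i, algebraMap ℚ (v.adicCompletion ℚ) (a i) * x i ^ 2 = 0) ↔
      ∀ (p : ℕ) [Fact p.Prime], ∃ x : Fin n → ℚ_[p], x ≠ 0 ∧
        ∑ i, algebraMap ℚ ℚ_[p] (a i) * x i ^ 2 = 0 := by
  constructor
  · intro h p _
    obtain ⟨v, ⟨e⟩⟩ := RatTwo.exists_place p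
    exact (isotropic_iff_of_algEquiv e a).1 (h v)
  · intro h v
    obtain ⟨p, _, ⟨e⟩⟩ := exists_prime_of_place v
    exact (isotropic_iff_of_algEquiv e a).2 (h p)

/-- The completions `v.adicCompletion ℚ` may be replaced by the fields `ℚ_[p]` (values). -/
theorem forall_place_value_iff {n : ℕ} (a : Fin n → ℚ) (c : ℚ) :
    (∀ v : HeightOneSpectrum (𝓞 ℚ), ∃ x : Fin n → v.adicCompletion ℚ,
        ∑ i, algebraMap ℚ (v.adicCompletion ℚ) (a i) * x i ^ 2 =
          algebraMap ℚ (v.adicCompletion ℚ) c) ↔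
      ∀ (p : ℕ) [Fact p.Prime], ∃ x : Fin n → ℚ_[p],
        ∑ i, algebraMap ℚ ℚ_[p] (a i) * x i ^ 2 = algebraMap ℚ ℚ_[p] c := by
  constructor
  · intro h p _
    obtain ⟨v, ⟨e⟩⟩ := RatTwo.exists_place p
    exact (value_iff_of_algEquiv e a c).1 (h v)
  · intro h v
    obtain ⟨p, _, ⟨e⟩⟩ := exists_prime_of_place v
    exact (value_iff_of_algEquiv e a c).2 (h p)

variable {V : Type*} [AddCommGroup V] [Module ℚ V] [FiniteDimensional ℚ V]

/-- The completions `v.adicCompletion ℚ` may be replaced by the fields `ℚ_[p]` (isotropy of an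
arbitrary quadratic form). -/
theorem forall_place_anisotropic_iff (Q : QuadraticForm ℚ V) :
    (∀ v : HeightOneSpectrum (𝓞 ℚ), ¬ (Q.baseChange (v.adicCompletion ℚ)).Anisotropic) ↔
      ∀ (p : ℕ) [Fact p.Prime], ¬ (Q.baseChange ℚ_[p]).Anisotropic := by
  constructor
  · intro h p _
    obtain ⟨v, ⟨e⟩⟩ := RatTwo.exists_place p
    exact (anisotropic_iff_of_algEquiv e Q).not.1 (h v)
  · intro h v
    obtain ⟨p, _, ⟨e⟩⟩ := exists_prime_of_place v
    exact (anisotropic_iff_of_algEquiv e Q).not.2 (h p)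

/-- The completions `v.adicCompletion ℚ` may be replaced by the fields `ℚ_[p]` (values of an
arbitrary quadratic form). -/
theorem forall_place_exists_value_iff (Q : QuadraticForm ℚ V) (c : ℚ) :
    (∀ v : HeightOneSpectrum (𝓞 ℚ), ∃ w : v.adicCompletion ℚ ⊗[ℚ] V,
        (Q.baseChange (v.adicCompletion ℚ)) w = algebraMap ℚ (v.adicCompletion ℚ) c) ↔
      ∀ (p : ℕ) [Fact p.Prime], ∃ w : ℚ_[p] ⊗[ℚ] V,
        (Q.baseChange ℚ_[p]) w = algebraMap ℚ ℚ_[p] c := by
  constructor
  · intro h p _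
    obtain ⟨v, ⟨e⟩⟩ := RatTwo.exists_place p
    exact (exists_value_iff_of_algEquiv e Q c).1 (h v)
  · intro h v
    obtain ⟨p, _, ⟨e⟩⟩ := exists_prime_of_place v
    exact (exists_value_iff_of_algEquiv e Q c).2 (h p)

end Places

/-! ### The real place -/

section Real

/-- A diagonal form with positive coefficients over `ℝ` is anisotropic. -/
theorem eq_zero_of_pos {n : ℕ} {b : Fin n → ℝ} (hb : ∀ i, 0 < b i) {x : Fin n → ℝ}
    (hx : ∑ i, b i * x i ^ 2 = 0) : x = 0 := by
  have h1 := (Finset.sum_eq_zero_iff_of_nonneg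
    (fun i _ => mul_nonneg (hb i).le (sq_nonneg (x i)))).1 hx
  funext i
  have h2 := h1 i (Finset.mem_univ i)
  rcases mul_eq_zero.1 h2 with h3 | h3
  · exact absurd h3 (hb i).ne'
  · exact pow_eq_zero_iff two_ne_zero |>.1 h3

/-- **A diagonal form without zero coefficient is isotropic over `ℝ` if and only if it is
indefinite.** -/
theorem isotropic_real_iff {n : ℕ} {a : Fin n → ℚ} (ha : ∀ i, a i ≠ 0) :
    (∃ x : Fin n → ℝ, x ≠ 0 ∧ ∑ i, algebraMap ℚ ℝ (a i) * x i ^ 2 = 0) ↔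
      ∃ i j, 0 < a i ∧ a j < 0 := by
  constructor
  · rintro ⟨x, hx0, hx⟩
    by_contra hcon
    push Not at hcon
    by_cases h : ∃ i, 0 < a i
    · obtain ⟨i, hi⟩ := h
      have hall : ∀ j, 0 < algebraMap ℚ ℝ (a j) := by
        intro j
        have h1 : 0 < a j := lt_of_le_of_ne (hcon i j hi) (ha j).symm
        rw [eq_ratCast]
        exact_mod_cast h1
      exact hx0 (eq_zero_of_pos hall hx)
    · push Not at h
      have hall : ∀ j, 0 < -algebraMap ℚ ℝ (a j) := by
        intro j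
        have h1 : a j < 0 := lt_of_le_of_ne (h j) (ha j)
        rw [eq_ratCast, neg_pos]
        exact_mod_cast h1
      refine hx0 (eq_zero_of_pos hall ?_)
      simp only [neg_mul, Finset.sum_neg_distrib, hx, neg_zero]
  · rintro ⟨i, j, hi, hj⟩
    have hij : i ≠ j := by
      rintro rfl
      exact lt_asymm hi hj
    have hi' : (0 : ℝ) ≤ (a i : ℝ) := by exact_mod_cast hi.le
    have hj' : (0 : ℝ) ≤ -(a j : ℝ) := by
      have : (a j : ℝ) < 0 := by exact_mod_cast hj
      linarith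
    refine ⟨fun k => if k = i then √(-(a j : ℝ)) else if k = j then √(a i : ℝ) else 0,
      fun h0 => ?_, ?_⟩
    · have h1 := congrFun h0 j
      simp only [if_neg hij.symm, if_true, Pi.zero_apply] at h1
      have h2 : (0 : ℝ) < (a i : ℝ) := by exact_mod_cast hi
      exact (Real.sqrt_pos.2 h2).ne' h1
    · have h1 : ∀ k, algebraMap ℚ ℝ (a k) *
          (if k = i then √(-(a j : ℝ)) else if k = j then √(a i : ℝ) else 0) ^ 2 =
          (if k = i then (a i : ℝ) * -(a j : ℝ) else 0) +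
            (if k = j then (a j : ℝ) * (a i : ℝ) else 0) := by
        intro k
        by_cases hk : k = i
        · subst hk
          rw [if_pos rfl, if_pos rfl, if_neg hij, Real.sq_sqrt hj', eq_ratCast, add_zero]
        · by_cases hk' : k = j
          · subst hk'
            rw [if_neg hk, if_pos rfl, if_neg hk, if_pos rfl, Real.sq_sqrt hi', eq_ratCast,
              zero_add]
          · rw [if_neg hk, if_neg hk', if_neg hk, if_neg hk']
            simp
      rw [Finset.sum_congr rfl fun k _ => h1 k, Finset.sum_add_distrib,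
        Finset.sum_ite_eq', Finset.sum_ite_eq', if_pos (Finset.mem_univ _),
        if_pos (Finset.mem_univ _)]
      ring

end Real

/-! ### All completions of `ℚ` -/

section Completions

/-- The completions of `ℚ`: the field `ℝ` and the fields `ℚ_p`. -/
def Cpl : Option Nat.Primes → Type
  | none => ℝ
  | some p => haveI : Fact (p : ℕ).Prime := ⟨p.2⟩; ℚ_[(p : ℕ)]

instance : ∀ v, Field (Cpl v)
  | none => inferInstanceAs (Field ℝ)
  | some p => haveI : Fact (p : ℕ).Prime := ⟨p.2⟩; inferInstanceAs (Field ℚ_[(p : ℕ)])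

instance : ∀ v, Algebra ℚ (Cpl v)
  | none => inferInstanceAs (Algebra ℚ ℝ)
  | some p => haveI : Fact (p : ℕ).Prime := ⟨p.2⟩; inferInstanceAs (Algebra ℚ ℚ_[(p : ℕ)])

/-- The local-global principle for diagonal forms without zero coefficient over `ℚ`, with the
completions `v.adicCompletion ℚ` and `ℝ`. -/
def RatDiag : Prop :=
  ∀ (n : ℕ) (a : Fin n → ℚ), (∀ i, a i ≠ 0) →
    (∀ v : HeightOneSpectrum (𝓞 ℚ), ∃ x : Fin n → v.adicCompletion ℚ, x ≠ 0 ∧
      ∑ i, algebraMap ℚ (v.adicCompletion ℚ) (a i) * x i ^ 2 = 0) →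
    (∃ x : Fin n → ℝ, x ≠ 0 ∧ ∑ i, algebraMap ℚ ℝ (a i) * x i ^ 2 = 0) →
    ∃ x : Fin n → ℚ, x ≠ 0 ∧ ∑ i, a i * x i ^ 2 = 0

/-- It is enough to have the local-global principle for indefinite forms. -/
theorem ratDiag_iff_indefinite :
    RatDiag ↔ ∀ (n : ℕ) (a : Fin n → ℚ), (∀ i, a i ≠ 0) →
      (∀ v : HeightOneSpectrum (𝓞 ℚ), ∃ x : Fin n → v.adicCompletion ℚ, x ≠ 0 ∧
        ∑ i, algebraMap ℚ (v.adicCompletion ℚ) (a i) * x i ^ 2 = 0) →
      (∃ i j, 0 < a i ∧ a j < 0) → ∃ x : Fin n → ℚ, x ≠ 0 ∧ ∑ i, a i * x i ^ 2 = 0 :=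
  ⟨fun H n a ha h h' => H n a ha h ((isotropic_real_iff ha).2 h'),
    fun H n a ha h h' => H n a ha h ((isotropic_real_iff ha).1 h')⟩

/-- `RatDiag` with real casts instead of `algebraMap ℚ ℝ`. -/
theorem ratDiag_iff_cast :
    RatDiag ↔ ∀ (n : ℕ) (a : Fin n → ℚ), (∀ i, a i ≠ 0) →
      (∀ v : HeightOneSpectrum (𝓞 ℚ), ∃ x : Fin n → v.adicCompletion ℚ, x ≠ 0 ∧
        ∑ i, algebraMap ℚ (v.adicCompletion ℚ) (a i) * x i ^ 2 = 0) →
      (∃ x : Fin n → ℝ, x ≠ 0 ∧ ∑ i, (a i : ℝ) * x i ^ 2 = 0) →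
      ∃ x : Fin n → ℚ, x ≠ 0 ∧ ∑ i, a i * x i ^ 2 = 0 := by
  unfold RatDiag
  simp only [eq_ratCast]

/-- The local-global principle for diagonal forms over `ℚ` and its completions `ℝ`, `ℚ_p`. -/
theorem diagLocalGlobal_rat (H : RatDiag) : DiagLocalGlobal ℚ Cpl := by
  intro n a ha h
  refine H n a ha ((forall_place_iff a).2 fun p hp => ?_) (h none)
  exact h (some ⟨p, hp.out⟩)

/-- **The theorem of Hasse and Minkowski for diagonal forms over `ℚ`**, from `RatDiag`. -/
theorem hasse_minkowski_rat_diag_of (H : RatDiag) {n : ℕ} (a : Fin n → ℚ) :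
    (∃ x : Fin n → ℚ, x ≠ 0 ∧ ∑ i, a i * x i ^ 2 = 0) ↔
      (∃ x : Fin n → ℝ, x ≠ 0 ∧ ∑ i, (a i : ℝ) * x i ^ 2 = 0) ∧
      ∀ (p : ℕ) [Fact p.Prime], ∃ x : Fin n → ℚ_[p], x ≠ 0 ∧
        ∑ i, (a i : ℚ_[p]) * x i ^ 2 = 0 := by
  have up : ∀ (L : Type) [Field L] [Algebra ℚ L],
      (∃ x : Fin n → ℚ, x ≠ 0 ∧ ∑ i, a i * x i ^ 2 = 0) →
      ∃ x : Fin n → L, x ≠ 0 ∧ ∑ i, algebraMap ℚ L (a i) * x i ^ 2 = 0 := fun L _ _ h =>
    isotropic_of_algHom (Algebra.ofId ℚ L) a h
  constructor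
  · intro h
    refine ⟨?_, fun p _ => ?_⟩
    · simpa only [eq_ratCast] using up ℝ h
    · simpa only [eq_ratCast] using up ℚ_[p] h
  · rintro ⟨h1, h2⟩
    refine (diagLocalGlobal_rat H).isotropic a fun v => ?_
    match v with
    | none =>
      have h3 : ∃ x : Fin n → ℝ, x ≠ 0 ∧ ∑ i, algebraMap ℚ ℝ (a i) * x i ^ 2 = 0 := by
        simpa only [eq_ratCast] using h1
      exact h3
    | some p =>
      have : Fact (p : ℕ).Prime := ⟨p.2⟩
      have h3 : ∃ x : Fin n → ℚ_[(p : ℕ)], x ≠ 0 ∧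
          ∑ i, algebraMap ℚ ℚ_[(p : ℕ)] (a i) * x i ^ 2 = 0 := by
        simpa only [eq_ratCast] using h2 p
      exact h3

variable {V : Type*} [AddCommGroup V] [Module ℚ V] [FiniteDimensional ℚ V]

/-- **The theorem of Hasse and Minkowski over `ℚ`**, from `RatDiag`. -/
theorem hasse_minkowski_rat_of (H : RatDiag) (Q : QuadraticForm ℚ V) :
    ¬ Q.Anisotropic ↔ ¬ (Q.baseChange ℝ).Anisotropic ∧
      ∀ (p : ℕ) [Fact p.Prime], ¬ (Q.baseChange ℚ_[p]).Anisotropic := by
  constructor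
  · exact fun h => ⟨not_anisotropic_baseChange Q h, fun p _ => not_anisotropic_baseChange Q h⟩
  · rintro ⟨h1, h2⟩
    refine not_anisotropic_of_family (diagLocalGlobal_rat H) Q fun v => ?_
    match v with
    | none => exact h1
    | some p =>
      have : Fact (p : ℕ).Prime := ⟨p.2⟩
      exact h2 p

/-- **Representation of rational numbers by quadratic forms**: the local-global principle, from
`RatDiag`. -/
theorem exists_value_rat_of (H : RatDiag) (Q : QuadraticForm ℚ V) (c : ℚ) :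
    (∃ w : V, Q w = c) ↔ (∃ w : ℝ ⊗[ℚ] V, (Q.baseChange ℝ) w = (c : ℝ)) ∧
      ∀ (p : ℕ) [Fact p.Prime], ∃ w : ℚ_[p] ⊗[ℚ] V, (Q.baseChange ℚ_[p]) w = (c : ℚ_[p]) := by
  constructor
  · rintro ⟨w, rfl⟩
    refine ⟨⟨1 ⊗ₜ w, ?_⟩, fun p _ => ⟨1 ⊗ₜ w, ?_⟩⟩ <;>
      rw [QuadraticForm.baseChange_tmul, mul_one, Algebra.smul_def, mul_one, eq_ratCast]
  · rintro ⟨h1, h2⟩
    refine exists_value_of_family (diagLocalGlobal_rat H) Q c fun v => ?_
    match v with
    | none =>
      have h3 : ∃ w : ℝ ⊗[ℚ] V, (Q.baseChange ℝ) w = algebraMap ℚ ℝ c := by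
        simpa only [eq_ratCast] using h1
      exact h3
    | some p =>
      have : Fact (p : ℕ).Prime := ⟨p.2⟩
      have h3 : ∃ w : ℚ_[(p : ℕ)] ⊗[ℚ] V, (Q.baseChange ℚ_[(p : ℕ)]) w =
          algebraMap ℚ ℚ_[(p : ℕ)] c := by
        simpa only [eq_ratCast] using h2 p
      exact h3

/-- **The weak Hasse principle over `ℚ`**: regular quadratic forms over `ℚ` are equivalent if and
only if they are equivalent over `ℝ` and over `ℚ_p` for every prime `p`; from `RatDiag`. -/
theorem equivalent_rat_of (H : RatDiag) {V' : Type*} [AddCommGroup V'] [Module ℚ V']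
    [FiniteDimensional ℚ V'] {Q : QuadraticForm ℚ V} {Q' : QuadraticForm ℚ V'}
    (hQ : (associated (R := ℚ) Q).SeparatingLeft)
    (hQ' : (associated (R := ℚ) Q').SeparatingLeft) :
    Q.Equivalent Q' ↔ (Q.baseChange ℝ).Equivalent (Q'.baseChange ℝ) ∧
      ∀ (p : ℕ) [Fact p.Prime], (Q.baseChange ℚ_[p]).Equivalent (Q'.baseChange ℚ_[p]) := by
  constructor
  · exact fun h => ⟨equivalent_baseChange h, fun p _ => equivalent_baseChange h⟩
  · rintro ⟨h1, h2⟩
    refine (equivalent_of_family (diagLocalGlobal_rat H) hQ hQ').2 fun v => ?_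
    match v with
    | none => exact h1
    | some p =>
      have : Fact (p : ℕ).Prime := ⟨p.2⟩
      exact h2 p

end Completions

end Fermat.Agent.Cor.HM
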