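import Fermat.Agent.Corollaries.HM.RatFinal
import Fermat.Agent.Corollaries.HM.RatPadic

/-!
# The theorem of Hasse and Minkowski over `ℚ`

* `hasse_minkowski_rat`: a quadratic form over `ℚ` is isotropic iff it is isotropic over `ℝ` and
  over `ℚ_p` for every prime `p`;
* `hasse_minkowski_rat_diag`: the same in coordinates;
* `exists_value_rat`: a quadratic form over `ℚ` represents `c ∈ ℚ` iff it does over `ℝ` and all `ℚ_p`;
* `equivalent_rat`: regular quadratic forms over `ℚ` are equivalent iff they are equivalent over `ℝ`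
  and over all `ℚ_p` (weak Hasse principle);
* `meyer`: a quadratic form over `ℚ` in at least five variables is isotropic iff it is isotropic over
  `ℝ`.
-/

set_option autoImplicit false

namespace Fermat.Agent.Cor.HM

open scoped TensorProduct

open QuadraticMap

/-- The local-global principle for diagonal forms over `ℚ`. -/
theorem ratDiag : RatDiag := diag_rat

/-- **The theorem of Hasse and Minkowski over `ℚ`**, in coordinates. -/
theorem hasse_minkowski_rat_diag {n : ℕ} (a : Fin n → ℚ) :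
    (∃ x : Fin n → ℚ, x ≠ 0 ∧ ∑ i, a i * x i ^ 2 = 0) ↔
      (∃ x : Fin n → ℝ, x ≠ 0 ∧ ∑ i, (a i : ℝ) * x i ^ 2 = 0) ∧
      ∀ (p : ℕ) [Fact p.Prime], ∃ x : Fin n → ℚ_[p], x ≠ 0 ∧ ∑ i, (a i : ℚ_[p]) * x i ^ 2 = 0 :=
  hasse_minkowski_rat_diag_of ratDiag a

section Forms

variable {V : Type*} [AddCommGroup V] [Module ℚ V] [FiniteDimensional ℚ V]

/-- **The theorem of Hasse and Minkowski over `ℚ`.** -/
theorem hasse_minkowski_rat (Q : QuadraticForm ℚ V) :
    ¬ Q.Anisotropic ↔ ¬ (Q.baseChange ℝ).Anisotropic ∧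
      ∀ (p : ℕ) [Fact p.Prime], ¬ (Q.baseChange ℚ_[p]).Anisotropic :=
  hasse_minkowski_rat_of ratDiag Q

/-- **Representation of rational numbers by quadratic forms** is a local question. -/
theorem exists_value_rat (Q : QuadraticForm ℚ V) (c : ℚ) :
    (∃ w : V, Q w = c) ↔ (∃ w : ℝ ⊗[ℚ] V, (Q.baseChange ℝ) w = (c : ℝ)) ∧
      ∀ (p : ℕ) [Fact p.Prime], ∃ w : ℚ_[p] ⊗[ℚ] V, (Q.baseChange ℚ_[p]) w = (c : ℚ_[p]) :=
  exists_value_rat_of ratDiag Q c

/-- **The weak Hasse principle over `ℚ`.** -/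
theorem equivalent_rat {V' : Type*} [AddCommGroup V'] [Module ℚ V'] [FiniteDimensional ℚ V']
    {Q : QuadraticForm ℚ V} {Q' : QuadraticForm ℚ V'}
    (hQ : (associated (R := ℚ) Q).SeparatingLeft) (hQ' : (associated (R := ℚ) Q').SeparatingLeft) :
    Q.Equivalent Q' ↔ (Q.baseChange ℝ).Equivalent (Q'.baseChange ℝ) ∧
      ∀ (p : ℕ) [Fact p.Prime], (Q.baseChange ℚ_[p]).Equivalent (Q'.baseChange ℚ_[p]) :=
  equivalent_rat_of ratDiag hQ hQ'

/-- **Meyer's theorem**: a quadratic form over `ℚ` in at least five variables is isotropic as soon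
as it is isotropic over `ℝ`. -/
theorem meyer (Q : QuadraticForm ℚ V) (h : 5 ≤ Module.finrank ℚ V) :
    ¬ Q.Anisotropic ↔ ¬ (Q.baseChange ℝ).Anisotropic := by
  refine ⟨fun h' => not_anisotropic_baseChange Q h', fun h' => ?_⟩
  obtain ⟨a, ha, -, hL⟩ := exists_diag' Q
  rw [ha]
  by_cases h0 : ∃ i, a i = 0
  · obtain ⟨i, hi⟩ := h0
    exact isotropic_of_coeff_eq_zero hi
  · push Not at h0
    obtain ⟨hp, hn⟩ := signs_of_real h0 ((hL ℝ).1.mp h')
    exact isotropic_rat_of_five_le h a h0 hp hn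

end Forms

end Fermat.Agent.Cor.HM
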