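import Fermat.Agent.Corollaries.HM.BiquadForm
import Fermat.Agent.Corollaries.HM.Hilb.Exist
import Fermat.Agent.Corollaries.HM.Rational

/-!
# The Hasse norm principle for biquadratic fields: the case of a full decomposition group

`a`, `b` rational numbers, `a`, `b`, `a b` not squares, `L = ℚ(√a, √b)`. If none of `a`, `b`, `a b` is
a square in `ℚ_p` for some prime `p`, then the Hasse norm principle holds for `L / ℚ`.
-/

set_option autoImplicit false

namespace Fermat.Agent.Cor.HN.Biq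

open TensorProduct Module
open Fermat.Agent.Cor.Hilb

/-! ### Local symbols -/

/-- The Hilbert symbol of `E` is bimultiplicative and non-degenerate. -/
structure Good (E : Type*) [Field E] : Prop where
  mul : ∀ {A B C : E}, A ≠ 0 → B ≠ 0 → C ≠ 0 → hilb A (B * C) = hilb A B * hilb A C
  nondeg : ∀ {A : E}, A ≠ 0 → ¬ IsSquare A → ∃ B : E, B ≠ 0 ∧ hilb A B = -1

lemma units_eq (e : ℤˣ) : e = 1 ∨ e = -1 := Int.units_eq_one_or e

theorem good_padic (p : ℕ) [hp : Fact p.Prime] : Good ℚ_[p] where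
  mul := hilb_padic_mul_right
  nondeg := by
    intro A hA h
    rw [isSquare_iff_hilb_padic hA] at h
    push Not at h
    obtain ⟨B, hB, h1⟩ := h
    exact ⟨B, hB, (units_eq _).resolve_left h1⟩

theorem good_real : Good ℝ where
  mul := by
    intro A B C hA hB hC
    rw [hilb_real hA (mul_ne_zero hB hC), hilb_real hA hB, hilb_real hA hC]
    rcases lt_or_gt_of_ne hA with h1 | h1 <;> rcases lt_or_gt_of_ne hB with h2 | h2 <;>
      rcases lt_or_gt_of_ne hC with h3 | h3
    · simp [h1, h2, h3, not_lt.mpr (mul_pos_of_neg_of_neg h2 h3).le]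
    · simp [h1, h2, not_lt.mpr h3.le, mul_neg_of_neg_of_pos h2 h3]
    · simp [h1, h3, not_lt.mpr h2.le, mul_neg_of_pos_of_neg h2 h3]
    · simp [not_lt.mpr h2.le, not_lt.mpr h3.le, not_lt.mpr (mul_pos h2 h3).le]
    all_goals simp [not_lt.mpr h1.le]
  nondeg := by
    intro A hA h
    have h1 : A < 0 := by
      by_contra h2
      exact h (Real.isSquare_iff.mpr (not_lt.mp h2))
    refine ⟨-1, by norm_num, ?_⟩
    rw [hilb_real hA (by norm_num), if_pos ⟨h1, by norm_num⟩]

section Good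

variable {E : Type*} [Field E]

lemma Good.mul_left (hE : Good E) {A B C : E} (hA : A ≠ 0) (hB : B ≠ 0) (hC : C ≠ 0) :
    hilb (A * B) C = hilb A C * hilb B C := by
  rw [hilb_comm, hE.mul hC hA hB, hilb_comm C, hilb_comm C]

lemma hilb_of_isSquare {A : E} (h : IsSquare A) (B : E) : hilb A B = 1 := by
  obtain ⟨c, rfl⟩ := h
  rw [hilb_comm, ← sq]
  exact hilb_sq_right B c

/-- two symbols -/
theorem Good.nondeg_two (hE : Good E) {u w : E} (hu : u ≠ 0) (hw : w ≠ 0) (h1 : ¬ IsSquare w)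
    (h2 : ¬ IsSquare (u * w)) : ∃ x : E, x ≠ 0 ∧ hilb u x = 1 ∧ hilb w x = -1 := by
  obtain ⟨B, hB, hB1⟩ := hE.nondeg hw h1
  obtain ⟨C, hC, hC1⟩ := hE.nondeg (mul_ne_zero hu hw) h2
  rw [hE.mul_left hu hw hC] at hC1
  rcases units_eq (hilb u B) with h3 | h3
  · exact ⟨B, hB, h3, hB1⟩
  rcases units_eq (hilb u C) with h4 | h4
  · refine ⟨C, hC, h4, ?_⟩
    rwa [h4, one_mul] at hC1
  · have h5 : hilb w C = 1 := by
      rw [h4, neg_one_mul, neg_inj] at hC1
      exact hC1
    refine ⟨B * C, mul_ne_zero hB hC, ?_, ?_⟩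
    · rw [hE.mul hu hB hC, h3, h4]
      norm_num
    · rw [hE.mul hw hB hC, hB1, h5]
      norm_num

end Good

/-! ### Global norms from a quadratic field -/

/-- the local-global principle for norms from `ℚ(√a)`, in terms of symbols -/
theorem exists_of_hilb {a c : ℚ} (ha : a ≠ 0) (hp : ∀ p, hilbAt p a c = 1)
    (hr : hilbInf a c = 1) : ∃ s t : ℚ, c = s ^ 2 - a * t ^ 2 := by
  rw [← sol_iff_norm two_ne_zero ha]
  have h := Fermat.Agent.Cor.HM.hasse_minkowski_rat_diag (n := 3) ![a, c, -1]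
  have key : ∀ {E : Type} [Field E] [CharZero E], Sol (a : E) (c : E) →
      ∃ x : Fin 3 → E, x ≠ 0 ∧ ∑ i, (((![a, c, -1] : Fin 3 → ℚ) i : ℚ) : E) * x i ^ 2 = 0 := by
    rintro E _ _ ⟨x, y, z, h0, h1⟩
    refine ⟨![x, y, z], fun h2 => h0 ?_, ?_⟩
    · exact ⟨congrFun h2 0, congrFun h2 1, congrFun h2 2⟩
    · rw [Fin.sum_univ_three]
      simp only [Matrix.cons_val_zero, Matrix.cons_val_one, Matrix.cons_val]
      push_cast
      linear_combination -h1
  obtain ⟨x, hx0, hx⟩ := h.mpr ⟨key (hilb_eq_one_iff.mp hr), fun p _ =>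
    key (hilb_eq_one_iff.mp (hp ⟨p, Fact.out⟩))⟩
  rw [Fin.sum_univ_three] at hx
  simp only [Matrix.cons_val_zero, Matrix.cons_val_one, Matrix.cons_val] at hx
  refine ⟨x 0, x 1, x 2, fun h2 => hx0 ?_, ?_⟩
  · ext i
    fin_cases i
    · exact h2.1
    · exact h2.2.1
    · exact h2.2.2
  · linear_combination -hx

/-! ### The existence of rational numbers -/

section Exist

open Classical in
/-- The first step: `m = n s`, `n` a norm from `ℚ(√a)`. -/
theorem exists_first {a b m : ℚ} (ha : a ≠ 0) (hb : b ≠ 0) (hm : m ≠ 0) {q : ℕ} [hq : Fact q.Prime]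
    (h1 : ¬ IsSquare (a : ℚ_[q])) (h2 : ¬ IsSquare (b : ℚ_[q]))
    (h3 : ¬ IsSquare ((a : ℚ_[q]) * b)) :
    ∃ n : ℚ, n ≠ 0 ∧ (∀ p, hilbAt p a n = 1) ∧ hilbInf a n = 1 ∧
      (∀ (p : ℕ) [hp : Fact p.Prime], IsSquare (a : ℚ_[p]) →
        hilbAt ⟨p, hp.out⟩ b n = hilbAt ⟨p, hp.out⟩ b m) ∧
      (0 < a → hilbInf b n = hilbInf b m) := by
  let sqAt : Nat.Primes → Prop := fun p => haveI : Fact p.1.Prime := ⟨p.2⟩; IsSquare (a : ℚ_[p])
  let f : Nat.Primes → ℤˣ := fun p => if sqAt p then hilbAt p b m else 1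
  let δ : ℤˣ := if 0 < a then hilbInf b m else 1
  let P : ℤˣ := (∏ᶠ p, f p) * δ
  let g : Nat.Primes → ℤˣ := fun p => if p = ⟨q, hq.out⟩ then P else 1
  have hf : (Function.mulSupport f).Finite := by
    refine (finite_hilbAt hb hm).subset fun p hp => ?_
    simp only [f, Function.mem_mulSupport] at hp
    by_contra h4
    apply hp
    split_ifs
    · exact not_not.mp h4
    · rfl
  have hg : (Function.mulSupport g).Finite := by
    refine (Set.finite_singleton (⟨q, hq.out⟩ : Nat.Primes)).subset fun p hp => ?_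
    by_contra h4
    exact hp (if_neg h4)
  obtain ⟨n, hn, h4, h5⟩ := (exists_rat_hilb_iff (ι := Fin 2) ![a, b]
    (by intro i; fin_cases i; exacts [ha, hb])
    (![fun _ => 1, fun p => f p * g p]) (![1, δ])).mpr (by
      refine ⟨?_, ?_, ?_, ?_⟩
      · intro i
        fin_cases i
        · simp
        · refine (hf.union hg).subset fun p hp => ?_
          by_contra h4
          rw [Set.mem_union, not_or, Function.notMem_mulSupport, Function.notMem_mulSupport] at h4
          exact hp (by simp [h4.1, h4.2])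
      · intro i
        fin_cases i
        · simp
        · change (∏ᶠ p, f p * g p) * δ = 1
          rw [finprod_mul_distrib hf hg]
          have h6 : ∏ᶠ p, g p = P := by
            rw [finprod_eq_single g ⟨q, hq.out⟩ fun p hp => if_neg hp]
            exact if_pos rfl
          rw [h6, mul_right_comm]
          exact Int.units_mul_self P
      · intro p hp
        by_cases hsq : IsSquare (a : ℚ_[p])
        · have hpq : p ≠ q := by
            rintro rfl
            exact h1 hsq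
          refine ⟨m, by exact_mod_cast hm, fun i => ?_⟩
          fin_cases i
          · exact hilb_of_isSquare hsq _
          · change hilb (b : ℚ_[p]) m = f ⟨p, hp.out⟩ * g ⟨p, hp.out⟩
            have e1 : f ⟨p, hp.out⟩ = hilbAt ⟨p, hp.out⟩ b m := if_pos hsq
            have e2 : g ⟨p, hp.out⟩ = 1 := if_neg fun h => hpq (congrArg Subtype.val h)
            rw [e1, e2, mul_one]
            rfl
        · have e1 : f ⟨p, hp.out⟩ = 1 := if_neg hsq
          by_cases hpq : p = q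
          · subst hpq
            have e2 : g ⟨p, hp.out⟩ = P := if_pos rfl
            rcases units_eq P with hP | hP
            · refine ⟨1, one_ne_zero, fun i => ?_⟩
              fin_cases i
              · exact hilb_one_right _
              · change hilb (b : ℚ_[p]) 1 = f ⟨p, hp.out⟩ * g ⟨p, hp.out⟩
                rw [e1, e2, hP, hilb_one_right, mul_one]
            · obtain ⟨x, hx, h6, h7⟩ := (good_padic p).nondeg_two
                (u := (a : ℚ_[p])) (w := (b : ℚ_[p])) (by exact_mod_cast ha)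
                (by exact_mod_cast hb) h2 h3
              refine ⟨x, hx, fun i => ?_⟩
              fin_cases i
              · exact h6
              · change hilb (b : ℚ_[p]) x = f ⟨p, hp.out⟩ * g ⟨p, hp.out⟩
                rw [e1, e2, hP, h7, one_mul]
          · have e2 : g ⟨p, hp.out⟩ = 1 := if_neg fun h => hpq (congrArg Subtype.val h)
            refine ⟨1, one_ne_zero, fun i => ?_⟩
            fin_cases i
            · exact hilb_one_right _
            · change hilb (b : ℚ_[p]) 1 = f ⟨p, hp.out⟩ * g ⟨p, hp.out⟩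
              rw [e1, e2, hilb_one_right, mul_one]
      · by_cases ha0 : 0 < a
        · have e1 : δ = hilbInf b m := if_pos ha0
          refine ⟨m, by exact_mod_cast hm, fun i => ?_⟩
          fin_cases i
          · exact hilb_of_isSquare (Real.isSquare_iff.mpr (by exact_mod_cast ha0.le)) _
          · change hilb (b : ℝ) m = δ
            rw [e1]
            rfl
        · have e1 : δ = 1 := if_neg ha0
          refine ⟨1, one_ne_zero, fun i => ?_⟩
          fin_cases i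
          · exact hilb_one_right _
          · change hilb (b : ℝ) 1 = δ
            rw [e1, hilb_one_right])
  refine ⟨n, hn, h4 0, h5 0, ?_, ?_⟩
  · intro p hp hsq
    have hpq : p ≠ q := by
      rintro rfl
      exact h1 hsq
    have h6 := h4 1 ⟨p, hp.out⟩
    change hilbAt ⟨p, hp.out⟩ b n = f ⟨p, hp.out⟩ * g ⟨p, hp.out⟩ at h6
    have e1 : f ⟨p, hp.out⟩ = hilbAt ⟨p, hp.out⟩ b m := if_pos hsq
    have e2 : g ⟨p, hp.out⟩ = 1 := if_neg fun h => hpq (congrArg Subtype.val h)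
    rw [h6, e1, e2, mul_one]
  · intro ha0
    have h6 := h5 1
    change hilbInf b n = δ at h6
    rw [h6]
    exact if_pos ha0

/-- The second step: `s = s₁ s₂`. -/
theorem exists_second {a b s : ℚ} (ha : a ≠ 0) (hb : b ≠ 0) (hs : s ≠ 0)
    (h1 : ∀ (p : ℕ) [hp : Fact p.Prime], IsSquare (a : ℚ_[p]) → hilbAt ⟨p, hp.out⟩ b s = 1)
    (h2 : 0 < a → hilbInf b s = 1) :
    ∃ n : ℚ, n ≠ 0 ∧ (∀ p, hilbAt p b n = 1) ∧ hilbInf b n = 1 ∧
      (∀ p, hilbAt p (a * b) n = hilbAt p (a * b) s) ∧ hilbInf (a * b) n = hilbInf (a * b) s := by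
  have hab : a * b ≠ 0 := mul_ne_zero ha hb
  -- the local statement
  have key : ∀ {E : Type} [Field E] [CharZero E], Good E →
      (IsSquare (a : E) → hilb (b : E) (s : E) = 1) →
      ∃ x : E, x ≠ 0 ∧ hilb (b : E) x = 1 ∧ hilb ((a * b : ℚ) : E) x = hilb ((a * b : ℚ) : E) s := by
    intro E _ _ hE h
    have ha' : (a : E) ≠ 0 := by exact_mod_cast ha
    have hb' : (b : E) ≠ 0 := by exact_mod_cast hb
    have hs' : (s : E) ≠ 0 := by exact_mod_cast hs
    rw [Rat.cast_mul]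
    rcases units_eq (hilb ((a : E) * b) s) with h3 | h3
    · exact ⟨1, one_ne_zero, hilb_one_right _, by rw [h3, hilb_one_right]⟩
    · have h4 : ¬ IsSquare ((a : E) * b) := by
        intro h5
        rw [hilb_of_isSquare h5] at h3
        exact absurd h3 (by decide)
      have h5 : ¬ IsSquare (a : E) := by
        intro h6
        rw [hE.mul_left ha' hb' hs', hilb_of_isSquare h6, h h6] at h3
        exact absurd h3 (by decide)
      obtain ⟨x, hx, h6, h7⟩ := hE.nondeg_two hb' (mul_ne_zero ha' hb') h4 (by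
        rintro ⟨c, hc⟩
        apply h5
        refine ⟨c / b, ?_⟩
        field_simp
        linear_combination hc)
      exact ⟨x, hx, h6, by rw [h3, h7]⟩
  obtain ⟨n, hn, h4, h5⟩ := (exists_rat_hilb_iff (ι := Fin 2) ![b, a * b]
    (by intro i; fin_cases i; exacts [hb, hab])
    (![fun _ => 1, fun p => hilbAt p (a * b) s]) (![1, hilbInf (a * b) s])).mpr (by
      refine ⟨?_, ?_, ?_, ?_⟩
      · intro i
        fin_cases i
        · simp
        · exact finite_hilbAt hab hs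
      · intro i
        fin_cases i
        · simp
        · exact product_formula hab hs
      · intro p hp
        obtain ⟨x, hx, h6, h7⟩ := key (good_padic p) (h1 p)
        refine ⟨x, hx, fun i => ?_⟩
        fin_cases i
        · exact h6
        · exact h7
      · obtain ⟨x, hx, h6, h7⟩ := key good_real (fun h => h2 (by
          have := Real.isSquare_iff.mp h
          exact lt_of_le_of_ne (by exact_mod_cast this) ha.symm))
        refine ⟨x, hx, fun i => ?_⟩
        fin_cases i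
        · exact h6
        · exact h7)
  exact ⟨n, hn, h4 0, h5 0, h4 1, h5 1⟩

end Exist

/-! ### The Hasse norm principle -/

section Main

lemma hilbAt_mul {p : Nat.Primes} {a x y : ℚ} (ha : a ≠ 0) (hx : x ≠ 0) (hy : y ≠ 0) :
    hilbAt p a (x * y) = hilbAt p a x * hilbAt p a y := by
  have hp : Fact p.1.Prime := ⟨p.2⟩
  change hilb (a : ℚ_[p]) ((x * y : ℚ) : ℚ_[p]) = hilb (a : ℚ_[p]) x * hilb (a : ℚ_[p]) y
  rw [Rat.cast_mul]
  exact hilb_padic_mul_right (by exact_mod_cast ha) (by exact_mod_cast hx) (by exact_mod_cast hy)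

lemma hilbInf_mul {a x y : ℚ} (ha : a ≠ 0) (hx : x ≠ 0) (hy : y ≠ 0) :
    hilbInf a (x * y) = hilbInf a x * hilbInf a y := by
  change hilb (a : ℝ) ((x * y : ℚ) : ℝ) = hilb (a : ℝ) x * hilb (a : ℝ) y
  rw [Rat.cast_mul]
  exact good_real.mul (by exact_mod_cast ha) (by exact_mod_cast hx) (by exact_mod_cast hy)

lemma units_div {e f g : ℤˣ} (h : e = f * g) : g = f * e := by
  rw [h, ← mul_assoc, Int.units_mul_self, one_mul]

/-- **`ℚˣ = N(ℚ(√a)) N(ℚ(√b)) N(ℚ(√(ab)))`** if some local degree of `ℚ(√a, √b)` is `4`. -/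
theorem exists_three {a b m : ℚ} (ha : a ≠ 0) (hb : b ≠ 0) (hm : m ≠ 0) {q : ℕ}
    [hq : Fact q.Prime] (h1 : ¬ IsSquare (a : ℚ_[q])) (h2 : ¬ IsSquare (b : ℚ_[q]))
    (h3 : ¬ IsSquare ((a : ℚ_[q]) * b)) : ∃ u₁ v₁ u₂ v₂ u₃ v₃ : ℚ,
      m = (u₁ ^ 2 - a * v₁ ^ 2) * (u₂ ^ 2 - b * v₂ ^ 2) * (u₃ ^ 2 - a * b * v₃ ^ 2) := by
  have hab : a * b ≠ 0 := mul_ne_zero ha hb
  obtain ⟨n, hn, hn1, hn2, hn3, hn4⟩ := exists_first ha hb hm h1 h2 h3
  set s : ℚ := m / n with hs
  have hs0 : s ≠ 0 := div_ne_zero hm hn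
  have hms : m = n * s := by rw [hs]; field_simp
  have hs1 : ∀ (p : ℕ) [hp : Fact p.Prime], IsSquare (a : ℚ_[p]) →
      hilbAt ⟨p, hp.out⟩ b s = 1 := by
    intro p hp hsq
    have h4 := hilbAt_mul (p := (⟨p, hp.out⟩ : Nat.Primes)) hb hn hs0
    rw [← hms] at h4
    rw [units_div h4, hn3 p hsq, Int.units_mul_self]
  have hs2 : 0 < a → hilbInf b s = 1 := by
    intro ha0
    have h4 : hilbInf b m = hilbInf b n * hilbInf b s := by
      rw [hms, hilbInf_mul hb hn hs0]
    rw [units_div h4, hn4 ha0, Int.units_mul_self]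
  obtain ⟨s₁, hs₁, h4, h5, h6, h7⟩ := exists_second ha hb hs0 hs1 hs2
  set s₂ : ℚ := s / s₁ with hs₂
  have hs₂0 : s₂ ≠ 0 := div_ne_zero hs0 hs₁
  have hss : s = s₁ * s₂ := by rw [hs₂]; field_simp
  have h8 : ∀ p, hilbAt p (a * b) s₂ = 1 := by
    intro p
    have h9 : hilbAt p (a * b) s = hilbAt p (a * b) s₁ * hilbAt p (a * b) s₂ := by
      rw [hss, hilbAt_mul hab hs₁ hs₂0]
    rw [units_div h9, h6 p, Int.units_mul_self]
  have h9 : hilbInf (a * b) s₂ = 1 := by
    have h10 : hilbInf (a * b) s = hilbInf (a * b) s₁ * hilbInf (a * b) s₂ := by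
      rw [hss, hilbInf_mul hab hs₁ hs₂0]
    rw [units_div h10, h7, Int.units_mul_self]
  obtain ⟨u₁, v₁, e1⟩ := exists_of_hilb ha hn1 hn2
  obtain ⟨u₂, v₂, e2⟩ := exists_of_hilb hb h4 h5
  obtain ⟨u₃, v₃, e3⟩ := exists_of_hilb hab h8 h9
  exact ⟨u₁, v₁, u₂, v₂, u₃, v₃, by rw [← e1, ← e2, ← e3, hms, hss]; ring⟩

variable {L : Type*} [Field L] [Algebra ℚ L] {α β : L} {a b : ℚ}

/-- Every square is a norm from `L = ℚ(√a, √b)` if some local degree is `4`. -/
theorem sq_norm (h : IsBiq a b α β) {q : ℕ} [hq : Fact q.Prime] (h1 : ¬ IsSquare (a : ℚ_[q]))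
    (h2 : ¬ IsSquare (b : ℚ_[q])) (h3 : ¬ IsSquare ((a : ℚ_[q]) * b)) {m : ℚ} (hm : m ≠ 0) :
    ∃ z : L, Algebra.norm ℚ z = m ^ 2 := by
  obtain ⟨u₁, v₁, u₂, v₂, u₃, v₃, e⟩ := exists_three (ne_zero_of_not h.ha) (ne_zero_of_not h.hb)
    hm h1 h2 h3
  obtain ⟨z₁, hz₁⟩ := (norm_iff_Nf h ((u₁ ^ 2 - a * v₁ ^ 2) ^ 2)).mpr ⟨![u₁, v₁, 0, 0], by
    rw [Nf]
    simp only [Matrix.cons_val_zero, Matrix.cons_val_one, Matrix.cons_val]
    ring⟩
  obtain ⟨z₂, hz₂⟩ := (norm_iff_Nf h ((u₂ ^ 2 - b * v₂ ^ 2) ^ 2)).mpr ⟨![u₂, 0, v₂, 0], by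
    rw [Nf]
    simp only [Matrix.cons_val_zero, Matrix.cons_val_one, Matrix.cons_val]
    ring⟩
  obtain ⟨z₃, hz₃⟩ := (norm_iff_Nf h ((u₃ ^ 2 - a * b * v₃ ^ 2) ^ 2)).mpr
    ⟨![u₃, 0, 0, v₃], by
    rw [Nf]
    simp only [Matrix.cons_val_zero, Matrix.cons_val_one, Matrix.cons_val]
    ring⟩
  refine ⟨z₁ * z₂ * z₃, ?_⟩
  rw [map_mul, map_mul, hz₁, hz₂, hz₃, e]
  ring

/-- A common norm from `ℚ(√a)` and `ℚ(√b)` is a norm from `L` up to a square. -/
theorem exists_sq_mul (h : IsBiq a b α β) {c s t s' t' : ℚ} (hc : c ≠ 0)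
    (h1 : c = s ^ 2 - a * t ^ 2) (h2 : c = s' ^ 2 - b * t' ^ 2) :
    ∃ m : ℚ, m ≠ 0 ∧ ∃ z : L, Algebra.norm ℚ z = m ^ 2 * c := by
  have key : ∀ r : ℚ, r ^ 2 = s' ^ 2 → s + r ≠ 0 → ∃ m : ℚ, m ≠ 0 ∧
      ∃ z : L, Algebra.norm ℚ z = m ^ 2 * c := by
    intro r hr hsr
    refine ⟨2 * (s + r), mul_ne_zero two_ne_zero hsr, ?_⟩
    rw [norm_iff_Nf h]
    refine ⟨![s + r, t, t', 0], ?_⟩
    rw [Nf]
    simp only [Matrix.cons_val_zero, Matrix.cons_val_one, Matrix.cons_val]
    have e1 : a * t ^ 2 = s ^ 2 - c := by linear_combination h1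
    have e2 : b * t' ^ 2 = r ^ 2 - c := by linear_combination h2 - hr
    have e3 : ((s + r) ^ 2 + a * t ^ 2 - b * t' ^ 2 - a * b * 0 ^ 2) ^ 2 -
        a * (2 * (s + r) * t - 2 * b * t' * 0) ^ 2 =
        ((s + r) ^ 2 + a * t ^ 2 - b * t' ^ 2) ^ 2 - 4 * (s + r) ^ 2 * (a * t ^ 2) := by ring
    rw [e3, e1, e2]
    ring
  by_cases h3 : s + s' = 0
  · by_cases h4 : s + -s' = 0
    · exfalso
      have hs : s = 0 := by linarith
      have hs' : s' = 0 := by linarith
      rw [hs] at h1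
      rw [hs'] at h2
      have ht' : t ≠ 0 := by
        rintro rfl
        exact hc (by rw [h1]; ring)
      apply h.hab
      refine ⟨b * t' / t, ?_⟩
      field_simp
      linear_combination b * (h1 - h2)
    · exact key (-s') (by ring) h4
  · exact key s' rfl h3

/-- The local conditions, with `ℚ_p` for all prime numbers `p` and `ℝ`. -/
structure LocNormQ (L : Type*) [Field L] [Algebra ℚ L] (c : ℚ) : Prop where
  fin : ∀ (p : ℕ) [Fact p.Prime], NormOver ℚ L ℚ_[p] (algebraMap ℚ ℚ_[p] c)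
  real : NormOver ℚ L ℝ (algebraMap ℚ ℝ c)

/-- **The Hasse norm principle holds for `ℚ(√a, √b)`** if for some prime `q` none of `a`, `b`,
`a b` is a square in `ℚ_q`. -/
theorem hasse_holds (h : IsBiq a b α β) {q : ℕ} [hq : Fact q.Prime]
    (h1 : ¬ IsSquare (a : ℚ_[q])) (h2 : ¬ IsSquare (b : ℚ_[q]))
    (h3 : ¬ IsSquare ((a : ℚ_[q]) * b)) {c : ℚ} (hc : LocNormQ L c) :
    ∃ z : L, Algebra.norm ℚ z = c := by
  have ha := ne_zero_of_not h.ha
  have hb := ne_zero_of_not h.hb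
  by_cases hc0 : c = 0
  · refine ⟨0, ?_⟩
    have hfin : FiniteDimensional ℚ L :=
      FiniteDimensional.of_finrank_pos (by rw [h.hd]; norm_num)
    rw [hc0, Algebra.norm_zero]
  -- the symbols
  have key : ∀ {E : Type} [Field E] [Algebra ℚ E], NormOver ℚ L E (algebraMap ℚ E c) →
      hilb (a : E) (c : E) = 1 ∧ hilb (b : E) (c : E) = 1 := by
    intro E _ _ hE
    have hch : CharZero E := algebraRat.charZero E
    rw [normOver_iff_Nf h] at hE
    obtain ⟨x, hx⟩ := hE
    rw [eq_ratCast, eq_ratCast, eq_ratCast] at hx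
    constructor
    · rw [hilb_eq_one_iff, sol_iff_norm two_ne_zero (by exact_mod_cast ha), ← hx]
      exact Nf_eq _ _ x
    · rw [hilb_eq_one_iff, sol_iff_norm two_ne_zero (by exact_mod_cast hb), ← hx]
      exact Nf_eq' _ _ x
  obtain ⟨s, t, e1⟩ := exists_of_hilb (a := a) (c := c) ha
    (fun p => haveI : Fact p.1.Prime := ⟨p.2⟩; (key (hc.fin p)).1) (key hc.real).1
  obtain ⟨s', t', e2⟩ := exists_of_hilb (a := b) (c := c) hb
    (fun p => haveI : Fact p.1.Prime := ⟨p.2⟩; (key (hc.fin p)).2) (key hc.real).2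
  obtain ⟨m, hm, z, hz⟩ := exists_sq_mul h hc0 e1 e2
  obtain ⟨w, hw⟩ := sq_norm h h1 h2 h3 (m := m⁻¹) (inv_ne_zero hm)
  refine ⟨w * z, ?_⟩
  rw [map_mul, hw, hz]
  field_simp

end Main

end Fermat.Agent.Cor.HN.Biq
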