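import Fermat.Agent.Corollaries.HM.Hilbert90

/-!
# Cyclic extensions: norms and an intermediate field

`L / K` cyclic of degree `p * m` with generator `σ`, `M = Mid σ p` the fixed field of `σ ^ p`
(`[M : K] = p`).

* `normOver_mid`: `c ^ m` a norm from `F ⊗ L` implies `c` a norm from `F ⊗ M`;
* `normOver_up`: a norm from `F ⊗[K] L` is a norm from `F ⊗[M] L` (`M ⊆ F`);
* `exists_norm_eq_pow_mul`: `b ∈ K` a norm from `L` to `M` implies that `c ^ m * b` is a norm from `L`
  to `K` for some `c ∈ Kˣ`.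
-/

set_option autoImplicit false

namespace Fermat.Agent.Cor.HN

open TensorProduct Module Finset

section Sub

variable {K L : Type*} [Field K] [Field L] [Algebra K L]

/-- The fixed field of `σ ^ p`. -/
abbrev Mid (σ : L ≃ₐ[K] L) (p : ℕ) : IntermediateField K L :=
  IntermediateField.fixedField (Subgroup.zpowers (σ ^ p))

variable [FiniteDimensional K L] [IsGalois K L] {σ : L ≃ₐ[K] L}

theorem orderOf_eq (hσ : ∀ g, g ∈ Subgroup.zpowers σ) : orderOf σ = finrank K L := by
  rw [orderOf_eq_card_of_forall_mem_zpowers hσ, IsGalois.card_aut_eq_finrank]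

omit [FiniteDimensional K L] in
theorem isGalois_mid (hσ : ∀ g, g ∈ Subgroup.zpowers σ) (p : ℕ) : IsGalois K (Mid σ p) := by
  have hn : (Subgroup.zpowers (σ ^ p)).Normal := by
    constructor
    rintro _ ⟨b, rfl⟩ g
    obtain ⟨a, rfl⟩ := hσ g
    refine ⟨b, ?_⟩
    change (σ ^ p) ^ b = σ ^ a * (σ ^ p) ^ b * (σ ^ a)⁻¹
    rw [← zpow_natCast, ← zpow_mul, ← zpow_neg, ← zpow_add, ← zpow_add]
    congr 1
    ring
  exact IsGalois.of_fixedField_normal_subgroup _

variable {p m : ℕ}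

theorem finrank_mid_top (hσ : ∀ g, g ∈ Subgroup.zpowers σ) (hn : finrank K L = p * m)
    (hp : p ≠ 0) : finrank (Mid σ p) L = m := by
  have hord : orderOf σ = p * m := (orderOf_eq hσ).trans hn
  rw [IntermediateField.finrank_fixedField_eq_card, Nat.card_zpowers,
    orderOf_pow_of_dvd hp (by rw [hord]; exact Dvd.intro _ rfl), hord,
    Nat.mul_div_cancel_left _ (Nat.pos_of_ne_zero hp)]

theorem finrank_mid (hσ : ∀ g, g ∈ Subgroup.zpowers σ) (hn : finrank K L = p * m)
    (hp : p ≠ 0) (hm : m ≠ 0) : finrank K (Mid σ p) = p := by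
  have h1 := finrank_mul_finrank K (Mid σ p) L
  rw [finrank_mid_top hσ hn hp, hn] at h1
  exact Nat.eq_of_mul_eq_mul_right (Nat.pos_of_ne_zero hm) h1

/-- The restriction of `σ` to the intermediate field. -/
noncomputable def resMid (hσ : ∀ g, g ∈ Subgroup.zpowers σ) (p : ℕ) :
    Mid σ p ≃ₐ[K] Mid σ p :=
  have := isGalois_mid hσ p
  AlgEquiv.restrictNormalHom (Mid σ p) σ

omit [FiniteDimensional K L] in
theorem coe_resMid_pow (hσ : ∀ g, g ∈ Subgroup.zpowers σ) (p i : ℕ) (x : Mid σ p) :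
    (((resMid hσ p) ^ i) x : L) = (σ ^ i) x := by
  have := isGalois_mid hσ p
  have h1 : (resMid hσ p) ^ i = AlgEquiv.restrictNormalHom (Mid σ p) (σ ^ i) := by
    rw [map_pow]
    rfl
  rw [h1]
  exact AlgEquiv.restrictNormal_commutes (σ ^ i) (Mid σ p) x

omit [FiniteDimensional K L] in
theorem resMid_gen (hσ : ∀ g, g ∈ Subgroup.zpowers σ) (p : ℕ) (g : Mid σ p ≃ₐ[K] Mid σ p) :
    g ∈ Subgroup.zpowers (resMid hσ p) := by
  have := isGalois_mid hσ p
  obtain ⟨h, rfl⟩ := AlgEquiv.restrictNormalHom_surjective (F := K) (K₁ := Mid σ p) L g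
  obtain ⟨k, rfl⟩ := hσ h
  refine ⟨k, ?_⟩
  change (resMid hσ p) ^ k = AlgEquiv.restrictNormalHom (Mid σ p) (σ ^ k)
  rw [map_zpow]
  rfl

/-- `σ ^ p` over the intermediate field. -/
noncomputable def topMid (σ : L ≃ₐ[K] L) (p : ℕ) : L ≃ₐ[Mid σ p] L :=
  IntermediateField.fixingSubgroupEquiv (Mid σ p) ⟨σ ^ p, by
    rw [IntermediateField.fixingSubgroup_fixedField]
    exact Subgroup.mem_zpowers _⟩

omit [IsGalois K L] in
theorem topMid_pow_apply (σ : L ≃ₐ[K] L) (p j : ℕ) (l : L) :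
    ((topMid σ p) ^ j) l = (σ ^ (p * j)) l := by
  rw [topMid, ← map_pow, pow_mul]
  rfl

omit [IsGalois K L] in
theorem topMid_gen (σ : L ≃ₐ[K] L) (p : ℕ) (h : L ≃ₐ[Mid σ p] L) :
    h ∈ Subgroup.zpowers (topMid σ p) := by
  obtain ⟨⟨g, hg⟩, rfl⟩ := (IntermediateField.fixingSubgroupEquiv (Mid σ p)).surjective h
  have hg' := hg
  rw [IntermediateField.fixingSubgroup_fixedField] at hg'
  obtain ⟨k, hk⟩ := hg'
  refine ⟨k, ?_⟩
  change (topMid σ p) ^ k = _
  rw [topMid, ← map_zpow]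
  congr 1
  exact Subtype.ext hk

end Sub

section Local

variable {K L : Type*} [Field K] [Field L] [Algebra K L] [FiniteDimensional K L] [IsGalois K L]
  {σ : L ≃ₐ[K] L} {p m : ℕ} {F : Type*} [Field F] [Algebra K F]

theorem prod_pw_eq [Infinite K] (hσ : ∀ g, g ∈ Subgroup.zpowers σ)
    (z : F ⊗[K] L) : ∏ k ∈ range (finrank K L), pw F σ k z =
      algebraMap F (F ⊗[K] L) (Algebra.norm F z) := by
  rw [← orderOf_eq hσ, ← prodAct_eq_range hσ, prodAct_eq]

omit [FiniteDimensional K L] [IsGalois K L] in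
/-- The telescoping identity. -/
theorem prod_pw_mul (σ : L ≃ₐ[K] L) (p : ℕ) (z : F ⊗[K] L) :
    (∏ i ∈ range p, pw F σ i z) * pw F σ p z = z * pw F σ 1 (∏ i ∈ range p, pw F σ i z) := by
  have h2 := prod_range_succ (fun i => pw F σ i z) p
  have h3 := prod_range_succ' (fun i => pw F σ i z) p
  rw [h2, pw_zero] at h3
  rw [h3, map_prod, mul_comm]
  congr 1
  refine prod_congr rfl fun i _ => ?_
  rw [← pw_add, add_comm]

/-- **Local dévissage**: if `c ^ m` is a norm from `F ⊗ L`, then `c` is a norm from `F ⊗ M`. -/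
theorem normOver_mid [Infinite K] (hσ : ∀ g, g ∈ Subgroup.zpowers σ)
    (hn : finrank K L = p * m) (hp : p ≠ 0) (hm : m ≠ 0) {c : F} (hc : c ≠ 0)
    (h : NormOver K L F (c ^ m)) : NormOver K (Mid σ p) F c := by
  have hF : Infinite F := Infinite.of_injective _ (algebraMap K F).injective
  obtain ⟨x, hx⟩ := h
  have hAx := prod_pw_eq hσ x
  rw [hn, hx] at hAx
  have hord : orderOf (σ ^ p) = m := by
    have h1 : orderOf σ = p * m := (orderOf_eq hσ).trans hn
    rw [orderOf_pow_of_dvd hp (by rw [h1]; exact Dvd.intro _ rfl), h1,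
      Nat.mul_div_cancel_left _ (Nat.pos_of_ne_zero hp)]
  set Px : F ⊗[K] L := ∏ i ∈ range p, pw F σ i x with hPx
  set X : F ⊗[K] L := Px * algebraMap F _ c⁻¹ with hX
  have hXc : X * algebraMap F _ c = Px := by
    rw [hX, mul_assoc, ← map_mul, inv_mul_cancel₀ hc, map_one, mul_one]
  have hX1 : ∏ j ∈ range m, pw F (σ ^ p) j X = 1 := by
    have h1 : ∀ j ∈ range m, pw F (σ ^ p) j X =
        (∏ i ∈ range p, pw F σ (p * j + i) x) * algebraMap F _ c⁻¹ := by
      intro j _
      rw [pw_pow, hX, map_mul, pw_algebraMap, hPx, map_prod]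
      congr 1
      refine prod_congr rfl fun i _ => ?_
      rw [← pw_add]
    rw [prod_congr rfl h1, prod_mul_distrib, prod_regroup (fun k => pw F σ k x), hAx,
      prod_const, card_range, ← map_pow, ← map_mul, ← mul_pow, mul_inv_cancel₀ hc, one_pow,
      map_one]
  obtain ⟨t, ht, ht1⟩ := hilbert90_tensor (σ ^ p) hord (Nat.pos_of_ne_zero hm) hX1
  rw [pw_pow, mul_one] at ht1
  obtain ⟨t, rfl⟩ := ht
  set s : F ⊗[K] L := ((t⁻¹ : (F ⊗[K] L)ˣ) : F ⊗[K] L) with hs
  have hts : (t : F ⊗[K] L) * s = 1 := t.mul_inv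
  set z : F ⊗[K] L := x * t * pw F σ 1 s with hz
  -- the product of the conjugates of `z`
  have hPz : ∏ i ∈ range p, pw F σ i z = algebraMap F _ c := by
    have hu : IsUnit (pw F σ p (t : F ⊗[K] L)) := t.isUnit.map (pw F σ p)
    apply hu.mul_right_cancel
    have h1 := prod_pw_mul σ p (t : F ⊗[K] L)
    have h2 : ∏ i ∈ range p, pw F σ i z = Px * (∏ i ∈ range p, pw F σ i (t : F ⊗[K] L)) *
        pw F σ 1 (∏ i ∈ range p, pw F σ i s) := by
      rw [hPx, ← prod_mul_distrib, map_prod, ← prod_mul_distrib]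
      refine prod_congr rfl fun i _ => ?_
      rw [hz, map_mul, map_mul, ← pw_add, ← pw_add, add_comm 1 i]
    have h3 : (∏ i ∈ range p, pw F σ i (t : F ⊗[K] L)) * (∏ i ∈ range p, pw F σ i s) = 1 := by
      rw [← prod_mul_distrib]
      refine prod_eq_one fun i _ => ?_
      rw [← map_mul, hts, map_one]
    rw [h2]
    calc Px * (∏ i ∈ range p, pw F σ i (t : F ⊗[K] L)) *
          pw F σ 1 (∏ i ∈ range p, pw F σ i s) * pw F σ p (t : F ⊗[K] L)
        = Px * pw F σ 1 (∏ i ∈ range p, pw F σ i s) *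
          ((∏ i ∈ range p, pw F σ i (t : F ⊗[K] L)) * pw F σ p (t : F ⊗[K] L)) := by ring
      _ = Px * t * pw F σ 1 ((∏ i ∈ range p, pw F σ i (t : F ⊗[K] L)) *
            (∏ i ∈ range p, pw F σ i s)) := by
          rw [h1, map_mul]
          ring
      _ = algebraMap F _ c * pw F σ p (t : F ⊗[K] L) := by
          rw [h3, map_one, mul_one, ht1, ← hXc]
          ring
  have hfix : pw F (σ ^ p) 1 z = z := by
    rw [pw_pow, mul_one]
    have hcu : IsUnit (algebraMap F (F ⊗[K] L) c) := (IsUnit.mk0 c hc).map _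
    apply hcu.mul_left_cancel
    have h1 := prod_pw_mul σ p z
    rw [hPz, pw_algebraMap] at h1
    rw [h1, mul_comm]
  obtain ⟨z₀, hz₀⟩ := mem_range_of_fixed (σ ^ p) hfix
  refine ⟨z₀, ?_⟩
  apply (algebraMap F (F ⊗[K] L)).injective
  have hgal := isGalois_mid hσ p
  have h1 := prod_pw_eq (F := F) (resMid_gen hσ p) z₀
  rw [finrank_mid hσ hn hp hm] at h1
  let ιF := Algebra.TensorProduct.map (AlgHom.id F F)
    (IntermediateField.fixedField (Subgroup.zpowers (σ ^ p))).val
  have h2 : ∀ (i : ℕ) (w : F ⊗[K] (Mid σ p)), ιF (pw F (resMid hσ p) i w) = pw F σ i (ιF w) := by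
    intro i w
    induction w using TensorProduct.induction_on with
    | zero => simp only [map_zero]
    | tmul r l =>
      change r ⊗ₜ[K] (((resMid hσ p) ^ i) l : L) = r ⊗ₜ[K] (σ ^ i) (l : L)
      rw [coe_resMid_pow]
    | add a b ha hb => rw [map_add, map_add, map_add, map_add, ha, hb]
  have h3 := congrArg ιF h1
  rw [map_prod, AlgHom.commutes] at h3
  rw [← h3, ← hPz]
  refine prod_congr rfl fun i _ => ?_
  rw [h2]
  congr 1

set_option synthInstance.maxHeartbeats 200000 in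
/-- A norm from `F ⊗[K] L` is a norm from `F ⊗[M] L`. -/
theorem normOver_up [Infinite K] (hσ : ∀ g, g ∈ Subgroup.zpowers σ)
    (hn : finrank K L = p * m) (hp : p ≠ 0) [Algebra (Mid σ p) F] [IsScalarTower K (Mid σ p) F]
    {b : F} (h : NormOver K L F b) : NormOver (Mid σ p) L F b := by
  have hKM : Infinite (Mid σ p) := Infinite.of_injective _ (algebraMap K (Mid σ p)).injective
  obtain ⟨z, hz⟩ := h
  have hAz := prod_pw_eq hσ z
  rw [hn, hz] at hAz
  let q : F ⊗[K] L →ₐ[F] F ⊗[Mid σ p] L :=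
    Algebra.TensorProduct.lift (Algebra.ofId F (F ⊗[Mid σ p] L))
      ((Algebra.TensorProduct.includeRight : L →ₐ[Mid σ p] F ⊗[Mid σ p] L).restrictScalars K)
      (fun _ _ => Commute.all _ _)
  have hq : ∀ (r : F) (l : L), q (r ⊗ₜ l) = r ⊗ₜ l := by
    intro r l
    change algebraMap F (F ⊗[Mid σ p] L) r * (1 ⊗ₜ l) = _
    rw [Algebra.TensorProduct.algebraMap_apply, Algebra.TensorProduct.tmul_mul_tmul, mul_one,
      one_mul]
    rfl
  have h2 : ∀ (j : ℕ) (w : F ⊗[K] L), q (pw F σ (p * j) w) = pw F (topMid σ p) j (q w) := by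
    intro j w
    induction w using TensorProduct.induction_on with
    | zero => simp only [map_zero]
    | tmul r l => rw [pw_tmul, hq, hq, pw_tmul, topMid_pow_apply]
    | add a b ha hb => rw [map_add, map_add, map_add, map_add, ha, hb]
  set Z : F ⊗[K] L := ∏ i ∈ range p, pw F σ i z with hZ
  refine ⟨q Z, ?_⟩
  apply (algebraMap F (F ⊗[Mid σ p] L)).injective
  have h3 := prod_pw_eq (F := F) (topMid_gen σ p) (q Z)
  rw [finrank_mid_top hσ hn hp] at h3
  rw [← h3]
  have h5 : ∀ j, pw F (topMid σ p) j (q Z) = q (∏ i ∈ range p, pw F σ (p * j + i) z) := by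
    intro j
    have h6 : pw F σ (p * j) (∏ i ∈ range p, pw F σ i z) =
        ∏ i ∈ range p, pw F σ (p * j + i) z := by
      rw [map_prod]
      exact prod_congr rfl fun i _ => (pw_add σ (p * j) i z).symm
    rw [← h2, hZ, h6]
  have h4 : ∏ j ∈ range m, pw F (topMid σ p) j (q Z) = q (∏ k ∈ range (p * m), pw F σ k z) := by
    have h7 : q (∏ j ∈ range m, ∏ i ∈ range p, pw F σ (p * j + i) z) =
        ∏ j ∈ range m, q (∏ i ∈ range p, pw F σ (p * j + i) z) := map_prod q _ _
    rw [← prod_regroup (fun k => pw F σ k z), h7]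
    simp only [h5]
  rw [h4, hAz, AlgHom.commutes]

end Local

section Global

variable {K L : Type} [Field K] [Field L] [Algebra K L] [FiniteDimensional K L] [IsGalois K L]
  {σ : L ≃ₐ[K] L} {p m : ℕ}

theorem prod_pow_eq (hσ : ∀ g, g ∈ Subgroup.zpowers σ) (w : L) :
    ∏ k ∈ range (finrank K L), (σ ^ k) w = algebraMap K L (Algebra.norm K w) := by
  classical
  rw [Algebra.norm_eq_prod_automorphisms, ← orderOf_eq hσ, ← IsCyclic.image_range_orderOf hσ,
    prod_image]
  intro i hi j hj hij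
  exact pow_injOn_Iio_orderOf (by simpa using hi) (by simpa using hj) hij

/-- **Global dévissage.** -/
theorem exists_norm_eq_pow_mul (hσ : ∀ g, g ∈ Subgroup.zpowers σ)
    (hn : finrank K L = p * m) (hp : p ≠ 0) {b : K} (hb : b ≠ 0) {y : L}
    (hy : Algebra.norm (Mid σ p) y = algebraMap K (Mid σ p) b) :
    ∃ (c : K) (u : L), c ≠ 0 ∧ Algebra.norm K u = c ^ m * b := by
  have hy0 : y ≠ 0 := by
    rintro rfl
    rw [Algebra.norm_zero] at hy
    exact (_root_.map_ne_zero _).mpr hb hy.symm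
  have hN : ∀ w : L, ∏ j ∈ range m, (σ ^ (p * j)) w =
      algebraMap (Mid σ p) L (Algebra.norm (Mid σ p) w) := by
    intro w
    have h1 := prod_pow_eq (topMid_gen σ p) w
    rw [finrank_mid_top hσ hn hp] at h1
    rw [← h1]
    exact prod_congr rfl fun j _ => (topMid_pow_apply σ p j w).symm
  have hby : algebraMap (Mid σ p) L (Algebra.norm (Mid σ p) y) = algebraMap K L b := by
    rw [hy]
    exact (IsScalarTower.algebraMap_apply K (Mid σ p) L b).symm
  have hσy0 : σ y ≠ 0 := (_root_.map_ne_zero σ).mpr hy0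
  have hcomm : ∀ (i : ℕ) (w : L), (σ ^ i) (σ w) = σ ((σ ^ i) w) := by
    intro i w
    rw [← AlgEquiv.mul_apply, ← AlgEquiv.mul_apply, ← pow_succ, ← pow_succ']
  have hone : Algebra.norm (Mid σ p) (y / σ y) = 1 := by
    apply (algebraMap (Mid σ p) L).injective
    rw [← hN, map_one]
    have h1 : ∀ j ∈ range m, (σ ^ (p * j)) (y / σ y) = (σ ^ (p * j)) y / σ ((σ ^ (p * j)) y) := by
      intro j _
      rw [map_div₀, hcomm]
    rw [prod_congr rfl h1, prod_div_distrib, ← map_prod, hN, hby, AlgEquiv.commutes,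
      div_self ((_root_.map_ne_zero _).mpr hb)]
  have hcyc : IsCyclic (L ≃ₐ[Mid σ p] L) := ⟨⟨topMid σ p, topMid_gen σ p⟩⟩
  obtain ⟨u, hu⟩ := groupCohomology.exists_div_of_norm_eq_one (topMid_gen σ p) hone
  have htop : topMid σ p (u : L) = (σ ^ p) (u : L) := by
    have h1 := topMid_pow_apply σ p 1 (u : L)
    rwa [pow_one, mul_one] at h1
  rw [htop] at hu
  set U : L := ∏ i ∈ range p, (σ ^ i) (u : L) with hU
  have hu0 : (u : L) ≠ 0 := u.ne_zero
  have hσu0 : (σ ^ p) (u : L) ≠ 0 := (_root_.map_ne_zero (σ ^ p)).mpr hu0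
  have hU0 : U ≠ 0 := prod_ne_zero_iff.mpr fun i _ => (_root_.map_ne_zero (σ ^ i)).mpr hu0
  have htel : U * (σ ^ p) (u : L) = u * σ U := by
    have h2 := prod_range_succ (fun i => (σ ^ i) (u : L)) p
    have h3 := prod_range_succ' (fun i => (σ ^ i) (u : L)) p
    rw [h2, pow_zero, AlgEquiv.one_apply] at h3
    rw [hU, h3, map_prod, mul_comm]
    congr 1
    refine prod_congr rfl fun i _ => ?_
    rw [pow_succ', AlgEquiv.mul_apply]
  have hfix : σ (U / y) = U / y := by
    rw [map_div₀, div_eq_div_iff hσy0 hy0]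
    rw [div_eq_div_iff hσu0 hσy0] at hu
    apply mul_left_cancel₀ hu0
    linear_combination (-y) * htel - U * hu
  have hall : ∀ g : L ≃ₐ[K] L, g (U / y) = U / y := by
    intro g
    obtain ⟨k, rfl⟩ := hσ g
    have h5 : σ ∈ MulAction.stabilizer (L ≃ₐ[K] L) (U / y) := hfix
    exact zpow_mem h5 k
  obtain ⟨c, hc⟩ := (IsGalois.mem_range_algebraMap_iff_fixed (F := K) (U / y)).mpr hall
  have hUc : U = algebraMap K L c * y := by
    rw [hc, div_mul_cancel₀ _ hy0]
  refine ⟨c, u, ?_, ?_⟩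
  · rintro rfl
    rw [map_zero, zero_mul] at hUc
    exact hU0 hUc
  · apply (algebraMap K L).injective
    rw [← prod_pow_eq hσ, hn, ← prod_regroup (fun k => (σ ^ k) (u : L))]
    have h1 : ∀ j ∈ range m, ∏ i ∈ range p, (σ ^ (p * j + i)) (u : L) =
        algebraMap K L c * (σ ^ (p * j)) y := by
      intro j _
      have h2 : ∏ i ∈ range p, (σ ^ (p * j + i)) (u : L) = (σ ^ (p * j)) U := by
        rw [hU, map_prod]
        refine prod_congr rfl fun i _ => ?_
        rw [pow_add, AlgEquiv.mul_apply]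
      rw [h2, hUc, map_mul, AlgEquiv.commutes]
    rw [prod_congr rfl h1, prod_mul_distrib, prod_const, card_range, hN, hby, map_mul, map_pow]

end Global

end Fermat.Agent.Cor.HN
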