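import Fermat.Agent.Corollaries.HM.Cyclic
import Fermat.Agent.Corollaries.HM.CyclicMid

/-!
# The Hasse norm theorem for cyclic extensions

`hasse_norm_theorem`: `L / K` a cyclic extension of number fields, of odd degree or with `K` totally
complex: `b ∈ K` is a norm from `L` iff it is a norm from `K_v ⊗ L` for all finite places `v` of `K`.
-/

set_option autoImplicit false

namespace Fermat.Agent.Cor.HN

open NumberField IsDedekindDomain Module Fermat.Agent.LT.Ext
open scoped TensorProduct

section

variable {K A : Type*} [Field K] [CommRing A] [Algebra K A] [Module.Finite K A] {F : Type*}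
  [Field F] [Algebra K F]

omit [Module.Finite K A] in
theorem NormOver.pow {c : F} (h : NormOver K A F c) (n : ℕ) : NormOver K A F (c ^ n) := by
  obtain ⟨z, hz⟩ := h
  exact ⟨z ^ n, by rw [map_pow, hz]⟩

theorem NormOver.inv {c : F} (hA : finrank K A ≠ 0) (hc : c ≠ 0) (h : NormOver K A F c) :
    NormOver K A F c⁻¹ := by
  have h1 := (h.pow (finrank K A - 1)).mul (NormOver.pow_finrank (K := K) (A := A) (c⁻¹))
  have h2 : c ^ (finrank K A - 1) * c⁻¹ ^ finrank K A = c⁻¹ := by
    obtain ⟨j, hj⟩ : ∃ j, finrank K A = j + 1 := ⟨finrank K A - 1, by omega⟩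
    rw [hj, Nat.add_sub_cancel, pow_succ, ← mul_assoc, ← mul_pow, mul_inv_cancel₀ hc, one_pow,
      one_mul]
  rwa [h2] at h1

end

section Norm

variable {K L : Type*} [Field K] [Field L] [Algebra K L] [FiniteDimensional K L]

theorem norm_algebraMap_mid [IsGalois K L] {σ : L ≃ₐ[K] L} {p m : ℕ}
    (hσ : ∀ g, g ∈ Subgroup.zpowers σ) (hn : finrank K L = p * m) (hp : p ≠ 0) (s : Mid σ p) :
    Algebra.norm K (algebraMap (Mid σ p) L s) = Algebra.norm K s ^ m := by
  have h1 := Algebra.norm_norm (R := K) (S := Mid σ p) (a := algebraMap (Mid σ p) L s)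
  rw [← h1, Algebra.norm_algebraMap, finrank_mid_top hσ hn hp, map_pow]

theorem norm_div_eq {u s : L} {c b : K} {m : ℕ} (hc : c ≠ 0)
    (hu : Algebra.norm K u = c ^ m * b) (hs : Algebra.norm K s = c ^ m) :
    Algebra.norm K (u / s) = b := by
  have hs0 : s ≠ 0 := by
    rintro rfl
    rw [Algebra.norm_zero] at hs
    exact pow_ne_zero _ hc hs.symm
  have h3 : Algebra.norm K (u / s) * Algebra.norm K s = Algebra.norm K u := by
    rw [← map_mul, div_mul_cancel₀ _ hs0]
  rw [hs, hu] at h3
  apply mul_right_cancel₀ (pow_ne_zero m hc)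
  rw [h3, mul_comm]

end Norm

section Place

variable {K L : Type} [Field K] [NumberField K] [Field L] [Algebra K L] [FiniteDimensional K L]

/-- Local norms of `L / K` are local norms of `L / M`, `M / K` an intermediate field. -/
theorem normOver_up_place [IsGalois K L] {σ : L ≃ₐ[K] L} {p m : ℕ}
    (hσ : ∀ g, g ∈ Subgroup.zpowers σ) (hn : finrank K L = p * m) (hp : p ≠ 0)
    [NumberField (Mid σ p)] {b : K}
    (h : ∀ v : HeightOneSpectrum (𝓞 K), NormOver K L (v.adicCompletion K) (algebraMap K _ b))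
    (w : HeightOneSpectrum (𝓞 (Mid σ p))) :
    NormOver (Mid σ p) L (w.adicCompletion (Mid σ p))
      (algebraMap (Mid σ p) _ (algebraMap K (Mid σ p) b)) := by
  have hover : w.asIdeal.LiesOver (w.under (𝓞 K)).asIdeal := ⟨rfl⟩
  let hc := compat_liesOver (K := K) (L := Mid σ p) (w.under (𝓞 K)) w
  let φ : (w.under (𝓞 K)).adicCompletion K →ₐ[K] w.adicCompletion (Mid σ p) :=
    { hc.ext with
      commutes' := fun x => by
        change hc.ext (algebraMap K _ x) = _
        rw [hc.ext_algebraMap]
        exact (IsScalarTower.algebraMap_apply K (Mid σ p) (w.adicCompletion (Mid σ p)) x).symm }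
  have h1 := (h (w.under (𝓞 K))).map φ
  rw [AlgHom.commutes, IsScalarTower.algebraMap_apply K (Mid σ p) (w.adicCompletion (Mid σ p))]
    at h1
  exact normOver_up hσ hn hp h1

end Place

set_option maxHeartbeats 1000000 in
/-- **The Hasse norm theorem** for cyclic extensions `L / K` of number fields (`[L : K]` odd, or `K`
totally complex). -/
theorem hasse_norm_theorem {K L : Type} [Field K] [NumberField K] [Field L] [Algebra K L]
    [FiniteDimensional K L] [IsGalois K L] [IsCyclic (L ≃ₐ[K] L)]
    (hK : Odd (finrank K L) ∨ IsTotallyComplex K) (b : K) :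
    (∃ z : L, Algebra.norm K z = b) ↔
      ∀ v : HeightOneSpectrum (𝓞 K), NormOver K L (v.adicCompletion K) (algebraMap K _ b) := by
  refine ⟨fun h v => NormOver.of_norm h, ?_⟩
  rcases eq_or_ne b 0 with rfl | hb0
  · exact fun _ => ⟨0, Algebra.norm_zero⟩
  generalize hd : finrank K L = n at hK
  induction n using Nat.strong_induction_on generalizing K with
  | _ n ih =>
    intro h
    rcases eq_or_ne n 1 with rfl | hn1
    · exact ⟨algebraMap K L b, by rw [Algebra.norm_algebraMap, hd, pow_one]⟩
    have hn0 : n ≠ 0 := by rw [← hd]; exact (finrank_pos).ne'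
    obtain ⟨p, hp, m, rfl⟩ : ∃ p, p.Prime ∧ p ∣ n := Nat.exists_prime_and_dvd hn1
    have hm0 : m ≠ 0 := right_ne_zero_of_mul hn0
    have hp0 := hp.ne_zero
    obtain ⟨σ, hσ⟩ := IsCyclic.exists_generator (α := L ≃ₐ[K] L)
    have hgal := isGalois_mid hσ p
    have hnf : NumberField (Mid σ p) := NumberField.of_module_finite K (Mid σ p)
    have hcyc : IsCyclic (L ≃ₐ[Mid σ p] L) := ⟨⟨topMid σ p, topMid_gen σ p⟩⟩
    have hmlt : m < p * m := by
      have := hp.two_le
      have := Nat.pos_of_ne_zero hm0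
      nlinarith
    have hb0' : algebraMap K (Mid σ p) b ≠ 0 := (_root_.map_ne_zero _).mpr hb0
    have hK' : Odd m ∨ IsTotallyComplex (Mid σ p) := by
      rcases hK with hK | hK
      · exact Or.inl (Nat.odd_mul.mp hK).2
      · exact Or.inr (isTotallyComplex_of_algebra K _)
    obtain ⟨y, hy⟩ := ih m hmlt (K := Mid σ p) (b := algebraMap K (Mid σ p) b) hb0'
      (finrank_mid_top hσ hd hp0) hK' (normOver_up_place hσ hd hp0 h)
    obtain ⟨c, u, hc0, hu⟩ := exists_norm_eq_pow_mul hσ hd hp0 hb0 hy
    -- `c` is a local norm from the intermediate field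
    have hcloc : ∀ v : HeightOneSpectrum (𝓞 K),
        NormOver K (Mid σ p) (v.adicCompletion K) (algebraMap K _ c) := by
      intro v
      have hc0' : algebraMap K (v.adicCompletion K) c ≠ 0 := (_root_.map_ne_zero _).mpr hc0
      have hb0'' : algebraMap K (v.adicCompletion K) b ≠ 0 := (_root_.map_ne_zero _).mpr hb0
      apply normOver_mid hσ hd hp0 hm0 hc0'
      have h1 : NormOver K L (v.adicCompletion K) (algebraMap K _ (c ^ m * b)) :=
        NormOver.of_norm ⟨u, hu⟩
      have h2 := h1.mul ((h v).inv (by rw [hd]; exact hn0) hb0'')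
      rwa [map_mul, map_pow, mul_assoc, mul_inv_cancel₀ hb0'', mul_one] at h2
    have hKp : p ≠ 2 ∨ IsTotallyComplex K := by
      rcases hK with hK | hK
      · refine Or.inl ?_
        rintro rfl
        exact absurd (Nat.odd_mul.mp hK).1 (by decide)
      · exact Or.inr hK
    obtain ⟨s, hs⟩ := (hasse_norm_prime hp (finrank_mid hσ hd hp0 hm0) hKp c).mpr hcloc
    have hs' := norm_algebraMap_mid hσ hd hp0 s
    rw [hs] at hs'
    exact ⟨_, norm_div_eq hc0 hu hs'⟩

end Fermat.Agent.Cor.HN
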