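import Fermat.Agent.Corollaries.HM.BiquadFail
import Fermat.Agent.Corollaries.HM.CyclicAll

/-!
# The obstruction to the Hasse norm principle for biquadratic fields

`L = ℚ(√a, √b)`. The group of the everywhere local norms modulo the group of the norms from `L` has
order `1` if none of `a`, `b`, `a b` is a square in `ℚ_p` for some prime `p`, otherwise order `2`.
-/

set_option autoImplicit false

namespace Fermat.Agent.Cor.HN.Biq

open TensorProduct Module
open Fermat.Agent.Cor.Hilb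

open Classical in
/-- the factor at `p` -/
noncomputable def phiAt (a b : ℚ) (p : Nat.Primes) (m : ℚ) : ℤˣ :=
  haveI : Fact p.1.Prime := ⟨p.2⟩
  if IsSquare (a : ℚ_[p]) then hilbAt p b m else 1

open Classical in
/-- the factor at infinity -/
noncomputable def phiInf (a b m : ℚ) : ℤˣ := if 0 < a then hilbInf b m else 1

/-- The product of the symbols `(b, m)_v` over the places `v` at which `a` is a square. -/
noncomputable def phi (a b m : ℚ) : ℤˣ := (∏ᶠ p, phiAt a b p m) * phiInf a b m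

lemma phiAt_of {a b m : ℚ} {p : ℕ} [hp : Fact p.Prime] (h : IsSquare (a : ℚ_[p])) :
    phiAt a b ⟨p, hp.out⟩ m = hilbAt ⟨p, hp.out⟩ b m := if_pos h

lemma phiAt_of_not {a b m : ℚ} {p : ℕ} [hp : Fact p.Prime] (h : ¬ IsSquare (a : ℚ_[p])) :
    phiAt a b ⟨p, hp.out⟩ m = 1 := if_neg h

lemma finite_phiAt {a b m : ℚ} (hb : b ≠ 0) (hm : m ≠ 0) :
    (Function.mulSupport fun p => phiAt a b p m).Finite := by
  refine (finite_hilbAt hb hm).subset fun p hp => ?_
  have hpf : Fact p.1.Prime := ⟨p.2⟩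
  by_contra h4
  apply hp
  by_cases h5 : IsSquare (a : ℚ_[p.1])
  · exact (phiAt_of h5).trans (not_not.mp h4)
  · exact phiAt_of_not h5

theorem phi_mul {a b m n : ℚ} (hb : b ≠ 0) (hm : m ≠ 0) (hn : n ≠ 0) :
    phi a b (m * n) = phi a b m * phi a b n := by
  have h1 : ∀ p, phiAt a b p (m * n) = phiAt a b p m * phiAt a b p n := by
    intro p
    have hpf : Fact p.1.Prime := ⟨p.2⟩
    by_cases h5 : IsSquare (a : ℚ_[p.1])
    · refine (phiAt_of h5).trans ((hilbAt_mul hb hm hn).trans ?_)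
      exact (congrArg₂ (· * ·) (phiAt_of h5) (phiAt_of h5)).symm
    · refine (phiAt_of_not h5).trans ?_
      exact ((congrArg₂ (· * ·) (phiAt_of_not h5) (phiAt_of_not h5)).trans (mul_one 1)).symm
  have h2 : phiInf a b (m * n) = phiInf a b m * phiInf a b n := by
    unfold phiInf
    split_ifs
    · exact hilbInf_mul hb hm hn
    · rw [mul_one]
  unfold phi
  rw [finprod_congr h1, finprod_mul_distrib (finite_phiAt hb hm) (finite_phiAt hb hn), h2,
    mul_mul_mul_comm]

/-- The first step: `m = n s`, `n` a norm from `ℚ(√a)`, if `phi a b m = 1`. -/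
theorem exists_first_phi {a b m : ℚ} (ha : a ≠ 0) (hb : b ≠ 0) (hm : m ≠ 0)
    (hphi : phi a b m = 1) :
    ∃ n : ℚ, n ≠ 0 ∧ (∀ p, hilbAt p a n = 1) ∧ hilbInf a n = 1 ∧
      (∀ (p : ℕ) [hp : Fact p.Prime], IsSquare (a : ℚ_[p]) →
        hilbAt ⟨p, hp.out⟩ b n = hilbAt ⟨p, hp.out⟩ b m) ∧
      (0 < a → hilbInf b n = hilbInf b m) := by
  obtain ⟨n, hn, h4, h5⟩ := (exists_rat_hilb_iff (ι := Fin 2) ![a, b]
    (by intro i; fin_cases i; exacts [ha, hb])
    (![fun _ => 1, fun p => phiAt a b p m]) (![1, phiInf a b m])).mpr (by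
      refine ⟨?_, ?_, ?_, ?_⟩
      · intro i
        fin_cases i
        · simp
        · exact finite_phiAt hb hm
      · intro i
        fin_cases i
        · simp
        · exact hphi
      · intro p hp
        by_cases hsq : IsSquare (a : ℚ_[p])
        · refine ⟨m, by exact_mod_cast hm, fun i => ?_⟩
          fin_cases i
          · exact hilb_of_isSquare hsq _
          · exact (phiAt_of hsq).symm
        · refine ⟨1, one_ne_zero, fun i => ?_⟩
          fin_cases i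
          · exact hilb_one_right _
          · exact (hilb_one_right _).trans (phiAt_of_not hsq).symm
      · by_cases ha0 : 0 < a
        · have e1 : phiInf a b m = hilbInf b m := if_pos ha0
          refine ⟨m, by exact_mod_cast hm, fun i => ?_⟩
          fin_cases i
          · exact hilb_of_isSquare (Real.isSquare_iff.mpr (by exact_mod_cast ha0.le)) _
          · exact e1.symm
        · have e1 : phiInf a b m = 1 := if_neg ha0
          refine ⟨1, one_ne_zero, fun i => ?_⟩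
          fin_cases i
          · exact hilb_one_right _
          · exact (hilb_one_right _).trans e1.symm)
  refine ⟨n, hn, h4 0, h5 0, ?_, ?_⟩
  · intro p hp hsq
    exact (h4 1 ⟨p, hp.out⟩).trans (phiAt_of hsq)
  · intro ha0
    exact (h5 1).trans (if_pos ha0)

/-- `m ∈ N(ℚ(√a)) N(ℚ(√b)) N(ℚ(√(ab)))` if `phi a b m = 1`. -/
theorem exists_three_phi {a b m : ℚ} (ha : a ≠ 0) (hb : b ≠ 0) (hm : m ≠ 0)
    (hphi : phi a b m = 1) : ∃ u₁ v₁ u₂ v₂ u₃ v₃ : ℚ,
      m = (u₁ ^ 2 - a * v₁ ^ 2) * (u₂ ^ 2 - b * v₂ ^ 2) * (u₃ ^ 2 - a * b * v₃ ^ 2) := by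
  have hab : a * b ≠ 0 := mul_ne_zero ha hb
  obtain ⟨n, hn, hn1, hn2, hn3, hn4⟩ := exists_first_phi ha hb hm hphi
  set s : ℚ := m / n with hs
  have hs0 : s ≠ 0 := div_ne_zero hm hn
  have hms : m = n * s := by rw [hs]; field_simp
  have hs1 : ∀ (p : ℕ) [hp : Fact p.Prime], IsSquare (a : ℚ_[p]) →
      hilbAt ⟨p, hp.out⟩ b s = 1 := by
    intro p hp hsq
    have h4 := hilbAt_mul (p := (⟨p, hp.out⟩ : Nat.Primes)) hb hn hs0
    rw [← hms] at h4
    rw [units_div h4, hn3 p hsq, Int.units_mul_self]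
  have hs2 : 0 < a → hilbInf b s = 1 := by
    intro ha0
    have h4 : hilbInf b m = hilbInf b n * hilbInf b s := by
      rw [hms, hilbInf_mul hb hn hs0]
    rw [units_div h4, hn4 ha0, Int.units_mul_self]
  obtain ⟨s₁, hs₁, h4, h5, h6, h7⟩ := exists_second ha hb hs0 hs1 hs2
  set s₂ : ℚ := s / s₁ with hs₂
  have hs₂0 : s₂ ≠ 0 := div_ne_zero hs0 hs₁
  have hss : s = s₁ * s₂ := by rw [hs₂]; field_simp
  have h8 : ∀ p, hilbAt p (a * b) s₂ = 1 := by
    intro p
    have h9 : hilbAt p (a * b) s = hilbAt p (a * b) s₁ * hilbAt p (a * b) s₂ := by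
      rw [hss, hilbAt_mul hab hs₁ hs₂0]
    rw [units_div h9, h6 p, Int.units_mul_self]
  have h9 : hilbInf (a * b) s₂ = 1 := by
    have h10 : hilbInf (a * b) s = hilbInf (a * b) s₁ * hilbInf (a * b) s₂ := by
      rw [hss, hilbInf_mul hab hs₁ hs₂0]
    rw [units_div h10, h7, Int.units_mul_self]
  obtain ⟨u₁, v₁, e1⟩ := exists_of_hilb ha hn1 hn2
  obtain ⟨u₂, v₂, e2⟩ := exists_of_hilb hb h4 h5
  obtain ⟨u₃, v₃, e3⟩ := exists_of_hilb hab h8 h9
  exact ⟨u₁, v₁, u₂, v₂, u₃, v₃, by rw [← e1, ← e2, ← e3, hms, hss]; ring⟩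

section Main

variable {L : Type*} [Field L] [Algebra ℚ L] {α β : L} {a b : ℚ}

/-- `m ^ 2` is a norm from `L` if `phi a b m = 1`. -/
theorem sq_norm_phi (h : IsBiq a b α β) {m : ℚ} (hm : m ≠ 0) (hphi : phi a b m = 1) :
    ∃ z : L, Algebra.norm ℚ z = m ^ 2 := by
  obtain ⟨u₁, v₁, u₂, v₂, u₃, v₃, e⟩ := exists_three_phi (ne_zero_of_not h.ha)
    (ne_zero_of_not h.hb) hm hphi
  obtain ⟨z₁, hz₁⟩ := (norm_iff_Nf h ((u₁ ^ 2 - a * v₁ ^ 2) ^ 2)).mpr ⟨![u₁, v₁, 0, 0], by
    rw [Nf]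
    simp only [Matrix.cons_val_zero, Matrix.cons_val_one, Matrix.cons_val]
    ring⟩
  obtain ⟨z₂, hz₂⟩ := (norm_iff_Nf h ((u₂ ^ 2 - b * v₂ ^ 2) ^ 2)).mpr ⟨![u₂, 0, v₂, 0], by
    rw [Nf]
    simp only [Matrix.cons_val_zero, Matrix.cons_val_one, Matrix.cons_val]
    ring⟩
  obtain ⟨z₃, hz₃⟩ := (norm_iff_Nf h ((u₃ ^ 2 - a * b * v₃ ^ 2) ^ 2)).mpr
    ⟨![u₃, 0, 0, v₃], by
    rw [Nf]
    simp only [Matrix.cons_val_zero, Matrix.cons_val_one, Matrix.cons_val]
    ring⟩
  refine ⟨z₁ * z₂ * z₃, ?_⟩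
  rw [map_mul, map_mul, hz₁, hz₂, hz₃, e]
  ring

/-- An everywhere local norm is a norm from `L` times a square. -/
theorem exists_sq_of_locNorm (h : IsBiq a b α β) {c : ℚ} (hc0 : c ≠ 0) (hc : LocNormQ L c) :
    ∃ m : ℚ, m ≠ 0 ∧ ∃ z : L, Algebra.norm ℚ z = m ^ 2 * c := by
  have ha := ne_zero_of_not h.ha
  have hb := ne_zero_of_not h.hb
  have key : ∀ {E : Type} [Field E] [Algebra ℚ E], NormOver ℚ L E (algebraMap ℚ E c) →
      hilb (a : E) (c : E) = 1 ∧ hilb (b : E) (c : E) = 1 := by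
    intro E _ _ hE
    have hch : CharZero E := algebraRat.charZero E
    rw [normOver_iff_Nf h] at hE
    obtain ⟨x, hx⟩ := hE
    rw [eq_ratCast, eq_ratCast, eq_ratCast] at hx
    constructor
    · rw [hilb_eq_one_iff, sol_iff_norm two_ne_zero (by exact_mod_cast ha), ← hx]
      exact Nf_eq _ _ x
    · rw [hilb_eq_one_iff, sol_iff_norm two_ne_zero (by exact_mod_cast hb), ← hx]
      exact Nf_eq' _ _ x
  obtain ⟨s, t, e1⟩ := exists_of_hilb (a := a) (c := c) ha
    (fun p => haveI : Fact p.1.Prime := ⟨p.2⟩; (key (hc.fin p)).1) (key hc.real).1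
  obtain ⟨s', t', e2⟩ := exists_of_hilb (a := b) (c := c) hb
    (fun p => haveI : Fact p.1.Prime := ⟨p.2⟩; (key (hc.fin p)).2) (key hc.real).2
  exact exists_sq_mul h hc0 e1 e2

lemma LocNormQ.mul {c d : ℚ} (hc : LocNormQ L c) (hd : LocNormQ L d) : LocNormQ L (c * d) where
  fin := fun p _ => by
    rw [map_mul]
    exact (hc.fin p).mul (hd.fin p)
  real := by
    rw [map_mul]
    exact hc.real.mul hd.real

variable (L) in
/-- the group of the norms from `L` -/
noncomputable def normGroup : Subgroup ℚˣ := (Units.map (Algebra.norm ℚ : L →* ℚ)).range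

lemma mem_normGroup_iff [FiniteDimensional ℚ L] {c : ℚˣ} :
    c ∈ normGroup L ↔ ∃ z : L, Algebra.norm ℚ z = c := by
  constructor
  · rintro ⟨z, hz⟩
    exact ⟨z, by rw [← hz]; rfl⟩
  · rintro ⟨z, hz⟩
    have hz0 : z ≠ 0 := by
      rintro rfl
      rw [Algebra.norm_zero] at hz
      exact c.ne_zero hz.symm
    exact ⟨Units.mk0 z hz0, Units.ext hz⟩

lemma LocNormQ.inv [FiniteDimensional ℚ L] {c : ℚ} (hc0 : c ≠ 0) (hc : LocNormQ L c) :
    LocNormQ L c⁻¹ where
  fin := fun p _ => by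
    rw [map_inv₀]
    exact (hc.fin p).inv finrank_pos.ne' ((_root_.map_ne_zero _).mpr hc0)
  real := by
    rw [map_inv₀]
    exact hc.real.inv finrank_pos.ne' ((_root_.map_ne_zero _).mpr hc0)

lemma LocNormQ.of_norm [FiniteDimensional ℚ L] {c : ℚ} (h : ∃ z : L, Algebra.norm ℚ z = c) : LocNormQ L c where
  fin := fun _ _ => NormOver.of_norm h
  real := NormOver.of_norm h

variable (L) in
/-- the group of the rational numbers which are norms everywhere locally -/
noncomputable def locNormGroup [FiniteDimensional ℚ L] : Subgroup ℚˣ where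
  carrier := {c | LocNormQ L (c : ℚ)}
  mul_mem' := fun {c d} hc hd => by
    change LocNormQ L ((c * d : ℚˣ) : ℚ)
    rw [Units.val_mul]
    exact LocNormQ.mul hc hd
  one_mem' := LocNormQ.of_norm ⟨1, by rw [map_one, Units.val_one]⟩
  inv_mem' := fun {c} hc => by
    change LocNormQ L ((c⁻¹ : ℚˣ) : ℚ)
    rw [Units.val_inv_eq_inv_val]
    exact LocNormQ.inv c.ne_zero hc

lemma mem_locNormGroup_iff [FiniteDimensional ℚ L] {c : ℚˣ} :
    c ∈ locNormGroup L ↔ LocNormQ L (c : ℚ) := Iff.rfl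

lemma normGroup_le [FiniteDimensional ℚ L] : normGroup L ≤ locNormGroup L := fun _ hc =>
  LocNormQ.of_norm (mem_normGroup_iff.mp hc)

/-- If some local norm is not a norm, there is exactly one non-trivial class. -/
theorem norm_or_norm_mul (h : IsBiq a b α β) {x c : ℚ} (hx : x ≠ 0) (hc0 : c ≠ 0)
    (hxL : ¬ ∃ z : L, Algebra.norm ℚ z = x ^ 2) (hc : LocNormQ L c) :
    (∃ z : L, Algebra.norm ℚ z = c) ∨ ∃ z : L, Algebra.norm ℚ z = c * x ^ 2 := by
  have hphix : phi a b x = -1 := (units_eq _).resolve_left fun h1 => hxL (sq_norm_phi h hx h1)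
  obtain ⟨m, hm, z, hz⟩ := exists_sq_of_locNorm h hc0 hc
  have hm' : m⁻¹ ≠ 0 := inv_ne_zero hm
  rcases units_eq (phi a b m⁻¹) with h1 | h1
  · left
    obtain ⟨w, hw⟩ := sq_norm_phi h hm' h1
    exact ⟨w * z, by rw [map_mul, hw, hz]; field_simp⟩
  · right
    have h2 : phi a b (m⁻¹ * x) = 1 := by
      rw [phi_mul (ne_zero_of_not h.hb) hm' hx, h1, hphix]
      decide
    obtain ⟨w, hw⟩ := sq_norm_phi h (mul_ne_zero hm' hx) h2
    exact ⟨w * z, by rw [map_mul, hw, hz]; field_simp⟩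

open Classical in
/-- **The obstruction group of a biquadratic field** `L = ℚ(√a, √b)` (everywhere local norms modulo
norms): it is trivial if none of `a`, `b`, `a b` is a square in `ℚ_p` for some prime `p`, and of order
`2` otherwise. -/
theorem relIndex_normGroup [FiniteDimensional ℚ L] (h : IsBiq a b α β) :
    (normGroup L).relIndex (locNormGroup L) =
      if ∃ (p : ℕ) (_ : Fact p.Prime), ¬ IsSquare (a : ℚ_[p]) ∧ ¬ IsSquare (b : ℚ_[p]) ∧
        ¬ IsSquare ((a : ℚ_[p]) * b) then 1 else 2 := by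
  split_ifs with h1
  · rw [Subgroup.relIndex_eq_one]
    intro c hc
    exact mem_normGroup_iff.mpr ((hasse_norm_principle_iff h).mpr h1 _ hc)
  · push Not at h1
    obtain ⟨x, hx, hx'⟩ := hasse_fails h (fun p hp => by
      by_contra h2
      rw [not_or, not_or] at h2
      exact h2.2.2 (h1 p hp h2.1 h2.2.1))
    have hx0 : x ≠ 0 := by
      rintro rfl
      exact hx' ⟨0, by rw [Algebra.norm_zero]; norm_num⟩
    rw [Subgroup.relIndex_eq_two_iff_exists_notMem_and]
    refine ⟨Units.mk0 (x ^ 2) (pow_ne_zero 2 hx0), hx, fun h2 => hx' (mem_normGroup_iff.mp h2),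
      fun c hc => ?_⟩
    rcases norm_or_norm_mul h hx0 c.ne_zero hx' hc with h2 | h2
    · exact Or.inr (mem_normGroup_iff.mpr h2)
    · exact Or.inl (mem_normGroup_iff.mpr (by rw [Units.val_mul]; exact h2))

end Main

end Fermat.Agent.Cor.HN.Biq
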