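import Fermat.Agent.Corollaries.HM.Lind

/-!
# A family of curves of genus one which violate the Hasse principle

Let `P` be a prime number, `P ≡ 1 mod 8`, such that `2` is not a fourth power modulo `P`. The
equation `x ^ 4 - P y ^ 4 = 2 z ^ 2` has a nontrivial solution in `ℝ` and in `ℚ_p` for all primes
`p`, but only the trivial solution in `ℚ`.
-/

set_option autoImplicit false

namespace Fermat.Agent.Cor.HM.Lind

section Finite

variable {F : Type*} [Field F] [Fintype F] [DecidableEq F]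

/-- The analysis over a finite field of characteristic prime to `2 P`. -/
theorem finite_cases_gen (hF : ringChar F ≠ 2) {P : F} (hP : P ≠ 0) :
    IsSquare (2 : F) ∨ IsSquare (-(2 * P)) ∨ (∃ a : F, a ^ 4 = P) ∨
      ∃ a : F, 2 * (a ^ 4 - P) ≠ 0 ∧ IsSquare (2 * (a ^ 4 - P)) := by
  have h2 : (2 : F) ≠ 0 := Ring.two_ne_zero hF
  by_cases hm : IsSquare (-1 : F)
  · by_cases hs2 : IsSquare (2 : F)
    · exact Or.inl hs2
    by_cases hsP : IsSquare P
    · obtain ⟨w, hw⟩ := hsP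
      by_cases hsw : IsSquare w
      · obtain ⟨a, ha⟩ := hsw
        right; right; left
        refine ⟨a, ?_⟩
        rw [hw, ha]
        ring
      · obtain ⟨t, ht, ht'⟩ := exists_nonsquare hF hm
        obtain ⟨a, ha⟩ := isSquare_mul_of_not ht hsw
        obtain ⟨c, hc⟩ := isSquare_mul_of_not hs2 ht'
        right; right; right
        have e : 2 * (a ^ 4 - P) = P * (2 * (t ^ 2 - 1)) := by
          have e1 : a ^ 4 = (t * w) ^ 2 := by rw [ha]; ring
          rw [e1, hw]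
          ring
        refine ⟨a, ?_, ?_⟩
        · rw [e]
          refine mul_ne_zero hP (mul_ne_zero h2 fun h => ht' ?_)
          rw [h]
          exact IsSquare.zero
        · rw [e, hc, hw]
          exact ⟨w * c, by ring⟩
    · right; left
      have h34 := hm.mul (isSquare_mul_of_not hs2 hsP)
      have e : (-1 : F) * (2 * P) = -(2 * P) := by ring
      rwa [e] at h34
  · right; right
    have hodd : Fintype.card F % 2 = 1 := by
      rcases Nat.mod_two_eq_zero_or_one (Fintype.card F) with h | h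
      · exact absurd (FiniteField.even_card_iff_char_two.mpr h) hF
      · exact h
    obtain ⟨u, z, huz⟩ := FiniteField.exists_root_sum_quadratic (R := F)
      (f := Polynomial.C 1 * Polynomial.X ^ 2 + Polynomial.C 0 * Polynomial.X + Polynomial.C (-P))
      (g := Polynomial.C (-2) * Polynomial.X ^ 2 + Polynomial.C 0 * Polynomial.X + Polynomial.C 0)
      (Polynomial.degree_quadratic one_ne_zero)
      (Polynomial.degree_quadratic (neg_ne_zero.mpr h2)) hodd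
    simp only [Polynomial.eval_add, Polynomial.eval_mul, Polynomial.eval_C, Polynomial.eval_pow,
      Polynomial.eval_X] at huz
    have hu : ∃ a : F, a ^ 4 = u ^ 2 := by
      by_cases hsu : IsSquare u
      · obtain ⟨a, ha⟩ := hsu
        exact ⟨a, by rw [ha]; ring⟩
      · obtain ⟨a, ha⟩ := isSquare_mul_of_not hm hsu
        refine ⟨a, ?_⟩
        have : a ^ 4 = (-1 * u) ^ 2 := by rw [ha]; ring
        rw [this]
        ring
    obtain ⟨a, ha⟩ := hu
    have e : a ^ 4 - P = 2 * z ^ 2 := by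
      rw [ha]
      linear_combination huz
    by_cases hz : z = 0
    · left
      refine ⟨a, ?_⟩
      rw [hz] at e
      linear_combination e
    · right
      refine ⟨a, ?_, ?_⟩
      · rw [e]
        exact mul_ne_zero h2 (mul_ne_zero h2 (pow_ne_zero 2 hz))
      · rw [e]
        exact ⟨2 * z, by ring⟩

end Finite

/-! ### Local solutions -/

section Local

lemma exists_fourth_gen {p : ℕ} [hp : Fact p.Prime] {k : ℤ} (h2 : p ≠ 2) (hk : ¬ (p : ℤ) ∣ k)
    {a : ZMod p} (ha : a ^ 4 = k) : ∃ z : ℚ_[p], z ^ 4 = k := by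
  obtain ⟨a, rfl⟩ := ZMod.intCast_surjective a
  have hd : (p : ℤ) ∣ a ^ 4 - k := by
    rw [← ZMod.intCast_zmod_eq_zero_iff_dvd]
    push_cast
    rw [ha, sub_self]
  have hd2 : ¬ (p : ℤ) ∣ 2 := fun h => h2
    ((Nat.prime_dvd_prime_iff_eq hp.out (by norm_num)).mp (by exact_mod_cast h))
  have hpp : Prime (p : ℤ) := Nat.prime_iff_prime_int.mp hp.out
  have hda : ¬ (p : ℤ) ∣ a := fun h => hk (by
    have h5 := dvd_sub (dvd_pow h (by norm_num : 4 ≠ 0)) hd
    rwa [sub_sub_cancel] at h5)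
  have hd4 : ¬ (p : ℤ) ∣ 4 * a ^ 3 := by
    intro h
    have e : (4 : ℤ) * a ^ 3 = 2 * (2 * a ^ 3) := by ring
    rw [e] at h
    rcases hpp.dvd_or_dvd h with h | h
    · exact hd2 h
    rcases hpp.dvd_or_dvd h with h | h
    · exact hd2 h
    · exact hda (hpp.dvd_of_dvd_pow h)
  exact exists_fourth (p := p) (k := k) (a := a) (by
    rw [norm_eq_one hd4, one_pow, PadicInt.norm_int_lt_one_iff_dvd]
    exact hd)

lemma norm_two : ‖(2 : ℤ_[2])‖ = 2⁻¹ := by simpa using PadicInt.norm_p (p := 2)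

lemma norm_le {n : ℕ} {k : ℤ} (h : (2 : ℤ) ^ n ∣ k) : ‖(k : ℤ_[2])‖ ≤ (2⁻¹ : ℝ) ^ n := by
  obtain ⟨m, rfl⟩ := h
  push_cast
  rw [norm_mul, norm_pow, norm_two]
  exact mul_le_of_le_one_right (by positivity) (PadicInt.norm_le_one _)

/-- an integer `k ≡ 1 mod 16` is a fourth power in `ℚ_2` -/
lemma exists_fourth_sixteen {k : ℤ} (hk : k % 16 = 1) : ∃ z : ℚ_[2], z ^ 4 = k := by
  have key : ∀ a : ℤ, ¬ (2 : ℤ) ∣ a → (2 : ℤ) ^ 5 ∣ a ^ 4 - k → ∃ z : ℚ_[2], z ^ 4 = k := by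
    intro a ha hd
    apply exists_fourth (a := a)
    have e : ((4 * a ^ 3 : ℤ) : ℤ_[2]) = 2 ^ 2 * ((a : ℤ) : ℤ_[2]) ^ 3 := by
      push_cast
      norm_num
    rw [e, norm_mul, norm_pow, norm_pow, norm_two,
      norm_eq_one (p := 2) (k := a) (by exact_mod_cast ha)]
    refine lt_of_le_of_lt (norm_le hd) ?_
    norm_num
  obtain ⟨m, hm⟩ : ∃ m, k = 16 * m + 1 := ⟨k / 16, by omega⟩
  rcases Int.even_or_odd' m with ⟨r, hr | hr⟩
  · exact key 1 (by norm_num) ⟨-r, by rw [hm, hr]; ring⟩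
  · exact key 3 (by norm_num) ⟨2 - r, by rw [hm, hr]; ring⟩

/-- `k ≡ 9 mod 16` -/
lemma exists_sol_nine {k : ℤ} (hk : k % 16 = 9) :
    ∃ (a : ℤ) (r : ℚ_[2]), (a : ℚ_[2]) ^ 4 - k = 8 * r ^ 2 := by
  have key : ∀ a : ℤ, (2 : ℤ) ^ 6 ∣ a ^ 4 - k - 8 →
      ∃ (a : ℤ) (r : ℚ_[2]), (a : ℚ_[2]) ^ 4 - k = 8 * r ^ 2 := by
    rintro a ⟨m, hm⟩
    have h1 : IsSquare ((8 * m + 1 : ℤ) : ℤ_[2]) := by
      apply Hilb.isSquare_of_norm
      have e : ((8 * m + 1 : ℤ) : ℤ_[2]) - 1 = ((8 * m : ℤ) : ℤ_[2]) := by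
        push_cast
        ring
      rw [e, norm_two]
      refine lt_of_le_of_lt (norm_le (n := 3) ⟨m, by ring⟩) ?_
      norm_num
    obtain ⟨z, hz⟩ := h1
    have h2 := congrArg (PadicInt.Coe.ringHom (p := 2)) hz
    rw [map_mul, map_intCast] at h2
    refine ⟨a, PadicInt.Coe.ringHom z, ?_⟩
    have h3 : a ^ 4 - k = 8 * (8 * m + 1) := by linear_combination hm
    have h4 : (a : ℚ_[2]) ^ 4 - k = 8 * ((8 * m + 1 : ℤ) : ℚ_[2]) := by exact_mod_cast h3
    rw [h4, h2, sq]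
  obtain ⟨m, hm⟩ : ∃ m, k = 16 * m + 9 := ⟨k / 16, by omega⟩
  have h4 : m % 4 = 0 ∨ m % 4 = 1 ∨ m % 4 = 2 ∨ m % 4 = 3 := by omega
  rcases h4 with h | h | h | h
  · obtain ⟨r, hr⟩ : ∃ r, m = 4 * r := ⟨m / 4, by omega⟩
    exact key 3 ⟨1 - r, by rw [hm, hr]; ring⟩
  · obtain ⟨r, hr⟩ : ∃ r, m = 4 * r + 1 := ⟨m / 4, by omega⟩
    exact key 7 ⟨37 - r, by rw [hm, hr]; ring⟩
  · obtain ⟨r, hr⟩ : ∃ r, m = 4 * r + 2 := ⟨m / 4, by omega⟩
    exact key 5 ⟨9 - r, by rw [hm, hr]; ring⟩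
  · obtain ⟨r, hr⟩ : ∃ r, m = 4 * r + 3 := ⟨m / 4, by omega⟩
    exact key 1 ⟨-1 - r, by rw [hm, hr]; ring⟩

/-- The equation has nontrivial solutions in every `ℚ_p`. -/
theorem exists_padic_gen {P : ℕ} (hP : P.Prime) (h8 : P % 8 = 1) (p : ℕ) [hp : Fact p.Prime] :
    ∃ x y z : ℚ_[p], (x ≠ 0 ∨ y ≠ 0 ∨ z ≠ 0) ∧ x ^ 4 - P * y ^ 4 = 2 * z ^ 2 := by
  have hA : IsSquare (2 : ℚ_[p]) → ∃ x y z : ℚ_[p], (x ≠ 0 ∨ y ≠ 0 ∨ z ≠ 0) ∧
      x ^ 4 - P * y ^ 4 = 2 * z ^ 2 := by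
    rintro ⟨s, hs⟩
    refine ⟨s, 0, s, Or.inl ?_, ?_⟩
    · rintro rfl
      norm_num at hs
    · linear_combination -s ^ 2 * hs
  have hC : (∃ z : ℚ_[p], z ^ 4 = ((P : ℤ) : ℚ_[p])) → ∃ x y z : ℚ_[p],
      (x ≠ 0 ∨ y ≠ 0 ∨ z ≠ 0) ∧ x ^ 4 - P * y ^ 4 = 2 * z ^ 2 := by
    rintro ⟨s, hs⟩
    rw [Int.cast_natCast] at hs
    refine ⟨s, 1, 0, Or.inr (Or.inl one_ne_zero), ?_⟩
    linear_combination hs
  by_cases hp2 : p = 2
  · subst hp2
    have h16 : (P : ℤ) % 16 = 1 ∨ (P : ℤ) % 16 = 9 := by omega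
    rcases h16 with h | h
    · exact hC (exists_fourth_sixteen h)
    · obtain ⟨a, r, har⟩ := exists_sol_nine h
      rw [Int.cast_natCast] at har
      refine ⟨a, 1, 2 * r, Or.inr (Or.inl one_ne_zero), ?_⟩
      linear_combination har
  have hd2 : ¬ (p : ℤ) ∣ 2 := fun h => hp2
    ((Nat.prime_dvd_prime_iff_eq hp.out (by norm_num)).mp (by exact_mod_cast h))
  by_cases hpP : p = P
  · subst hpP
    apply hA
    have h := HN.NoHasse.isSquare_padic (p := p) (k := 2) hp2 hd2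
      (by
        have := (ZMod.exists_sq_eq_two_iff hp2).mpr (Or.inl h8)
        exact_mod_cast this)
    simpa using h
  have hdP : ¬ (p : ℤ) ∣ P := fun h => hpP
    ((Nat.prime_dvd_prime_iff_eq hp.out hP).mp (by exact_mod_cast h))
  have hpp : Prime (p : ℤ) := Nat.prime_iff_prime_int.mp hp.out
  have hP' : ((P : ℤ) : ZMod p) ≠ 0 := fun h => hdP
    ((ZMod.intCast_zmod_eq_zero_iff_dvd _ _).mp (by exact_mod_cast h))
  have hF : ringChar (ZMod p) ≠ 2 := by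
    rw [ZMod.ringChar_zmod_n]
    exact hp2
  rcases finite_cases_gen hF hP' with h | h | ⟨a, h⟩ | ⟨a, h, h'⟩
  · apply hA
    have h1 := HN.NoHasse.isSquare_padic (p := p) (k := 2) hp2 hd2 (by exact_mod_cast h)
    simpa using h1
  · have hd34 : ¬ (p : ℤ) ∣ -(2 * P) := by
      intro h
      rcases hpp.dvd_or_dvd ((Int.dvd_neg).mp h) with h | h
      · exact hd2 h
      · exact hdP h
    have h1 := HN.NoHasse.isSquare_padic (p := p) (k := -(2 * P)) hp2 hd34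
      (by push_cast; push_cast at h; exact h)
    obtain ⟨s, hs⟩ := h1
    push_cast at hs
    refine ⟨0, 1, s / 2, Or.inr (Or.inl one_ne_zero), ?_⟩
    have e : 2 * (s / 2) ^ 2 = s * s / 2 := by ring
    rw [e, ← hs]
    ring
  · exact hC (exists_fourth_gen hp2 hdP h)
  · obtain ⟨a, rfl⟩ := ZMod.intCast_surjective a
    have e0 : ((2 * (a ^ 4 - P) : ℤ) : ZMod p) = 2 * ((a : ZMod p) ^ 4 - ((P : ℤ) : ZMod p)) := by
      push_cast; rfl
    have hk : ¬ (p : ℤ) ∣ 2 * (a ^ 4 - P) := by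
      intro h5
      apply h
      rw [← e0]
      exact (ZMod.intCast_zmod_eq_zero_iff_dvd _ _).mpr h5
    have h1 := HN.NoHasse.isSquare_padic (p := p) (k := 2 * (a ^ 4 - P)) hp2 hk
      (by rw [e0]; exact h')
    obtain ⟨r, hr⟩ := h1
    push_cast at hr
    refine ⟨a, 1, r / 2, Or.inr (Or.inl one_ne_zero), ?_⟩
    have e : 2 * (r / 2) ^ 2 = r * r / 2 := by ring
    rw [e, ← hr]
    ring

end Local

/-! ### No global solution -/

section Global

lemma isSquare_of_primes_gen {P n : ℕ} (hn : n ≠ 0)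
    (h : ∀ q : ℕ, q.Prime → q ∣ n → IsSquare (q : ZMod P)) : IsSquare (n : ZMod P) := by
  induction n using Nat.recOnMul with
  | zero => exact absurd rfl hn
  | one => exact ⟨1, by norm_num⟩
  | prime q hq => exact h q hq dvd_rfl
  | mul a b iha ihb =>
    rw [Nat.cast_mul]
    exact (iha (left_ne_zero_of_mul hn) fun q hq hd => h q hq (hd.mul_right b)).mul
      (ihb (right_ne_zero_of_mul hn) fun q hq hd => h q hq (hd.mul_left a))

/-- The equation has no solution in coprime integers `a`, `b`. -/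
theorem no_int_gen {P : ℕ} [hP : Fact P.Prime] (h8 : P % 8 = 1) (h2 : ¬ ∃ a : ZMod P, a ^ 4 = 2)
    {a b c : ℤ} (hab : IsCoprime a b) (h : a ^ 4 - P * b ^ 4 = 2 * c ^ 2) : False := by
  have hPp : Prime (P : ℤ) := Nat.prime_iff_prime_int.mp hP.out
  have hP0 : (P : ℤ) ≠ 0 := hPp.ne_zero
  have hcop : ∀ {q : ℤ}, Prime q → q ∣ a → q ∣ b → False := fun hq ha hb =>
    hq.not_isUnit (hab.isUnit_of_dvd' ha hb)
  have hc : ¬ (P : ℤ) ∣ c := by
    rintro ⟨c, rfl⟩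
    have ha : (P : ℤ) ∣ a := hPp.dvd_of_dvd_pow (n := 4) ⟨b ^ 4 + 2 * P * c ^ 2, by
      linear_combination h⟩
    obtain ⟨a', rfl⟩ := ha
    refine hcop hPp (Dvd.intro _ rfl) (hPp.dvd_of_dvd_pow (n := 4)
      ⟨P ^ 2 * a' ^ 4 - 2 * c ^ 2, ?_⟩)
    have h5 : (P : ℤ) * b ^ 4 = P * (P * (P ^ 2 * a' ^ 4 - 2 * c ^ 2)) := by
      linear_combination -h
    exact mul_left_cancel₀ hP0 h5
  have hc0 : c ≠ 0 := fun h0 => hc (h0 ▸ dvd_zero _)
  have hP2 : P ≠ 2 := by rintro rfl; norm_num at h8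
  have hsq : IsSquare ((c.natAbs : ℕ) : ZMod P) := by
    apply isSquare_of_primes_gen (Int.natAbs_ne_zero.mpr hc0)
    intro q hq hqc
    have hqc' : (q : ℤ) ∣ c := Int.natCast_dvd.mpr hqc
    by_cases hq2 : q = 2
    · subst hq2
      have := (ZMod.exists_sq_eq_two_iff hP2).mpr (Or.inl h8)
      exact_mod_cast this
    have : Fact q.Prime := ⟨hq⟩
    rw [ZMod.exists_sq_eq_prime_iff_of_mod_four_eq_one (p := P) (q := q) (by omega) hq2]
    have hqp : Prime (q : ℤ) := Nat.prime_iff_prime_int.mp hq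
    have hqb : ¬ (q : ℤ) ∣ b := by
      intro hb
      refine hcop hqp (hqp.dvd_of_dvd_pow (n := 4) ?_) hb
      have e : a ^ 4 = P * b ^ 4 + 2 * c ^ 2 := by linear_combination h
      rw [e]
      exact dvd_add (Dvd.dvd.mul_left (dvd_pow hb (by norm_num)) _)
        (Dvd.dvd.mul_left (dvd_pow hqc' (by norm_num)) _)
    have hb0 : (b : ZMod q) ≠ 0 := fun h0 => hqb ((ZMod.intCast_zmod_eq_zero_iff_dvd _ _).mp h0)
    have hc0' : (c : ZMod q) = 0 := (ZMod.intCast_zmod_eq_zero_iff_dvd _ _).mpr hqc'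
    have h6 := congrArg (fun t : ℤ => (t : ZMod q)) h
    push_cast at h6
    rw [hc0'] at h6
    refine ⟨(a : ZMod q) ^ 2 / (b : ZMod q) ^ 2, ?_⟩
    field_simp
    linear_combination -h6
  obtain ⟨d, hd⟩ := hsq
  have h7 := congrArg (fun t : ℤ => (t : ZMod P)) h
  push_cast at h7
  have e17 : (P : ZMod P) = 0 := ZMod.natCast_self P
  have hcd : (c : ZMod P) ^ 2 = d ^ 4 := by
    have h8 : ((c.natAbs : ℤ) : ZMod P) ^ 2 = (c : ZMod P) ^ 2 := by
      rw [← Int.cast_pow, ← Int.cast_pow, Int.natAbs_sq]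
    rw [← h8, Int.cast_natCast, hd]
    ring
  have hd0 : d ≠ 0 := by
    rintro rfl
    apply hc
    have h9 : (c : ZMod P) ^ 2 = 0 := by rw [hcd]; ring
    have h10 : (c : ZMod P) = 0 := pow_eq_zero_iff two_ne_zero |>.mp h9
    exact (ZMod.intCast_zmod_eq_zero_iff_dvd _ _).mp h10
  apply h2
  refine ⟨(a : ZMod P) / d, ?_⟩
  rw [div_pow, div_eq_iff (pow_ne_zero 4 hd0), ← hcd, ← h7, e17]
  ring

/-- The equation has only the trivial solution in `ℚ`. -/
theorem rat_trivial_gen {P : ℕ} (hP : P.Prime) (h8 : P % 8 = 1)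
    (h2 : ¬ ∃ a : ZMod P, a ^ 4 = 2) {x y z : ℚ} (h : x ^ 4 - P * y ^ 4 = 2 * z ^ 2) :
    x = 0 ∧ y = 0 ∧ z = 0 := by
  have : Fact P.Prime := ⟨hP⟩
  by_cases hy : y = 0
  · subst hy
    by_cases hz : z = 0
    · subst hz
      refine ⟨?_, rfl, rfl⟩
      have h1 : x ^ 4 = 0 := by linear_combination h
      exact pow_eq_zero_iff (by norm_num) |>.mp h1
    · exfalso
      apply HN.NoHasse.rat_sq_ne (r := x ^ 2 / z) not_isSquare_two
      field_simp
      push_cast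
      linear_combination h
  · exfalso
    set q : ℚ := x / y with hq
    have hb0 : (q.den : ℚ) ≠ 0 := by exact_mod_cast q.den_ne_zero
    have hx : x = q.num / q.den * y := by
      rw [Rat.num_div_den, hq]
      field_simp
    have h1 : (((2 * (q.num ^ 4 - P * (q.den : ℤ) ^ 4) : ℤ)) : ℚ) =
        (2 * z * (q.den : ℚ) ^ 2 / y ^ 2) ^ 2 := by
      rw [hx] at h
      field_simp at h
      push_cast
      field_simp
      linear_combination h
    have h2' : IsSquare (2 * (q.num ^ 4 - P * (q.den : ℤ) ^ 4) : ℤ) := by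
      rw [← Rat.isSquare_intCast_iff]
      exact ⟨_, by rw [h1, sq]⟩
    obtain ⟨m, hm⟩ := h2'
    have hm2 : (2 : ℤ) ∣ m := by
      rcases Int.prime_two.dvd_or_dvd (⟨_, hm.symm⟩ : (2 : ℤ) ∣ m * m) with h | h <;> exact h
    obtain ⟨c, rfl⟩ := hm2
    refine no_int_gen h8 h2 (a := q.num) (b := q.den) (c := c) ?_ ?_
    · rw [Int.isCoprime_iff_nat_coprime, Int.natAbs_natCast]
      exact q.reduced
    · have h3 : (2 : ℤ) * (q.num ^ 4 - P * (q.den : ℤ) ^ 4) = 2 * (2 * c ^ 2) := by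
        rw [hm]
        ring
      exact mul_left_cancel₀ two_ne_zero h3

end Global

/-- **A family of curves of genus one which violate the Hasse principle** (Lind, Reichardt): let
`P ≡ 1 mod 8` be a prime number such that `2` is not a fourth power modulo `P`. The equation
`x ^ 4 - P y ^ 4 = 2 z ^ 2` has a nontrivial solution in `ℝ` and in `ℚ_p` for every prime `p`, but
only the trivial solution in `ℚ`. -/
theorem lind_family {P : ℕ} (hP : P.Prime) (h8 : P % 8 = 1) (h2 : ¬ ∃ a : ZMod P, a ^ 4 = 2) :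
    (∃ x y z : ℝ, (x ≠ 0 ∨ y ≠ 0 ∨ z ≠ 0) ∧ x ^ 4 - P * y ^ 4 = 2 * z ^ 2) ∧
    (∀ (p : ℕ) [Fact p.Prime], ∃ x y z : ℚ_[p], (x ≠ 0 ∨ y ≠ 0 ∨ z ≠ 0) ∧
      x ^ 4 - P * y ^ 4 = 2 * z ^ 2) ∧
    ∀ x y z : ℚ, x ^ 4 - P * y ^ 4 = 2 * z ^ 2 → x = 0 ∧ y = 0 ∧ z = 0 := by
  refine ⟨?_, fun p _ => exists_padic_gen hP h8 p, fun x y z h => rat_trivial_gen hP h8 h2 h⟩
  have hs : Real.sqrt 2 * Real.sqrt 2 = 2 := Real.mul_self_sqrt (by norm_num)
  refine ⟨Real.sqrt 2, 0, Real.sqrt 2, Or.inl ?_, ?_⟩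
  · exact (Real.sqrt_pos.mpr (by norm_num)).ne'
  · linear_combination (Real.sqrt 2 * Real.sqrt 2) * hs

end Fermat.Agent.Cor.HM.Lind
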