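import Fermat.Agent.Corollaries.HM.BiquadFail
import Fermat.Agent.Corollaries.HM.LindFamily

/-!
# The fields `ℚ(√a, √b)`, and the Hasse norm principle for `ℚ(√p, √q)`

`exists_isBiq`: `a`, `b` rational numbers such that `a`, `b`, `a b` are not squares. The field
`ℚ(√a, √b)` exists, it is Galois over `ℚ` and its Galois group is the Klein four group.

`hasse_primes_iff`: the Hasse norm principle for `ℚ(√p, √q)`, `p ≠ q` prime, `p ≡ q ≡ 1 mod 4`,
holds if and only if `p` is not a square modulo `q`.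
-/

set_option autoImplicit false

namespace Fermat.Agent.Cor.HN.Biq

open Module Polynomial NumberField
open Fermat.Agent.Cor.Hilb

section Gen

variable {L : Type*} [Field L] [Algebra ℚ L] {α β : L} {a b : ℚ}

/-- the elements of `ℚ[√a, √b]` -/
lemma mem_form_gen (hα : α ^ 2 = algebraMap ℚ L a) (hβ : β ^ 2 = algebraMap ℚ L b) (x : L)
    (hx : x ∈ Algebra.adjoin ℚ ({α, β} : Set L)) :
    ∃ s t u v : ℚ, x = algebraMap ℚ L s + algebraMap ℚ L t * α + algebraMap ℚ L u * β +
      algebraMap ℚ L v * (α * β) := by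
  induction hx using Algebra.adjoin_induction with
  | mem x hx =>
    rcases hx with hx | hx
    · exact ⟨0, 1, 0, 0, by rw [hx]; simp⟩
    · exact ⟨0, 0, 1, 0, by rw [Set.mem_singleton_iff.mp hx]; simp⟩
  | algebraMap r => exact ⟨r, 0, 0, 0, by simp⟩
  | add x y _ _ hx hy =>
    obtain ⟨s, t, u, v, rfl⟩ := hx
    obtain ⟨s', t', u', v', rfl⟩ := hy
    refine ⟨s + s', t + t', u + u', v + v', ?_⟩
    simp only [map_add]
    ring
  | mul x y _ _ hx hy =>
    obtain ⟨s, t, u, v, rfl⟩ := hx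
    obtain ⟨s', t', u', v', rfl⟩ := hy
    refine ⟨s * s' + a * (t * t') + b * (u * u') + a * b * (v * v'),
      s * t' + t * s' + b * (u * v' + v * u'),
      s * u' + u * s' + a * (t * v' + v * t'),
      s * v' + v * s' + t * u' + u * t', ?_⟩
    simp only [map_add, map_mul]
    linear_combination (algebraMap ℚ L t * algebraMap ℚ L t' +
      (algebraMap ℚ L t * algebraMap ℚ L v' + algebraMap ℚ L v * algebraMap ℚ L t') * β +
        algebraMap ℚ L v * algebraMap ℚ L v' * β ^ 2) * hα +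
      (algebraMap ℚ L u * algebraMap ℚ L u' +
        (algebraMap ℚ L u * algebraMap ℚ L v' + algebraMap ℚ L v * algebraMap ℚ L u') * α +
        algebraMap ℚ L a * (algebraMap ℚ L v * algebraMap ℚ L v')) * hβ

lemma linInd_gen (ha : ¬ IsSquare a) (hb : ¬ IsSquare b) (hab : ¬ IsSquare (a * b))
    (hα : α ^ 2 = algebraMap ℚ L a) (hβ : β ^ 2 = algebraMap ℚ L b) :
    LinearIndependent ℚ ![1, α, β, α * β] := by
  rw [Fintype.linearIndependent_iff]
  intro g hg
  rw [Fin.sum_univ_four] at hg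
  simp only [Matrix.cons_val_zero, Matrix.cons_val_one, Matrix.cons_val, Algebra.smul_def] at hg
  have h0 : (algebraMap ℚ L (g 0) + algebraMap ℚ L (g 1) * α) +
      (algebraMap ℚ L (g 2) + algebraMap ℚ L (g 3) * α) * β = 0 := by
    rw [← hg]
    ring
  by_cases hN : g 2 ^ 2 - a * g 3 ^ 2 = 0
  · obtain ⟨h2, h3⟩ := sq_sub_ne ha hN
    rw [h2, h3, map_zero, zero_mul, add_zero, zero_mul, add_zero] at h0
    obtain ⟨h4, h5⟩ := indep_two ha hα h0
    intro i
    fin_cases i
    · exact h4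
    · exact h5
    · exact h2
    · exact h3
  · exfalso
    set N : ℚ := g 2 ^ 2 - a * g 3 ^ 2 with hNdef
    set r : ℚ := -(g 0 * g 2 - a * g 1 * g 3) / N with hr
    set s : ℚ := -(g 1 * g 2 - g 0 * g 3) / N with hs
    have hrN : r * N = -(g 0 * g 2 - a * g 1 * g 3) := by rw [hr, div_mul_cancel₀ _ hN]
    have hsN : s * N = -(g 1 * g 2 - g 0 * g 3) := by rw [hs, div_mul_cancel₀ _ hN]
    have hN' : algebraMap ℚ L N ≠ 0 := (_root_.map_ne_zero _).mpr hN
    have hNL : algebraMap ℚ L N = (algebraMap ℚ L (g 2)) ^ 2 -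
        algebraMap ℚ L a * (algebraMap ℚ L (g 3)) ^ 2 := by
      simp only [hNdef, map_sub, map_mul, map_pow]
    have hrL : algebraMap ℚ L r * algebraMap ℚ L N = -(algebraMap ℚ L (g 0) * algebraMap ℚ L (g 2) -
        algebraMap ℚ L a * algebraMap ℚ L (g 1) * algebraMap ℚ L (g 3)) := by
      rw [← map_mul, hrN]
      simp only [map_sub, map_mul, map_neg]
    have hsL : algebraMap ℚ L s * algebraMap ℚ L N = -(algebraMap ℚ L (g 1) * algebraMap ℚ L (g 2) -
        algebraMap ℚ L (g 0) * algebraMap ℚ L (g 3)) := by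
      rw [← map_mul, hsN]
      simp only [map_sub, map_mul, map_neg]
    have hβ' : β = algebraMap ℚ L r + algebraMap ℚ L s * α := by
      apply mul_right_cancel₀ hN'
      have e1 : (algebraMap ℚ L r + algebraMap ℚ L s * α) * algebraMap ℚ L N =
          (algebraMap ℚ L r * algebraMap ℚ L N) + (algebraMap ℚ L s * algebraMap ℚ L N) * α := by
        ring
      rw [e1, hrL, hsL, hNL]
      linear_combination (algebraMap ℚ L (g 2) - algebraMap ℚ L (g 3) * α) * h0 +
        (algebraMap ℚ L (g 1) * algebraMap ℚ L (g 3) +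
          (algebraMap ℚ L (g 3)) ^ 2 * β) * hα
    have h1 := indep_two (L := L) ha hα (r := r ^ 2 + a * s ^ 2 - b) (s := 2 * r * s) (by
      simp only [map_sub, map_add, map_mul, map_pow, map_ofNat]
      rw [hβ'] at hβ
      linear_combination hβ - (algebraMap ℚ L s) ^ 2 * hα)
    have h2 : r = 0 ∨ s = 0 := by
      rcases mul_eq_zero.mp h1.2 with h | h
      · exact Or.inl ((mul_eq_zero.mp h).resolve_left two_ne_zero)
      · exact Or.inr h
    rcases h2 with h2 | h2
    · apply hab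
      refine ⟨a * s, ?_⟩
      rw [h2] at h1
      linear_combination -a * h1.1
    · apply hb
      refine ⟨r, ?_⟩
      rw [h2] at h1
      linear_combination -h1.1

/-- `[ℚ(√a, √b) : ℚ] = 4` -/
theorem finrank_gen (ha : ¬ IsSquare a) (hb : ¬ IsSquare b) (hab : ¬ IsSquare (a * b))
    (hα : α ^ 2 = algebraMap ℚ L a) (hβ : β ^ 2 = algebraMap ℚ L b)
    (htop : Algebra.adjoin ℚ ({α, β} : Set L) = ⊤) : finrank ℚ L = 4 := by
  have h := linInd_gen ha hb hab hα hβ
  have hs : ⊤ ≤ Submodule.span ℚ (Set.range ![1, α, β, α * β]) := by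
    rintro x -
    obtain ⟨s, t, u, v, rfl⟩ := mem_form_gen hα hβ x (by rw [htop]; trivial)
    have hm : ∀ i : Fin 4, (![1, α, β, α * β] : Fin 4 → L) i ∈
        Submodule.span ℚ (Set.range ![1, α, β, α * β]) := fun i =>
      Submodule.subset_span ⟨i, rfl⟩
    refine add_mem (add_mem (add_mem ?_ ?_) ?_) ?_
    · rw [Algebra.algebraMap_eq_smul_one]
      exact Submodule.smul_mem _ _ (hm 0)
    · rw [← Algebra.smul_def]
      exact Submodule.smul_mem _ _ (hm 1)
    · rw [← Algebra.smul_def]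
      exact Submodule.smul_mem _ _ (hm 2)
    · rw [← Algebra.smul_def]
      exact Submodule.smul_mem _ _ (hm 3)
  rw [finrank_eq_card_basis (Basis.mk h hs), Fintype.card_fin]

/-- the polynomial `(X ^ 2 - a) (X ^ 2 - b)` -/
noncomputable def biqPoly (a b : ℚ) : ℚ[X] := (X ^ 2 - C a) * (X ^ 2 - C b)

lemma biqPoly_ne_zero (a b : ℚ) : biqPoly a b ≠ 0 :=
  mul_ne_zero (X_pow_sub_C_ne_zero (by norm_num) _) (X_pow_sub_C_ne_zero (by norm_num) _)

lemma biqPoly_map (hα : α ^ 2 = algebraMap ℚ L a) (hβ : β ^ 2 = algebraMap ℚ L b) :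
    (biqPoly a b).map (algebraMap ℚ L) =
      ((X - C α) * (X - C (-α))) * ((X - C β) * (X - C (-β))) := by
  have e1 : (X - C α) * (X - C (-α)) = X ^ 2 - C (algebraMap ℚ L a) := by
    rw [← hα, C_neg, C_pow]
    ring
  have e2 : (X - C β) * (X - C (-β)) = X ^ 2 - C (algebraMap ℚ L b) := by
    rw [← hβ, C_neg, C_pow]
    ring
  rw [e1, e2, biqPoly]
  simp only [Polynomial.map_mul, Polynomial.map_sub, Polynomial.map_pow, map_X, map_C]

lemma mem_rootSet_biqPoly {x : L} : x ∈ (biqPoly a b).rootSet L ↔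
    x ^ 2 = algebraMap ℚ L a ∨ x ^ 2 = algebraMap ℚ L b := by
  rw [mem_rootSet_of_ne (biqPoly_ne_zero a b), biqPoly, map_mul, mul_eq_zero]
  simp only [map_sub, map_pow, aeval_X, aeval_C, sub_eq_zero]

theorem isSplittingField_gen (hα : α ^ 2 = algebraMap ℚ L a) (hβ : β ^ 2 = algebraMap ℚ L b)
    (htop : Algebra.adjoin ℚ ({α, β} : Set L) = ⊤) : IsSplittingField ℚ L (biqPoly a b) where
  splits' := by
    rw [biqPoly_map hα hβ]
    exact ((Splits.X_sub_C _).mul (Splits.X_sub_C _)).mul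
      ((Splits.X_sub_C _).mul (Splits.X_sub_C _))
  adjoin_rootSet' := by
    rw [eq_top_iff, ← htop]
    apply Algebra.adjoin_mono
    rintro x (hx | hx)
    · rw [hx]
      exact mem_rootSet_biqPoly.mpr (Or.inl hα)
    · rw [Set.mem_singleton_iff.mp hx]
      exact mem_rootSet_biqPoly.mpr (Or.inr hβ)

/-- `ℚ(√a, √b)` is Galois over `ℚ`, its Galois group is the Klein four group. -/
theorem isKleinFour_gen (ha : ¬ IsSquare a) (hb : ¬ IsSquare b) (hab : ¬ IsSquare (a * b))
    (hα : α ^ 2 = algebraMap ℚ L a) (hβ : β ^ 2 = algebraMap ℚ L b)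
    (htop : Algebra.adjoin ℚ ({α, β} : Set L) = ⊤) :
    IsGalois ℚ L ∧ IsKleinFour (L ≃ₐ[ℚ] L) := by
  have hd := finrank_gen ha hb hab hα hβ htop
  have h1 : IsSplittingField ℚ L (biqPoly a b) := isSplittingField_gen hα hβ htop
  have h2 : Normal ℚ L := Normal.of_isSplittingField (biqPoly a b)
  have h3 : FiniteDimensional ℚ L := FiniteDimensional.of_finrank_pos (by rw [hd]; norm_num)
  have h4 : IsGalois ℚ L := { }
  refine ⟨h4, ?_⟩
  have hc : Nat.card (L ≃ₐ[ℚ] L) = 4 := by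
    rw [IsGalois.card_aut_eq_finrank, hd]
  have : Nontrivial (L ≃ₐ[ℚ] L) := by
    have : Finite (L ≃ₐ[ℚ] L) := Nat.finite_of_card_ne_zero (by rw [hc]; norm_num)
    rw [← Finite.one_lt_card_iff_nontrivial, hc]
    norm_num
  refine ⟨hc, (Monoid.exponent_eq_prime_iff Nat.prime_two).mpr fun g hg => ?_⟩
  apply orderOf_eq_prime _ hg
  have key : ∀ x : L, (x = α ∨ x = β) → g (g x) = x := by
    intro x hx
    have h4 : (g x) ^ 2 = x ^ 2 := by
      rw [← map_pow]
      rcases hx with rfl | rfl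
      · rw [hα, AlgEquiv.commutes]
      · rw [hβ, AlgEquiv.commutes]
    rcases sq_eq_sq_iff_eq_or_eq_neg.mp h4 with h | h
    · rw [h, h]
    · rw [h, map_neg, h, neg_neg]
  have h5 : ((g * g : L ≃ₐ[ℚ] L) : L →ₐ[ℚ] L) = AlgHom.id ℚ L := by
    apply AlgHom.ext_of_adjoin_eq_top htop
    rintro x (hx | hx)
    · exact key x (Or.inl hx)
    · exact key x (Or.inr hx)
  ext x
  rw [sq]
  exact DFunLike.congr_fun h5 x

/-- in a splitting field of `(X ^ 2 - a) (X ^ 2 - b)` -/
lemma gen_of_splitting (hL : IsSplittingField ℚ L (biqPoly a b)) : ∃ α β : L,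
    α ^ 2 = algebraMap ℚ L a ∧ β ^ 2 = algebraMap ℚ L b ∧
      Algebra.adjoin ℚ ({α, β} : Set L) = ⊤ := by
  have hsp := IsSplittingField.splits L (biqPoly a b)
  have h0' : (biqPoly a b).map (algebraMap ℚ L) ≠ 0 := Polynomial.map_ne_zero (biqPoly_ne_zero a b)
  have hroot : ∀ m : ℚ, (X ^ 2 - C m) ∣ biqPoly a b → ∃ x : L, x ^ 2 = algebraMap ℚ L m := by
    intro m hm
    obtain ⟨x, hx⟩ := Splits.exists_eval_eq_zero
      (Splits.of_dvd hsp h0' (Polynomial.map_dvd (algebraMap ℚ L) hm))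
      (by rw [degree_map, degree_X_pow_sub_C (by norm_num)]; norm_num)
    refine ⟨x, ?_⟩
    rw [eval_map_algebraMap] at hx
    simpa [sub_eq_zero] using hx
  obtain ⟨α, hα⟩ := hroot a (Dvd.intro _ rfl)
  obtain ⟨β, hβ⟩ := hroot b (Dvd.intro_left _ rfl)
  refine ⟨α, β, hα, hβ, ?_⟩
  rw [eq_top_iff, ← IsSplittingField.adjoin_rootSet L (biqPoly a b), Algebra.adjoin_le_iff]
  intro x hx
  have h1 : α ∈ Algebra.adjoin ℚ ({α, β} : Set L) := Algebra.subset_adjoin (Set.mem_insert _ _)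
  have h2 : β ∈ Algebra.adjoin ℚ ({α, β} : Set L) :=
    Algebra.subset_adjoin (Set.mem_insert_of_mem _ rfl)
  rcases mem_rootSet_biqPoly.mp hx with h | h
  · rw [← hα] at h
    rcases sq_eq_sq_iff_eq_or_eq_neg.mp h with rfl | rfl
    · exact h1
    · exact neg_mem h1
  · rw [← hβ] at h
    rcases sq_eq_sq_iff_eq_or_eq_neg.mp h with rfl | rfl
    · exact h2
    · exact neg_mem h2

end Gen

/-- **The field `ℚ(√a, √b)`**: it exists, is Galois over `ℚ`, and its Galois group is the Klein four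
group. -/
theorem exists_isBiq {a b : ℚ} (ha : ¬ IsSquare a) (hb : ¬ IsSquare b)
    (hab : ¬ IsSquare (a * b)) : ∃ (L : Type) (_ : Field L) (_ : NumberField L) (α β : L),
      IsBiq a b α β ∧ IsGalois ℚ L ∧ IsKleinFour (L ≃ₐ[ℚ] L) := by
  suffices h : ∃ (L : Type) (_ : Field L) (_ : Algebra ℚ L), IsSplittingField ℚ L (biqPoly a b) by
    obtain ⟨L, hF, hA, hL⟩ := h
    have hc : CharZero L := algebraRat.charZero L
    obtain rfl : hA = DivisionRing.toRatAlgebra := Subsingleton.elim _ _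
    obtain ⟨α, β, hα, hβ, htop⟩ := gen_of_splitting hL
    have hd := finrank_gen ha hb hab hα hβ htop
    have hfin : FiniteDimensional ℚ L := FiniteDimensional.of_finrank_pos (by rw [hd]; norm_num)
    have hN : NumberField L := { to_charZero := hc, to_finiteDimensional := hfin }
    obtain ⟨h1, h2⟩ := isKleinFour_gen ha hb hab hα hβ htop
    exact ⟨L, hF, hN, α, β, ⟨ha, hb, hab, hα, hβ, hd⟩, h1, h2⟩
  exact ⟨(biqPoly a b).SplittingField, inferInstance, SplittingField.instAlgebra_1 _,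
    IsSplittingField.splittingField _⟩

/-! ### Prime numbers `p ≡ q ≡ 1 mod 4` -/

section Primes

/-- an element of odd valuation is not a square -/
lemma not_isSquare_of_valuation {r : ℕ} [hr : Fact r.Prime] {x : ℚ_[r]} (hx : x ≠ 0)
    (h : ¬ Even x.valuation) : ¬ IsSquare x := by
  rintro ⟨y, rfl⟩
  have hy : y ≠ 0 := left_ne_zero_of_mul hx
  exact h ⟨y.valuation, Padic.valuation_mul hy hy⟩

/-- an integer `k ≡ 1 mod 8` is a square in `ℚ_2` -/
lemma isSquare_two_of_mod {k : ℤ} (hk : k % 8 = 1) : IsSquare (k : ℚ_[2]) := by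
  have h1 : IsSquare (k : ℤ_[2]) := by
    apply isSquare_of_norm
    have e : (k : ℤ_[2]) - 1 = ((k - 1 : ℤ) : ℤ_[2]) := by
      push_cast
      ring
    rw [e, HM.Lind.norm_two]
    refine lt_of_le_of_lt (HM.Lind.norm_le (n := 3) ⟨k / 8, by omega⟩) ?_
    norm_num
  obtain ⟨z, hz⟩ := h1
  exact NoHasse.coe_sq (p := 2) (k := k) (z := z) (by rw [hz, sq])

lemma not_isSquare_prime {p : ℕ} (hp : p.Prime) : ¬ IsSquare (p : ℚ) := by
  rw [Rat.isSquare_natCast_iff]
  exact hp.not_isSquare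

lemma not_isSquare_prime_mul {p q : ℕ} (hp : p.Prime) (hq : q.Prime) (hpq : p ≠ q) :
    ¬ IsSquare ((p : ℚ) * q) := by
  have hpf : Fact p.Prime := ⟨hp⟩
  intro h
  have h1 : IsSquare ((p : ℚ_[p]) * q) := by
    obtain ⟨r, hr⟩ := h
    exact ⟨(r : ℚ_[p]), by exact_mod_cast congrArg (Rat.cast : ℚ → ℚ_[p]) hr⟩
  have hp0 : (p : ℚ_[p]) ≠ 0 := by exact_mod_cast hp.ne_zero
  have hq0 : (q : ℚ_[p]) ≠ 0 := by exact_mod_cast hq.ne_zero
  refine not_isSquare_of_valuation (mul_ne_zero hp0 hq0) ?_ h1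
  rw [Padic.valuation_mul hp0 hq0, Padic.valuation_p, Padic.valuation_natCast,
    padicValNat.eq_zero_of_not_dvd fun h => hpq ((Nat.prime_dvd_prime_iff_eq hp hq).mp h)]
  decide

/-- The local condition for `ℚ(√p, √q)`. -/
theorem local_primes_iff {p q : ℕ} [hp : Fact p.Prime] [hq : Fact q.Prime] (hp4 : p % 4 = 1)
    (hq4 : q % 4 = 1) (hpq : p ≠ q) :
    (∃ (r : ℕ) (_ : Fact r.Prime), ¬ IsSquare (((p : ℕ) : ℚ) : ℚ_[r]) ∧
      ¬ IsSquare (((q : ℕ) : ℚ) : ℚ_[r]) ∧
        ¬ IsSquare ((((p : ℕ) : ℚ) : ℚ_[r]) * (((q : ℕ) : ℚ) : ℚ_[r]))) ↔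
      ¬ IsSquare (p : ZMod q) := by
  have hp2 : p ≠ 2 := by rintro rfl; omega
  have hq2 : q ≠ 2 := by rintro rfl; omega
  constructor
  · rintro ⟨r, hr, h1, h2, h3⟩ hpq'
    rw [Rat.cast_natCast] at h1 h2 h3
    rw [Rat.cast_natCast] at h3
    have hqp' : IsSquare (q : ZMod p) :=
      (ZMod.exists_sq_eq_prime_iff_of_mod_four_eq_one hp4 hq2).mpr hpq'
    by_cases hr2 : r = 2
    · subst hr2
      have e1 : ¬ (p : ℤ) % 8 = 1 := fun h => h1 (by exact_mod_cast isSquare_two_of_mod h)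
      have e2 : ¬ (q : ℤ) % 8 = 1 := fun h => h2 (by exact_mod_cast isSquare_two_of_mod h)
      apply h3
      have e3 : ((p : ℤ) * q) % 8 = 1 := by
        have e4 : (p : ℤ) % 8 = 5 := by omega
        have e5 : (q : ℤ) % 8 = 5 := by omega
        rw [Int.mul_emod, e4, e5]
        norm_num
      exact_mod_cast isSquare_two_of_mod e3
    have ndvd : ∀ {s : ℕ}, s.Prime → r ≠ s → ¬ (r : ℤ) ∣ s := fun hs hrs h =>
      hrs ((Nat.prime_dvd_prime_iff_eq hr.out hs).mp (by exact_mod_cast h))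
    by_cases hrp : r = p
    · subst hrp
      apply h2
      exact_mod_cast NoHasse.isSquare_padic (p := r) (k := q) hr2 (ndvd hq.out hpq)
        (by exact_mod_cast hqp')
    by_cases hrq : r = q
    · subst hrq
      apply h1
      exact_mod_cast NoHasse.isSquare_padic (p := r) (k := p) hr2 (ndvd hp.out hpq.symm)
        (by exact_mod_cast hpq')
    have k1 : ¬ IsSquare (p : ZMod r) := fun h => h1 (by
      exact_mod_cast NoHasse.isSquare_padic (p := r) (k := p) hr2 (ndvd hp.out hrp)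
        (by exact_mod_cast h))
    have k2 : ¬ IsSquare (q : ZMod r) := fun h => h2 (by
      exact_mod_cast NoHasse.isSquare_padic (p := r) (k := q) hr2 (ndvd hq.out hrq)
        (by exact_mod_cast h))
    apply h3
    have h4 := NoHasse.isSquare_padic (p := r) (k := p * q) hr2
      ((Nat.prime_iff_prime_int.mp hr.out).dvd_mul.not.mpr
        (not_or.mpr ⟨ndvd hp.out hrp, ndvd hq.out hrq⟩))
      (by
        have := HM.Lind.isSquare_mul_of_not k1 k2
        exact_mod_cast this)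
    exact_mod_cast h4
  · intro h
    refine ⟨q, hq, ?_, ?_, ?_⟩
    · intro h1
      apply h
      have h2 : IsSquare (((p : ℕ) : ℤ) : ZMod q) := isSquare_zmod (by exact_mod_cast h1)
      exact_mod_cast h2
    · rw [Rat.cast_natCast]
      refine not_isSquare_of_valuation (by exact_mod_cast hq.out.ne_zero) ?_
      rw [Padic.valuation_p]
      decide
    · rw [Rat.cast_natCast, Rat.cast_natCast]
      have hp0 : (p : ℚ_[q]) ≠ 0 := by exact_mod_cast hp.out.ne_zero
      have hq0 : (q : ℚ_[q]) ≠ 0 := by exact_mod_cast hq.out.ne_zero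
      refine not_isSquare_of_valuation (mul_ne_zero hp0 hq0) ?_
      rw [Padic.valuation_mul hp0 hq0, Padic.valuation_p, Padic.valuation_natCast,
        padicValNat.eq_zero_of_not_dvd fun h =>
          hpq ((Nat.prime_dvd_prime_iff_eq hq.out hp.out).mp h).symm]
      decide

/-- **The Hasse norm principle for `ℚ(√p, √q)`**, `p ≠ q` prime, `p ≡ q ≡ 1 mod 4`: it holds if and
only if `p` is not a square modulo `q`. -/
theorem hasse_primes_iff {p q : ℕ} [hp : Fact p.Prime] [hq : Fact q.Prime] (hp4 : p % 4 = 1)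
    (hq4 : q % 4 = 1) (hpq : p ≠ q) {L : Type*} [Field L] [Algebra ℚ L] {α β : L}
    (hα : α ^ 2 = algebraMap ℚ L p) (hβ : β ^ 2 = algebraMap ℚ L q) (hd : finrank ℚ L = 4) :
    (∀ c : ℚ, LocNormQ L c → ∃ z : L, Algebra.norm ℚ z = c) ↔ legendreSym q p = -1 := by
  have h : IsBiq (p : ℚ) (q : ℚ) α β := ⟨not_isSquare_prime hp.out, not_isSquare_prime hq.out,
    not_isSquare_prime_mul hp.out hq.out hpq, hα, hβ, hd⟩
  rw [hasse_norm_principle_iff h, local_primes_iff hp4 hq4 hpq, legendreSym.eq_neg_one_iff,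
    Int.cast_natCast]

/-- For different prime numbers `p ≡ q ≡ 1 mod 4` with `(p / q) = 1` the Hasse norm principle fails
for the field `ℚ(√p, √q)`, a Galois extension of `ℚ` with group the Klein four group. -/
theorem exists_hasse_fails_primes {p q : ℕ} [hp : Fact p.Prime] [hq : Fact q.Prime]
    (hp4 : p % 4 = 1) (hq4 : q % 4 = 1) (hpq : p ≠ q) (h1 : legendreSym q p = 1) :
    ∃ (L : Type) (_ : Field L) (_ : NumberField L) (α β : L), α ^ 2 = p ∧ β ^ 2 = q ∧
      IsGalois ℚ L ∧ IsKleinFour (L ≃ₐ[ℚ] L) ∧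
      ∃ x : ℚ, LocNormQ L (x ^ 2) ∧ ¬ ∃ z : L, Algebra.norm ℚ z = x ^ 2 := by
  obtain ⟨L, hF, hN, α, β, h, hG, hK⟩ := exists_isBiq (not_isSquare_prime hp.out)
    (not_isSquare_prime hq.out) (not_isSquare_prime_mul hp.out hq.out hpq)
  have hx : ∃ x : ℚ, LocNormQ L (x ^ 2) ∧ ¬ ∃ z : L, Algebra.norm ℚ z = x ^ 2 := by
    refine hasse_fails h fun r hr => ?_
    by_contra hcon
    rw [not_or, not_or] at hcon
    have h2 := (local_primes_iff hp4 hq4 hpq).mp ⟨r, hr, hcon.1, hcon.2.1, hcon.2.2⟩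
    have h3 : legendreSym q p = -1 := by
      rw [legendreSym.eq_neg_one_iff, Int.cast_natCast]
      exact h2
    rw [h1] at h3
    exact absurd h3 (by decide)
  exact ⟨L, hF, hN, α, β, by rw [h.hα, map_natCast], by rw [h.hβ, map_natCast], hG, hK, hx⟩

end Primes

end Fermat.Agent.Cor.HN.Biq
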