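import Mathlib
import Fermat.Agent.Corollaries.HM.Forms

/-!
# Witt cancellation and the weak Hasse principle

* `exists_isometry_of_eq`: the orthogonal group acts transitively on the vectors of a given
  non-zero value;
* `witt_cancel`: Witt's cancellation theorem;
* `equivalent_of_family`: a local-global principle for isotropy gives the local-global principle
  for equivalence of quadratic forms (the weak Hasse principle).
-/

set_option autoImplicit false

namespace Fermat.Agent.Cor.HM

open QuadraticMap TensorProduct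

section Reflection

variable {F V : Type*} [Field F] [AddCommGroup V] [Module F V]

theorem map_sub_smul (Q : QuadraticForm F V) (z u : V) (c : F) :
    Q (z - c • u) = Q z - c * polar Q u z + c ^ 2 * Q u := by
  have h1 : Q (z - c • u) = Q z + Q (-(c • u)) + polar Q z (-(c • u)) := by
    rw [sub_eq_add_neg, polar]
    ring
  rw [h1, QuadraticMap.map_neg, QuadraticMap.map_smul, polar_neg_right, polar_smul_right,
    polar_comm Q z u, smul_eq_mul, smul_eq_mul]
  ring

/-- The reflection along `u`. -/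
noncomputable def reflMap (Q : QuadraticForm F V) (u : V) : V →ₗ[F] V :=
  LinearMap.id - (LinearMap.toSpanSingleton F V u) ∘ₗ ((Q u)⁻¹ • (Q.polarBilin u))

theorem reflMap_apply (Q : QuadraticForm F V) (u z : V) :
    reflMap Q u z = z - ((Q u)⁻¹ * polar Q u z) • u := by
  simp [reflMap, smul_eq_mul]

theorem reflMap_reflMap (Q : QuadraticForm F V) {u : V} (hu : Q u ≠ 0) (z : V) :
    reflMap Q u (reflMap Q u z) = z := by
  rw [reflMap_apply Q u (reflMap Q u z), reflMap_apply Q u z, polar_sub_right, polar_smul_right,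
    polar_self, smul_eq_mul]
  have h : (Q u)⁻¹ * (polar Q u z - (Q u)⁻¹ * polar Q u z * (2 • Q u)) =
      -((Q u)⁻¹ * polar Q u z) := by
    rw [two_smul]
    field_simp
    ring
  rw [h, neg_smul]
  abel

theorem map_reflMap (Q : QuadraticForm F V) {u : V} (hu : Q u ≠ 0) (z : V) :
    Q (reflMap Q u z) = Q z := by
  rw [reflMap_apply, map_sub_smul]
  field_simp
  ring

/-- The reflection along `u`, `Q u ≠ 0`, as an isometry. -/
noncomputable def reflIso (Q : QuadraticForm F V) {u : V} (hu : Q u ≠ 0) :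
    Q.IsometryEquiv Q :=
  { LinearEquiv.ofInvolutive (reflMap Q u) (reflMap_reflMap Q hu) with
    map_app' := map_reflMap Q hu }

theorem reflIso_apply (Q : QuadraticForm F V) {u : V} (hu : Q u ≠ 0) (z : V) :
    reflIso Q hu z = z - ((Q u)⁻¹ * polar Q u z) • u :=
  reflMap_apply Q u z

/-- `-1` as an isometry. -/
def negIso (Q : QuadraticForm F V) : Q.IsometryEquiv Q :=
  { LinearEquiv.neg F with map_app' := fun z => QuadraticMap.map_neg Q z }

theorem negIso_apply (Q : QuadraticForm F V) (z : V) : negIso Q z = -z := rfl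

/-- **Two vectors with the same non-zero value are conjugate under the orthogonal group.** -/
theorem exists_isometry_of_eq (h2 : (2 : F) ≠ 0) (Q : QuadraticForm F V) {x y : V}
    (hxy : Q x = Q y) (hx : Q x ≠ 0) : ∃ e : Q.IsometryEquiv Q, e x = y := by
  have hm : Q (x - y) = Q x + Q y - polar Q x y := by
    have h := map_sub_smul Q x y 1
    rw [one_smul, polar_comm Q y x] at h
    rw [h]
    ring
  have hp : Q (x + y) = Q x + Q y + polar Q x y := by
    rw [polar]
    ring
  by_cases h : Q (x - y) = 0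
  · -- use the reflection along `x + y`
    have h1 : Q (x + y) ≠ 0 := by
      have h3 : Q (x + y) = (2 * 2) * Q x := by
        linear_combination hp + hm - h - 2 * hxy
      rw [h3]
      exact mul_ne_zero (mul_ne_zero h2 h2) hx
    refine ⟨(reflIso Q h1).trans (negIso Q), ?_⟩
    change negIso Q (reflIso Q h1 x) = y
    rw [negIso_apply, reflIso_apply]
    have h4 : (Q (x + y))⁻¹ * polar Q (x + y) x = 1 := by
      rw [polar_add_left, polar_self, polar_comm Q y x, two_smul]
      have h5 : Q x + Q x + polar Q x y = Q (x + y) := by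
        linear_combination hxy - hp
      rw [h5, inv_mul_cancel₀ h1]
    rw [h4, one_smul]
    abel
  · refine ⟨reflIso Q h, ?_⟩
    rw [reflIso_apply]
    have h4 : (Q (x - y))⁻¹ * polar Q (x - y) x = 1 := by
      rw [polar_sub_left, polar_self, polar_comm Q y x, two_smul]
      have h5 : Q x + Q x - polar Q x y = Q (x - y) := by
        linear_combination hxy - hm
      rw [h5, inv_mul_cancel₀ h]
    rw [h4, one_smul]
    abel

end Reflection

section Cancel

variable {F V₁ V₂ : Type*} [Field F] [AddCommGroup V₁] [Module F V₁] [AddCommGroup V₂]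
  [Module F V₂]

theorem fst_eq_zero_of_fix (h2 : (2 : F) ≠ 0) {Q₀ : QuadraticForm F F} (h0 : Q₀ 1 ≠ 0)
    {Q₁ : QuadraticForm F V₁} {Q₂ : QuadraticForm F V₂}
    (f : (Q₀.prod Q₁).IsometryEquiv (Q₀.prod Q₂)) (hf : f (1, 0) = (1, 0)) (v : V₁) :
    (f (0, v)).1 = 0 := by
  have h1 : polar (Q₀.prod Q₂) (f (0, v)) (f (1, 0)) = polar (Q₀.prod Q₁) (0, v) (1, 0) := by
    simp only [polar, ← map_add, f.map_app]
  rw [hf, polar_prod, polar_prod] at h1
  simp only [polar_zero_left, polar_zero_right, add_zero] at h1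
  have h3 : polar Q₀ (f (0, v)).1 1 = (f (0, v)).1 * (2 * Q₀ 1) := by
    have h4 := polar_smul_left Q₀ (f (0, v)).1 (1 : F) (1 : F)
    rw [smul_eq_mul, mul_one, polar_self, smul_eq_mul, two_smul] at h4
    rw [h4]
    ring
  rw [h3] at h1
  exact (mul_eq_zero.1 h1).resolve_right (mul_ne_zero h2 h0)

/-- Witt's cancellation theorem for a one-dimensional form. -/
theorem witt_cancel_one (h2 : (2 : F) ≠ 0) {Q₀ : QuadraticForm F F} (h0 : Q₀ 1 ≠ 0)
    {Q₁ : QuadraticForm F V₁} {Q₂ : QuadraticForm F V₂}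
    (h : (Q₀.prod Q₁).Equivalent (Q₀.prod Q₂)) : Q₁.Equivalent Q₂ := by
  obtain ⟨e⟩ := h
  have hval : (Q₀.prod Q₂) (e (1, 0)) = (Q₀.prod Q₂) (1, 0) := by
    rw [e.map_app]
    simp
  have hne : (Q₀.prod Q₂) (e (1, 0)) ≠ 0 := by
    rw [hval]
    simpa using h0
  obtain ⟨ρ, hρ⟩ := exists_isometry_of_eq h2 (Q₀.prod Q₂) hval hne
  set f : (Q₀.prod Q₁).IsometryEquiv (Q₀.prod Q₂) := e.trans ρ with hfdef
  have hf : f (1, 0) = (1, 0) := hρ
  have hf' : f.symm (1, 0) = (1, 0) := by
    rw [QuadraticMap.IsometryEquiv.symm_apply_eq]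
    exact hf.symm
  have k1 : ∀ v : V₁, f (0, v) = (0, (f (0, v)).2) := fun v =>
    Prod.ext (fst_eq_zero_of_fix h2 h0 f hf v) rfl
  have k2 : ∀ w : V₂, f.symm (0, w) = (0, (f.symm (0, w)).2) := fun w =>
    Prod.ext (fst_eq_zero_of_fix h2 h0 f.symm hf' w) rfl
  let g₁ : V₁ →ₗ[F] V₂ := (LinearMap.snd F F V₂) ∘ₗ
    (f.toLinearEquiv : (F × V₁) →ₗ[F] (F × V₂)) ∘ₗ (LinearMap.inr F F V₁)
  let g₂ : V₂ →ₗ[F] V₁ := (LinearMap.snd F F V₁) ∘ₗ
    (f.symm.toLinearEquiv : (F × V₂) →ₗ[F] (F × V₁)) ∘ₗ (LinearMap.inr F F V₂)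
  have e1 : g₁ ∘ₗ g₂ = LinearMap.id := by
    ext w
    change (f (0, (f.symm (0, w)).2)).2 = w
    rw [← k2 w, QuadraticMap.IsometryEquiv.apply_symm_apply]
  have e2 : g₂ ∘ₗ g₁ = LinearMap.id := by
    ext v
    change (f.symm (0, (f (0, v)).2)).2 = v
    rw [← k1 v, QuadraticMap.IsometryEquiv.symm_apply_apply]
  let g : V₁ ≃ₗ[F] V₂ := LinearEquiv.ofLinearMap g₁ g₂ e1 e2
  refine ⟨{ g with map_app' := fun v => ?_ }⟩
  change Q₂ (f (0, v)).2 = Q₁ v
  have h5 : (Q₀.prod Q₂) (f (0, v)) = (Q₀.prod Q₁) (0, v) := f.map_app _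
  rw [k1 v] at h5
  simpa using h5

end Cancel

section Weighted

variable {F : Type*} [Field F]

/-- The one-dimensional form `c x²`. -/
def oneForm (c : F) : QuadraticForm F F := c • QuadraticMap.sq

@[simp] theorem oneForm_apply (c x : F) : oneForm c x = c * (x * x) := by
  simp [oneForm, QuadraticMap.sq]

/-- `<c, a₀, …> = <c> ⊥ <a₀, …>`. -/
def consIso {n : ℕ} (c : F) (a : Fin n → F) :
    ((oneForm c).prod (weightedSumSquares F a)).IsometryEquiv
      (weightedSumSquares F (Fin.cons c a : Fin (n + 1) → F)) :=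
  { Fin.consLinearEquiv F (fun _ : Fin (n + 1) => F) with
    map_app' := fun z => by
      simp [Fin.sum_univ_succ, Fin.consLinearEquiv, Fin.consEquiv] }


/-- Witt's cancellation theorem for diagonal forms. -/
theorem witt_cancel_cons (h2 : (2 : F) ≠ 0) {n : ℕ} {c : F} (hc : c ≠ 0) {a b : Fin n → F}
    (h : (weightedSumSquares F (Fin.cons c a : Fin (n + 1) → F)).Equivalent
      (weightedSumSquares F (Fin.cons c b : Fin (n + 1) → F))) :
    (weightedSumSquares F a).Equivalent (weightedSumSquares F b) := by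
  refine witt_cancel_one h2 (Q₀ := oneForm c) (by simpa using hc) ?_
  exact (Equivalent.trans ⟨consIso c a⟩ h).trans (Equivalent.symm ⟨consIso c b⟩)

/-- The converse of cancellation. -/
theorem equivalent_cons {n : ℕ} (c : F) {a b : Fin n → F}
    (h : (weightedSumSquares F a).Equivalent (weightedSumSquares F b)) :
    (weightedSumSquares F (Fin.cons c a : Fin (n + 1) → F)).Equivalent
      (weightedSumSquares F (Fin.cons c b : Fin (n + 1) → F)) :=
  (Equivalent.symm ⟨consIso c a⟩).trans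
    (((Equivalent.refl (oneForm c)).prod h).trans ⟨consIso c b⟩)

end Weighted

section Witt

variable {F V₀ V₁ V₂ : Type*} [Field F] [AddCommGroup V₀] [Module F V₀] [AddCommGroup V₁]
  [Module F V₁] [AddCommGroup V₂] [Module F V₂]

/-- Associativity of the orthogonal sum. -/
def prodAssocIso (Q₀ : QuadraticForm F V₀) (Q₁ : QuadraticForm F V₁) (Q₂ : QuadraticForm F V₂) :
    ((Q₀.prod Q₁).prod Q₂).IsometryEquiv (Q₀.prod (Q₁.prod Q₂)) :=
  { LinearEquiv.prodAssoc F V₀ V₁ V₂ with
    map_app' := fun _ => (add_assoc _ _ _).symm }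

/-- A zero-dimensional summand. -/
theorem equivalent_prod_zero [Subsingleton V₀] (Q₀ : QuadraticForm F V₀)
    (Q₁ : QuadraticForm F V₁) : (Q₀.prod Q₁).Equivalent Q₁ := by
  let e : (V₀ × V₁) ≃ₗ[F] V₁ :=
    LinearEquiv.ofLinearMap (LinearMap.snd F V₀ V₁) (LinearMap.inr F V₀ V₁)
      (by ext; rfl) (LinearMap.ext fun z => Prod.ext (Subsingleton.elim _ _) rfl)
  refine ⟨{ e with map_app' := fun z => ?_ }⟩
  have hz : z.1 = 0 := Subsingleton.elim _ _
  change Q₁ z.2 = Q₀ z.1 + Q₁ z.2
  rw [hz, QuadraticMap.map_zero, zero_add]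

theorem equivalent_prod_tail {n : ℕ} (a : Fin (n + 1) → F) (Q : QuadraticForm F V₁) :
    ((oneForm (a 0)).prod ((weightedSumSquares F (Fin.tail a)).prod Q)).Equivalent
      ((weightedSumSquares F a).prod Q) := by
  have h1 : ((oneForm (a 0)).prod (weightedSumSquares F (Fin.tail a))).Equivalent
      (weightedSumSquares F a) := by
    have h2 : ((oneForm (a 0)).prod (weightedSumSquares F (Fin.tail a))).Equivalent
        (weightedSumSquares F (Fin.cons (a 0) (Fin.tail a) : Fin (n + 1) → F)) :=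
      ⟨consIso (a 0) (Fin.tail a)⟩
    rwa [Fin.cons_self_tail] at h2
  exact (Equivalent.symm ⟨prodAssocIso _ _ Q⟩).trans (h1.prod (Equivalent.refl Q))

theorem witt_cancel_weighted (h2 : (2 : F) ≠ 0) {n : ℕ} {a : Fin n → F} (ha : ∀ i, a i ≠ 0)
    {Q₁ : QuadraticForm F V₁} {Q₂ : QuadraticForm F V₂}
    (h : ((weightedSumSquares F a).prod Q₁).Equivalent ((weightedSumSquares F a).prod Q₂)) :
    Q₁.Equivalent Q₂ := by
  induction n with
  | zero =>
    exact (equivalent_prod_zero _ Q₁).symm.trans (h.trans (equivalent_prod_zero _ Q₂))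
  | succ n ih =>
    refine ih (a := Fin.tail a) (fun i => ha i.succ) ?_
    refine witt_cancel_one h2 (Q₀ := oneForm (a 0)) (by simpa using ha 0) ?_
    exact (equivalent_prod_tail a Q₁).trans (h.trans (equivalent_prod_tail a Q₂).symm)

/-- **Witt's cancellation theorem.** -/
theorem witt_cancel [Invertible (2 : F)] [FiniteDimensional F V₀] {Q₀ : QuadraticForm F V₀}
    (h0 : (associated (R := F) Q₀).SeparatingLeft)
    {Q₁ : QuadraticForm F V₁} {Q₂ : QuadraticForm F V₂}
    (h : (Q₀.prod Q₁).Equivalent (Q₀.prod Q₂)) : Q₁.Equivalent Q₂ := by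
  obtain ⟨v, hv⟩ := LinearMap.BilinForm.exists_orthogonal_basis
    (QuadraticForm.associated_isSymm F Q₀)
  have hne := hv.not_isOrtho_basis_self_of_separatingLeft h0
  simp_rw [associated_eq_self_apply] at hne
  have e : Q₀.Equivalent (weightedSumSquares F fun i => Q₀ (v i)) :=
    ⟨Q₀.isometryEquivWeightedSumSquares v hv⟩
  refine witt_cancel_weighted (Invertible.ne_zero 2) hne (Q₁ := Q₁) (Q₂ := Q₂) ?_
  exact ((e.symm.prod (Equivalent.refl Q₁)).trans h).trans (e.prod (Equivalent.refl Q₂))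

end Witt

end Fermat.Agent.Cor.HM
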