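import Mathlib
import Fermat.Agent.Corollaries.HM.Witt

/-!
# The weak Hasse principle

A local-global principle for isotropy of diagonal forms (`DiagLocalGlobal F L`) implies: two
regular quadratic forms over `F` are equivalent as soon as they are equivalent over every `L v`.
-/

set_option autoImplicit false

namespace Fermat.Agent.Cor.HM

open QuadraticMap TensorProduct

section Split

variable {F V : Type*} [Field F] [AddCommGroup V] [Module F V] [FiniteDimensional F V]

open Module in
/-- A vector with a non-zero value is part of an orthogonal basis. -/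
theorem exists_orthogonal_basis_of_ne_zero [Invertible (2 : F)] (Q : QuadraticForm F V) {x : V}
    (hx : Q x ≠ 0) {n : ℕ} (hn : Module.finrank F V = n + 1) :
    ∃ v : Module.Basis (Fin (n + 1)) F V, (associated (R := F) Q).IsOrthoᵢ v ∧ v 0 = x := by
  set B : LinearMap.BilinForm F V := associated (R := F) Q with hB
  have hB₂ : LinearMap.IsSymm B := QuadraticForm.associated_isSymm F Q
  have hBx : B x x ≠ 0 := by
    rw [hB, associated_eq_self_apply]
    exact hx
  have hx0 : x ≠ 0 := by
    rintro rfl
    exact hx (QuadraticMap.map_zero Q)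
  rw [← Submodule.finrank_add_eq_of_isCompl
    (LinearMap.BilinForm.isCompl_span_singleton_orthogonal hBx).symm,
    finrank_span_singleton hx0] at hn
  let B' := B.domRestrict₁₂ ((F ∙ x).orthogonalBilin B) ((F ∙ x).orthogonalBilin B)
  obtain ⟨v0, hv0⟩ := LinearMap.BilinForm.exists_orthogonal_basis
    (hB₂.domRestrict _ : LinearMap.IsSymm B')
  have hn' : Module.finrank F ((F ∙ x).orthogonalBilin B) = n := Nat.succ.inj hn
  let v' := v0.reindex (finCongr hn')
  have hv₁ : B'.IsOrthoᵢ v' := by
    intro i j hij
    have h := @hv0 ((finCongr hn').symm i) ((finCongr hn').symm j)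
      (fun h => hij ((finCongr hn').symm.injective h))
    simpa [v', Function.onFun] using h
  let b :=
    Basis.mkFinCons x v'
      (by
        rintro c y hy hc
        rw [add_eq_zero_iff_neg_eq] at hc
        rw [← hc, Submodule.neg_mem_iff] at hy
        have := (LinearMap.BilinForm.isCompl_span_singleton_orthogonal hBx).disjoint
        rw [Submodule.disjoint_def] at this
        have := this (c • x) (Submodule.smul_mem _ _ <| Submodule.mem_span_singleton_self _) hy
        exact (smul_eq_zero.1 this).resolve_right hx0)
      (by
        intro y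
        refine ⟨-B x y / B x x, fun z hz => ?_⟩
        obtain ⟨c, rfl⟩ := Submodule.mem_span_singleton.1 hz
        rw [map_smul, LinearMap.smul_apply, map_add, map_smul, smul_eq_mul, smul_eq_mul,
          div_mul_cancel₀ _ hBx, add_neg_cancel, mul_zero])
  refine ⟨b, ?_, ?_⟩
  · rw [Basis.coe_mkFinCons]
    intro j i
    refine Fin.cases ?_ (fun i => ?_) i <;> refine Fin.cases ?_ (fun j => ?_) j <;> intro hij <;>
      simp only [Function.onFun, Fin.cons_zero, Fin.cons_succ, Function.comp_apply]
    · exact (hij rfl).elim
    · rw [← hB₂.eq]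
      exact (v' j).prop _ (Submodule.mem_span_singleton_self x)
    · exact (v' i).prop _ (Submodule.mem_span_singleton_self x)
    · exact hv₁ (ne_of_apply_ne _ hij)
  · rw [Basis.coe_mkFinCons]
    rfl

end Split

section BaseChange

variable {F V W : Type*} [Field F] [AddCommGroup V] [Module F V] [AddCommGroup W] [Module F W]
  {L : Type*} [Field L] [Algebra F L]

/-- Equivalent forms have equivalent base changes. -/
theorem equivalent_baseChange [Invertible (2 : F)] {Q : QuadraticForm F V}
    {Q' : QuadraticForm F W} (h : Q.Equivalent Q') :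
    (Q.baseChange L).Equivalent (Q'.baseChange L) := by
  obtain ⟨e⟩ := h
  have key : (Q'.baseChange L).comp
      ((e.toLinearEquiv.baseChange F L V W : (L ⊗[F] V) ≃ₗ[L] (L ⊗[F] W)) :
        (L ⊗[F] V) →ₗ[L] (L ⊗[F] W)) = Q.baseChange L := by
    apply baseChange_ext
    intro m
    rw [QuadraticMap.comp_apply, QuadraticForm.baseChange_tmul]
    change (Q'.baseChange L) ((1 : L) ⊗ₜ[F] (e m)) = _
    rw [QuadraticForm.baseChange_tmul, e.map_app]
  exact ⟨{ (e.toLinearEquiv.baseChange F L V W) with
    map_app' := fun z => congrArg (fun q => q z) key }⟩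

/-- The base change of a form with an orthogonal basis is diagonal. -/
theorem baseChange_equivalent_weighted [Invertible (2 : F)] {ι : Type*} [Fintype ι]
    (Q : QuadraticForm F V) (v : Module.Basis ι F V)
    (hv : (associated (R := F) Q).IsOrthoᵢ v) :
    (Q.baseChange L).Equivalent (weightedSumSquares L fun i => algebraMap F L (Q (v i))) := by
  let _ : Invertible (2 : L) := (Invertible.map (algebraMap F L) 2).copy 2 (map_ofNat _ _).symm
  have h1 := basisRepr_eq_of_iIsOrtho (Q.baseChange L) (Algebra.TensorProduct.basis L v)
    (isOrtho_baseChange Q v hv)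
  simp only [baseChange_basis] at h1
  rw [← h1]
  exact ⟨(Q.baseChange L).isometryEquivBasisRepr (Algebra.TensorProduct.basis L v)⟩

end BaseChange

section Weighted

variable {F : Type*} [Field F]

theorem polar_weighted {n : ℕ} (b x y : Fin n → F) :
    polar (weightedSumSquares F b) x y = 2 * ∑ i, b i * x i * y i := by
  simp only [polar, weightedSumSquares_apply, smul_eq_mul, Pi.add_apply, Finset.mul_sum,
    ← Finset.sum_sub_distrib]
  exact Finset.sum_congr rfl fun i _ => by ring

theorem associated_weighted [Invertible (2 : F)] {n : ℕ} (b x y : Fin n → F) :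
    (associated (R := F) (weightedSumSquares F b)) x y = ∑ i, b i * x i * y i := by
  have h1 : (2 • (associated (R := F) (weightedSumSquares F b)) : LinearMap.BilinForm F _) =
      (weightedSumSquares F b).polarBilin := two_nsmul_associated F _
  have h2 := congrArg (fun B => B x y) h1
  simp only [LinearMap.smul_apply, polarBilin_apply_apply, polar_weighted] at h2
  rw [two_smul, ← two_mul] at h2
  exact mul_left_cancel₀ (Invertible.ne_zero (2 : F)) h2

theorem isOrtho_weighted [Invertible (2 : F)] {n : ℕ} (b : Fin n → F) :
    (associated (R := F) (weightedSumSquares F b)).IsOrthoᵢ (Pi.basisFun F (Fin n)) := by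
  intro i j hij
  simp only [Function.onFun]
  rw [associated_weighted]
  refine Finset.sum_eq_zero fun k _ => ?_
  rw [Pi.basisFun_apply, Pi.basisFun_apply]
  by_cases hk : k = i
  · subst hk
    simp [hij]
  · simp [Pi.single_apply, hk]

theorem weighted_single {n : ℕ} (b : Fin n → F) (i : Fin n) :
    weightedSumSquares F b (Pi.basisFun F (Fin n) i) = b i := by
  rw [weightedSumSquares_apply, Pi.basisFun_apply, Finset.sum_eq_single i]
  · simp
  · intro k _ hk
    simp [hk]
  · intro h
    exact absurd (Finset.mem_univ i) h

theorem separatingLeft_weighted [Invertible (2 : F)] {n : ℕ} {b : Fin n → F}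
    (hb : ∀ i, b i ≠ 0) : (associated (R := F) (weightedSumSquares F b)).SeparatingLeft := by
  refine LinearMap.IsOrthoᵢ.separatingLeft_of_not_isOrtho_basis_self (Pi.basisFun F (Fin n))
    (isOrtho_weighted b) fun i => ?_
  rw [associated_eq_self_apply, weighted_single]
  exact hb i

/-- Splitting off a value. -/
theorem exists_cons_equivalent [Invertible (2 : F)] {n : ℕ} {b : Fin (n + 1) → F}
    (hb : ∀ i, b i ≠ 0) {c : F} (hc : c ≠ 0) (h : ∃ x : Fin (n + 1) → F, ∑ i, b i * x i ^ 2 = c) :
    ∃ b' : Fin n → F, (∀ i, b' i ≠ 0) ∧ (weightedSumSquares F b).Equivalent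
      (weightedSumSquares F (Fin.cons c b' : Fin (n + 1) → F)) := by
  obtain ⟨x, hx⟩ := h
  have hQx : weightedSumSquares F b x = c := by
    rw [weightedSumSquares_apply, ← hx]
    exact Finset.sum_congr rfl fun i _ => by rw [smul_eq_mul, pow_two]
  obtain ⟨v, hv, hv0⟩ := exists_orthogonal_basis_of_ne_zero (weightedSumSquares F b)
    (x := x) (by rw [hQx]; exact hc) (n := n) (Module.finrank_fin_fun F)
  refine ⟨fun i => weightedSumSquares F b (v i.succ), fun i => ?_, ?_⟩
  · have h1 := hv.not_isOrtho_basis_self_of_separatingLeft (separatingLeft_weighted hb) i.succ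
    rwa [associated_eq_self_apply] at h1
  · have h1 := basisRepr_eq_of_iIsOrtho (weightedSumSquares F b) v hv
    have h2 : (fun i => weightedSumSquares F b (v i)) =
        (Fin.cons c fun i => weightedSumSquares F b (v i.succ) : Fin (n + 1) → F) := by
      funext i
      refine Fin.cases ?_ (fun j => ?_) i
      · rw [Fin.cons_zero, hv0, hQx]
      · rw [Fin.cons_succ]
    rw [← h2, ← h1]
    exact ⟨(weightedSumSquares F b).isometryEquivBasisRepr v⟩

/-- Base change of an equivalence of diagonal forms. -/
theorem equivalent_weighted_map [Invertible (2 : F)] (L : Type*) [Field L] [Algebra F L] {n : ℕ}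
    {a b : Fin n → F} (h : (weightedSumSquares F a).Equivalent (weightedSumSquares F b)) :
    (weightedSumSquares L fun i => algebraMap F L (a i)).Equivalent
      (weightedSumSquares L fun i => algebraMap F L (b i)) := by
  have ha := baseChange_equivalent_weighted (L := L) (weightedSumSquares F a)
    (Pi.basisFun F (Fin n)) (isOrtho_weighted a)
  have hb := baseChange_equivalent_weighted (L := L) (weightedSumSquares F b)
    (Pi.basisFun F (Fin n)) (isOrtho_weighted b)
  simp only [weighted_single] at ha hb
  exact ha.symm.trans ((equivalent_baseChange h).trans hb)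

end Weighted

section Main

variable {F : Type*} [Field F] {I : Type*} {L : I → Type*} [∀ v, Field (L v)]
  [∀ v, Algebra F (L v)]

/-- **The weak Hasse principle for diagonal forms.** -/
theorem equivalent_weighted_of_family [Invertible (2 : F)] (H : DiagLocalGlobal F L) {n : ℕ}
    {a b : Fin n → F} (ha : ∀ i, a i ≠ 0) (hb : ∀ i, b i ≠ 0)
    (h : ∀ v, (weightedSumSquares (L v) fun i => algebraMap F (L v) (a i)).Equivalent
      (weightedSumSquares (L v) fun i => algebraMap F (L v) (b i))) :
    (weightedSumSquares F a).Equivalent (weightedSumSquares F b) := by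
  induction n with
  | zero =>
    rw [Subsingleton.elim a b]
  | succ n ih =>
    have h2 : ∀ v, (2 : L v) ≠ 0 := fun v => by
      rw [← map_ofNat (algebraMap F (L v)) 2]
      exact (map_ne_zero _).2 (Invertible.ne_zero (2 : F))
    -- `b` represents `a 0` locally, hence globally
    have hloc : ∀ v, ∃ x : Fin (n + 1) → L v,
        ∑ i, algebraMap F (L v) (b i) * x i ^ 2 = algebraMap F (L v) (a 0) := by
      intro v
      obtain ⟨e⟩ := h v
      refine ⟨e (Pi.basisFun (L v) (Fin (n + 1)) 0), ?_⟩
      have h1 := e.map_app (Pi.basisFun (L v) (Fin (n + 1)) 0)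
      rw [weighted_single, weightedSumSquares_apply] at h1
      rw [← h1]
      exact Finset.sum_congr rfl fun i _ => by rw [smul_eq_mul, pow_two]
    have hglob := H.exists_value (Invertible.ne_zero (2 : F)) b (a 0) hloc
    obtain ⟨b', hb', E⟩ := exists_cons_equivalent hb (ha 0) hglob
    -- cancellation over `L v`
    have hcancel : ∀ v, (weightedSumSquares (L v)
        fun i => algebraMap F (L v) (Fin.tail a i)).Equivalent
        (weightedSumSquares (L v) fun i => algebraMap F (L v) (b' i)) := by
      intro v
      refine witt_cancel_cons (h2 v) (c := algebraMap F (L v) (a 0))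
        ((map_ne_zero _).2 (ha 0)) ?_
      have e1 : (Fin.cons (algebraMap F (L v) (a 0)) fun i => algebraMap F (L v) (Fin.tail a i) :
          Fin (n + 1) → L v) = fun i => algebraMap F (L v) (a i) := by
        funext i
        refine Fin.cases ?_ (fun j => ?_) i
        · rw [Fin.cons_zero]
        · rw [Fin.cons_succ]
          rfl
      have e2 : (Fin.cons (algebraMap F (L v) (a 0)) fun i => algebraMap F (L v) (b' i) :
          Fin (n + 1) → L v) =
          fun i => algebraMap F (L v) ((Fin.cons (a 0) b' : Fin (n + 1) → F) i) := by
        funext i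
        refine Fin.cases ?_ (fun j => ?_) i
        · rw [Fin.cons_zero, Fin.cons_zero]
        · rw [Fin.cons_succ, Fin.cons_succ]
      rw [e1, e2]
      exact (h v).trans (equivalent_weighted_map (L v) E)
    have h3 := ih (a := Fin.tail a) (b := b') (fun i => ha i.succ) hb' hcancel
    have h4 := equivalent_cons (a 0) h3
    rw [Fin.cons_self_tail] at h4
    exact h4.trans E.symm

/-- **The weak Hasse principle.**  If a local-global principle for isotropy holds for the family
`L v` of extensions of `F`, then two regular quadratic forms over `F` are equivalent if and only if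
they are equivalent over every `L v`. -/
theorem equivalent_of_family [Invertible (2 : F)] (H : DiagLocalGlobal F L)
    {V W : Type*} [AddCommGroup V] [Module F V] [FiniteDimensional F V] [AddCommGroup W]
    [Module F W] [FiniteDimensional F W] {Q : QuadraticForm F V} {Q' : QuadraticForm F W}
    (hQ : (associated (R := F) Q).SeparatingLeft) (hQ' : (associated (R := F) Q').SeparatingLeft) :
    Q.Equivalent Q' ↔ ∀ v, (Q.baseChange (L v)).Equivalent (Q'.baseChange (L v)) := by
  refine ⟨fun h v => equivalent_baseChange h, fun h => ?_⟩
  -- the index set is not empty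
  have hI : Nonempty I := by
    by_contra hI
    rw [not_nonempty_iff] at hI
    obtain ⟨x, hx0, hx⟩ := H 1 (fun _ => 1) (fun _ => one_ne_zero) fun v => (hI.false v).elim
    apply hx0
    funext i
    rw [Subsingleton.elim i 0]
    simpa using hx
  have hdim : Module.finrank F V = Module.finrank F W := by
    obtain ⟨v⟩ := hI
    obtain ⟨e⟩ := h v
    have h1 := e.toLinearEquiv.finrank_eq
    rwa [Module.finrank_baseChange, Module.finrank_baseChange] at h1
  obtain ⟨v, hv⟩ := LinearMap.BilinForm.exists_orthogonal_basis
    (QuadraticForm.associated_isSymm F Q)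
  obtain ⟨w0, hw0⟩ := LinearMap.BilinForm.exists_orthogonal_basis
    (QuadraticForm.associated_isSymm F Q')
  let w := w0.reindex (finCongr hdim.symm)
  have hw : (associated (R := F) Q').IsOrthoᵢ w := by
    intro i j hij
    have h := @hw0 ((finCongr hdim.symm).symm i) ((finCongr hdim.symm).symm j)
      (fun h => hij ((finCongr hdim.symm).symm.injective h))
    simpa [w, Function.onFun] using h
  have hv0 := hv.not_isOrtho_basis_self_of_separatingLeft hQ
  have hw0 := hw.not_isOrtho_basis_self_of_separatingLeft hQ'
  simp_rw [associated_eq_self_apply] at hv0 hw0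
  have E1 : Q.Equivalent (weightedSumSquares F fun i => Q (v i)) := by
    rw [← basisRepr_eq_of_iIsOrtho Q v hv]
    exact ⟨Q.isometryEquivBasisRepr v⟩
  have E2 : Q'.Equivalent (weightedSumSquares F fun i => Q' (w i)) := by
    rw [← basisRepr_eq_of_iIsOrtho Q' w hw]
    exact ⟨Q'.isometryEquivBasisRepr w⟩
  have E3 : (weightedSumSquares F fun i => Q (v i)).Equivalent
      (weightedSumSquares F fun i => Q' (w i)) := by
    refine equivalent_weighted_of_family H hv0 hw0 fun u => ?_
    exact (baseChange_equivalent_weighted Q v hv).symm.trans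
      ((h u).trans (baseChange_equivalent_weighted Q' w hw))
  exact E1.trans (E3.trans E2.symm)

end Main

end Fermat.Agent.Cor.HM
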