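import Mathlib
import Fermat.Agent.Corollaries.HM.WeakHasse

/-!
# The Hasse invariant of a quadratic form

`s` is a symbol on a field `k` (bimultiplicative, of exponent two, symmetric, trivial on norms).
The Hasse invariant `hasse s a = ∏_{i < j} s (a i) (a j)` of a diagonal form with coefficients
`a i ∈ kˣ` depends only on the equivalence class of the form (`hasse_eq_of_equivalent`), as does
the discriminant modulo squares.
-/

set_option autoImplicit false

namespace Fermat.Agent.Cor.HM

open QuadraticMap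

/-- A symbol with values in a commutative group: bimultiplicative, of exponent two, symmetric,
trivial on norms. -/
structure Symb (k : Type*) (G : Type*) [Field k] [CommGroup G] where
  /-- the symbol -/
  s : kˣ →* kˣ →* G
  mul_self : ∀ a b, s a b * s a b = 1
  symm : ∀ a b, s a b = s b a
  norm : ∀ (a b : kˣ) (x y : k), (b : k) = x ^ 2 - a * y ^ 2 → s a b = 1

namespace Symb

variable {k G : Type*} [Field k] [CommGroup G] (S : Symb k G)

theorem sq_right (a b : kˣ) : S.s a (b ^ 2) = 1 := by
  rw [map_pow, pow_two, S.mul_self]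

theorem sq_left (a b : kˣ) : S.s (a ^ 2) b = 1 := by
  rw [S.symm, S.sq_right]

theorem neg_self (a : kˣ) : S.s a (-a) = 1 :=
  S.norm a (-a) 0 1 (by rw [Units.val_neg]; ring)

/-- the symbol only depends on the class modulo squares -/
theorem congr_right {a b : kˣ} (h : IsSquare (a * b)) (c : kˣ) : S.s c a = S.s c b := by
  obtain ⟨r, hr⟩ := h
  have h1 : S.s c (a * b) = 1 := by rw [hr, map_mul, S.mul_self]
  rw [map_mul] at h1
  calc S.s c a = S.s c a * (S.s c b * S.s c b) := by rw [S.mul_self, mul_one]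
    _ = S.s c a * S.s c b * S.s c b := (mul_assoc _ _ _).symm
    _ = S.s c b := by rw [h1, one_mul]

theorem self_eq (a : kˣ) : S.s a a = S.s a (-1) := by
  have h1 := S.neg_self a
  rw [← neg_one_mul, map_mul] at h1
  calc S.s a a = S.s a (-1) * S.s a (-1) * S.s a a := by rw [S.mul_self, one_mul]
    _ = S.s a (-1) := by rw [mul_assoc, h1, mul_one]

/-- The relation of the binary move. -/
theorem binary {a b c : kˣ} {x y : k} (h : (c : k) = a * x ^ 2 + b * y ^ 2) :
    S.s a b * (S.s c a * S.s c b * S.s c c) = 1 := by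
  have h1 : S.s (-(a * b)) (a * c) = 1 := by
    refine S.norm _ _ (a * x) y ?_
    push_cast
    rw [h]
    ring
  rw [← neg_one_mul] at h1
  simp only [map_mul, MonoidHom.mul_apply] at h1
  rw [S.self_eq a, S.symm a (-1), S.symm (-1) c, S.symm b a, S.symm b c, S.symm a c,
    ← S.self_eq c] at h1
  have h2 := S.mul_self (-1) a
  generalize S.s (-1) a = p at *
  generalize S.s c c = q at *
  generalize S.s c a = r at *
  generalize S.s a b = t at *
  generalize S.s c b = u at *
  rw [← mul_assoc p p t, h2, one_mul] at h1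
  rw [mul_comm (r * u) q]
  exact h1

/-- The Hasse invariant `∏_{i < j} s (a i) (a j)`. -/
def hasse : {n : ℕ} → (Fin n → kˣ) → G
  | 0, _ => 1
  | _ + 1, a => S.s (a 0) (∏ i, Fin.tail a i) * hasse (Fin.tail a)

@[simp] theorem hasse_zero (a : Fin 0 → kˣ) : S.hasse a = 1 := rfl

theorem hasse_cons {n : ℕ} (c : kˣ) (a : Fin n → kˣ) :
    S.hasse (Fin.cons c a : Fin (n + 1) → kˣ) = S.s c (∏ i, a i) * S.hasse a := by
  rw [hasse, Fin.cons_zero, Fin.tail_cons]

/-- the product formula for the Hasse invariant -/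
theorem hasse_eq_prod {n : ℕ} (a : Fin n → kˣ) :
    S.hasse a = ∏ j, ∏ i ∈ Finset.univ.filter (· < j), S.s (a i) (a j) := by
  induction n with
  | zero => simp
  | succ n ih =>
    rw [hasse, ih, Fin.prod_univ_succ (fun j => ∏ i ∈ Finset.univ.filter (· < j), S.s (a i) (a j))]
    have h0 : (Finset.univ.filter fun i : Fin (n + 1) => i < 0) = ∅ := by
      apply Finset.filter_eq_empty_iff.2
      intro i _
      exact Fin.not_lt_zero i
    rw [h0, Finset.prod_empty, one_mul, map_prod, ← Finset.prod_mul_distrib]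
    refine Finset.prod_congr rfl fun j _ => ?_
    have h1 : (Finset.univ.filter fun i : Fin (n + 1) => i < j.succ) =
        insert 0 ((Finset.univ.filter fun i : Fin n => i < j).map (Fin.succEmb n)) := by
      ext i
      simp only [Finset.mem_filter, Finset.mem_univ, true_and, Finset.mem_insert,
        Finset.mem_map, Fin.coe_succEmb]
      constructor
      · intro h
        rcases Fin.eq_zero_or_eq_succ i with rfl | ⟨i', rfl⟩
        · exact Or.inl rfl
        · exact Or.inr ⟨i', Fin.succ_lt_succ_iff.1 h, rfl⟩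
      · rintro (rfl | ⟨i', h, rfl⟩)
        · exact Fin.succ_pos j
        · exact Fin.succ_lt_succ_iff.2 h
    rw [h1, Finset.prod_insert, Finset.prod_map]
    · rfl
    · simp

end Symb

section Forms

variable {k G : Type*} [Field k] [CommGroup G] (S : Symb k G)

/-- The diagonal form with coefficients in `kˣ`. -/
def wf {n : ℕ} (a : Fin n → kˣ) : QuadraticForm k (Fin n → k) :=
  weightedSumSquares k fun i => (a i : k)

theorem wf_apply {n : ℕ} (a : Fin n → kˣ) (x : Fin n → k) : wf a x = ∑ i, (a i : k) * x i ^ 2 := by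
  rw [wf, weightedSumSquares_apply]
  exact Finset.sum_congr rfl fun i _ => by rw [smul_eq_mul, pow_two]

theorem coe_cons {n : ℕ} (c : kˣ) (a : Fin n → kˣ) :
    (fun i => ((Fin.cons c a : Fin (n + 1) → kˣ) i : k)) =
      (Fin.cons (c : k) fun i => (a i : k) : Fin (n + 1) → k) := by
  funext i
  refine Fin.cases ?_ (fun j => ?_) i
  · rw [Fin.cons_zero, Fin.cons_zero]
  · rw [Fin.cons_succ, Fin.cons_succ]

theorem wf_cons {n : ℕ} (c : kˣ) (a : Fin n → kˣ) :
    wf (Fin.cons c a : Fin (n + 1) → kˣ) =
      weightedSumSquares k (Fin.cons (c : k) fun i => (a i : k) : Fin (n + 1) → k) := by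
  rw [wf, coe_cons]

/-- Equivalence with equality of the discriminants modulo squares and of the Hasse invariants. -/
structure REq {n : ℕ} (a b : Fin n → kˣ) : Prop where
  equiv : (wf a).Equivalent (wf b)
  disc : IsSquare ((∏ i, a i) * ∏ i, b i)
  hasse : S.hasse a = S.hasse b

variable {S}

theorem REq.refl {n : ℕ} (a : Fin n → kˣ) : REq S a a :=
  ⟨Equivalent.refl _, ⟨_, rfl⟩, rfl⟩

theorem REq.symm {n : ℕ} {a b : Fin n → kˣ} (h : REq S a b) : REq S b a :=
  ⟨h.equiv.symm, by rw [mul_comm]; exact h.disc, h.hasse.symm⟩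

theorem REq.trans {n : ℕ} {a b c : Fin n → kˣ} (h : REq S a b) (h' : REq S b c) : REq S a c := by
  refine ⟨h.equiv.trans h'.equiv, ?_, h.hasse.trans h'.hasse⟩
  obtain ⟨r, hr⟩ := h.disc
  obtain ⟨t, ht⟩ := h'.disc
  refine ⟨r * t * (∏ i, b i)⁻¹, ?_⟩
  generalize (∏ i, a i) = A at *
  generalize (∏ i, b i) = B at *
  generalize (∏ i, c i) = C at *
  have h1 : (A * B) * (B * C) = A * C * (B * B) := by
    rw [mul_comm B C, mul_mul_mul_comm]
  rw [hr, ht] at h1
  calc A * C = A * C * (B * B) * (B⁻¹ * B⁻¹) := by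
        rw [mul_assoc (A * C), mul_mul_mul_comm B B, mul_inv_cancel, one_mul, mul_one]
    _ = r * r * (t * t) * (B⁻¹ * B⁻¹) := by rw [h1]
    _ = r * t * B⁻¹ * (r * t * B⁻¹) := by
        rw [mul_mul_mul_comm r r t t, mul_mul_mul_comm (r * t) (r * t)]

theorem REq.cons {n : ℕ} {a b : Fin n → kˣ} (c : kˣ) (h : REq S a b) :
    REq S (Fin.cons c a : Fin (n + 1) → kˣ) (Fin.cons c b) := by
  refine ⟨?_, ?_, ?_⟩
  · rw [wf_cons, wf_cons]
    exact equivalent_cons (c : k) h.equiv
  · obtain ⟨r, hr⟩ := h.disc
    rw [Fin.prod_cons, Fin.prod_cons]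
    refine ⟨c * r, ?_⟩
    calc c * (∏ i, a i) * (c * ∏ i, b i) = c * c * ((∏ i, a i) * ∏ i, b i) := by
          rw [mul_mul_mul_comm]
      _ = _ := by rw [hr, mul_mul_mul_comm]
  · rw [S.hasse_cons, S.hasse_cons, S.congr_right h.disc, h.hasse]

theorem REq.scale {n : ℕ} (c x : kˣ) (a : Fin n → kˣ) :
    REq S (Fin.cons c a : Fin (n + 1) → kˣ) (Fin.cons (c * x ^ 2) a) := by
  refine ⟨?_, ?_, ?_⟩
  · -- the isometry `t ↦ t / x` on the first coordinate
    rw [wf_cons, wf_cons]
    have h1 : (oneForm (c : k)).Equivalent (oneForm ((c * x ^ 2 : kˣ) : k)) := by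
      let e : k ≃ₗ[k] k := LinearEquiv.smulOfUnit x⁻¹
      refine ⟨{ e with map_app' := fun t => ?_ }⟩
      change oneForm ((c * x ^ 2 : kˣ) : k) ((x⁻¹ : kˣ) • t) = oneForm (c : k) t
      rw [oneForm_apply, oneForm_apply, Units.smul_def, smul_eq_mul]
      push_cast
      have hx : (x : k) ≠ 0 := x.ne_zero
      field_simp
    exact (Equivalent.symm ⟨consIso _ _⟩).trans ((h1.prod (Equivalent.refl _)).trans
      ⟨consIso _ _⟩)
  · rw [Fin.prod_cons, Fin.prod_cons]
    refine ⟨c * x * ∏ i, a i, ?_⟩
    generalize (∏ i, a i) = A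
    rw [pow_two]
    calc c * A * (c * (x * x) * A) = c * A * (c * x * (x * A)) := by simp only [mul_assoc]
      _ = (c * x) * A * ((c * x) * A) := by
        simp only [mul_left_comm, mul_comm]
  · rw [S.hasse_cons, S.hasse_cons, map_mul, MonoidHom.mul_apply, S.sq_left, mul_one]

/-- the binary move for forms -/
theorem oneForm_prod_equivalent {a b c x y : k} (hc : c ≠ 0) (h : c = a * x ^ 2 + b * y ^ 2) :
    ((oneForm c).prod (oneForm (a * b * c))).Equivalent ((oneForm a).prod (oneForm b)) := by
  let f : (k × k) →ₗ[k] (k × k) := LinearMap.prod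
    (x • LinearMap.fst k k k - (b * y) • LinearMap.snd k k k)
    (y • LinearMap.fst k k k + (a * x) • LinearMap.snd k k k)
  let g : (k × k) →ₗ[k] (k × k) := LinearMap.prod
    ((a * x / c) • LinearMap.fst k k k + (b * y / c) • LinearMap.snd k k k)
    ((x / c) • LinearMap.snd k k k - (y / c) • LinearMap.fst k k k)
  have hf : ∀ z : k × k, f z = (x * z.1 - b * y * z.2, y * z.1 + a * x * z.2) := fun z => rfl
  have hg : ∀ z : k × k, g z = (a * x / c * z.1 + b * y / c * z.2, x / c * z.2 - y / c * z.1) :=
    fun z => rfl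
  have e1 : f ∘ₗ g = LinearMap.id := by
    refine LinearMap.ext fun z => ?_
    rw [LinearMap.comp_apply, hg, hf, LinearMap.id_apply]
    refine Prod.ext ?_ ?_
    · change x * (a * x / c * z.1 + b * y / c * z.2) - b * y * (x / c * z.2 - y / c * z.1) = z.1
      field_simp
      rw [h]
      ring
    · change y * (a * x / c * z.1 + b * y / c * z.2) + a * x * (x / c * z.2 - y / c * z.1) = z.2
      field_simp
      rw [h]
      ring
  have e2 : g ∘ₗ f = LinearMap.id := by
    refine LinearMap.ext fun z => ?_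
    rw [LinearMap.comp_apply, hf, hg, LinearMap.id_apply]
    refine Prod.ext ?_ ?_
    · change a * x / c * (x * z.1 - b * y * z.2) + b * y / c * (y * z.1 + a * x * z.2) = z.1
      field_simp
      rw [h]
      ring
    · change x / c * (y * z.1 + a * x * z.2) - y / c * (x * z.1 - b * y * z.2) = z.2
      field_simp
      rw [h]
      ring
  let e : (k × k) ≃ₗ[k] (k × k) := LinearEquiv.ofLinearMap f g e1 e2
  refine ⟨{ e with map_app' := fun z => ?_ }⟩
  change ((oneForm a).prod (oneForm b)) (f z) = _
  rw [hf]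
  simp only [QuadraticMap.prod_apply, oneForm_apply]
  rw [h]
  ring

theorem wf_cons_cons {n : ℕ} (a b : kˣ) (l : Fin n → kˣ) :
    (((oneForm (a : k)).prod (oneForm (b : k))).prod (wf l)).Equivalent
      (wf (Fin.cons a (Fin.cons b l : Fin (n + 1) → kˣ) : Fin (n + 2) → kˣ)) := by
  have h1 : ((oneForm (b : k)).prod (wf l)).Equivalent
      (wf (Fin.cons b l : Fin (n + 1) → kˣ)) := by
    rw [wf_cons]
    exact ⟨consIso _ _⟩
  have h2 : ((oneForm (a : k)).prod (wf (Fin.cons b l : Fin (n + 1) → kˣ))).Equivalent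
      (wf (Fin.cons a (Fin.cons b l : Fin (n + 1) → kˣ) : Fin (n + 2) → kˣ)) := by
    rw [wf_cons a]
    exact ⟨consIso _ _⟩
  exact (Equivalent.trans ⟨prodAssocIso _ _ _⟩ ((Equivalent.refl _).prod h1)).trans h2

theorem REq.binary {n : ℕ} {a b c : kˣ} {x y : k} (h : (c : k) = a * x ^ 2 + b * y ^ 2)
    (l : Fin n → kˣ) :
    REq S (Fin.cons a (Fin.cons b l : Fin (n + 1) → kˣ) : Fin (n + 2) → kˣ)
      (Fin.cons c (Fin.cons (a * b * c) l : Fin (n + 1) → kˣ)) := by
  refine ⟨?_, ?_, ?_⟩
  · have h1 := oneForm_prod_equivalent c.ne_zero h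
    have h2 : ((oneForm (c : k)).prod (oneForm ((a * b * c : kˣ) : k))).Equivalent
        ((oneForm (a : k)).prod (oneForm (b : k))) := by
      push_cast
      exact h1
    exact (wf_cons_cons a b l).symm.trans ((h2.symm.prod (Equivalent.refl _)).trans
      (wf_cons_cons c (a * b * c) l))
  · simp only [Fin.prod_cons]
    refine ⟨a * b * c * ∏ i, l i, ?_⟩
    generalize (∏ i, l i) = P
    simp only [mul_comm, mul_left_comm]
  · have h1 := S.binary h
    have h2 := S.mul_self c (∏ i, l i)
    have h3 := S.mul_self a b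
    simp only [S.hasse_cons, Fin.prod_cons, map_mul, MonoidHom.mul_apply]
    generalize (∏ i, l i) = P at *
    generalize S.hasse l = H
    generalize S.s c P = q at *
    generalize S.s a P = A
    generalize S.s b P = B
    generalize S.s a b = t at *
    generalize S.s c a = u at *
    generalize S.s c b = v at *
    generalize S.s c c = w at *
    have h4 : u * v * w = t := by
      calc u * v * w = t * t * (u * v * w) := by rw [h3, one_mul]
        _ = t := by rw [mul_assoc, h1, mul_one]
    calc t * A * (B * H) = t * (q * q) * A * B * H := by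
          rw [h2, mul_one]
          simp only [mul_assoc]
      _ = u * v * w * q * (A * B * q * H) := by
          rw [h4]
          simp only [mul_comm, mul_left_comm]

variable (S) in
/-- Splitting off a value, with control of the invariants. -/
theorem exists_REq_cons {n : ℕ} (a : Fin (n + 1) → kˣ) (c : kˣ)
    (h : ∃ x : Fin (n + 1) → k, ∑ i, (a i : k) * x i ^ 2 = c) :
    ∃ a' : Fin n → kˣ, REq S a (Fin.cons c a' : Fin (n + 1) → kˣ) := by
  induction n generalizing c with
  | zero =>
    obtain ⟨x, hx⟩ := h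
    rw [Fin.sum_univ_succ, Fin.sum_univ_zero, add_zero] at hx
    have hx0 : x 0 ≠ 0 := by
      intro h0
      rw [h0] at hx
      apply c.ne_zero
      rw [← hx]
      ring
    have hc : c = a 0 * (Units.mk0 (x 0) hx0) ^ 2 := by
      apply Units.ext
      push_cast
      rw [Units.val_mk0]
      exact hx.symm
    refine ⟨Fin.tail a, ?_⟩
    have h1 := REq.scale (S := S) (a 0) (Units.mk0 (x 0) hx0) (Fin.tail a)
    rwa [Fin.cons_self_tail, ← hc] at h1
  | succ n ih =>
    obtain ⟨x, hx⟩ := h
    rw [Fin.sum_univ_succ] at hx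
    by_cases hd : ∑ i : Fin (n + 1), (a i.succ : k) * x i.succ ^ 2 = 0
    · rw [hd, add_zero] at hx
      have hx0 : x 0 ≠ 0 := by
        intro h0
        rw [h0] at hx
        apply c.ne_zero
        rw [← hx]
        ring
      have hc : c = a 0 * (Units.mk0 (x 0) hx0) ^ 2 := by
        apply Units.ext
        push_cast
        rw [Units.val_mk0]
        exact hx.symm
      refine ⟨Fin.tail a, ?_⟩
      have h1 := REq.scale (S := S) (a 0) (Units.mk0 (x 0) hx0) (Fin.tail a)
      rwa [Fin.cons_self_tail, ← hc] at h1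
    · obtain ⟨l', hl'⟩ := ih (Fin.tail a) (Units.mk0 _ hd) ⟨fun i => x i.succ, rfl⟩
      have h1 := hl'.cons (a 0)
      rw [Fin.cons_self_tail] at h1
      have h2 : (c : k) = a 0 * x 0 ^ 2 + (Units.mk0 _ hd : kˣ) * (1 : k) ^ 2 := by
        rw [Units.val_mk0, one_pow, mul_one]
        exact hx.symm
      exact ⟨_, h1.trans (REq.binary h2 l')⟩

variable (S) in
/-- **The discriminant and the Hasse invariant are invariants of the equivalence class.** -/
theorem REq.of_equivalent (h2 : (2 : k) ≠ 0) {n : ℕ} {a b : Fin n → kˣ}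
    (h : (wf a).Equivalent (wf b)) : REq S a b := by
  induction n with
  | zero =>
    rw [Subsingleton.elim a b]
    exact REq.refl b
  | succ n ih =>
    have hval : ∃ x : Fin (n + 1) → k, ∑ i, (a i : k) * x i ^ 2 = (b 0 : kˣ) := by
      obtain ⟨e⟩ := h
      refine ⟨e.symm (Pi.single 0 1), ?_⟩
      have h1 := e.symm.map_app (Pi.single 0 1)
      rw [wf_apply, wf_apply] at h1
      rw [h1, Finset.sum_eq_single 0]
      · simp
      · intro i _ hi
        simp [hi]
      · intro h0
        exact absurd (Finset.mem_univ _) h0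
    obtain ⟨a', ha'⟩ := exists_REq_cons S a (b 0) hval
    have h3 : (wf (Fin.cons (b 0) a' : Fin (n + 1) → kˣ)).Equivalent
        (wf (Fin.cons (b 0) (Fin.tail b) : Fin (n + 1) → kˣ)) := by
      rw [Fin.cons_self_tail]
      exact ha'.equiv.symm.trans h
    have h4 : (wf a').Equivalent (wf (Fin.tail b)) := by
      rw [wf_cons, wf_cons] at h3
      exact witt_cancel_cons h2 (b 0).ne_zero h3
    have h5 := (ih h4).cons (b 0)
    rw [Fin.cons_self_tail] at h5
    exact ha'.trans h5

variable (S) in
/-- **The Hasse invariant only depends on the equivalence class.** -/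
theorem hasse_eq_of_equivalent (h2 : (2 : k) ≠ 0) {n : ℕ} {a b : Fin n → kˣ}
    (h : (wf a).Equivalent (wf b)) : S.hasse a = S.hasse b :=
  (REq.of_equivalent S h2 h).hasse

/-- The discriminant modulo squares only depends on the equivalence class. -/
theorem isSquare_disc_of_equivalent (h2 : (2 : k) ≠ 0) {n : ℕ} {a b : Fin n → kˣ}
    (h : (wf a).Equivalent (wf b)) : IsSquare ((∏ i, a i) * ∏ i, b i) := by
  let T : Symb k (Multiplicative (Fin 1)) :=
    { s := 1
      mul_self := fun _ _ => rfl
      symm := fun _ _ => rfl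
      norm := fun _ _ _ _ _ => rfl }
  exact (REq.of_equivalent T h2 h).disc

end Forms

end Fermat.Agent.Cor.HM
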