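import Mathlib
import Fermat.Agent.Corollaries.HM.HasseInv

/-!
# Classification by discriminant and Hasse invariants: the abstract induction

`S i` is a family of symbols on a field `k` and `sig` a further invariant (trivial or the
signature).  If any two forms with the same invariants in at least two variables have a non-zero
value in common, then forms with the same invariants are equivalent.
-/

set_option autoImplicit false

namespace Fermat.Agent.Cor.HM

open QuadraticMap

section Values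

variable {k G : Type*} [Field k] [CommGroup G] (S : Symb k G)

/-- In two variables the invariants determine the values. -/
theorem Symb.rep_of_invariants {a₀ a₁ b₀ b₁ : kˣ} (hd : IsSquare (a₀ * a₁ * (b₀ * b₁)))
    (hs : S.s a₀ a₁ = S.s b₀ b₁) : S.s (-(a₀ * a₁)) (a₀ * b₀) = 1 := by
  have h1 : ∀ x y : kˣ, S.s (-(x * y)) x = S.s x y := by
    intro x y
    rw [← neg_one_mul]
    simp only [map_mul, MonoidHom.mul_apply]
    rw [← mul_assoc, S.symm (-1) x, ← S.self_eq, S.mul_self, one_mul, S.symm]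
  have h2 : S.s (-(a₀ * a₁)) b₀ = S.s (-(b₀ * b₁)) b₀ := by
    rw [S.symm _ b₀, S.symm _ b₀]
    exact S.congr_right (by rw [neg_mul_neg]; exact hd) b₀
  rw [map_mul, h1, h2, h1, hs, S.mul_self]

/-- A common value of two forms which are not both anisotropic with a common zero. -/
theorem exists_common_value (h2 : (2 : k) ≠ 0) {m n : ℕ} (a : Fin (m + 1) → kˣ)
    (b : Fin (n + 1) → kˣ)
    (h : ∃ (x : Fin (m + 1) → k) (y : Fin (n + 1) → k), ¬ (x = 0 ∧ y = 0) ∧
      ∑ i, (a i : k) * x i ^ 2 = ∑ i, (b i : k) * y i ^ 2) :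
    ∃ c : kˣ, (∃ x : Fin (m + 1) → k, ∑ i, (a i : k) * x i ^ 2 = c) ∧
      ∃ y : Fin (n + 1) → k, ∑ i, (b i : k) * y i ^ 2 = c := by
  obtain ⟨x, y, h0, h1⟩ := h
  have hval : ∀ {l : ℕ} (u : Fin (l + 1) → kˣ), ∃ z : Fin (l + 1) → k,
      ∑ i, (u i : k) * z i ^ 2 = (u 0 : kˣ) := by
    intro l u
    refine ⟨Pi.single 0 1, ?_⟩
    rw [Finset.sum_eq_single 0]
    · simp
    · intro i _ hi
      simp [hi]
    · intro h0
      exact absurd (Finset.mem_univ _) h0
  by_cases he : ∑ i, (a i : k) * x i ^ 2 = 0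
  · by_cases hx : x = 0
    · have hy : y ≠ 0 := fun hy => h0 ⟨hx, hy⟩
      refine ⟨a 0, hval a, ?_⟩
      exact exists_value_of_isotropic h2 (fun i => (b i).ne_zero) ⟨y, hy, by rw [← h1, he]⟩ _
    · refine ⟨b 0, ?_, hval b⟩
      exact exists_value_of_isotropic h2 (fun i => (a i).ne_zero) ⟨x, hx, he⟩ _
  · exact ⟨Units.mk0 _ he, ⟨x, rfl⟩, ⟨y, h1.symm⟩⟩

/-- A value of a binary form from a zero of a ternary form. -/
theorem exists_value_two (h2 : (2 : k) ≠ 0) (a : Fin 2 → kˣ) (c : kˣ)
    (h : ∃ x y z : k, ¬ (x = 0 ∧ y = 0 ∧ z = 0) ∧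
      (a 0 : k) * x ^ 2 + a 1 * y ^ 2 + (-c : kˣ) * z ^ 2 = 0) :
    ∃ x : Fin 2 → k, ∑ i, (a i : k) * x i ^ 2 = c := by
  obtain ⟨x, y, z, h0, h1⟩ := h
  rw [Units.val_neg] at h1
  by_cases hz : z = 0
  · refine exists_value_of_isotropic h2 (fun i => (a i).ne_zero) ⟨![x, y], fun h' => h0 ?_, ?_⟩ _
    · exact ⟨congrFun h' 0, congrFun h' 1, hz⟩
    · rw [Fin.sum_univ_two]
      simp only [Matrix.cons_val_zero, Matrix.cons_val_one]
      rw [hz] at h1
      linear_combination h1
  · refine ⟨![x / z, y / z], ?_⟩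
    rw [Fin.sum_univ_two]
    simp only [Matrix.cons_val_zero, Matrix.cons_val_one]
    field_simp
    linear_combination h1

end Values

section Classify

variable {k G : Type*} [Field k] [CommGroup G] {I : Type*} (S : I → Symb k G)

/-- **The abstract classification.** -/
theorem equivalent_of_invariants (h2 : (2 : k) ≠ 0) {X : Type*}
    (sig : ∀ n : ℕ, (Fin n → kˣ) → X)
    (hsig : ∀ (n : ℕ) (a b : Fin n → kˣ), (wf a).Equivalent (wf b) → sig n a = sig n b)
    (hcanc : ∀ (n : ℕ) (c : kˣ) (a b : Fin n → kˣ),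
      sig (n + 1) (Fin.cons c a) = sig (n + 1) (Fin.cons c b) → sig n a = sig n b)
    (hval : ∀ (n : ℕ) (a b : Fin (n + 2) → kˣ), sig (n + 2) a = sig (n + 2) b →
      IsSquare ((∏ i, a i) * ∏ i, b i) → (∀ i, (S i).hasse a = (S i).hasse b) →
      ∃ c : kˣ, (∃ x : Fin (n + 2) → k, ∑ i, (a i : k) * x i ^ 2 = c) ∧
        ∃ y : Fin (n + 2) → k, ∑ i, (b i : k) * y i ^ 2 = c)
    (n : ℕ) (a b : Fin n → kˣ) (h1 : sig n a = sig n b)
    (hd : IsSquare ((∏ i, a i) * ∏ i, b i)) (hh : ∀ i, (S i).hasse a = (S i).hasse b) :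
    (wf a).Equivalent (wf b) := by
  let T : Symb k (Multiplicative (Fin 1)) :=
    { s := 1
      mul_self := fun _ _ => rfl
      symm := fun _ _ => rfl
      norm := fun _ _ _ _ _ => rfl }
  induction n with
  | zero =>
    rw [Subsingleton.elim a b]
  | succ n ih =>
    -- a common value
    obtain ⟨c, hca, hcb⟩ : ∃ c : kˣ, (∃ x : Fin (n + 1) → k, ∑ i, (a i : k) * x i ^ 2 = c) ∧
        ∃ y : Fin (n + 1) → k, ∑ i, (b i : k) * y i ^ 2 = c := by
      cases n with
      | zero =>
        simp only [Fin.prod_univ_succ, Fin.prod_univ_zero, mul_one] at hd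
        obtain ⟨r, hr⟩ := hd
        refine ⟨b 0, ⟨fun _ => (r : k) / (a 0 : kˣ), ?_⟩, ⟨fun _ => 1, ?_⟩⟩
        · have hr' := congrArg (Units.val) hr
          push_cast at hr'
          have ha0 : (a 0 : k) ≠ 0 := (a 0).ne_zero
          simp only [Fin.sum_univ_succ, Fin.sum_univ_zero, add_zero]
          field_simp
          linear_combination -hr'
        · simp
      | succ n => exact hval n a b h1 hd hh
    obtain ⟨a', ha'⟩ := exists_REq_cons T a c hca
    obtain ⟨b', hb'⟩ := exists_REq_cons T b c hcb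
    have hda : IsSquare ((∏ i, a' i) * ∏ i, b' i) := by
      obtain ⟨r, hr⟩ := ha'.symm.disc
      obtain ⟨t, ht⟩ := hb'.disc
      obtain ⟨u, hu⟩ := hd
      rw [Fin.prod_cons] at hr ht
      generalize (∏ i, a i) = A at *
      generalize (∏ i, b i) = B at *
      generalize (∏ i, a' i) = A' at *
      generalize (∏ i, b' i) = B' at *
      have e1 : (c * A' * A) * (A * B) * (B * (c * B')) = A' * B' * ((c * A * B) * (c * A * B)) := by
        simp only [mul_comm, mul_left_comm]
      rw [hr, hu, ht] at e1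
      generalize c * A * B = W at *
      refine ⟨r * u * t * W⁻¹, ?_⟩
      rw [mul_mul_mul_comm (r * u * t), mul_mul_mul_comm (r * u) t, mul_mul_mul_comm r u, e1,
        mul_assoc (A' * B'), mul_mul_mul_comm W W, mul_inv_cancel, one_mul, mul_one]
    have hha : ∀ i, (S i).hasse a' = (S i).hasse b' := by
      intro i
      have e1 := hasse_eq_of_equivalent (S i) h2 ha'.equiv
      have e2 := hasse_eq_of_equivalent (S i) h2 hb'.equiv
      have e3 := hh i
      rw [e1, e2, (S i).hasse_cons, (S i).hasse_cons, (S i).congr_right hda] at e3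
      exact mul_left_cancel e3
    have hsa : sig n a' = sig n b' := by
      apply hcanc n c
      rw [← hsig _ _ _ ha'.equiv, ← hsig _ _ _ hb'.equiv, h1]
    have h5 := (ih a' b' hsa hda hha)
    have h6 : (wf (Fin.cons c a' : Fin (n + 1) → kˣ)).Equivalent
        (wf (Fin.cons c b' : Fin (n + 1) → kˣ)) := by
      rw [wf_cons, wf_cons]
      exact equivalent_cons (c : k) h5
    exact ha'.equiv.trans (h6.trans hb'.equiv.symm)

end Classify

end Fermat.Agent.Cor.HM
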