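import Fermat.Agent.Corollaries.HM.Main
import Fermat.Agent.Corollaries.HM.ClassifyAbs

/-!
# Classification of the quadratic forms over a totally complex number field

`K` a totally complex number field, `a : Fin n → Kˣ` the diagonal form `wf a = <a 0, …, a (n-1)>`.
For a (finite) place `v` the Hasse invariant of `a` at `v` is trivial (`HasseTriv v a`) if the
number of the pairs `i < j` such that `a i x² + a j y² = z²` has no non-trivial solution in `K_v`
is even.

* `equivalent_iff_invariants`: `wf a` and `wf b` are equivalent iff `∏ a i · ∏ b i` is a square and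
  `a`, `b` have the same Hasse invariants at all places;
* `finite_hasse`: the Hasse invariant is non-trivial at a finite even number of places;
* `exists_form_of_invariants`: for `n ≥ 3` every discriminant and every finite even set of places
  occur;
* `exists_wf`: every regular quadratic form is equivalent to some `wf a`.
-/

set_option autoImplicit false

namespace Fermat.Agent.Cor.HM

open IsDedekindDomain NumberField QuadraticMap
open Fermat.Agent.CFT.Global Fermat.Agent.CFT.Global2

section Symbols

variable {K : Type} [Field K] [NumberField K]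

/-- The Hilbert symbol at `v`. -/
def symbAt (LS : LocalSymbols 2 K) (v : HeightOneSpectrum (𝓞 K)) :
    Symb K (Multiplicative (ZMod 2)) where
  s := LS.sym v
  mul_self a b := mul_self_eq_one _
  symm a b := by
    have h1 := LS.skew v a b
    have h2 := mul_self_eq_one (LS.sym v b a)
    calc LS.sym v a b = LS.sym v a b * (LS.sym v b a * LS.sym v b a) := by rw [h2, mul_one]
      _ = LS.sym v b a := by rw [← mul_assoc, h1, one_mul]
  norm a b x y h := LS.norm_mem v a b ((isNormFrom_two_iff a b).mpr ⟨x, y, h⟩)

/-- The Hasse invariant of the diagonal form `a` at `v` is trivial. -/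
def HasseTriv (v : HeightOneSpectrum (𝓞 K)) {n : ℕ} (a : Fin n → Kˣ) : Prop :=
  Even {p : Fin n × Fin n | p.1 < p.2 ∧ ¬ IsSplitAt v (a p.1 : K) (a p.2 : K)}.ncard

theorem prod_zmod_two {α : Type*} (s : Finset α) (f : α → Multiplicative (ZMod 2)) :
    (∏ i ∈ s, f i = 1 ↔ Even (s.filter fun i => f i ≠ 1).card) := by
  classical
  have key : ∏ i ∈ s, f i =
      Multiplicative.ofAdd (((s.filter fun i => f i ≠ 1).card : ℕ) : ZMod 2) := by
    induction s using Finset.induction_on with
    | empty => simp
    | insert i s hi ih =>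
      rw [Finset.prod_insert hi, ih, Finset.filter_insert]
      have h3 : ∀ t : Multiplicative (ZMod 2), t ≠ 1 → t = Multiplicative.ofAdd 1 := by decide
      split_ifs with h
      · rw [Finset.card_insert_of_notMem (by simp [hi]), h3 _ h, ← ofAdd_add]
        push_cast
        rw [add_comm]
      · push Not at h
        rw [h, one_mul]
  rw [key, ofAdd_eq_one, ZMod.natCast_eq_zero_iff, even_iff_two_dvd]

theorem hasse_eq_one_iff (LS : LocalSymbols 2 K) (v : HeightOneSpectrum (𝓞 K)) {n : ℕ}
    (a : Fin n → Kˣ) : (symbAt LS v).hasse a = 1 ↔ HasseTriv v a := by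
  classical
  have h1 : (symbAt LS v).hasse a = ∏ p : Fin n × Fin n,
      (if p.1 < p.2 then LS.sym v (a p.1) (a p.2) else 1) := by
    rw [Symb.hasse_eq_prod, Fintype.prod_prod_type, Finset.prod_comm]
    refine Finset.prod_congr rfl fun j _ => ?_
    rw [Finset.prod_filter]
    rfl
  rw [h1, prod_zmod_two, HasseTriv]
  have h2 : {p : Fin n × Fin n | p.1 < p.2 ∧ ¬ IsSplitAt v (a p.1 : K) (a p.2 : K)} =
      ((Finset.univ.filter fun p : Fin n × Fin n =>
        (if p.1 < p.2 then LS.sym v (a p.1) (a p.2) else 1) ≠ 1) : Set _) := by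
    ext p
    simp only [Set.mem_ofPred_eq, Finset.coe_filter, Finset.mem_univ, true_and,
      ← sym_eq_one_iff LS v]
    split_ifs with h
    · simp [h]
    · simp [h]
  rw [h2, Set.ncard_coe_finset]

theorem hasse_eq_iff (LS : LocalSymbols 2 K) (v : HeightOneSpectrum (𝓞 K)) {m n : ℕ}
    (a : Fin m → Kˣ) (b : Fin n → Kˣ) :
    (symbAt LS v).hasse a = (symbAt LS v).hasse b ↔ (HasseTriv v a ↔ HasseTriv v b) := by
  rw [← hasse_eq_one_iff LS, ← hasse_eq_one_iff LS]
  generalize (symbAt LS v).hasse a = s
  generalize (symbAt LS v).hasse b = t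
  revert s t
  decide

end Symbols

section Wf

/-- Every regular quadratic form is diagonal with coefficients in `kˣ`. -/
theorem exists_wf {k V : Type*} [Field k] [Invertible (2 : k)] [AddCommGroup V] [Module k V]
    [FiniteDimensional k V] (Q : QuadraticForm k V)
    (hQ : (associated (R := k) Q).SeparatingLeft) :
    ∃ a : Fin (Module.finrank k V) → kˣ, Q.Equivalent (wf a) := by
  obtain ⟨v, hv⟩ := LinearMap.BilinForm.exists_orthogonal_basis
    (QuadraticForm.associated_isSymm k Q)
  have hne := hv.not_isOrtho_basis_self_of_separatingLeft hQ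
  simp_rw [associated_eq_self_apply] at hne
  refine ⟨fun i => Units.mk0 _ (hne i), ?_⟩
  have h1 : (wf fun i => Units.mk0 _ (hne i)) = weightedSumSquares k fun i => Q (v i) := rfl
  rw [h1, ← basisRepr_eq_of_iIsOrtho Q v hv]
  exact ⟨Q.isometryEquivBasisRepr v⟩

/-- `wf a` is regular. -/
theorem separatingLeft_wf {k : Type*} [Field k] [Invertible (2 : k)] {n : ℕ} (a : Fin n → kˣ) :
    (associated (R := k) (wf a)).SeparatingLeft :=
  separatingLeft_weighted fun i => (a i).ne_zero

end Wf

section Main

variable {K : Type} [Field K] [NumberField K] [IsTotallyComplex K]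

/-- Two forms in at least three variables have a non-zero value in common. -/
theorem exists_common_of_three {n : ℕ} (a b : Fin (n + 3) → Kˣ) :
    ∃ c : Kˣ, (∃ x : Fin (n + 3) → K, ∑ i, (a i : K) * x i ^ 2 = c) ∧
      ∃ y : Fin (n + 3) → K, ∑ i, (b i : K) * y i ^ 2 = c := by
  have h2 : (2 : K) ≠ 0 := two_ne_zero
  let _ : Invertible (2 : K) := invertibleOfNonzero h2
  refine exists_common_value h2 (m := n + 2) (n := n + 2) a b ?_
  have h5 := not_anisotropic_of_five_le ((wf a).prod (-(wf b))) (by
    rw [Module.finrank_prod, Module.finrank_fin_fun]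
    omega)
  simp only [QuadraticMap.Anisotropic, not_forall] at h5
  obtain ⟨w, hw, hw0⟩ := h5
  refine ⟨w.1, w.2, fun h => hw0 (Prod.ext h.1 h.2), ?_⟩
  rw [QuadraticMap.prod_apply, neg_apply, wf_apply, wf_apply] at hw
  exact sub_eq_zero.1 (by rw [sub_eq_add_neg]; exact hw)

/-- **Classification of the regular quadratic forms over a totally complex number field**:
discriminant modulo squares and Hasse invariants. -/
theorem equivalent_iff_invariants {n : ℕ} (a b : Fin n → Kˣ) :
    (wf a).Equivalent (wf b) ↔ IsSquare ((∏ i, a i) * ∏ i, b i) ∧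
      ∀ v : HeightOneSpectrum (𝓞 K), HasseTriv v a ↔ HasseTriv v b := by
  obtain ⟨G⟩ := nonempty_globSym K
  have h2 : (2 : K) ≠ 0 := two_ne_zero
  constructor
  · intro h
    refine ⟨isSquare_disc_of_equivalent h2 h, fun v => ?_⟩
    rw [← hasse_eq_iff G.LS]
    exact hasse_eq_of_equivalent (symbAt G.LS v) h2 h
  · rintro ⟨hd, hh⟩
    refine equivalent_of_invariants (symbAt G.LS) h2 (X := Unit) (fun _ _ => ())
      (fun _ _ _ _ => rfl) (fun _ _ _ _ _ => rfl) ?_ n a b rfl hd
      fun v => (hasse_eq_iff G.LS v a b).2 (hh v)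
    intro m a b _ hd hh
    rcases m with _ | m
    · -- two variables
      refine ⟨b 0, ?_, ⟨Pi.single 0 1, ?_⟩⟩
      · refine exists_value_two h2 a (b 0) (isotropic_three G.LS fun v => ?_)
        rw [Rep, neg_neg]
        refine (symbAt G.LS v).rep_of_invariants (b₁ := b 1) ?_ ?_
        · simpa [Fin.prod_univ_two] using hd
        · have h3 := hh v
          simpa [Symb.hasse, Fin.tail] using h3
      · rw [Finset.sum_eq_single 0]
        · simp
        · intro i _ hi
          simp [hi]
        · intro h0
          exact absurd (Finset.mem_univ _) h0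
    · exact exists_common_of_three a b

omit [IsTotallyComplex K] in
theorem exists_hasseVec (G : GlobSym K) {n : ℕ} (a : Fin n → Kˣ) :
    ∃ F : HeightOneSpectrum (𝓞 K) →₀ ZMod 2,
      (∀ v, F v = ((symbAt G.LS v).hasse a).toAdd) ∧ F.sum (fun _ n => n) = 0 := by
  induction n with
  | zero => exact ⟨0, fun v => rfl, by simp⟩
  | succ n ih =>
    obtain ⟨F, hF, hs⟩ := ih (Fin.tail a)
    refine ⟨symVec G.LS two_ne_zero (a 0) (∏ i, Fin.tail a i) + F, fun v => ?_, ?_⟩
    · rw [Finsupp.add_apply, hF, symVec_apply]
      rfl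
    · rw [Finsupp.sum_add_index' (fun _ => rfl) (fun _ _ _ => rfl), G.prod, hs, add_zero]

/-- **Reciprocity**: the Hasse invariant is non-trivial at a finite even number of places. -/
theorem finite_hasse {n : ℕ} (a : Fin n → Kˣ) :
    {v : HeightOneSpectrum (𝓞 K) | ¬ HasseTriv v a}.Finite ∧
      Even {v : HeightOneSpectrum (𝓞 K) | ¬ HasseTriv v a}.ncard := by
  classical
  obtain ⟨G⟩ := nonempty_globSym K
  obtain ⟨F, hF, hs⟩ := exists_hasseVec G a
  have hset : {v : HeightOneSpectrum (𝓞 K) | ¬ HasseTriv v a} = (F.support : Set _) := by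
    ext v
    rw [Set.mem_ofPred_eq, Finset.mem_coe, Finsupp.mem_support_iff, hF, ← hasse_eq_one_iff G.LS,
      Ne, toAdd_eq_zero]
  rw [hset]
  refine ⟨Finset.finite_toSet _, ?_⟩
  rw [Set.ncard_coe_finset]
  rw [Finsupp.sum] at hs
  have h3 : ∀ t : ZMod 2, t ≠ 0 → t = 1 := by decide
  rw [Finset.sum_congr rfl fun v hv => h3 _ (Finsupp.mem_support_iff.mp hv), Finset.sum_const,
    nsmul_eq_mul, mul_one] at hs
  rw [even_iff_two_dvd]
  exact (ZMod.natCast_eq_zero_iff _ 2).mp hs

end Main

section Existence

theorem hasse_three {k : Type*} [Field k] (S : Symb k (Multiplicative (ZMod 2))) (α β d : kˣ) :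
    S.hasse (Fin.cons (-1 * (d * α)) (Fin.cons (-1 * (d * β)) (Fin.cons (d * α * β)
      (fun i : Fin 0 => i.elim0)))) = S.s α β * S.s (-1) (-1 * d) := by
  have h1 := S.self_eq α
  have h2 := S.self_eq β
  have h3 := S.self_eq d
  have h4 := S.symm α (-1)
  have h5 := S.symm β (-1)
  have h6 := S.symm d (-1)
  have h7 := S.symm α d
  have h8 := S.symm β d
  have h9 := S.symm β α
  simp only [S.hasse_cons, S.hasse_zero, Fin.prod_cons, Finset.univ_eq_empty, Finset.prod_empty,
    map_mul, MonoidHom.mul_apply, map_one, mul_one, h1, h2, h3, h4, h5, h6, h7, h8, h9]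
  generalize S.s (-1) (-1) = e
  generalize S.s (-1) d = f
  generalize S.s (-1) α = g
  generalize S.s (-1) β = h
  generalize S.s d α = i
  generalize S.s d β = j
  generalize S.s α β = l
  revert e f g h i j l
  decide

variable {K : Type} [Field K] [NumberField K] [IsTotallyComplex K]

/-- **Existence of quadratic forms with given invariants** in at least three variables: every
discriminant and every finite set of places of even cardinality. -/
theorem exists_form_of_invariants {n : ℕ} (hn : 3 ≤ n) (d : Kˣ)
    (T : Finset (HeightOneSpectrum (𝓞 K))) (hT : Even T.card) :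
    ∃ a : Fin n → Kˣ, IsSquare (d * ∏ i, a i) ∧
      ∀ v : HeightOneSpectrum (𝓞 K), ¬ HasseTriv v a ↔ v ∈ T := by
  classical
  obtain ⟨G⟩ := nonempty_globSym K
  induction n, hn using Nat.le_induction with
  | base =>
    obtain ⟨hRf, hRe⟩ := hilbert_reciprocity (K := K) (a := ((-1 : Kˣ) : K))
      (b := ((-1 * d : Kˣ) : K)) (Units.ne_zero _) (Units.ne_zero _)
    set R := hRf.toFinset with hR
    have hRe' : Even R.card := by
      rw [hR, ← Set.ncard_eq_toFinset_card _ hRf]
      exact hRe
    have hcard : Even (symmDiff T R).card := by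
      have e1 := Finset.card_sdiff_add_card_inter T R
      have e2 := Finset.card_sdiff_add_card_inter R T
      rw [Finset.inter_comm R T] at e2
      have e3 : (symmDiff T R).card = (T \ R).card + (R \ T).card := by
        rw [symmDiff_def, Finset.sup_eq_union, Finset.card_union_of_disjoint]
        exact disjoint_sdiff_sdiff
      rw [e3]
      rw [Nat.even_iff] at hT hRe' ⊢
      omega
    obtain ⟨α, β, hα, hβ, hαβ⟩ := exists_ramified (symmDiff T R) hcard
    refine ⟨Fin.cons (-1 * (d * Units.mk0 α hα)) (Fin.cons (-1 * (d * Units.mk0 β hβ))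
      (Fin.cons (d * Units.mk0 α hα * Units.mk0 β hβ) (fun i : Fin 0 => i.elim0))), ?_, ?_⟩
    · simp only [Fin.prod_cons, Finset.univ_eq_empty, Finset.prod_empty, mul_one]
      refine ⟨d * d * Units.mk0 α hα * Units.mk0 β hβ, ?_⟩
      apply Units.ext
      push_cast
      ring
    · intro v
      rw [← hasse_eq_one_iff G.LS, hasse_three]
      have h1 : (symbAt G.LS v).s (Units.mk0 α hα) (Units.mk0 β hβ) = 1 ↔
          v ∉ symmDiff T R := by
        rw [← hαβ v, not_not]
        exact sym_eq_one_iff G.LS v _ _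
      have h2 : (symbAt G.LS v).s (-1) (-1 * d) = 1 ↔ v ∉ R := by
        rw [hR, Set.Finite.mem_toFinset, Set.mem_ofPred_eq, not_not]
        exact sym_eq_one_iff G.LS v _ _
      rw [Finset.mem_symmDiff] at h1
      have h3 : ∀ s t : Multiplicative (ZMod 2), s * t = 1 ↔ (s = 1 ↔ t = 1) := by decide
      rw [h3, h1, h2]
      tauto
  | succ n hn ih =>
    obtain ⟨a, ha, hv⟩ := ih
    refine ⟨Fin.cons 1 a, ?_, fun v => ?_⟩
    · rw [Fin.prod_cons, one_mul]
      exact ha
    · rw [← hv v, ← hasse_eq_one_iff G.LS, ← hasse_eq_one_iff G.LS, Symb.hasse_cons, map_one,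
        MonoidHom.one_apply, one_mul]

end Existence

end Fermat.Agent.Cor.HM
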