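import Fermat.Agent.Corollaries.HM.NumberField
import Fermat.Agent.Corollaries.HM.RealFinal
import Fermat.Agent.Corollaries.HM.Classify

/-!
# Classification of the quadratic forms over a number field

`K` is a number field, `a : Fin n → Kˣ` is the diagonal form `wf a = <a 0, …, a (n-1)>`,
`negAt σ a` is the number of the coefficients which are negative for the real embedding `σ`.

* `equivalent_nf_iff_invariants`: `wf a` and `wf b` are equivalent over `K` iff `∏ a i · ∏ b i` is
  a square, `a` and `b` have the same number of negative coefficients for every real embedding, and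
  they have the same Hasse invariants at all finite places;
* `finite_hasse_nf`: reciprocity for the Hasse invariants.
-/

set_option autoImplicit false

namespace Fermat.Agent.Cor.HM

open IsDedekindDomain NumberField QuadraticMap
open Fermat.Agent.CFT Fermat.Agent.CFT.Global Fermat.Agent.CFT.Global2

section Neg

variable {K : Type*} [Field K]

/-- The number of the coefficients which are negative for `σ`. -/
noncomputable def negAt (σ : K →+* ℝ) {n : ℕ} (a : Fin n → Kˣ) : ℕ := {i | σ (a i) < 0}.ncard

theorem sigNeg_wf_ordered {k : Type*} [Field k] [LinearOrder k] [IsStrictOrderedRing k] {n : ℕ}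
    (a : Fin n → kˣ) : sigNeg (wf a) = {i | (a i : k) < 0}.ncard :=
  QuadraticForm.sigNeg_weightedSumSquares

/-- The signatures are invariants. -/
theorem negAt_eq_of_equivalent (σ : K →+* ℝ) {n : ℕ} {a b : Fin n → Kˣ}
    (h : (wf a).Equivalent (wf b)) : negAt σ a = negAt σ b := by
  let _ : LinearOrder K := LinearOrder.lift' σ σ.injective
  have _ : IsStrictOrderedRing K := Function.Injective.isStrictOrderedRing σ (map_zero σ)
    (map_one σ) (map_add σ) (map_mul σ) Iff.rfl Iff.rfl
  have h1 := h.sigNeg_eq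
  rw [sigNeg_wf_ordered, sigNeg_wf_ordered] at h1
  have hlt : ∀ x : K, x < 0 ↔ σ x < 0 := fun x => by
    change σ x < σ 0 ↔ _
    rw [map_zero]
  simp only [hlt] at h1
  exact h1

theorem negAt_eq_card (σ : K →+* ℝ) {n : ℕ} (a : Fin n → Kˣ) :
    negAt σ a = (Finset.univ.filter fun i => σ (a i) < 0).card := by
  rw [negAt, Set.ncard_eq_toFinset_card']
  congr 1
  ext i
  simp

theorem negAt_eq_sum (σ : K →+* ℝ) {n : ℕ} (a : Fin n → Kˣ) :
    negAt σ a = ∑ i, if σ (a i) < 0 then 1 else 0 := by
  rw [negAt_eq_card, Finset.card_filter]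

theorem negAt_cons (σ : K →+* ℝ) {n : ℕ} (c : Kˣ) (a : Fin n → Kˣ) :
    negAt σ (Fin.cons c a : Fin (n + 1) → Kˣ) = (if σ c < 0 then 1 else 0) + negAt σ a := by
  rw [negAt_eq_sum, negAt_eq_sum, Fin.sum_univ_succ]
  simp

theorem map_unit_ne_zero (σ : K →+* ℝ) (a : Kˣ) : σ a ≠ 0 := (map_ne_zero σ).mpr a.ne_zero

theorem exists_neg_of_negAt {σ : K →+* ℝ} {n : ℕ} {a : Fin n → Kˣ} (h : negAt σ a ≠ 0) :
    ∃ i, σ (a i) < 0 := by
  by_contra! hcon
  apply h
  rw [negAt_eq_sum]
  exact Finset.sum_eq_zero fun i _ => if_neg (not_lt.mpr (hcon i))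

theorem exists_pos_of_negAt {σ : K →+* ℝ} {n : ℕ} {a : Fin n → Kˣ} (h : negAt σ a ≠ n) :
    ∃ i, 0 < σ (a i) := by
  by_contra! hcon
  apply h
  rw [negAt_eq_sum, Finset.sum_congr rfl fun i _ =>
    if_pos (lt_of_le_of_ne (hcon i) (map_unit_ne_zero σ (a i)))]
  simp

theorem negAt_ne_zero {σ : K →+* ℝ} {n : ℕ} {a : Fin n → Kˣ} {i : Fin n} (h : σ (a i) < 0) :
    negAt σ a ≠ 0 := by
  rw [negAt_eq_card]
  exact Finset.card_ne_zero.mpr ⟨i, by simp [h]⟩

theorem negAt_ne {σ : K →+* ℝ} {n : ℕ} {a : Fin n → Kˣ} {i : Fin n} (h : 0 < σ (a i)) :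
    negAt σ a ≠ n := by
  rw [negAt_eq_card]
  intro h1
  have h2 : (Finset.univ.filter fun i => σ (a i) < 0) = Finset.univ :=
    Finset.eq_univ_of_card _ (by rw [h1, Fintype.card_fin])
  have h3 := (Finset.mem_filter.mp (h2 ▸ Finset.mem_univ i)).2
  exact absurd h3 (not_lt.mpr h.le)

theorem negAt_le (σ : K →+* ℝ) {n : ℕ} (a : Fin n → Kˣ) : negAt σ a ≤ n := by
  rw [negAt_eq_card]
  exact (Finset.card_le_univ _).trans_eq (Fintype.card_fin n)

end Neg

variable {K : Type} [Field K] [NumberField K]

/-- Two forms over `K` with the same signatures, in at least three variables, have a non-zero value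
in common. -/
theorem exists_common_nf {n : ℕ} (hn : 3 ≤ n + 1) {a b : Fin (n + 1) → Kˣ}
    (hs : ∀ σ : K →+* ℝ, negAt σ a = negAt σ b) :
    ∃ c : Kˣ, (∃ x : Fin (n + 1) → K, ∑ i, (a i : K) * x i ^ 2 = c) ∧
      ∃ y : Fin (n + 1) → K, ∑ i, (b i : K) * y i ^ 2 = c := by
  refine exists_common_value two_ne_zero a b ?_
  obtain ⟨z, hz0, hz⟩ := allFive_nf K _
    (Fin.append (fun i => (a i : K)) (fun i => -(b i : K))) (by omega) (fun i => by
    refine Fin.addCases (fun i => ?_) (fun i => ?_) i
    · rw [Fin.append_left]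
      exact (a i).ne_zero
    · rw [Fin.append_right]
      exact neg_ne_zero.mpr (b i).ne_zero) fun σ => by
    have hp : ∃ i, 0 < σ (Fin.append (fun i => (a i : K)) (fun i => -(b i : K)) i) := by
      by_cases h : negAt σ a = n + 1
      · obtain ⟨i, hi⟩ := exists_neg_of_negAt (a := b) (by rw [← hs σ, h]; omega)
        exact ⟨Fin.natAdd _ i, by rw [Fin.append_right, map_neg]; linarith⟩
      · obtain ⟨i, hi⟩ := exists_pos_of_negAt h
        exact ⟨Fin.castAdd _ i, by rw [Fin.append_left]; exact hi⟩
    have hn' : ∃ i, σ (Fin.append (fun i => (a i : K)) (fun i => -(b i : K)) i) < 0 := by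
      by_cases h : negAt σ a = 0
      · obtain ⟨i, hi⟩ := exists_pos_of_negAt (a := b) (by rw [← hs σ, h]; omega)
        exact ⟨Fin.natAdd _ i, by rw [Fin.append_right, map_neg]; linarith⟩
      · obtain ⟨i, hi⟩ := exists_neg_of_negAt h
        exact ⟨Fin.castAdd _ i, by rw [Fin.append_left]; exact hi⟩
    obtain ⟨i, hi⟩ := hp
    obtain ⟨j, hj⟩ := hn'
    exact ⟨i, j, hi, hj⟩
  rw [Fin.sum_univ_add] at hz
  simp only [Fin.append_left, Fin.append_right] at hz
  refine ⟨fun i => z (Fin.castAdd _ i), fun i => z (Fin.natAdd _ i), fun h => hz0 ?_, ?_⟩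
  · funext i
    refine Fin.addCases (fun i => ?_) (fun i => ?_) i
    · exact congrFun h.1 i
    · exact congrFun h.2 i
  · simp only [neg_mul, Finset.sum_neg_distrib] at hz
    linear_combination hz

/-- **Classification of the regular quadratic forms over a number field** (Hasse): discriminant
modulo squares, signatures for the real embeddings, Hasse invariants at the finite places. -/
theorem equivalent_nf_iff_invariants {n : ℕ} (a b : Fin n → Kˣ) :
    (wf a).Equivalent (wf b) ↔ IsSquare ((∏ i, a i) * ∏ i, b i) ∧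
      (∀ σ : K →+* ℝ, negAt σ a = negAt σ b) ∧
      ∀ v : HeightOneSpectrum (𝓞 K), HasseTriv v a ↔ HasseTriv v b := by
  obtain ⟨LS⟩ := Bridge.nonempty_localSymbols_all (p := 2) K (Unr.isPrimitiveRoot_neg_one' K)
  have h2 : (2 : K) ≠ 0 := two_ne_zero
  constructor
  · intro h
    refine ⟨isSquare_disc_of_equivalent h2 h, fun σ => negAt_eq_of_equivalent σ h, fun v => ?_⟩
    rw [← hasse_eq_iff LS]
    exact hasse_eq_of_equivalent (symbAt LS v) h2 h
  · rintro ⟨hd, hs, hh⟩
    refine equivalent_of_invariants (symbAt LS) h2 (X := (K →+* ℝ) → ℕ)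
      (fun _ a σ => negAt σ a) (fun _ _ _ h => funext fun σ => negAt_eq_of_equivalent σ h)
      (fun n c a b h => ?_) ?_ n a b (funext hs) hd fun v => (hasse_eq_iff LS v a b).2 (hh v)
    · funext σ
      have h3 := congrFun h σ
      simp only [negAt_cons] at h3
      exact Nat.add_left_cancel h3
    intro m a b hs hd hh
    have hs := congrFun hs
    rcases m with _ | m
    · -- two variables
      refine ⟨b 0, ?_, ⟨Pi.single 0 1, ?_⟩⟩
      · refine exists_value_two h2 a (b 0) (three_nf K LS _ _ _ (fun v => ?_)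
          fun σ => ⟨?_, ?_⟩)
        · rw [Rep, neg_neg]
          refine (symbAt LS v).rep_of_invariants (b₁ := b 1) ?_ ?_
          · simpa [Fin.prod_univ_two] using hd
          · have h3 := hh v
            simpa [Symb.hasse, Fin.tail] using h3
        · by_contra! hcon
          have h1 : negAt σ a ≠ 2 := by
            rw [hs σ]
            refine negAt_ne (i := 0) (lt_of_le_of_ne ?_ (map_unit_ne_zero σ (b 0)).symm)
            have := hcon.2.2
            rw [Units.val_neg, map_neg] at this
            linarith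
          obtain ⟨i, hi⟩ := exists_pos_of_negAt h1
          fin_cases i
          · exact absurd hi (not_lt.mpr hcon.1)
          · exact absurd hi (not_lt.mpr hcon.2.1)
        · by_contra! hcon
          have h1 : negAt σ a ≠ 0 := by
            rw [hs σ]
            refine negAt_ne_zero (i := 0) (lt_of_le_of_ne ?_ (map_unit_ne_zero σ (b 0)))
            have := hcon.2.2
            rw [Units.val_neg, map_neg] at this
            linarith
          obtain ⟨i, hi⟩ := exists_neg_of_negAt h1
          fin_cases i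
          · exact absurd hi (not_lt.mpr hcon.1)
          · exact absurd hi (not_lt.mpr hcon.2.1)
      · rw [Finset.sum_eq_single 0]
        · simp
        · intro i _ hi
          simp [hi]
        · intro h0
          exact absurd (Finset.mem_univ _) h0
    · exact exists_common_nf (by omega) hs

section Reciprocity

omit [NumberField K] in
theorem sg_prod (σ : K →+* ℝ) {n : ℕ} (a : Fin n → Kˣ) :
    sg σ (∏ i, a i) = (negAt σ a : ZMod 2) := by
  induction n with
  | zero => simp [negAt_eq_sum, sg_one]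
  | succ n ih =>
    have h1 : negAt σ a = (if σ (a 0) < 0 then 1 else 0) + negAt σ (Fin.tail a) := by
      conv_lhs => rw [← Fin.cons_self_tail a]
      exact negAt_cons σ _ _
    have h2 : ∏ i, a i = a 0 * ∏ i, Fin.tail a i := Fin.prod_univ_succ a
    rw [h1, h2, sg_mul, ih, Nat.cast_add]
    congr 1
    rw [sg]
    split_ifs <;> simp

omit [NumberField K] in
/-- The sign of the discriminant. -/
theorem prod_neg_iff_nf (σ : K →+* ℝ) {n : ℕ} (a : Fin n → Kˣ) :
    σ ((∏ i, a i : Kˣ) : K) < 0 ↔ Odd (negAt σ a) := by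
  rw [← sg_eq_one_iff, sg_prod, ZMod.natCast_eq_one_iff_odd]

theorem exists_hasseVec_nf (LS : LocalSymbols 2 K) {n : ℕ} (a : Fin n → Kˣ) :
    ∃ F : HeightOneSpectrum (𝓞 K) →₀ ZMod 2,
      (∀ v, F v = ((symbAt LS v).hasse a).toAdd) ∧
        F.sum (fun _ n => n) = ((∑ σ : K →+* ℝ, (negAt σ a).choose 2 : ℕ) : ZMod 2) := by
  induction n with
  | zero => exact ⟨0, fun v => rfl, by simp [negAt_eq_sum]⟩
  | succ n ih =>
    obtain ⟨F, hF, hs⟩ := ih (Fin.tail a)
    refine ⟨symVec LS two_ne_zero (a 0) (∏ i, Fin.tail a i) + F, fun v => ?_, ?_⟩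
    · rw [Finsupp.add_apply, hF, symVec_apply]
      rfl
    · rw [Finsupp.sum_add_index' (fun _ => rfl) (fun _ _ _ => rfl), sum_sym, hs]
      push_cast
      rw [← Finset.sum_add_distrib]
      refine Finset.sum_congr rfl fun σ _ => ?_
      have h1 : negAt σ a = (if σ (a 0) < 0 then 1 else 0) + negAt σ (Fin.tail a) := by
        conv_lhs => rw [← Fin.cons_self_tail a]
        exact negAt_cons σ _ _
      rw [h1, sg_prod, sg]
      split_ifs with h
      · rw [Nat.add_comm 1, Nat.choose_succ_succ' _ 1, Nat.choose_one_right, Nat.cast_add,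
          one_mul]
      · rw [Nat.zero_add, zero_mul, zero_add]

/-- **Reciprocity for the Hasse invariants over a number field**: the Hasse invariant is non-trivial
at a finite number of finite places; the sum of this number and of the numbers `s (s - 1) / 2`,
`s` the number of the negative coefficients for a real embedding, is even. -/
theorem finite_hasse_nf {n : ℕ} (a : Fin n → Kˣ) :
    {v : HeightOneSpectrum (𝓞 K) | ¬ HasseTriv v a}.Finite ∧
      Even ({v : HeightOneSpectrum (𝓞 K) | ¬ HasseTriv v a}.ncard +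
        ∑ σ : K →+* ℝ, (negAt σ a).choose 2) := by
  classical
  obtain ⟨LS⟩ := Bridge.nonempty_localSymbols_all (p := 2) K (Unr.isPrimitiveRoot_neg_one' K)
  obtain ⟨F, hF, hs⟩ := exists_hasseVec_nf LS a
  have hset : {v : HeightOneSpectrum (𝓞 K) | ¬ HasseTriv v a} = (F.support : Set _) := by
    ext v
    rw [Set.mem_ofPred_eq, Finset.mem_coe, Finsupp.mem_support_iff, hF, ← hasse_eq_one_iff LS,
      Ne, toAdd_eq_zero]
  rw [hset]
  refine ⟨Finset.finite_toSet _, ?_⟩
  rw [Set.ncard_coe_finset]
  rw [Finsupp.sum] at hs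
  have h3 : ∀ t : ZMod 2, t ≠ 0 → t = 1 := by decide
  rw [Finset.sum_congr rfl fun v hv => h3 _ (Finsupp.mem_support_iff.mp hv), Finset.sum_const,
    nsmul_eq_mul, mul_one] at hs
  rw [← ZMod.natCast_eq_zero_iff_even, Nat.cast_add, hs]
  exact CharTwo.add_self_eq_zero _

end Reciprocity

end Fermat.Agent.Cor.HM
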