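import Fermat.Agent.Corollaries.HM.ExistRat

/-!
# Classification of the quadratic forms over `ℚ`, with the fields `ℚ_p`

The results of `ClassifyRat` and `ExistRat` with the fields `ℚ_[p]` instead of the completions
`v.adicCompletion ℚ`.

* `equivalent_rat_iff_padic`: two forms `<a 0, …, a (n-1)>`, `<b 0, …, b (n-1)>` over `ℚ` are
  equivalent iff they have the same discriminant, the same signature and the same Hasse invariants
  at all primes `p`;
* `classification_rat`: the same for arbitrary regular forms;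
* `finite_hasse_padic`: reciprocity;
* `exists_form_padic_iff`: the discriminants, signatures, and sets of primes which occur.
-/

set_option autoImplicit false

namespace Fermat.Agent.Cor.HM

open IsDedekindDomain NumberField QuadraticMap

/-- The Hilbert symbol `(a, b)` of the field `F` is trivial: `a x ^ 2 + b y ^ 2 = z ^ 2` has a
non-trivial solution in `F`. -/
def IsSplitIn {F : Type*} [Field F] (a b : F) : Prop :=
  ∃ x y z : F, ¬ (x = 0 ∧ y = 0 ∧ z = 0) ∧ a * x ^ 2 + b * y ^ 2 = z ^ 2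

/-- The Hasse invariant of `<a 0, …, a (n-1)>` at the prime `p` is trivial: the number of the pairs
`i < j` such that `a i x ^ 2 + a j y ^ 2 = z ^ 2` has no non-trivial solution in `ℚ_p` is even. -/
def HasseTrivPadic (p : ℕ) [Fact p.Prime] {n : ℕ} (a : Fin n → ℚˣ) : Prop :=
  Even {q : Fin n × Fin n | q.1 < q.2 ∧
    ¬ IsSplitIn ((a q.1 : ℚ) : ℚ_[p]) ((a q.2 : ℚ) : ℚ_[p])}.ncard

theorem isSplitIn_of_algHom {F L L' : Type*} [Field F] [Field L] [Field L'] [Algebra F L]
    [Algebra F L'] (e : L →ₐ[F] L') {a b : F}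
    (h : IsSplitIn (algebraMap F L a) (algebraMap F L b)) :
    IsSplitIn (algebraMap F L' a) (algebraMap F L' b) := by
  obtain ⟨x, y, z, h0, h1⟩ := h
  refine ⟨e x, e y, e z, ?_, ?_⟩
  · simpa only [map_eq_zero_iff e e.toRingHom.injective] using h0
  · have h2 := congrArg e h1
    simpa only [map_add, map_mul, map_pow, AlgHom.commutes] using h2

/-- The Hasse invariants of `v.adicCompletion ℚ` and `ℚ_[p]`. -/
theorem hasseTriv_iff_padic {v : HeightOneSpectrum (𝓞 ℚ)} {p : ℕ} [Fact p.Prime]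
    (e : v.adicCompletion ℚ ≃ₐ[ℚ] ℚ_[p]) {n : ℕ} (a : Fin n → ℚˣ) :
    HasseTriv v a ↔ HasseTrivPadic p a := by
  rw [HasseTriv, HasseTrivPadic]
  have key : ∀ x y : ℚ, IsSplitAt v x y ↔ IsSplitIn (x : ℚ_[p]) (y : ℚ_[p]) := by
    intro x y
    have e1 : IsSplitAt v x y ↔ IsSplitIn (algebraMap ℚ (v.adicCompletion ℚ) x)
        (algebraMap ℚ (v.adicCompletion ℚ) y) := Iff.rfl
    rw [e1, ← eq_ratCast (algebraMap ℚ ℚ_[p]) x, ← eq_ratCast (algebraMap ℚ ℚ_[p]) y]
    exact ⟨isSplitIn_of_algHom (e : _ →ₐ[ℚ] _), isSplitIn_of_algHom (e.symm : _ →ₐ[ℚ] _)⟩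
  simp only [key]

theorem forall_hasse_iff {n : ℕ} (a b : Fin n → ℚˣ) :
    (∀ v : HeightOneSpectrum (𝓞 ℚ), HasseTriv v a ↔ HasseTriv v b) ↔
      ∀ (p : ℕ) [Fact p.Prime], HasseTrivPadic p a ↔ HasseTrivPadic p b := by
  constructor
  · intro h p _
    obtain ⟨v, ⟨e⟩⟩ := RatTwo.exists_place p
    rw [← hasseTriv_iff_padic e, ← hasseTriv_iff_padic e]
    exact h v
  · intro h v
    obtain ⟨p, _, ⟨e⟩⟩ := exists_prime_of_place v
    rw [hasseTriv_iff_padic e, hasseTriv_iff_padic e]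
    exact h p

/-- **Classification of the quadratic forms over `ℚ`** (Hasse, Minkowski): discriminant, signature
and Hasse invariants at the primes. -/
theorem equivalent_rat_iff_padic {n : ℕ} (a b : Fin n → ℚˣ) :
    (wf a).Equivalent (wf b) ↔ IsSquare ((∏ i, a i) * ∏ i, b i) ∧ negCard a = negCard b ∧
      ∀ (p : ℕ) [Fact p.Prime], HasseTrivPadic p a ↔ HasseTrivPadic p b := by
  rw [equivalent_rat_iff_invariants, forall_hasse_iff]

/-- **Classification of the regular quadratic forms over `ℚ`.** `Q` and `Q'` are equivalent to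
`<a 0, …, a (m-1)>` and `<b 0, …, b (n-1)>`. -/
theorem classification_rat {V V' : Type*} [AddCommGroup V] [Module ℚ V] [AddCommGroup V']
    [Module ℚ V'] {Q : QuadraticForm ℚ V} {Q' : QuadraticForm ℚ V'} {m n : ℕ} {a : Fin m → ℚˣ}
    {b : Fin n → ℚˣ} (ha : Q.Equivalent (wf a)) (hb : Q'.Equivalent (wf b)) :
    Q.Equivalent Q' ↔ Module.finrank ℚ V = Module.finrank ℚ V' ∧
      IsSquare ((∏ i, a i) * ∏ i, b i) ∧ sigNeg Q = sigNeg Q' ∧
      ∀ (p : ℕ) [Fact p.Prime], HasseTrivPadic p a ↔ HasseTrivPadic p b := by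
  obtain ⟨ea⟩ := ha
  obtain ⟨eb⟩ := hb
  have hm : Module.finrank ℚ V = m := by
    rw [LinearEquiv.finrank_eq ea.toLinearEquiv, Module.finrank_fin_fun]
  have hn : Module.finrank ℚ V' = n := by
    rw [LinearEquiv.finrank_eq eb.toLinearEquiv, Module.finrank_fin_fun]
  have hQ : Q.Equivalent (wf a) := ⟨ea⟩
  have hQ' : Q'.Equivalent (wf b) := ⟨eb⟩
  rw [hQ.sigNeg_eq, hQ'.sigNeg_eq, sigNeg_wf, sigNeg_wf, hm, hn]
  constructor
  · rintro h
    have h1 : (wf a).Equivalent (wf b) := hQ.symm.trans (h.trans hQ')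
    obtain rfl : m = n := by
      obtain ⟨e⟩ := h1
      simpa using LinearEquiv.finrank_eq e.toLinearEquiv
    exact ⟨rfl, (equivalent_rat_iff_padic a b).mp h1⟩
  · rintro ⟨rfl, h⟩
    exact hQ.trans (((equivalent_rat_iff_padic a b).mpr h).trans hQ'.symm)

section Primes

theorem fact_primes (p : Nat.Primes) : Fact (p : ℕ).Prime := ⟨p.2⟩

attribute [local instance] fact_primes

/-- The prime of a place of `ℚ`. -/
theorem hasseTriv_primesEquiv (v : HeightOneSpectrum (𝓞 ℚ)) {n : ℕ} (a : Fin n → ℚˣ) :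
    HasseTriv v a ↔ HasseTrivPadic (Rat.HeightOneSpectrum.primesEquiv v : ℕ) a :=
  hasseTriv_iff_padic (Rat.HeightOneSpectrum.adicCompletion.padicEquiv v).toAlgEquiv a

theorem isSquare_primesEquiv (v : HeightOneSpectrum (𝓞 ℚ)) (x : ℚ) :
    IsSquare (-algebraMap ℚ (v.adicCompletion ℚ) x) ↔
      IsSquare (-(x : ℚ_[(Rat.HeightOneSpectrum.primesEquiv v : ℕ)])) := by
  set e : v.adicCompletion ℚ ≃ₐ[ℚ] ℚ_[(Rat.HeightOneSpectrum.primesEquiv v : ℕ)] :=
    (Rat.HeightOneSpectrum.adicCompletion.padicEquiv v).toAlgEquiv with he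
  have h1 : e (-algebraMap ℚ (v.adicCompletion ℚ) x) =
      -(x : ℚ_[(Rat.HeightOneSpectrum.primesEquiv v : ℕ)]) := by
    rw [map_neg, AlgEquiv.commutes, eq_ratCast]
  constructor
  · intro h
    rw [← h1]
    exact h.map e
  · intro h
    rw [← h1] at h
    have h2 := h.map e.symm
    rwa [AlgEquiv.symm_apply_apply] at h2

/-- **Reciprocity for the Hasse invariants over `ℚ`**: the number of the primes with non-trivial
Hasse invariant is finite and has the parity of `s (s - 1) / 2`, where `s` is the number of negative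
coefficients. -/
theorem finite_hasse_padic {n : ℕ} (a : Fin n → ℚˣ) :
    {p : Nat.Primes | ¬ HasseTrivPadic (p : ℕ) a}.Finite ∧
      (Odd {p : Nat.Primes | ¬ HasseTrivPadic (p : ℕ) a}.ncard ↔
        Odd ((negCard a).choose 2)) := by
  have hset : {p : Nat.Primes | ¬ HasseTrivPadic (p : ℕ) a} =
      Rat.HeightOneSpectrum.primesEquiv '' {v : HeightOneSpectrum (𝓞 ℚ) | ¬ HasseTriv v a} := by
    ext p
    simp only [Set.mem_ofPred_eq, Set.mem_image]
    constructor
    · intro h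
      refine ⟨Rat.HeightOneSpectrum.primesEquiv.symm p, ?_, Equiv.apply_symm_apply _ p⟩
      rw [hasseTriv_primesEquiv]
      rwa [Equiv.apply_symm_apply]
    · rintro ⟨v, hv, rfl⟩
      rwa [hasseTriv_primesEquiv] at hv
  obtain ⟨h1, h2⟩ := finite_hasse_rat a
  rw [hset, Set.ncard_image_of_injective _ (Equiv.injective _)]
  exact ⟨h1.image _, h2⟩

/-- **The quadratic forms over `ℚ` with given invariants** (Serre, Cours d'arithmétique, IV, 3.3,
Prop. 7): there is a form `<a 0, …, a (n-1)>` of discriminant `d`, with `s` negative coefficients and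
with `T` as set of the primes with non-trivial Hasse invariant, iff `s ≤ n`, the sign of `d` is
`(-1) ^ s`, the cardinality of `T` is congruent to `s (s - 1) / 2` modulo `2`, and: `T = ∅` if
`n ≤ 1`, `d` is a square if `n = 0`, and `-d` is not a square in `ℚ_p` for `p ∈ T` if `n = 2`. -/
theorem exists_form_padic_iff {n : ℕ} (d : ℚˣ) (s : ℕ) (T : Finset Nat.Primes) :
    (∃ a : Fin n → ℚˣ, IsSquare (d * ∏ i, a i) ∧ negCard a = s ∧
      ∀ p : Nat.Primes, ¬ HasseTrivPadic (p : ℕ) a ↔ p ∈ T) ↔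
    s ≤ n ∧ ((d : ℚ) < 0 ↔ Odd s) ∧ (Odd T.card ↔ Odd (s.choose 2)) ∧ (n ≤ 1 → T = ∅) ∧
      (n = 0 → IsSquare d) ∧
      (n = 2 → ∀ p ∈ T, ¬ IsSquare (-((d : ℚ) : ℚ_[(p : ℕ)]))) := by
  classical
  have key := exists_form_rat_iff (n := n) d s
    (T.map Rat.HeightOneSpectrum.primesEquiv.symm.toEmbedding)
  have hmem : ∀ v : HeightOneSpectrum (𝓞 ℚ),
      v ∈ T.map Rat.HeightOneSpectrum.primesEquiv.symm.toEmbedding ↔
        Rat.HeightOneSpectrum.primesEquiv v ∈ T := by
    intro v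
    rw [Finset.mem_map_equiv, Equiv.symm_symm]
  have h1 : ∀ a : Fin n → ℚˣ, (∀ v : HeightOneSpectrum (𝓞 ℚ), ¬ HasseTriv v a ↔
      v ∈ T.map Rat.HeightOneSpectrum.primesEquiv.symm.toEmbedding) ↔
      ∀ p : Nat.Primes, ¬ HasseTrivPadic (p : ℕ) a ↔ p ∈ T := by
    intro a
    rw [← (Rat.HeightOneSpectrum.primesEquiv (R := 𝓞 ℚ)).forall_congr_right]
    refine forall_congr' fun v => ?_
    rw [hmem, hasseTriv_primesEquiv]
  have h2 : (∀ v : HeightOneSpectrum (𝓞 ℚ),
      v ∈ T.map Rat.HeightOneSpectrum.primesEquiv.symm.toEmbedding →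
        ¬ IsSquare (-algebraMap ℚ (v.adicCompletion ℚ) (d : ℚ))) ↔
      ∀ p ∈ T, ¬ IsSquare (-((d : ℚ) : ℚ_[(p : ℕ)])) := by
    constructor
    · intro h p hp
      obtain ⟨v, rfl⟩ := (Rat.HeightOneSpectrum.primesEquiv (R := 𝓞 ℚ)).surjective p
      rw [← isSquare_primesEquiv]
      exact h v ((hmem v).mpr hp)
    · intro h v hv
      rw [isSquare_primesEquiv]
      exact h _ ((hmem v).mp hv)
  simp only [h1] at key
  rw [key, Finset.card_map, Finset.map_eq_empty, h2]

end Primes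

end Fermat.Agent.Cor.HM
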