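import Fermat.Agent.Corollaries.HM.Rational
import Fermat.Agent.Corollaries.HM.Classify

/-!
# Classification of the quadratic forms over `ℚ`

`a : Fin n → ℚˣ` is the diagonal form `wf a = <a 0, …, a (n-1)>`, `negCard a` is the number of its
negative coefficients.

* `equivalent_rat_iff_invariants`: `wf a` and `wf b` are equivalent over `ℚ` iff `∏ a i · ∏ b i` is
  a square, `a` and `b` have the same number of negative coefficients, and they have the same Hasse
  invariants at all (finite) places;
-/

set_option autoImplicit false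

namespace Fermat.Agent.Cor.HM

open IsDedekindDomain NumberField QuadraticMap
open Fermat.Agent.CFT Fermat.Agent.CFT.Global Fermat.Agent.CFT.Global2

/-- The number of negative coefficients. -/
noncomputable def negCard {n : ℕ} (a : Fin n → ℚˣ) : ℕ := {i | (a i : ℚ) < 0}.ncard

theorem sigNeg_wf {n : ℕ} (a : Fin n → ℚˣ) : sigNeg (wf a) = negCard a :=
  QuadraticForm.sigNeg_weightedSumSquares

theorem negCard_eq_of_equivalent {n : ℕ} {a b : Fin n → ℚˣ} (h : (wf a).Equivalent (wf b)) :
    negCard a = negCard b := by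
  rw [← sigNeg_wf, ← sigNeg_wf, h.sigNeg_eq]

theorem negCard_eq_card {n : ℕ} (a : Fin n → ℚˣ) :
    negCard a = (Finset.univ.filter fun i => (a i : ℚ) < 0).card := by
  rw [negCard, Set.ncard_eq_toFinset_card']
  congr 1
  ext i
  simp

theorem negCard_eq_sum {n : ℕ} (a : Fin n → ℚˣ) :
    negCard a = ∑ i, if (a i : ℚ) < 0 then 1 else 0 := by
  rw [negCard_eq_card, Finset.card_filter]

theorem negCard_cons {n : ℕ} (c : ℚˣ) (a : Fin n → ℚˣ) :
    negCard (Fin.cons c a : Fin (n + 1) → ℚˣ) = (if (c : ℚ) < 0 then 1 else 0) + negCard a := by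
  rw [negCard_eq_sum, negCard_eq_sum, Fin.sum_univ_succ]
  simp

theorem exists_neg_of_negCard {n : ℕ} {a : Fin n → ℚˣ} (h : negCard a ≠ 0) :
    ∃ i, (a i : ℚ) < 0 := by
  by_contra! hcon
  apply h
  rw [negCard_eq_sum]
  exact Finset.sum_eq_zero fun i _ => if_neg (not_lt.mpr (hcon i))

theorem exists_pos_of_negCard {n : ℕ} {a : Fin n → ℚˣ} (h : negCard a ≠ n) :
    ∃ i, 0 < (a i : ℚ) := by
  by_contra! hcon
  apply h
  rw [negCard_eq_sum, Finset.sum_congr rfl fun i _ =>
    if_pos (lt_of_le_of_ne (hcon i) (a i).ne_zero)]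
  simp

theorem negCard_ne_zero {n : ℕ} {a : Fin n → ℚˣ} {i : Fin n} (h : (a i : ℚ) < 0) :
    negCard a ≠ 0 := by
  rw [negCard_eq_card]
  exact Finset.card_ne_zero.mpr ⟨i, by simp [h]⟩

theorem negCard_ne {n : ℕ} {a : Fin n → ℚˣ} {i : Fin n} (h : 0 < (a i : ℚ)) :
    negCard a ≠ n := by
  rw [negCard_eq_card]
  intro h1
  have h2 : (Finset.univ.filter fun i => (a i : ℚ) < 0) = Finset.univ :=
    Finset.eq_univ_of_card _ (by rw [h1, Fintype.card_fin])
  have h3 := (Finset.mem_filter.mp (h2 ▸ Finset.mem_univ i)).2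
  exact absurd h3 (not_lt.mpr h.le)

/-- Two forms over `ℚ` with the same signature, in at least three variables, have a non-zero value
in common. -/
theorem exists_common_rat {n : ℕ} (hn : 3 ≤ n + 1) {a b : Fin (n + 1) → ℚˣ}
    (hs : negCard a = negCard b) :
    ∃ c : ℚˣ, (∃ x : Fin (n + 1) → ℚ, ∑ i, (a i : ℚ) * x i ^ 2 = c) ∧
      ∃ y : Fin (n + 1) → ℚ, ∑ i, (b i : ℚ) * y i ^ 2 = c := by
  refine exists_common_value two_ne_zero a b ?_
  have hp : ∃ i, 0 < (Fin.append (fun i => (a i : ℚ)) (fun i => -(b i : ℚ))) i := by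
    by_cases h : negCard a = n + 1
    · obtain ⟨i, hi⟩ := exists_neg_of_negCard (a := b) (by omega)
      exact ⟨Fin.natAdd _ i, by rw [Fin.append_right]; linarith⟩
    · obtain ⟨i, hi⟩ := exists_pos_of_negCard h
      exact ⟨Fin.castAdd _ i, by rw [Fin.append_left]; exact hi⟩
  have hn' : ∃ i, (Fin.append (fun i => (a i : ℚ)) (fun i => -(b i : ℚ))) i < 0 := by
    by_cases h : negCard a = 0
    · obtain ⟨i, hi⟩ := exists_pos_of_negCard (a := b) (by omega)
      exact ⟨Fin.natAdd _ i, by rw [Fin.append_right]; linarith⟩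
    · obtain ⟨i, hi⟩ := exists_neg_of_negCard h
      exact ⟨Fin.castAdd _ i, by rw [Fin.append_left]; exact hi⟩
  obtain ⟨z, hz0, hz⟩ := isotropic_rat_of_five_le (by omega) _ (fun i => by
    refine Fin.addCases (fun i => ?_) (fun i => ?_) i
    · rw [Fin.append_left]
      exact (a i).ne_zero
    · rw [Fin.append_right]
      exact neg_ne_zero.mpr (b i).ne_zero) hp hn'
  rw [Fin.sum_univ_add] at hz
  simp only [Fin.append_left, Fin.append_right] at hz
  refine ⟨fun i => z (Fin.castAdd _ i), fun i => z (Fin.natAdd _ i), fun h => hz0 ?_, ?_⟩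
  · funext i
    refine Fin.addCases (fun i => ?_) (fun i => ?_) i
    · exact congrFun h.1 i
    · exact congrFun h.2 i
  · simp only [neg_mul, Finset.sum_neg_distrib] at hz
    linarith

/-- **Classification of the regular quadratic forms over `ℚ`**: discriminant modulo squares,
signature, and the Hasse invariants. -/
theorem equivalent_rat_iff_invariants {n : ℕ} (a b : Fin n → ℚˣ) :
    (wf a).Equivalent (wf b) ↔ IsSquare ((∏ i, a i) * ∏ i, b i) ∧ negCard a = negCard b ∧
      ∀ v : HeightOneSpectrum (𝓞 ℚ), HasseTriv v a ↔ HasseTriv v b := by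
  obtain ⟨LS⟩ := Bridge.nonempty_localSymbols_all (p := 2) ℚ (Unr.isPrimitiveRoot_neg_one' ℚ)
  have h2 : (2 : ℚ) ≠ 0 := two_ne_zero
  constructor
  · intro h
    refine ⟨isSquare_disc_of_equivalent h2 h, negCard_eq_of_equivalent h, fun v => ?_⟩
    rw [← hasse_eq_iff LS]
    exact hasse_eq_of_equivalent (symbAt LS v) h2 h
  · rintro ⟨hd, hs, hh⟩
    refine equivalent_of_invariants (symbAt LS) h2 (X := ℕ) (fun _ a => negCard a)
      (fun _ _ _ h => negCard_eq_of_equivalent h) (fun n c a b h => ?_) ?_ n a b hs hd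
      fun v => (hasse_eq_iff LS v a b).2 (hh v)
    · simp only [negCard_cons] at h
      exact Nat.add_left_cancel h
    intro m a b hs hd hh
    rcases m with _ | m
    · -- two variables
      refine ⟨b 0, ?_, ⟨Pi.single 0 1, ?_⟩⟩
      · refine exists_value_two h2 a (b 0) (isotropic_three_rat LS (fun v => ?_) ?_ ?_)
        · rw [Rep, neg_neg]
          refine (symbAt LS v).rep_of_invariants (b₁ := b 1) ?_ ?_
          · simpa [Fin.prod_univ_two] using hd
          · have h3 := hh v
            simpa [Symb.hasse, Fin.tail] using h3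
        · by_contra! hcon
          have h1 : negCard a ≠ 2 := by
            rw [hs]
            refine negCard_ne (i := 0) (lt_of_le_of_ne ?_ (b 0).ne_zero.symm)
            have := hcon.2.2
            rw [Units.val_neg] at this
            linarith
          obtain ⟨i, hi⟩ := exists_pos_of_negCard h1
          fin_cases i
          · exact absurd hi (not_lt.mpr hcon.1)
          · exact absurd hi (not_lt.mpr hcon.2.1)
        · by_contra! hcon
          have h1 : negCard a ≠ 0 := by
            rw [hs]
            refine negCard_ne_zero (i := 0) (lt_of_le_of_ne ?_ (b 0).ne_zero)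
            have := hcon.2.2
            rw [Units.val_neg] at this
            linarith
          obtain ⟨i, hi⟩ := exists_neg_of_negCard h1
          fin_cases i
          · exact absurd hi (not_lt.mpr hcon.1)
          · exact absurd hi (not_lt.mpr hcon.2.1)
      · rw [Finset.sum_eq_single 0]
        · simp
        · intro i _ hi
          simp [hi]
        · intro h0
          exact absurd (Finset.mem_univ _) h0
    · exact exists_common_rat (by omega) hs

end Fermat.Agent.Cor.HM
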