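import Fermat.Agent.Corollaries.HM.NormP
import Fermat.Agent.LT.GalComp

/-!
# The Hasse norm theorem for Galois extensions of prime degree

`hasse_norm_prime`: `L / K` Galois of prime degree `p`, `K` any number field if `p ≠ 2`, totally
complex if `p = 2`: `b ∈ K` is a norm from `L` iff it is a norm from `K_v ⊗ L` for all finite places
`v` of `K`.
-/

set_option autoImplicit false

namespace Fermat.Agent.Cor.HN

open Fermat.Agent.CFT.Global Fermat.Agent.LT.Ext
open NumberField IsDedekindDomain Polynomial Module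
open scoped TensorProduct

section Kummer

/-- A Galois extension of prime degree `p` of a field containing `ζ_p` is `K[X]/(X^p - a)`. -/
theorem exists_kummer_equiv {K M : Type*} [Field K] [Field M] [Algebra K M]
    [FiniteDimensional K M] [IsGalois K M] {p : ℕ} (hp : p.Prime) (hd : finrank K M = p) {ζ : K}
    (hζ : IsPrimitiveRoot ζ p) :
    ∃ a : Kˣ, Nonempty (AdjoinRoot (X ^ p - C (a : K)) ≃ₐ[K] M) := by
  have : Fact p.Prime := ⟨hp⟩
  have hcyc : IsCyclic (M ≃ₐ[K] M) := by
    apply isCyclic_of_prime_card (p := p)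
    rw [IsGalois.card_aut_eq_finrank, hd]
  obtain ⟨α, ⟨a, ha⟩, htop⟩ := exists_root_adjoin_eq_top_of_isCyclic (K := K) M
    (by
      rw [hd]
      exact ⟨ζ, (mem_primitiveRoots hp.pos).mpr hζ⟩)
  rw [hd] at ha
  have ha0 : a ≠ 0 := by
    rintro rfl
    rw [map_zero] at ha
    have hα : α = 0 := pow_eq_zero_iff (hp.ne_zero) |>.mp ha.symm
    rw [hα, IntermediateField.adjoin_zero] at htop
    have h1 := IntermediateField.finrank_bot (F := K) (E := M)
    rw [htop, IntermediateField.finrank_top', hd] at h1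
    exact hp.one_lt.ne' h1
  have hf : (X ^ p - C (a : K) : K[X]) ≠ 0 := X_pow_sub_C_ne_zero hp.pos _
  let φ : AdjoinRoot (X ^ p - C a) →ₐ[K] M :=
    AdjoinRoot.liftAlgHom _ (Algebra.ofId K M) α (by
      rw [eval₂_sub, eval₂_X_pow, eval₂_C, ← ha]
      exact sub_self _)
  have hφ : φ (AdjoinRoot.root _) = α := AdjoinRoot.liftAlgHom_root ..
  have hsurj : Function.Surjective φ := by
    rw [← AlgHom.range_eq_top, eq_top_iff]
    have h1 : Algebra.adjoin K {α} = ⊤ := by
      rw [← IntermediateField.adjoin_eq_top_iff_of_isAlgebraic]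
      · exact htop
      · exact fun x _ => Algebra.IsAlgebraic.isAlgebraic x
    rw [← h1, Algebra.adjoin_le_iff, Set.singleton_subset_iff]
    exact ⟨_, hφ⟩
  have : FiniteDimensional K (AdjoinRoot (X ^ p - C a)) := (AdjoinRoot.powerBasis hf).finite
  have hdim : finrank K (AdjoinRoot (X ^ p - C a)) = finrank K M := by
    rw [(AdjoinRoot.powerBasis hf).finrank, AdjoinRoot.powerBasis_dim, natDegree_X_pow_sub_C, hd]
  have hinj : Function.Injective φ :=
    (LinearMap.injective_iff_surjective_of_finrank_eq_finrank hdim (f := φ.toLinearMap)).mpr hsurj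
  exact ⟨Units.mk0 a ha0, ⟨AlgEquiv.ofBijective φ ⟨hinj, hsurj⟩⟩⟩

end Kummer

section BaseChange

/-- Base change of a Galois extension of degree `p` to an extension of degree prime to `p`. -/
theorem exists_baseChange (K K' L : Type) [Field K] [Field K'] [Field L] [Algebra K K']
    [Algebra K L] [FiniteDimensional K K'] [FiniteDimensional K L] [IsGalois K L] {p : ℕ}
    (hd : finrank K L = p) (hc : (finrank K K').Coprime p) :
    ∃ (M : Type) (_ : Field M) (_ : Algebra K M) (_ : Algebra K' M) (_ : Algebra L M)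
      (_ : IsScalarTower K K' M) (_ : IsScalarTower K L M) (_ : FiniteDimensional K' M),
      IsGalois K' M ∧ finrank K' M = p ∧ Nonempty (K' ⊗[K] L ≃ₐ[K'] M) := by
  obtain ⟨𝔪, h𝔪⟩ := Ideal.exists_maximal (K' ⊗[K] L)
  let fM : Field ((K' ⊗[K] L) ⧸ 𝔪) := Ideal.Quotient.field 𝔪
  let aL : Algebra L ((K' ⊗[K] L) ⧸ 𝔪) := ((Ideal.Quotient.mk 𝔪).comp
    (Algebra.TensorProduct.includeRight : L →ₐ[K] K' ⊗[K] L).toRingHom).toAlgebra
  have t1 : IsScalarTower K K' ((K' ⊗[K] L) ⧸ 𝔪) := inferInstance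
  have t2 : IsScalarTower K L ((K' ⊗[K] L) ⧸ 𝔪) := by
    refine IsScalarTower.of_algebraMap_eq fun x => ?_
    change _ = Ideal.Quotient.mk 𝔪 (Algebra.TensorProduct.includeRight (algebraMap K L x))
    rw [AlgHom.commutes]
    rfl
  let π : K' ⊗[K] L →ₐ[K'] (K' ⊗[K] L) ⧸ 𝔪 := Ideal.Quotient.mkₐ K' 𝔪
  have hπ : Function.Surjective π := Ideal.Quotient.mkₐ_surjective K' 𝔪
  have f1 : FiniteDimensional K' ((K' ⊗[K] L) ⧸ 𝔪) := Module.Finite.of_surjective π.toLinearMap hπ
  have f2 : FiniteDimensional K ((K' ⊗[K] L) ⧸ 𝔪) := FiniteDimensional.trans K K' _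
  have f3 : FiniteDimensional L ((K' ⊗[K] L) ⧸ 𝔪) := FiniteDimensional.right K L _
  have hT : finrank K' (K' ⊗[K] L) = p := by rw [finrank_baseChange, hd]
  have hle : finrank K' ((K' ⊗[K] L) ⧸ 𝔪) ≤ p := by
    rw [← hT]
    exact LinearMap.finrank_le_finrank_of_surjective (f := π.toLinearMap) hπ
  have hdvd : p ∣ finrank K' ((K' ⊗[K] L) ⧸ 𝔪) := by
    have h1 := finrank_mul_finrank K K' ((K' ⊗[K] L) ⧸ 𝔪)
    have h2 := finrank_mul_finrank K L ((K' ⊗[K] L) ⧸ 𝔪)
    rw [hd] at h2
    have h3 : p ∣ finrank K K' * finrank K' ((K' ⊗[K] L) ⧸ 𝔪) := by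
      rw [h1, ← h2]
      exact Dvd.intro _ rfl
    exact hc.symm.dvd_of_dvd_mul_left h3
  have hdim : finrank K' ((K' ⊗[K] L) ⧸ 𝔪) = p :=
    le_antisymm hle (Nat.le_of_dvd finrank_pos hdvd)
  have hinj : Function.Injective π :=
    (LinearMap.injective_iff_surjective_of_finrank_eq_finrank (hT.trans hdim.symm)
      (f := π.toLinearMap)).mpr hπ
  let e : K' ⊗[K] L ≃ₐ[K'] (K' ⊗[K] L) ⧸ 𝔪 := AlgEquiv.ofBijective π ⟨hinj, hπ⟩
  have hgal : IsGalois K' ((K' ⊗[K] L) ⧸ 𝔪) := by
    apply IsGalois.of_card_aut_eq_finrank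
    have hupper : Nat.card (((K' ⊗[K] L) ⧸ 𝔪) ≃ₐ[K'] ((K' ⊗[K] L) ⧸ 𝔪)) ≤
        finrank K' ((K' ⊗[K] L) ⧸ 𝔪) := by
      rw [Nat.card_eq_fintype_card]
      exact AlgEquiv.card_le
    refine le_antisymm hupper ?_
    rw [hdim, ← hd, ← IsGalois.card_aut_eq_finrank K L]
    let Φ : (L ≃ₐ[K] L) → (((K' ⊗[K] L) ⧸ 𝔪) ≃ₐ[K'] ((K' ⊗[K] L) ⧸ 𝔪)) := fun σ =>
      e.symm.trans ((Algebra.TensorProduct.congr (AlgEquiv.refl : K' ≃ₐ[K'] K') σ).trans e)
    refine Nat.card_le_card_of_injective Φ fun σ τ h => ?_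
    ext l
    have h1 := congrArg (fun f : (((K' ⊗[K] L) ⧸ 𝔪) ≃ₐ[K'] ((K' ⊗[K] L) ⧸ 𝔪)) =>
      f (e (1 ⊗ₜ l))) h
    have h2 : ∀ ρ : L ≃ₐ[K] L, Φ ρ (e (1 ⊗ₜ l)) = algebraMap L ((K' ⊗[K] L) ⧸ 𝔪) (ρ l) := by
      intro ρ
      change e ((Algebra.TensorProduct.congr (AlgEquiv.refl : K' ≃ₐ[K'] K') ρ)
        (e.symm (e (1 ⊗ₜ l)))) = _
      rw [e.symm_apply_apply]
      rfl
    have h3 : algebraMap L ((K' ⊗[K] L) ⧸ 𝔪) (σ l) = algebraMap L ((K' ⊗[K] L) ⧸ 𝔪) (τ l) := by
      rw [← h2, ← h2]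
      exact h1
    exact (algebraMap L ((K' ⊗[K] L) ⧸ 𝔪)).injective h3
  exact ⟨_, fM, inferInstance, inferInstance, aL, t1, t2, f1, hgal, hdim, ⟨e⟩⟩

end BaseChange

section Places

variable {K K' L M : Type*} [Field K] [NumberField K] [Field K'] [NumberField K'] [Field L]
  [Algebra K K'] [Algebra K L] [FiniteDimensional K L] [CommRing M] [Algebra K' M]

/-- Local norms stay local norms after base change. -/
theorem normOver_place (e : K' ⊗[K] L ≃ₐ[K'] M) (w : HeightOneSpectrum (𝓞 K')) {b : K}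
    (h : NormOver K L ((w.under (𝓞 K)).adicCompletion K) (algebraMap K _ b)) :
    NormOver K' M (w.adicCompletion K') (algebraMap K' _ (algebraMap K K' b)) := by
  have hover : w.asIdeal.LiesOver (w.under (𝓞 K)).asIdeal := ⟨rfl⟩
  let hc := compat_liesOver (K := K) (L := K') (w.under (𝓞 K)) w
  let φ : (w.under (𝓞 K)).adicCompletion K →ₐ[K] w.adicCompletion K' :=
    { hc.ext with
      commutes' := fun x => by
        change hc.ext (algebraMap K _ x) = _
        rw [hc.ext_algebraMap]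
        exact (IsScalarTower.algebraMap_apply K K' (w.adicCompletion K') x).symm }
  have h1 := h.map φ
  rw [AlgHom.commutes, IsScalarTower.algebraMap_apply K K' (w.adicCompletion K'),
    ← normOver_baseChange K'] at h1
  exact h1.congr e

end Places

section Main

/-- A field with a primitive `p`-th root of unity, `p > 2`, is totally complex. -/
theorem isTotallyComplex_of_primitiveRoot {K : Type*} [Field K] [NumberField K] {p : ℕ}
    (hp : 2 < p) {ζ : K} (hζ : IsPrimitiveRoot ζ p) : IsTotallyComplex K := by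
  refine ⟨fun v => ?_⟩
  rw [← InfinitePlace.not_isReal_iff_isComplex]
  intro hv
  have h1 := InfinitePlace.isReal_iff.mp hv
  have h2 : IsPrimitiveRoot (h1.embedding ζ) p := hζ.map_of_injective h1.embedding.injective
  have h3 : |h1.embedding ζ| ^ p = 1 := by rw [← abs_pow, h2.pow_eq_one, abs_one]
  have h4 : |h1.embedding ζ| = 1 := (pow_eq_one_iff_of_nonneg (abs_nonneg _) (by omega)).mp h3
  have h5 : (h1.embedding ζ) ^ 2 = 1 := by rw [← sq_abs, h4, one_pow]
  have h6 := Nat.le_of_dvd (by norm_num) (h2.dvd_of_pow_eq_one 2 h5)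
  omega

theorem finrank_cyclotomicField_coprime (K : Type*) [Field K] [NumberField K] {p : ℕ}
    (hp : p.Prime) : (finrank K (CyclotomicField p K)).Coprime p := by
  have : NeZero p := ⟨hp.ne_zero⟩
  have hζ := IsCyclotomicExtension.zeta_spec p K (CyclotomicField p K)
  have h1 : finrank K (CyclotomicField p K) ≤ p - 1 := by
    rw [(hζ.powerBasis K).finrank, ← (hζ.powerBasis K).natDegree_minpoly, hζ.powerBasis_gen K]
    have h2 : minpoly K (IsCyclotomicExtension.zeta p K (CyclotomicField p K)) ∣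
        cyclotomic p K := by
      apply minpoly.dvd
      rw [← eval_map_algebraMap, map_cyclotomic]
      exact hζ.isRoot_cyclotomic hp.pos
    refine (natDegree_le_of_dvd h2 (cyclotomic_ne_zero p K)).trans ?_
    rw [natDegree_cyclotomic, Nat.totient_prime hp]
  have h0 : 0 < finrank K (CyclotomicField p K) := finrank_pos
  have hp1 := hp.pos
  exact ((Nat.Prime.coprime_iff_not_dvd hp).mpr fun h => by
    have := Nat.le_of_dvd h0 h
    omega).symm

/-- **The Hasse norm theorem for Galois extensions of prime degree.** -/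
theorem hasse_norm_prime {K L : Type} [Field K] [NumberField K] [Field L] [Algebra K L]
    [FiniteDimensional K L] [IsGalois K L] {p : ℕ} (hp : p.Prime) (hd : finrank K L = p)
    (hK : p ≠ 2 ∨ IsTotallyComplex K) (b : K) :
    (∃ z : L, Algebra.norm K z = b) ↔
      ∀ v : HeightOneSpectrum (𝓞 K), NormOver K L (v.adicCompletion K) (algebraMap K _ b) := by
  refine ⟨fun h v => NormOver.of_norm h, fun h => ?_⟩
  rcases eq_or_ne b 0 with rfl | hb0
  · exact ⟨0, Algebra.norm_zero⟩
  have : Fact p.Prime := ⟨hp⟩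
  have : NeZero p := ⟨hp.ne_zero⟩
  have hζ := IsCyclotomicExtension.zeta_spec p K (CyclotomicField p K)
  have hTC : IsTotallyComplex (CyclotomicField p K) := by
    by_cases h2 : p = 2
    · have := hK.resolve_left (fun h => h h2)
      exact isTotallyComplex_of_algebra K _
    · exact isTotallyComplex_of_primitiveRoot (lt_of_le_of_ne hp.two_le (Ne.symm h2)) hζ
  have hc := finrank_cyclotomicField_coprime K hp
  obtain ⟨M, _, _, _, _, _, _, _, hgal, hdim, ⟨e⟩⟩ :=
    exists_baseChange K (CyclotomicField p K) L hd hc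
  obtain ⟨a, ⟨e'⟩⟩ := exists_kummer_equiv hp hdim hζ
  have hb0' : algebraMap K (CyclotomicField p K) b ≠ 0 := (_root_.map_ne_zero _).mpr hb0
  obtain ⟨z', hz'⟩ : ∃ z' : M, Algebra.norm (CyclotomicField p K) z' = algebraMap K _ b := by
    have h1 := (hasse_norm_kummer hζ a (Units.mk0 _ hb0')).mpr fun w =>
      (normOver_place e w (h _)).congr e'.symm
    obtain ⟨z, hz⟩ := h1
    exact ⟨e' z, by rw [Algebra.norm_eq_of_algEquiv, hz]; rfl⟩
  have hf1 : FiniteDimensional K M := FiniteDimensional.trans K (CyclotomicField p K) M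
  have hf2 : FiniteDimensional L M := FiniteDimensional.right K L M
  -- `b ^ d` and `b ^ p` are norms
  have h1 : Algebra.norm K (Algebra.norm L z') = b ^ finrank K (CyclotomicField p K) := by
    rw [Algebra.norm_norm, ← Algebra.norm_norm (S := CyclotomicField p K), hz',
      Algebra.norm_algebraMap]
  have h2 : Algebra.norm K (algebraMap K L b) = b ^ p := by
    rw [Algebra.norm_algebraMap, hd]
  let N : Lˣ →* Kˣ := Units.map (Algebra.norm K : L →* K)
  have hz0 : Algebra.norm L z' ≠ 0 := by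
    intro h0
    rw [h0, Algebra.norm_zero] at h1
    exact pow_ne_zero _ hb0 h1.symm
  have hbL : algebraMap K L b ≠ 0 := (_root_.map_ne_zero _).mpr hb0
  let B : Kˣ := Units.mk0 b hb0
  have h1' : N (Units.mk0 _ hz0) = B ^ finrank K (CyclotomicField p K) := Units.ext h1
  have h2' : N (Units.mk0 _ hbL) = B ^ p := Units.ext h2
  obtain ⟨s, t, hst⟩ := Nat.isCoprime_iff_coprime.mpr hc
  refine ⟨((Units.mk0 _ hz0) ^ s * (Units.mk0 _ hbL) ^ t : Lˣ), ?_⟩
  have h3 : N ((Units.mk0 _ hz0) ^ s * (Units.mk0 _ hbL) ^ t) = B := by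
    rw [map_mul, map_zpow, map_zpow, h1', h2', ← zpow_natCast, ← zpow_natCast, ← zpow_mul,
      ← zpow_mul, ← zpow_add]
    have h4 : (finrank K (CyclotomicField p K) : ℤ) * s + (p : ℤ) * t = 1 := by linarith
    rw [h4, zpow_one]
  exact congrArg Units.val h3

end Main

end Fermat.Agent.Cor.HN
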