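import Fermat.Agent.Corollaries.HM.WeakHasse

/-!
# The completions of a number field and the final forms of the theorem of Hasse and Minkowski

`K` is a number field, `AllDiag K` the local-global principle for diagonal forms without zero
coefficient: isotropic over every `v.adicCompletion K` and indefinite for every `σ : K →+* ℝ`
implies isotropic over `K`.

* `isotropic_real_iff_signs`: a diagonal form without zero coefficient is isotropic over `ℝ` if and
  only if it is indefinite;
* `isotropic_completion_iff`, `forall_real_place_iff`: real places and embeddings `K →+* ℝ`;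
* `CplK`: the family of the completions at the finite and at the real places;
* `diagLocalGlobal_all`, `hasse_minkowski_all_diag_of`, `hasse_minkowski_all_of`,
  `exists_value_all_of`, `equivalent_all_of`: the theorem of Hasse and Minkowski for all quadratic
  forms over `K`: isotropy, representation of numbers, equivalence of regular forms;
* `AllFive`, `not_anisotropic_of_five_le_all_of`, `sum_four_squares_all_of`: forms in at least five
  variables, sums of four squares.
-/

set_option autoImplicit false

noncomputable section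

namespace Fermat.Agent.Cor.HM

open IsDedekindDomain NumberField QuadraticMap
open scoped TensorProduct

/-! ### Real forms -/

section Real

/-- **A diagonal form without zero coefficient is isotropic over `ℝ` if and only if it is
indefinite.** -/
theorem isotropic_real_iff_signs {n : ℕ} {b : Fin n → ℝ} (hb : ∀ i, b i ≠ 0) :
    (∃ x : Fin n → ℝ, x ≠ 0 ∧ ∑ i, b i * x i ^ 2 = 0) ↔ ∃ i j, 0 < b i ∧ b j < 0 := by
  have key : ∀ {c : Fin n → ℝ}, (∀ i, 0 < c i) → ∀ {x : Fin n → ℝ}, ∑ i, c i * x i ^ 2 = 0 →
      x = 0 := by
    intro c hc x hx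
    have h1 := (Finset.sum_eq_zero_iff_of_nonneg
      (fun i _ => mul_nonneg (hc i).le (sq_nonneg (x i)))).1 hx
    funext i
    have h2 := h1 i (Finset.mem_univ i)
    rcases mul_eq_zero.1 h2 with h3 | h3
    · exact absurd h3 (hc i).ne'
    · exact pow_eq_zero_iff two_ne_zero |>.1 h3
  constructor
  · rintro ⟨x, hx0, hx⟩
    by_contra hcon
    push Not at hcon
    by_cases h : ∃ i, 0 < b i
    · obtain ⟨i, hi⟩ := h
      exact hx0 (key (fun j => lt_of_le_of_ne (hcon i j hi) (hb j).symm) hx)
    · push Not at h
      refine hx0 (key (c := fun i => -b i)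
        (fun j => neg_pos.2 (lt_of_le_of_ne (h j) (hb j))) ?_)
      simp only [neg_mul, Finset.sum_neg_distrib, hx, neg_zero]
  · rintro ⟨i, j, hi, hj⟩
    have hij : i ≠ j := by
      rintro rfl
      exact lt_asymm hi hj
    refine ⟨fun k => if k = i then √(-b j) else if k = j then √(b i) else 0, fun h0 => ?_, ?_⟩
    · have h1 := congrFun h0 j
      simp only [if_neg hij.symm, if_true, Pi.zero_apply] at h1
      exact (Real.sqrt_pos.2 hi).ne' h1
    · have h1 : ∀ k, b k * (if k = i then √(-b j) else if k = j then √(b i) else 0) ^ 2 =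
          (if k = i then b i * -b j else 0) + (if k = j then b j * b i else 0) := by
        intro k
        by_cases hk : k = i
        · subst hk
          rw [if_pos rfl, if_pos rfl, if_neg hij, Real.sq_sqrt (by linarith), add_zero]
        · by_cases hk' : k = j
          · subst hk'
            rw [if_neg hk, if_pos rfl, if_neg hk, if_pos rfl, Real.sq_sqrt hi.le, zero_add]
          · rw [if_neg hk, if_neg hk', if_neg hk, if_neg hk']
            simp
      rw [Finset.sum_congr rfl fun k _ => h1 k, Finset.sum_add_distrib,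
        Finset.sum_ite_eq', Finset.sum_ite_eq', if_pos (Finset.mem_univ _),
        if_pos (Finset.mem_univ _)]
      ring

theorem isotropic_of_ringHom {L L' : Type*} [Field L] [Field L'] (e : L →+* L') {n : ℕ}
    (b : Fin n → L) (h : ∃ x : Fin n → L, x ≠ 0 ∧ ∑ i, b i * x i ^ 2 = 0) :
    ∃ x : Fin n → L', x ≠ 0 ∧ ∑ i, e (b i) * x i ^ 2 = 0 := by
  obtain ⟨x, hx0, hx⟩ := h
  refine ⟨fun i => e (x i), fun h0 => hx0 ?_, ?_⟩
  · funext i
    exact (map_eq_zero_iff e e.injective).1 (congrFun h0 i)
  · have h1 := congrArg e hx
    rw [map_sum, map_zero] at h1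
    rw [← h1]
    exact Finset.sum_congr rfl fun i _ => by rw [map_mul, map_pow]

end Real

/-! ### Real places -/

section RealPlace

variable {K : Type*} [Field K] {w : InfinitePlace K}

lemma extension_algebraMap (hw : w.IsReal) (x : K) :
    InfinitePlace.Completion.extensionEmbeddingOfIsReal hw (algebraMap K w.Completion x) =
      InfinitePlace.embedding_of_isReal hw x :=
  InfinitePlace.Completion.extensionEmbeddingOfIsReal_coe hw ((WithAbs.equiv w.1).symm x)

/-- Isotropy over the completion at a real place. -/
theorem isotropic_completion_iff (hw : w.IsReal) {n : ℕ} (a : Fin n → K) :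
    (∃ x : Fin n → w.Completion, x ≠ 0 ∧ ∑ i, algebraMap K w.Completion (a i) * x i ^ 2 = 0) ↔
      ∃ x : Fin n → ℝ, x ≠ 0 ∧ ∑ i, InfinitePlace.embedding_of_isReal hw (a i) * x i ^ 2 = 0 := by
  let e := InfinitePlace.Completion.ringEquivRealOfIsReal hw
  have he : ∀ x : K, e (algebraMap K w.Completion x) = InfinitePlace.embedding_of_isReal hw x :=
    extension_algebraMap hw
  constructor
  · intro h
    have h1 := isotropic_of_ringHom (e : w.Completion →+* ℝ) _ h
    simpa only [RingHom.coe_coe, he] using h1
  · intro h
    have h1 := isotropic_of_ringHom (e.symm : ℝ →+* w.Completion) _ h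
    simpa only [RingHom.coe_coe, ← he, RingEquiv.symm_apply_apply] using h1

/-- Every embedding `K →+* ℝ` comes from a real place. -/
theorem exists_place_of_ringHom (σ : K →+* ℝ) :
    ∃ (w : InfinitePlace K) (hw : w.IsReal), InfinitePlace.embedding_of_isReal hw = σ := by
  let φ : K →+* ℂ := Complex.ofRealHom.comp σ
  have hφ : ComplexEmbedding.IsReal φ := by
    rw [ComplexEmbedding.isReal_iff]
    ext x
    simp [φ]
  have hw : (InfinitePlace.mk φ).IsReal := InfinitePlace.isReal_mk_iff.2 hφ
  refine ⟨InfinitePlace.mk φ, hw, ?_⟩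
  ext x
  have h1 := InfinitePlace.embedding_mk_eq_of_isReal hφ
  have h2 := InfinitePlace.embedding_of_isReal_apply hw x
  rw [h1] at h2
  exact Complex.ofReal_injective h2

theorem forall_real_place_iff (P : (K →+* ℝ) → Prop) :
    (∀ (w : InfinitePlace K) (hw : w.IsReal), P (InfinitePlace.embedding_of_isReal hw)) ↔
      ∀ σ : K →+* ℝ, P σ := by
  constructor
  · intro h σ
    obtain ⟨w, hw, rfl⟩ := exists_place_of_ringHom σ
    exact h w hw
  · exact fun h w hw => h _

end RealPlace

/-! ### All completions -/

section Completions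

variable (K : Type) [Field K] [NumberField K]

/-- The finite and the real places. -/
abbrev PlK : Type := HeightOneSpectrum (𝓞 K) ⊕ {w : InfinitePlace K // w.IsReal}

/-- The completions of `K` at the finite and the real places. -/
def CplK : PlK K → Type
  | .inl v => v.adicCompletion K
  | .inr w => w.1.Completion

instance : ∀ v, Field (CplK K v)
  | .inl v => inferInstanceAs (Field (v.adicCompletion K))
  | .inr w => inferInstanceAs (Field w.1.Completion)

instance : ∀ v, Algebra K (CplK K v)
  | .inl v => inferInstanceAs (Algebra K (v.adicCompletion K))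
  | .inr w => inferInstanceAs (Algebra K w.1.Completion)

/-- The local-global principle for diagonal forms without zero coefficient over `K`. -/
def AllDiag : Prop :=
  ∀ (n : ℕ) (a : Fin n → K), (∀ i, a i ≠ 0) →
    (∀ v : HeightOneSpectrum (𝓞 K), ∃ x : Fin n → v.adicCompletion K, x ≠ 0 ∧
      ∑ i, algebraMap K (v.adicCompletion K) (a i) * x i ^ 2 = 0) →
    (∀ σ : K →+* ℝ, ∃ i j, 0 < σ (a i) ∧ σ (a j) < 0) →
    ∃ x : Fin n → K, x ≠ 0 ∧ ∑ i, a i * x i ^ 2 = 0

/-- Indefinite diagonal forms in at least five variables, without zero coefficient, are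
isotropic. -/
def AllFive : Prop :=
  ∀ (n : ℕ) (a : Fin n → K), 5 ≤ n → (∀ i, a i ≠ 0) →
    (∀ σ : K →+* ℝ, ∃ i j, 0 < σ (a i) ∧ σ (a j) < 0) →
    ∃ x : Fin n → K, x ≠ 0 ∧ ∑ i, a i * x i ^ 2 = 0

variable {K}

omit [NumberField K] in
lemma map_real_ne_zero (σ : K →+* ℝ) {n : ℕ} {a : Fin n → K} (ha : ∀ i, a i ≠ 0) (i : Fin n) :
    σ (a i) ≠ 0 := (map_ne_zero σ).2 (ha i)

/-- The local-global principle for diagonal forms over `K` and its completions at the finite and
the real places. -/
theorem diagLocalGlobal_all (H : AllDiag K) : DiagLocalGlobal K (CplK K) := by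
  intro n a ha h
  refine H n a ha (fun v => h (.inl v)) ?_
  rw [← forall_real_place_iff]
  intro w hw
  exact (isotropic_real_iff_signs (map_real_ne_zero _ ha)).1
    ((isotropic_completion_iff hw a).1 (h (.inr ⟨w, hw⟩)))

/-- **The theorem of Hasse and Minkowski for diagonal forms over `K`**, from `AllDiag`. -/
theorem hasse_minkowski_all_diag_of (H : AllDiag K) {n : ℕ} (a : Fin n → K) :
    (∃ x : Fin n → K, x ≠ 0 ∧ ∑ i, a i * x i ^ 2 = 0) ↔
      (∀ v : HeightOneSpectrum (𝓞 K), ∃ x : Fin n → v.adicCompletion K, x ≠ 0 ∧
        ∑ i, algebraMap K (v.adicCompletion K) (a i) * x i ^ 2 = 0) ∧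
      ∀ σ : K →+* ℝ, ∃ x : Fin n → ℝ, x ≠ 0 ∧ ∑ i, σ (a i) * x i ^ 2 = 0 := by
  constructor
  · intro h
    exact ⟨fun v => isotropic_of_ringHom (algebraMap K (v.adicCompletion K)) a h,
      fun σ => isotropic_of_ringHom σ a h⟩
  · rintro ⟨h1, h2⟩
    refine (diagLocalGlobal_all H).isotropic a fun v => ?_
    match v with
    | .inl v => exact h1 v
    | .inr ⟨w, hw⟩ => exact (isotropic_completion_iff hw a).2 (h2 _)

variable {V : Type*} [AddCommGroup V] [Module K V] [FiniteDimensional K V] [Invertible (2 : K)]

/-- **The theorem of Hasse and Minkowski over a number field**, from `AllDiag`. -/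
theorem hasse_minkowski_all_of (H : AllDiag K) (Q : QuadraticForm K V) :
    ¬ Q.Anisotropic ↔
      (∀ v : HeightOneSpectrum (𝓞 K), ¬ (Q.baseChange (v.adicCompletion K)).Anisotropic) ∧
      ∀ w : InfinitePlace K, w.IsReal → ¬ (Q.baseChange w.Completion).Anisotropic := by
  constructor
  · exact fun h => ⟨fun v => not_anisotropic_baseChange Q h,
      fun w _ => not_anisotropic_baseChange Q h⟩
  · rintro ⟨h1, h2⟩
    refine not_anisotropic_of_family (diagLocalGlobal_all H) Q fun v => ?_
    match v with
    | .inl v => exact h1 v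
    | .inr ⟨w, hw⟩ => exact h2 w hw

/-- **Representation of numbers by quadratic forms over a number field**: the local-global
principle, from `AllDiag`. -/
theorem exists_value_all_of (H : AllDiag K) (Q : QuadraticForm K V) (c : K) :
    (∃ w : V, Q w = c) ↔
      (∀ v : HeightOneSpectrum (𝓞 K), ∃ x : v.adicCompletion K ⊗[K] V,
        (Q.baseChange (v.adicCompletion K)) x = algebraMap K (v.adicCompletion K) c) ∧
      ∀ w : InfinitePlace K, w.IsReal → ∃ x : w.Completion ⊗[K] V,
        (Q.baseChange w.Completion) x = algebraMap K w.Completion c := by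
  constructor
  · rintro ⟨w, rfl⟩
    refine ⟨fun v => ⟨1 ⊗ₜ w, ?_⟩, fun v _ => ⟨1 ⊗ₜ w, ?_⟩⟩ <;>
      rw [QuadraticForm.baseChange_tmul, mul_one, Algebra.smul_def, mul_one]
  · rintro ⟨h1, h2⟩
    obtain ⟨a, -, ha, hL⟩ := exists_diag' Q
    rw [ha]
    refine (diagLocalGlobal_all H).exists_value (Invertible.ne_zero 2) a c fun v => ?_
    match v with
    | .inl v => exact ((hL (v.adicCompletion K)).2 _).1 (h1 v)
    | .inr ⟨w, hw⟩ => exact ((hL w.Completion).2 _).1 (h2 w hw)

/-- **The weak Hasse principle over a number field**: regular quadratic forms over `K` are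
equivalent if and only if they are equivalent over the completions at the finite and the real
places; from `AllDiag`. -/
theorem equivalent_all_of (H : AllDiag K) {V' : Type*} [AddCommGroup V'] [Module K V']
    [FiniteDimensional K V'] {Q : QuadraticForm K V} {Q' : QuadraticForm K V'}
    (hQ : (associated (R := K) Q).SeparatingLeft)
    (hQ' : (associated (R := K) Q').SeparatingLeft) :
    Q.Equivalent Q' ↔
      (∀ v : HeightOneSpectrum (𝓞 K),
        (Q.baseChange (v.adicCompletion K)).Equivalent (Q'.baseChange (v.adicCompletion K))) ∧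
      ∀ w : InfinitePlace K, w.IsReal →
        (Q.baseChange w.Completion).Equivalent (Q'.baseChange w.Completion) := by
  constructor
  · exact fun h => ⟨fun v => equivalent_baseChange h, fun w _ => equivalent_baseChange h⟩
  · rintro ⟨h1, h2⟩
    refine (equivalent_of_family (diagLocalGlobal_all H) hQ hQ').2 fun v => ?_
    match v with
    | .inl v => exact h1 v
    | .inr ⟨w, hw⟩ => exact h2 w hw

omit [NumberField K] in
/-- **Forms in at least five variables** over a number field are isotropic if and only if they are
isotropic at the real places, from `AllFive`. -/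
theorem not_anisotropic_of_five_le_all_of (H : AllFive K) (Q : QuadraticForm K V)
    (h : 5 ≤ Module.finrank K V) :
    ¬ Q.Anisotropic ↔
      ∀ w : InfinitePlace K, w.IsReal → ¬ (Q.baseChange w.Completion).Anisotropic := by
  refine ⟨fun h' w _ => not_anisotropic_baseChange Q h', fun h' => ?_⟩
  obtain ⟨a, ha, -, hL⟩ := exists_diag' Q
  rw [ha]
  by_cases h0 : ∃ i, a i = 0
  · obtain ⟨i, hi⟩ := h0
    exact isotropic_of_coeff_eq_zero hi
  · push Not at h0
    refine H _ a h h0 ?_
    rw [← forall_real_place_iff]
    intro w hw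
    exact (isotropic_real_iff_signs (map_real_ne_zero _ h0)).1
      ((isotropic_completion_iff hw a).1 ((hL w.Completion).1.1 (h' w hw)))

omit [Invertible (2 : K)] in
/-- **Siegel's theorem**: the sums of four squares of a number field are the elements which are
non-negative for every real embedding, from `AllFive`. -/
theorem sum_four_squares_all_of (H : AllFive K) (c : K) :
    (∃ x y z t : K, c = x ^ 2 + y ^ 2 + z ^ 2 + t ^ 2) ↔ ∀ σ : K →+* ℝ, 0 ≤ σ c := by
  constructor
  · rintro ⟨x, y, z, t, rfl⟩ σ
    simp only [map_add, map_pow]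
    positivity
  · intro h
    by_cases hc : c = 0
    · exact ⟨0, 0, 0, 0, by rw [hc]; ring⟩
    have h2 : (2 : K) ≠ 0 := two_ne_zero
    obtain ⟨x, hx⟩ := exists_value_of_snoc (F := K) h2 (a := fun _ : Fin 4 => (1 : K))
      (fun _ => one_ne_zero) (c := c) (H 5 _ le_rfl (fun i => by
        refine Fin.lastCases ?_ (fun j => ?_) i
        · rw [Fin.snoc_last]
          exact neg_ne_zero.2 hc
        · rw [Fin.snoc_castSucc]
          exact one_ne_zero) (fun σ => by
        refine ⟨Fin.castSucc 0, Fin.last 4, ?_, ?_⟩
        · rw [Fin.snoc_castSucc, map_one]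
          exact one_pos
        · rw [Fin.snoc_last, map_neg, neg_lt_zero]
          exact lt_of_le_of_ne (h σ) ((map_ne_zero σ).2 hc).symm))
    refine ⟨x 0, x 1, x 2, x 3, ?_⟩
    rw [← hx, Fin.sum_univ_four]
    ring

omit [Invertible (2 : K)] in
/-- Every sum of squares is a sum of four squares, from `AllFive`. -/
theorem sum_squares_all_of (H : AllFive K) {ι : Type*} (s : Finset ι) (f : ι → K) :
    ∃ x y z t : K, ∑ i ∈ s, f i ^ 2 = x ^ 2 + y ^ 2 + z ^ 2 + t ^ 2 := by
  rw [sum_four_squares_all_of H]
  intro σ
  rw [map_sum]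
  exact Finset.sum_nonneg fun i _ => by
    rw [map_pow]
    exact sq_nonneg _

end Completions

end Fermat.Agent.Cor.HM
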