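import Fermat.Agent.Corollaries.HM.NFFour
import Fermat.Agent.Corollaries.HM.NFForms
import Fermat.Agent.Corollaries.HM.RealRecip

/-!
# Forms in five or more variables over a number field, and the local-global principle

* `exists_binary_signs`: simultaneous approximation of values of a binary form, with prescribed
  signs;
* `allFive_of`: the local-global principle for quaternary forms implies that indefinite forms in
  at least five variables are isotropic;
* `allDiag_of`: the local-global principle for ternary forms over all number fields implies the one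
  for all diagonal forms without zero coefficient.
-/

set_option autoImplicit false

namespace Fermat.Agent.Cor.HM

open IsDedekindDomain NumberField WithZero
open Fermat.Agent.CFT Fermat.Agent.CFT.Global Fermat.Agent.CFT.Global2 Fermat.Agent.CFT.Bridge
open Fermat.Agent.LT.Ext
open Fermat.Agent.CFT.SUnits (ord)

section RealValue

open Filter Topology

lemma real_near {A B X Y : ℝ} (h : 0 < A * X ^ 2 + B * Y ^ 2) : ∀ᶠ ε in 𝓝[>] (0 : ℝ),
    ∀ x y : ℝ, |x - X| < ε → |y - Y| < ε → 0 < A * x ^ 2 + B * y ^ 2 := by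
  have hopen : IsOpen {p : ℝ × ℝ | 0 < A * p.1 ^ 2 + B * p.2 ^ 2} :=
    isOpen_lt continuous_const (by fun_prop)
  obtain ⟨δ, hδ, hball⟩ := Metric.isOpen_iff.1 hopen (X, Y) h
  filter_upwards [Ioc_mem_nhdsGT hδ] with ε hε x y hx hy
  have h3 : ((x, y) : ℝ × ℝ) ∈ Metric.ball (X, Y) δ := by
    rw [Metric.mem_ball, Prod.dist_eq, max_lt_iff, Real.dist_eq, Real.dist_eq]
    exact ⟨hx.trans_le hε.2, hy.trans_le hε.2⟩
  exact hball h3

lemma real_target {A B : ℝ} {s : Prop} (h1 : s → 0 < A ∨ 0 < B) (h2 : ¬ s → A < 0 ∨ B < 0) :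
    ∃ X Y : ℝ, ∀ᶠ ε in 𝓝[>] (0 : ℝ), ∀ x y : ℝ, |x - X| < ε → |y - Y| < ε →
      (s → 0 < A * x ^ 2 + B * y ^ 2) ∧ (¬ s → A * x ^ 2 + B * y ^ 2 < 0) := by
  by_cases hs : s
  · obtain ⟨X, Y, h⟩ : ∃ X Y : ℝ, 0 < A * X ^ 2 + B * Y ^ 2 := by
      rcases h1 hs with h | h
      · exact ⟨1, 0, by linarith⟩
      · exact ⟨0, 1, by linarith⟩
    refine ⟨X, Y, ?_⟩
    filter_upwards [real_near h] with ε hε x y hx hy
    exact ⟨fun _ => hε x y hx hy, fun h' => absurd hs h'⟩
  · obtain ⟨X, Y, h⟩ : ∃ X Y : ℝ, 0 < -A * X ^ 2 + -B * Y ^ 2 := by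
      rcases h2 hs with h | h
      · exact ⟨1, 0, by linarith⟩
      · exact ⟨0, 1, by linarith⟩
    refine ⟨X, Y, ?_⟩
    filter_upwards [real_near h] with ε hε x y hx hy
    refine ⟨fun h' => absurd h' hs, fun _ => ?_⟩
    have := hε x y hx hy
    linarith

end RealValue

section Binary

variable {K : Type} [Field K] [NumberField K]

/-- Simultaneous approximation of values of a binary form, with prescribed signs. -/
theorem exists_binary_signs (hA : ApproxStmt K) (LS : LocalSymbols 2 K)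
    (S : Finset (HeightOneSpectrum (𝓞 K))) (a b : Kˣ)
    (e : HeightOneSpectrum (𝓞 K) → Kˣ) (he : ∀ v, Rep LS v a b (e v)) (s : (K →+* ℝ) → Prop)
    (h1 : ∀ σ, s σ → 0 < σ a ∨ 0 < σ b) (h2 : ∀ σ, ¬ s σ → σ a < 0 ∨ σ b < 0) :
    ∃ (x y : K) (c : Kˣ), (c : K) = a * x ^ 2 + b * y ^ 2 ∧ (∀ v ∈ S, c / e v ∈ locPow 2 v) ∧
      ∀ σ : K →+* ℝ, (s σ → 0 < σ c) ∧ (¬ s σ → σ c < 0) := by
  classical
  obtain ⟨v₀⟩ := nonempty_places K
  choose x₀ y₀ n hn using fun v => exists_near_value (he v)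
  choose X Y hXY using fun σ : K →+* ℝ => real_target (h1 σ) (h2 σ)
  obtain ⟨ε, hε, hε0⟩ :=
    ((Filter.eventually_all.2 hXY).and (eventually_mem_nhdsWithin (s := Set.Ioi (0 : ℝ)))).exists
  set S' := insert v₀ S with hS'
  obtain ⟨x, hx, hxs⟩ := hA S' x₀ (S'.sup n) X ε hε0
  obtain ⟨y, hy, hys⟩ := hA S' y₀ (S'.sup n) Y ε hε0
  have key : ∀ v ∈ S', ∃ c : Kˣ, (c : K) = a * x ^ 2 + b * y ^ 2 ∧ c / e v ∈ locPow 2 v := by
    intro v hv
    have hle : exp (-((S'.sup n : ℕ) : ℤ)) ≤ (exp (-(n v : ℤ)) : ℤᵐ⁰) := by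
      rw [exp_le_exp]
      have := Finset.le_sup (f := n) hv
      omega
    exact hn v x y ((hx v hv).trans hle) ((hy v hv).trans hle)
  obtain ⟨c, hc, -⟩ := key v₀ (Finset.mem_insert_self _ _)
  refine ⟨x, y, c, hc, fun w hw => ?_, fun σ => ?_⟩
  · obtain ⟨c', hc', h'⟩ := key w (Finset.mem_insert_of_mem hw)
    have : c = c' := Units.ext (hc.trans hc'.symm)
    rw [this]
    exact h'
  · have h3 := hε σ (σ x) (σ y) (hxs σ) (hys σ)
    rw [hc, map_add, map_mul, map_mul, map_pow, map_pow]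
    exact h3

end Binary

section Five

variable {K : Type} [Field K] [NumberField K]

/-- The signs of the reduced form. -/
lemma signs_cons {n : ℕ} {A B C : ℝ} {t : Fin (n + 1) → ℝ} (ht : ∀ i, t i ≠ 0) (hA : A ≠ 0)
    (h : ∃ i j : Fin (n + 3), 0 < (Fin.cons A (Fin.cons B t : Fin (n + 2) → ℝ) : Fin (n + 3) → ℝ) i ∧
      (Fin.cons A (Fin.cons B t : Fin (n + 2) → ℝ) : Fin (n + 3) → ℝ) j < 0) :
    (((∃ j, t j < 0) ∧ (0 < A ∨ 0 < B)) → 0 < A ∨ 0 < B) ∧
    (¬ ((∃ j, t j < 0) ∧ (0 < A ∨ 0 < B)) → A < 0 ∨ B < 0) ∧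
    ((((∃ j, t j < 0) ∧ (0 < A ∨ 0 < B)) → 0 < C) →
      (¬ ((∃ j, t j < 0) ∧ (0 < A ∨ 0 < B)) → C < 0) →
      ∃ i j : Fin (n + 2), 0 < (Fin.cons C t : Fin (n + 2) → ℝ) i ∧
        (Fin.cons C t : Fin (n + 2) → ℝ) j < 0) := by
  have hpos : 0 < A ∨ 0 < B ∨ ∃ j, 0 < t j := by
    obtain ⟨i, -, hi, -⟩ := h
    refine Fin.cases (fun hi => Or.inl hi) (fun i hi => ?_) i hi
    refine Fin.cases (fun hi => Or.inr (Or.inl hi)) (fun i hi => Or.inr (Or.inr ⟨i, hi⟩)) i hi
  have hneg : A < 0 ∨ B < 0 ∨ ∃ j, t j < 0 := by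
    obtain ⟨-, i, -, hi⟩ := h
    refine Fin.cases (fun hi => Or.inl hi) (fun i hi => ?_) i hi
    refine Fin.cases (fun hi => Or.inr (Or.inl hi)) (fun i hi => Or.inr (Or.inr ⟨i, hi⟩)) i hi
  refine ⟨fun h' => h'.2, fun h' => ?_, fun hC1 hC2 => ?_⟩
  · by_cases hj : ∃ j, t j < 0
    · have h1 : ¬ (0 < A ∨ 0 < B) := fun h1 => h' ⟨hj, h1⟩
      push Not at h1
      exact Or.inl (lt_of_le_of_ne h1.1 hA)
    · rcases hneg with h1 | h1 | h1
      · exact Or.inl h1
      · exact Or.inr h1
      · exact absurd h1 hj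
  · by_cases hs : (∃ j, t j < 0) ∧ (0 < A ∨ 0 < B)
    · obtain ⟨j, hj⟩ := hs.1
      exact ⟨0, j.succ, hC1 hs, hj⟩
    · have hC := hC2 hs
      by_cases hj : ∃ j, t j < 0
      · have h1 : ¬ (0 < A ∨ 0 < B) := fun h1 => hs ⟨hj, h1⟩
        push Not at h1
        rcases hpos with h2 | h2 | ⟨i, hi⟩
        · exact absurd h2 (not_lt.2 h1.1)
        · exact absurd h2 (not_lt.2 h1.2)
        · exact ⟨i.succ, 0, hi, hC⟩
      · push Not at hj
        exact ⟨Fin.succ 0, 0, lt_of_le_of_ne (hj 0) (ht 0).symm, hC⟩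

/-- Splitting of the first two coefficients. -/
lemma cons_cons_tail {α : Type*} {n : ℕ} (a : Fin (n + 2) → α) :
    (Fin.cons (a 0) (Fin.cons (a 1) (fun i => a i.succ.succ) : Fin (n + 1) → α) :
      Fin (n + 2) → α) = a := by
  funext i
  refine Fin.cases rfl (fun i => ?_) i
  rw [Fin.cons_succ]
  refine Fin.cases rfl (fun i => ?_) i
  rw [Fin.cons_succ]

omit [NumberField K] in
lemma map_cons_cons {n : ℕ} (σ : K →+* ℝ) (x y : K) (t : Fin n → K) (i : Fin (n + 2)) :
    σ ((Fin.cons x (Fin.cons y t : Fin (n + 1) → K) : Fin (n + 2) → K) i) =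
      (Fin.cons (σ x) (Fin.cons (σ y) (fun i => σ (t i)) : Fin (n + 1) → ℝ) :
        Fin (n + 2) → ℝ) i := by
  refine Fin.cases rfl (fun i => ?_) i
  rw [Fin.cons_succ, Fin.cons_succ]
  refine Fin.cases rfl (fun i => ?_) i
  rw [Fin.cons_succ, Fin.cons_succ]

omit [NumberField K] in
lemma map_cons_one {n : ℕ} (σ : K →+* ℝ) (x : K) (t : Fin n → K) (i : Fin (n + 1)) :
    σ ((Fin.cons x t : Fin (n + 1) → K) i) =
      (Fin.cons (σ x) (fun i => σ (t i)) : Fin (n + 1) → ℝ) i := by
  refine Fin.cases rfl (fun i => ?_) i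
  rw [Fin.cons_succ, Fin.cons_succ]

/-- Reduction of the number of variables by one, with prescribed local classes. -/
theorem exists_reduce (hA : ApproxStmt K) (LS : LocalSymbols 2 K)
    (S : Finset (HeightOneSpectrum (𝓞 K))) {n : ℕ} (a : Fin (n + 3) → K) (ha : ∀ i, a i ≠ 0)
    (hs : ∀ σ : K →+* ℝ, ∃ i j, 0 < σ (a i) ∧ σ (a j) < 0)
    (e : HeightOneSpectrum (𝓞 K) → Kˣ)
    (he : ∀ v, Rep LS v (Units.mk0 (a 0) (ha 0)) (Units.mk0 (a 1) (ha 1)) (e v)) :
    ∃ c : Kˣ, (∀ v ∈ S, c / e v ∈ locPow 2 v) ∧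
      (∀ σ : K →+* ℝ, ∃ i j : Fin (n + 2),
        0 < σ ((Fin.cons (c : K) (fun i => a i.succ.succ) : Fin (n + 2) → K) i) ∧
        σ ((Fin.cons (c : K) (fun i => a i.succ.succ) : Fin (n + 2) → K) j) < 0) ∧
      ((∃ z : Fin (n + 2) → K, z ≠ 0 ∧
          ∑ i, (Fin.cons (c : K) (fun i => a i.succ.succ) : Fin (n + 2) → K) i * z i ^ 2 = 0) →
        ∃ z : Fin (n + 3) → K, z ≠ 0 ∧ ∑ i, a i * z i ^ 2 = 0) := by
  have hsig : ∀ (σ : K →+* ℝ) (C : ℝ), _ := fun σ C =>
    signs_cons (C := C) (t := fun i => σ (a i.succ.succ)) (A := σ (a 0)) (B := σ (a 1))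
      (fun i => (map_ne_zero σ).2 (ha _)) ((map_ne_zero σ).2 (ha 0)) (by
        obtain ⟨i, j, hi, hj⟩ := hs σ
        refine ⟨i, j, ?_, ?_⟩
        · rw [← map_cons_cons σ (a 0) (a 1) (fun i => a i.succ.succ) i, cons_cons_tail]
          exact hi
        · rw [← map_cons_cons σ (a 0) (a 1) (fun i => a i.succ.succ) j, cons_cons_tail]
          exact hj)
  obtain ⟨x, y, c, hc, hcS, hcs⟩ := exists_binary_signs hA LS S (Units.mk0 (a 0) (ha 0))
    (Units.mk0 (a 1) (ha 1)) e he
    (fun σ => (∃ j, σ (a (Fin.succ (Fin.succ j))) < 0) ∧ (0 < σ (a 0) ∨ 0 < σ (a 1)))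
    (fun σ => (hsig σ 0).1) (fun σ => (hsig σ 0).2.1)
  refine ⟨c, hcS, fun σ => ?_, fun hz => ?_⟩
  · obtain ⟨i, j, hi, hj⟩ := (hsig σ (σ c)).2.2 (hcs σ).1 (hcs σ).2
    refine ⟨i, j, ?_, ?_⟩
    · rw [map_cons_one]
      exact hi
    · rw [map_cons_one]
      exact hj
  · have h1 := isotropic_of_value (a := fun i => a (Fin.succ (Fin.succ i))) hc c.ne_zero hz
    rw [Units.val_mk0, Units.val_mk0, cons_cons_tail] at h1
    exact h1

/-- **Indefinite forms in at least five variables are isotropic**, from the local-global principle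
for quaternary forms. -/
theorem allFive_of (hA : ApproxStmt K) (H : Four K) : AllFive K := by
  classical
  obtain ⟨LS⟩ := nonempty_localSymbols_all (p := 2) K (Unr.isPrimitiveRoot_neg_one' K)
  intro n a hn ha hs
  obtain ⟨m, rfl⟩ : ∃ m, n = m + 5 := ⟨n - 5, by omega⟩
  clear hn
  induction m with
  | zero =>
    let u : Fin 5 → Kˣ := fun i => Units.mk0 (a i) (ha i)
    obtain ⟨S, -, hS2, -, hSu⟩ := exists_good (K := K) 2 two_ne_zero ∅ {u 2, u 3, u 4}
    choose e he1 he2 using fun v => exists_two_classes LS (v := v) (u 0) (u 1) (u 2 * u 3 * u 4)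
    obtain ⟨c, hce, hcs, hcz⟩ := exists_reduce hA LS S a ha hs e he1
    apply hcz
    obtain ⟨z, hz0, hz⟩ := H LS c (u 2) (u 3) (u 4) (fun v => by
        by_cases hv : v ∈ S
        · apply exists_rep_of_disc
          intro h
          apply he2 v
          have h1 := div_mem h (hce v hv)
          have h2 : c * u 2 * u 3 * u 4 / (c / e v) = e v * (u 2 * u 3 * u 4) := by
            rw [div_div_eq_mul_div, div_eq_iff_eq_mul]
            simp only [mul_assoc, mul_comm, mul_left_comm]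
          rwa [h2] at h1
        · have h2 : ((2 : ℕ) : 𝓞 K) ∉ v.asIdeal := fun h => hv (hS2 v h)
          have h3 : ∀ i : Fin 5, u i ∈ ({u 2, u 3, u 4} : Finset Kˣ) → ord v (u i) = 0 :=
            fun i hi => mem_E.mp (hSu _ hi) v hv
          exact ⟨u 2, rep_of_units h2 (h3 2 (by simp)) (h3 3 (by simp)) (h3 4 (by simp))⟩)
      (fun σ => by
        obtain ⟨i, j, hi, hj⟩ := hcs σ
        constructor
        · fin_cases i
          · exact Or.inl hi
          · exact Or.inr (Or.inl hi)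
          · exact Or.inr (Or.inr (Or.inl hi))
          · exact Or.inr (Or.inr (Or.inr hi))
        · fin_cases j
          · exact Or.inl hj
          · exact Or.inr (Or.inl hj)
          · exact Or.inr (Or.inr (Or.inl hj))
          · exact Or.inr (Or.inr (Or.inr hj)))
    refine ⟨z, hz0, ?_⟩
    rw [← hz]
    refine Finset.sum_congr rfl fun i _ => ?_
    fin_cases i <;> rfl
  | succ m ih =>
    obtain ⟨c, -, hcs, hcz⟩ := exists_reduce hA LS ∅ (n := m + 3) a ha hs
      (fun _ => Units.mk0 (a 0) (ha 0)) (fun v => rep_left _ _)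
    refine hcz (ih _ (fun i => ?_) hcs)
    refine Fin.cases ?_ (fun i => ?_) i
    · exact c.ne_zero
    · exact ha _

end Five

section All

/-- **The local-global principle for diagonal forms over all number fields**, from ternary forms
and the approximation theorem. -/
theorem allDiag_of (H : ∀ (L : Type) [Field L] [NumberField L], Three L)
    (K : Type) [Field K] [NumberField K] (hA : ApproxStmt K) : AllDiag K := by
  intro n a ha h hs
  obtain ⟨LS⟩ := nonempty_localSymbols_all (p := 2) K (Unr.isPrimitiveRoot_neg_one' K)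
  let u : Fin n → Kˣ := fun i => Units.mk0 (a i) (ha i)
  rcases lt_or_ge n 5 with hn | hn
  · interval_cases n
    · obtain ⟨v⟩ := nonempty_places K
      obtain ⟨x, hx0, -⟩ := h v
      exact absurd (Subsingleton.elim x 0) hx0
    · obtain ⟨v⟩ := nonempty_places K
      obtain ⟨x, hx0, hx⟩ := h v
      exfalso
      apply hx0
      rw [Fin.sum_univ_one, mul_eq_zero, map_eq_zero] at hx
      have h1 : x 0 = 0 := by simpa using hx.resolve_left (ha 0)
      funext i
      rw [Subsingleton.elim i 0]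
      exact h1
    · obtain ⟨r, hr⟩ := exists_sq_of_forall_locPow ∅ (a := -(u 0 * u 1)) fun v _ => by
        obtain ⟨x, hx0, hx⟩ := h v
        rw [Fin.sum_univ_two] at hx
        refine mem_locPow_of_adic (x := x 0) (y := x 1) (fun h' => hx0 ?_) hx
        funext i
        fin_cases i
        · exact h'.1
        · exact h'.2
      have hr' := congrArg (Units.val) hr
      rw [Units.val_pow_eq_pow_val, Units.val_neg, Units.val_mul] at hr'
      refine ⟨![(r : K), u 0], fun h' => (u 0).ne_zero (congrFun h' 1), ?_⟩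
      rw [Fin.sum_univ_two]
      change (u 0 : K) * (r : K) ^ 2 + (u 1 : K) * (u 0 : K) ^ 2 = 0
      rw [hr']
      ring
    · obtain ⟨x, y, z, h0, h1⟩ := H K LS (u 0) (u 1) (u 2) (fun v => by
          obtain ⟨x, hx0, hx⟩ := h v
          rw [Fin.sum_univ_three] at hx
          refine rep_of_adic_three (x := x 0) (y := x 1) (z := x 2) (fun h' => hx0 ?_) hx
          funext i
          fin_cases i
          · exact h'.1
          · exact h'.2.1
          · exact h'.2.2)
        (fun σ => by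
          obtain ⟨i, j, hi, hj⟩ := hs σ
          constructor
          · fin_cases i
            · exact Or.inl hi
            · exact Or.inr (Or.inl hi)
            · exact Or.inr (Or.inr hi)
          · fin_cases j
            · exact Or.inl hj
            · exact Or.inr (Or.inl hj)
            · exact Or.inr (Or.inr hj))
      refine ⟨![x, y, z], fun h' => h0 ⟨congrFun h' 0, congrFun h' 1, congrFun h' 2⟩, ?_⟩
      rw [Fin.sum_univ_three]
      exact h1
    · obtain ⟨z, hz0, hz⟩ := four_of_three H K LS (u 0) (u 1) (u 2) (u 3) (fun v => by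
          obtain ⟨x, hx0, hx⟩ := h v
          rw [Fin.sum_univ_four] at hx
          refine rep_of_adic_four (x := x 0) (y := x 1) (z := x 2) (t := x 3) (fun h' => hx0 ?_) hx
          funext i
          fin_cases i
          · exact h'.1
          · exact h'.2.1
          · exact h'.2.2.1
          · exact h'.2.2.2)
        (fun σ => by
          obtain ⟨i, j, hi, hj⟩ := hs σ
          constructor
          · fin_cases i
            · exact Or.inl hi
            · exact Or.inr (Or.inl hi)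
            · exact Or.inr (Or.inr (Or.inl hi))
            · exact Or.inr (Or.inr (Or.inr hi))
          · fin_cases j
            · exact Or.inl hj
            · exact Or.inr (Or.inl hj)
            · exact Or.inr (Or.inr (Or.inl hj))
            · exact Or.inr (Or.inr (Or.inr hj)))
      refine ⟨z, hz0, ?_⟩
      rw [← hz]
      refine Finset.sum_congr rfl fun i _ => ?_
      fin_cases i <;> rfl
  · exact allFive_of hA (four_of_three H K) n a hn ha hs

end All

end Fermat.Agent.Cor.HM
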