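import Fermat.Agent.CFT.Global2.GlobSym
import Fermat.Agent.CFT.Global.ShaCount

/-!
# Self-duality of the `S`-units for the Hilbert pairing

`M` is a totally complex number field, `S` a finite set of places of `M` containing the places
above `2` and generating the class group.

* `sq_of_E`: an `S`-unit which is a square locally at `S` is a square;
* `exists_E_of_orth`: the `S`-units are their own orthogonal complement in `∏_{w ∈ S} M_w^* / 2`;
* `exists_sep`: for every number field `K` and every finite set `S` the pairing on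
  `∏_{v ∈ S} K_v^* / 2` separates the elements from the subgroups.
-/

set_option autoImplicit false

namespace Fermat.Agent.Cor.HM

open IsDedekindDomain NumberField WithZero Polynomial
open Fermat.Agent.CFT
open Fermat.Agent.CFT.SUnits (ord)
open Fermat.Agent.CFT.Global (E mem_E E_mono ClTrivial AboveP locPow mem_locPow pow_mem_locPow
  LocalSymbols symVec symVec_apply exists_good pairT pairT_apply toAdd_pairT pairT_eq_one_of_left
  pairT_eq_one_of_right sym_eq_one_of_pairT mem_iInf_locPow exists_perp')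
open Fermat.Agent.CFT.Global2 (GlobSym)

section Group

theorem mem_of_perp {G : Type*} [CommGroup G] (P : Subgroup G)
    (hP : P.index ≠ 0) (hGP : ∀ x : G, x ^ 2 ∈ P) (B : G →* G →* Multiplicative (ZMod 2))
    (hB : ∀ x, (∀ y, B x y = 1) → x ∈ P) (hBl : ∀ x ∈ P, ∀ y, B x y = 1)
    (hBr : ∀ x, ∀ y ∈ P, B x y = 1) (W : Subgroup G) (hPW : P ≤ W)
    (hW : ∀ x ∈ W, ∀ y ∈ W, B x y = 1) (hc : P.relIndex W ^ 2 = P.index) {x : G}
    (hx : ∀ y ∈ W, B x y = 1) : x ∈ W := by
  have h2 : ∀ a b : Multiplicative (ZMod 2), a ≠ 1 → b ≠ 1 → a = b := by decide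
  by_cases hxP : x ∈ P
  · exact hPW hxP
  obtain ⟨z, hz⟩ : ∃ z, B x z ≠ 1 := by
    by_contra h
    push Not at h
    exact hxP (hB x h)
  obtain ⟨X, hPX, hXW, hXH, hXc⟩ := exists_perp' 2 P hP hGP B hB hBl hBr W (B x).ker hPW hW hc
  have hWH : W ≤ (B x).ker := fun y hy => hx y hy
  have h3 : P.relIndex X ≠ 1 := by
    rw [hXc, sup_eq_right.2 hWH]
    intro h
    rw [Subgroup.index_eq_one] at h
    have : z ∈ (B x).ker := by rw [h]; trivial
    exact hz this
  rw [Ne, Subgroup.relIndex_eq_one] at h3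
  obtain ⟨x', hx', hxP'⟩ := Set.not_subset.1 h3
  obtain ⟨t, ht⟩ : ∃ t, B x' t ≠ 1 := by
    by_contra h
    push Not at h
    exact hxP' (hB x' h)
  have ht' : B x t ≠ 1 := fun h' => ht (hXH x' hx' t h')
  have h4 : ∀ y, B x' y = B x y := by
    intro y
    by_cases h : B x y = 1
    · rw [h]
      exact hXH x' hx' y h
    · have h5 : B x' (y / t) = 1 := hXH x' hx' _ (by
        rw [MonoidHom.mem_ker, _root_.map_div, h2 _ _ h ht', div_self'])
      rw [_root_.map_div, div_eq_one] at h5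
      rw [h5]
      exact h2 _ _ ht h
  have h5 : x' / x ∈ P := hB _ (fun y => by
    rw [_root_.map_div, MonoidHom.div_apply, h4, div_self'])
  have h6 := W.mul_mem (W.inv_mem (hPW h5)) (hXW hx')
  rwa [inv_div, div_mul_cancel] at h6

theorem exists_sep_fin {Q : Type*} [CommGroup Q] [Finite Q] (hQ : ∀ x : Q, x ^ 2 = 1)
    (B : Q →* Q →* Multiplicative (ZMod 2)) (hB : ∀ x, (∀ y, B x y = 1) → x = 1)
    (H : Subgroup Q) {c : Q} (hc : c ∉ H) : ∃ a, (∀ h ∈ H, B a h = 1) ∧ B a c ≠ 1 := by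
  let V := Additive Q
  let _ : Module (ZMod 2) V := AddCommGroup.zmodModule (n := 2) fun x => hQ x.toMul
  have : Finite V := inferInstanceAs (Finite Q)
  let B' : V →ₗ[ZMod 2] Module.Dual (ZMod 2) V :=
    AddMonoidHom.toZModLinearMap 2
      { toFun := fun x => AddMonoidHom.toZModLinearMap 2 (MonoidHom.toAdditiveLeft (B x.toMul))
        map_zero' := by
          ext y
          change (B 1 y.toMul).toAdd = 0
          rw [map_one]
          rfl
        map_add' := fun x y => by
          ext z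
          change (B (x.toMul * y.toMul) z.toMul).toAdd = _
          rw [map_mul]
          rfl }
  have hB'apply : ∀ x y : V, B' x y = (B x.toMul y.toMul).toAdd := fun x y => rfl
  have hinj : Function.Injective B' := by
    rw [injective_iff_map_eq_zero]
    intro x hx
    have : x.toMul = 1 := by
      apply hB
      intro y
      have h1 : B' x (Additive.ofMul y) = 0 := by rw [hx]; rfl
      rw [hB'apply] at h1
      exact h1
    exact this
  have hs : Function.Surjective B' := by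
    have h1 : Module.finrank (ZMod 2) V = Module.finrank (ZMod 2) (Module.Dual (ZMod 2) V) :=
      (Subspace.dual_finrank_eq (K := ZMod 2) (V := V)).symm
    exact (LinearMap.injective_iff_surjective_of_finrank_eq_finrank h1).1 hinj
  let H' : Submodule (ZMod 2) V := AddSubgroup.toZModSubmodule 2 (Subgroup.toAddSubgroup H)
  have hc' : Additive.ofMul c ∉ H' := fun h => hc h
  obtain ⟨f, hf, hfH⟩ := Submodule.exists_le_ker_of_notMem hc'
  obtain ⟨a, ha⟩ := hs f
  refine ⟨a.toMul, fun h hh => ?_, fun h => hf ?_⟩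
  · have h1 : B' a (Additive.ofMul h) = 0 := by
      rw [ha]
      exact hfH (show Additive.ofMul h ∈ H' from hh)
    exact h1
  · rw [← ha, hB'apply, toMul_ofMul, h]
    rfl

theorem exists_sep_group {G : Type*} [CommGroup G] (P : Subgroup G)
    (hP : P.index ≠ 0) (hGP : ∀ x : G, x ^ 2 ∈ P) (B : G →* G →* Multiplicative (ZMod 2))
    (hB : ∀ x, (∀ y, B x y = 1) → x ∈ P) (hBl : ∀ x ∈ P, ∀ y, B x y = 1)
    (hBr : ∀ x, ∀ y ∈ P, B x y = 1) (H : Subgroup G) {c : G} (hc : c ∉ H ⊔ P) :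
    ∃ a, (∀ h ∈ H, B a h = 1) ∧ B a c ≠ 1 := by
  have hfin : Finite (G ⧸ P) := Nat.finite_of_card_ne_zero hP
  let π := QuotientGroup.mk' P
  have hπs : Function.Surjective π := QuotientGroup.mk'_surjective P
  have hπk : π.ker = P := QuotientGroup.ker_mk' P
  let B₁ : G → (G ⧸ P) →* Multiplicative (ZMod 2) := fun x =>
    QuotientGroup.lift P (B x) (fun y hy => hBr x y hy)
  let B₂ : G →* (G ⧸ P) →* Multiplicative (ZMod 2) :=
    { toFun := B₁
      map_one' := by
        ext y
        change B 1 y = 1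
        rw [map_one]; rfl
      map_mul' := fun x x' => by
        ext y
        change B (x * x') y = B x y * B x' y
        rw [map_mul]; rfl }
  let B₃ : (G ⧸ P) →* (G ⧸ P) →* Multiplicative (ZMod 2) :=
    QuotientGroup.lift P B₂ (fun x hx => by
      ext y
      exact hBl x hx y)
  have hB₃ : ∀ x y : G, B₃ (π x) (π y) = B x y := fun x y => rfl
  have hQ : ∀ x : G ⧸ P, x ^ 2 = 1 := by
    intro x
    obtain ⟨x, rfl⟩ := hπs x
    rw [← map_pow, ← MonoidHom.mem_ker, hπk]
    exact hGP x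
  obtain ⟨a, ha, hac⟩ := exists_sep_fin hQ B₃ (by
      intro x hx
      obtain ⟨x, rfl⟩ := hπs x
      rw [← MonoidHom.mem_ker, hπk]
      exact hB x fun y => by rw [← hB₃]; exact hx _) (H.map π) (c := π c) (by
      rintro ⟨h, hh, hhc⟩
      apply hc
      have h1 : h⁻¹ * c ∈ P := by
        rw [← hπk, MonoidHom.mem_ker, map_mul, map_inv, hhc, inv_mul_cancel]
      exact Subgroup.mem_sup.2 ⟨h, hh, _, h1, mul_inv_cancel_left h c⟩)
  obtain ⟨a, rfl⟩ := hπs a
  exact ⟨a, fun h hh => ha _ ⟨h, hh, rfl⟩, hac⟩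

end Group

section Pair

variable {K : Type} [Field K] [NumberField K]

lemma prod_sym_eq_pairT (LS : LocalSymbols 2 K) (S : Finset (HeightOneSpectrum (𝓞 K)))
    (x y : Kˣ) : ∏ v ∈ S, LS.sym v x y = pairT LS (fun _ => 1) S x y := by
  rw [pairT_apply]
  exact Finset.prod_congr rfl fun v _ => (pow_one _).symm

lemma index_iInf_locPow_ne_zero (S : Finset (HeightOneSpectrum (𝓞 K))) :
    (⨅ v ∈ S, locPow 2 v : Subgroup Kˣ).index ≠ 0 := by
  obtain ⟨T, hST, hT, -, -⟩ := exists_good (K := K) 2 two_ne_zero S ∅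
  have h1 := (Global2.inputs (p := 2)).localCount K (-1)
    (IsPrimitiveRoot.neg_one 0 (by norm_num)) T hT
  have h2 : (⨅ v ∈ T, locPow 2 v : Subgroup Kˣ) ≤ ⨅ v ∈ S, locPow 2 v :=
    le_iInf₂ fun v hv => iInf₂_le v (hST hv)
  intro h0
  have h3 := Subgroup.index_dvd_of_le h2
  rw [h0, zero_dvd_iff, h1] at h3
  exact pow_ne_zero _ two_ne_zero h3

lemma mem_of_pairT (LS : LocalSymbols 2 K) (S : Finset (HeightOneSpectrum (𝓞 K))) (x : Kˣ)
    (hx : ∀ y, pairT LS (fun _ => 1) S x y = 1) : x ∈ (⨅ v ∈ S, locPow 2 v : Subgroup Kˣ) := by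
  rw [mem_iInf_locPow]
  intro v hv
  rw [LS.mem_locPow_iff]
  exact fun y => sym_eq_one_of_pairT LS (fun _ => one_ne_zero) hv y fun y' _ _ => hx y'

/-- **Separation**: the Hilbert pairing on `∏_{v ∈ S} K_v^* / 2` separates the elements from the
subgroups. -/
theorem exists_sep (LS : LocalSymbols 2 K) (S : Finset (HeightOneSpectrum (𝓞 K)))
    (H : Subgroup Kˣ) {c : Kˣ} (hc : c ∉ H ⊔ ⨅ v ∈ S, locPow 2 v) :
    ∃ a : Kˣ, (∀ h ∈ H, ∏ v ∈ S, LS.sym v a h = 1) ∧ ∏ v ∈ S, LS.sym v a c ≠ 1 := by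
  simp only [prod_sym_eq_pairT]
  exact exists_sep_group _ (index_iInf_locPow_ne_zero S)
    (fun x => mem_iInf_locPow.2 fun v _ => pow_mem_locPow 2 v x) (pairT LS (fun _ => 1) S)
    (mem_of_pairT LS S) (fun x hx y => pairT_eq_one_of_left LS _ (mem_iInf_locPow.1 hx))
    (fun x y hy => pairT_eq_one_of_right LS _ (mem_iInf_locPow.1 hy)) H hc

end Pair

section Dual

variable {M : Type} [Field M] [NumberField M] [IsTotallyComplex M]

/-- An `S`-unit which is a square locally at `S` is a square. -/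
theorem sq_of_E {S : Finset (HeightOneSpectrum (𝓞 M))} (hS : AboveP 2 S) (hcl : ClTrivial S)
    {u : Mˣ} (hu : u ∈ E S) (h : ∀ w ∈ S, u ∈ locPow 2 w) : ∃ b : Mˣ, b ^ 2 = u := by
  by_contra hcon
  push Not at hcon
  obtain ⟨G⟩ := Global2.nonempty_globSym M
  have h1 := Global2.p_dvd_index (Global2.inputs (p := 2)) G.LS
    (IsPrimitiveRoot.neg_one (R := M) 0 (by norm_num)) hS hcl hu hcon
  have h2 : (⨅ v ∈ S, G.LS.N v u) = ⊤ := by
    rw [eq_top_iff]
    refine le_iInf₂ fun v hv => ?_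
    rw [G.LS.N_eq_top (h v hv)]
  rw [h2, top_sup_eq, Subgroup.index_top] at h1
  exact absurd h1 (by decide)

/-- **The `S`-units are their own orthogonal complement** in `∏_{w ∈ S} M_w^* / 2`. -/
theorem exists_E_of_orth (G : GlobSym M) {S : Finset (HeightOneSpectrum (𝓞 M))}
    (hS : AboveP 2 S) (hcl : ClTrivial S) {y : Mˣ}
    (h : ∀ u ∈ E S, ∏ w ∈ S, G.LS.sym w u y = 1) : ∃ u ∈ E S, ∀ w ∈ S, y / u ∈ locPow 2 w := by
  have hζ : IsPrimitiveRoot (-1 : M) 2 := IsPrimitiveRoot.neg_one 0 (by norm_num)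
  have In := Global2.inputs (p := 2)
  set P : Subgroup Mˣ := ⨅ v ∈ S, locPow 2 v with hPdef
  set B := pairT G.LS (fun _ => 1) S with hBdef
  have hPidx : P.index = 2 ^ (2 * S.card + Module.finrank ℚ M) := In.localCount M (-1) hζ S hS
  have hP0 : P.index ≠ 0 := by rw [hPidx]; exact pow_ne_zero _ two_ne_zero
  -- the index of `P` in `E S · P`
  have hrel : P.relIndex (E S ⊔ P) ^ 2 = P.index := by
    have h1 : P.relIndex (E S ⊔ P) = P.relIndex (E S) := Subgroup.relIndex_sup_right _ _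
    have h2 : P.relIndex (E S) = (Global2.powE 2 S).index := by
      rw [Subgroup.relIndex]
      congr 1
      ext x
      rw [Subgroup.mem_subgroupOf, Global2.mem_powE Nat.prime_two]
      constructor
      · exact fun hx => sq_of_E hS hcl x.2 (mem_iInf_locPow.1 hx)
      · rintro ⟨b, hb⟩
        rw [← hb]
        exact mem_iInf_locPow.2 fun v _ => pow_mem_locPow 2 v b
    rw [h1, h2, Global2.index_powE Nat.prime_two hζ, hPidx, Global2.finrank_eq_two_mul_rank M,
      ← pow_mul]
    congr 1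
    ring
  -- isotropy
  have hl : ∀ x ∈ P, ∀ y, B x y = 1 := fun x hx y =>
    pairT_eq_one_of_left G.LS _ (mem_iInf_locPow.1 hx)
  have hr : ∀ x, ∀ y ∈ P, B x y = 1 := fun x y hy =>
    pairT_eq_one_of_right G.LS _ (mem_iInf_locPow.1 hy)
  have hiso : ∀ x ∈ E S ⊔ P, ∀ y ∈ E S ⊔ P, B x y = 1 := by
    intro x hx y hy
    obtain ⟨e, he, a, ha, rfl⟩ := Subgroup.mem_sup.1 hx
    obtain ⟨e', he', b, hb, rfl⟩ := Subgroup.mem_sup.1 hy
    have h1 : B e e' = 1 := by
      apply Multiplicative.toAdd.injective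
      rw [hBdef, toAdd_pairT, toAdd_one, ← G.prod e e']
      symm
      refine (Finsupp.sum_of_support_subset _ (fun v hv => ?_) _ (fun v _ => rfl)).trans
        (Finset.sum_congr rfl fun v _ => (one_mul _).symm)
      by_contra hvT
      refine (Finsupp.mem_support_iff.1 hv) ?_
      rw [symVec_apply, G.LS.sym_unit hS he he' hvT, toAdd_one]
    rw [map_mul B, MonoidHom.mul_apply, hl a ha, mul_one, map_mul, hr _ b hb, mul_one, h1]
  have hskew : ∀ u, B u y = 1 → B y u = 1 := by
    intro u hu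
    have h1 : (∏ w ∈ S, G.LS.sym w y u) * (∏ w ∈ S, G.LS.sym w u y) = 1 := by
      rw [← Finset.prod_mul_distrib]
      exact Finset.prod_eq_one fun w _ => G.LS.skew w y u
    rw [prod_sym_eq_pairT, prod_sym_eq_pairT] at h1
    change B y u * B u y = 1 at h1
    rwa [hu, mul_one] at h1
  have hmem : y ∈ E S ⊔ P := by
    refine mem_of_perp P hP0 (fun x => mem_iInf_locPow.2 fun v _ => pow_mem_locPow 2 v x) B
      (mem_of_pairT G.LS S) hl hr (E S ⊔ P) le_sup_right hiso hrel ?_
    intro z hz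
    obtain ⟨e, he, a, ha, rfl⟩ := Subgroup.mem_sup.1 hz
    have h1 := h e he
    rw [prod_sym_eq_pairT] at h1
    rw [map_mul, hr _ a ha, mul_one]
    exact hskew e h1
  obtain ⟨u, hu, a, ha, rfl⟩ := Subgroup.mem_sup.1 hmem
  refine ⟨u, hu, ?_⟩
  rw [mul_div_cancel_left]
  exact mem_iInf_locPow.1 ha

end Dual

end Fermat.Agent.Cor.HM
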