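import Fermat.Agent.Corollaries.HM.Global

/-!
# Quadratic extensions `K(√δ)/K` are unramified at the places `v ∤ 2` with `ord_v δ = 0`
-/

set_option autoImplicit false

namespace Fermat.Agent.Cor.HM

open IsDedekindDomain NumberField WithZero Polynomial
open Fermat.Agent.CFT Fermat.Agent.CFT.Global Fermat.Agent.CFT.Global2 Fermat.Agent.CFT.Bridge
open Fermat.Agent.CFT.SUnits (ord valuation_eq_exp_neg_ord ord_eq_zero_iff)

section Unr

variable {K : Type} [Field K] [NumberField K] {M : Type} [Field M] [NumberField M] [Algebra K M]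

/-- The ramification index of `w` in `M = K + K r`, `r ^ 2 = δ`, is `1` if `w ∤ 2` and `δ` is a
unit at `w`. -/
theorem ramificationIdx'_eq_one {δ : Kˣ} {r : M} (hr : r ^ 2 = algebraMap K M δ)
    (hM : ∀ z : M, ∃ x y : K, z = algebraMap K M x + algebraMap K M y * r)
    (w : HeightOneSpectrum (𝓞 M)) (h2 : (2 : 𝓞 K) ∉ (w.under (𝓞 K)).asIdeal)
    (hδ : ord (w.under (𝓞 K)) δ = 0) :
    (w.under (𝓞 K)).asIdeal.ramificationIdx' w.asIdeal = 1 := by
  set v := w.under (𝓞 K) with hv
  set e := v.asIdeal.ramificationIdx' w.asIdeal with he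
  have hval : ∀ x : K, w.valuation M (algebraMap K M x) = v.valuation K x ^ e := fun x =>
    Places.valuation_algebraMap w x
  -- the values of the form `exp (- e k)`
  have hQK : ∀ x : K, x ≠ 0 → ∃ k : ℤ, w.valuation M (algebraMap K M x) = exp (-((e : ℤ) * k)) := by
    intro x hx
    refine ⟨ord v (Units.mk0 x hx), ?_⟩
    have h1 := valuation_eq_exp_neg_ord (K := K) v (Units.mk0 x hx)
    rw [Units.val_mk0] at h1
    rw [hval, h1, ← exp_nsmul, nsmul_eq_mul, mul_neg]
  have hQmul : ∀ x y : M, (∃ k : ℤ, w.valuation M x = exp (-((e : ℤ) * k))) →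
      (∃ k : ℤ, w.valuation M y = exp (-((e : ℤ) * k))) →
      ∃ k : ℤ, w.valuation M (x * y) = exp (-((e : ℤ) * k)) := by
    rintro x y ⟨k, hk⟩ ⟨l, hl⟩
    refine ⟨k + l, ?_⟩
    rw [map_mul, hk, hl, ← exp_add]
    congr 1
    ring
  have h2v : v.valuation K (2 : K) = 1 := by
    have h1 := v.valuation_le_one (K := K) (2 : 𝓞 K)
    have h3 := (v.valuation_lt_one_iff_mem (K := K) (2 : 𝓞 K)).not.mpr h2
    exact le_antisymm h1 (not_lt.mp h3)
  have hr1 : w.valuation M r = 1 := by
    have h1 : w.valuation M (r ^ 2) = 1 := by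
      rw [hr, hval, (ord_eq_zero_iff K v δ).1 hδ, one_pow]
    rw [map_pow] at h1
    exact (pow_eq_one_iff_of_nonneg zero_le two_ne_zero).1 h1
  have hQr : ∃ k : ℤ, w.valuation M r = exp (-((e : ℤ) * k)) := ⟨0, by rw [hr1]; simp⟩
  -- `u + r`
  have hQu : ∀ u : K, u ≠ 0 → algebraMap K M u + r ≠ 0 →
      ∃ k : ℤ, w.valuation M (algebraMap K M u + r) = exp (-((e : ℤ) * k)) := by
    intro u hu hur
    by_cases h1 : w.valuation M (algebraMap K M u) = 1
    · by_cases h3 : w.valuation M (algebraMap K M u + r) = 1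
      · exact ⟨0, by rw [h3]; simp⟩
      · have h4 : w.valuation M (algebraMap K M u + r) < 1 := by
          refine lt_of_le_of_ne ((Valuation.map_add _ _ _).trans ?_) h3
          rw [h1, hr1, max_self]
        have h5 : w.valuation M (algebraMap K M u - r) = 1 := by
          have h6 : algebraMap K M u - r = algebraMap K M (2 * u) - (algebraMap K M u + r) := by
            rw [map_mul, map_ofNat]
            ring
          have h7 : w.valuation M (algebraMap K M (2 * u)) = 1 := by
            rw [map_mul, map_mul, h1, mul_one, hval, h2v, one_pow]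
          rw [h6, Valuation.map_sub_eq_of_lt_left]
          · exact h7
          · rw [h7]
            exact h4
        have h6 : algebraMap K M (u ^ 2 - δ) = (algebraMap K M u + r) * (algebraMap K M u - r) := by
          rw [map_sub, map_pow, ← hr]
          ring
        have h7 : w.valuation M (algebraMap K M (u ^ 2 - δ)) =
            w.valuation M (algebraMap K M u + r) := by
          rw [h6, map_mul, h5, mul_one]
        rw [← h7]
        apply hQK
        intro h8
        rw [h8, map_zero, map_zero, eq_comm, Valuation.zero_iff] at h7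
        exact hur h7
    · rcases lt_or_gt_of_ne h1 with h | h
      · refine ⟨0, ?_⟩
        rw [Valuation.map_add_eq_of_lt_right _ (by rw [hr1]; exact h), hr1]
        simp
      · rw [Valuation.map_add_eq_of_lt_left _ (by rw [hr1]; exact h)]
        exact hQK u hu
  obtain ⟨ϖ, hϖ⟩ := w.valuation_exists_uniformizer M
  have hϖ0 : ϖ ≠ 0 := by
    rintro rfl
    rw [map_zero] at hϖ
    exact exp_ne_zero hϖ.symm
  have hQ : ∃ k : ℤ, w.valuation M ϖ = exp (-((e : ℤ) * k)) := by
    obtain ⟨x, y, hxy⟩ := hM ϖ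
    by_cases hy : y = 0
    · rw [hy, map_zero, zero_mul, add_zero] at hxy
      rw [hxy]
      apply hQK
      rintro rfl
      rw [map_zero] at hxy
      exact hϖ0 hxy
    by_cases hx : x = 0
    · rw [hx, map_zero, zero_add] at hxy
      rw [hxy]
      exact hQmul _ _ (hQK y hy) hQr
    · have h1 : ϖ = algebraMap K M y * (algebraMap K M (x / y) + r) := by
        rw [hxy, _root_.map_div₀]
        have : algebraMap K M y ≠ 0 := (_root_.map_ne_zero _).2 hy
        field_simp
      have h3 : algebraMap K M (x / y) + r ≠ 0 := by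
        intro h
        rw [h, mul_zero] at h1
        exact hϖ0 h1
      rw [h1]
      exact hQmul _ _ (hQK y hy) (hQu _ (div_ne_zero hx hy) h3)
  obtain ⟨k, hk⟩ := hQ
  rw [hϖ, exp_inj] at hk
  have h3 : (e : ℤ) * k = 1 := by omega
  have h4 : (e : ℤ) ∣ 1 := ⟨k, h3.symm⟩
  have h5 := Int.eq_one_of_dvd_one (by positivity) h4
  exact_mod_cast h5

/-- `K(√δ)/K` is unramified at the places `w ∤ 2` with `ord_w δ = 0`. -/
theorem ord_map_of_unr {δ : Kˣ} {r : M} (hr : r ^ 2 = algebraMap K M δ)
    (hM : ∀ z : M, ∃ x y : K, z = algebraMap K M x + algebraMap K M y * r)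
    (w : HeightOneSpectrum (𝓞 M)) (h2 : (2 : 𝓞 K) ∉ (w.under (𝓞 K)).asIdeal)
    (hδ : ord (w.under (𝓞 K)) δ = 0) (x : Kˣ) :
    ord w (mapU K M x) = ord (w.under (𝓞 K)) x := by
  have h1 := valuation_eq_exp_neg_ord (K := M) w (mapU K M x)
  have h3 : ((mapU K M x : Mˣ) : M) = algebraMap K M x := rfl
  rw [h3, Places.valuation_algebraMap, ramificationIdx'_eq_one hr hM w h2 hδ, pow_one,
    valuation_eq_exp_neg_ord, exp_inj] at h1
  omega

end Unr

section Rad

variable {K : Type} [Field K] [NumberField K]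

omit [NumberField K] in
lemma rad_two_span (δ : Kˣ) (z : Rad 2 δ) : ∃ x y : K,
    z = algebraMap K (Rad 2 δ) x + algebraMap K (Rad 2 δ) y * AdjoinRoot.root _ := by
  refine ⟨(quadBasis (δ : K)).repr z 0, (quadBasis (δ : K)).repr z 1, ?_⟩
  have h1 := (quadBasis (δ : K)).sum_repr z
  rw [Fin.sum_univ_two, quadBasis_zero, quadBasis_one] at h1
  rw [Algebra.smul_def, Algebra.smul_def, mul_one] at h1
  exact h1.symm

/-- `K(√δ)/K` is unramified at the places `w ∤ 2` with `ord_w δ = 0`. -/
theorem ord_mapU_rad {δ : Kˣ} [Fact (Irreducible (X ^ 2 - C (δ : K)))] [NumberField (Rad 2 δ)]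
    (w : HeightOneSpectrum (𝓞 (Rad 2 δ))) (h2 : (2 : 𝓞 K) ∉ (w.under (𝓞 K)).asIdeal)
    (hδ : ord (w.under (𝓞 K)) δ = 0) (x : Kˣ) :
    ord w (mapU K (Rad 2 δ) x) = ord (w.under (𝓞 K)) x :=
  ord_map_of_unr (r := AdjoinRoot.root (X ^ 2 - C (δ : K))) (root_X_pow_sub_C_pow 2 (δ : K))
    (rad_two_span δ) w h2 hδ x

end Rad

end Fermat.Agent.Cor.HM
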