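import Fermat.Agent.Corollaries.HM.PosRecip
import Fermat.Agent.Corollaries.HM.DualS
import Fermat.Agent.Corollaries.HM.UnrQuad
import Fermat.Agent.CFT.Global.H1

/-!
# Sums of two squares in number fields with a real place

`K` a number field with a real embedding: a totally positive `c ∈ Kˣ` which is a sum of two squares
in every `K_v` is a sum of two squares in `K`.
-/

set_option autoImplicit false
set_option maxHeartbeats 400000

namespace Fermat.Agent.Cor.HM

open IsDedekindDomain NumberField WithZero Polynomial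
open Fermat.Agent.CFT Fermat.Agent.CFT.Global Fermat.Agent.CFT.Global2 Fermat.Agent.CFT.Bridge
  Fermat.Agent.LT.Ext
open Fermat.Agent.CFT.SUnits (ord ord_mul ord_div ord_pow)

section Quad

variable {K M : Type} [Field K] [NumberField K] [Field M] [NumberField M] [Algebra K M]
  [IsGalois K M] (h2 : Module.finrank K M = 2) {σ : M ≃ₐ[K] M} (hσ : σ ≠ 1)

include h2 hσ in
lemma sU_mem_locPow {w : HeightOneSpectrum (𝓞 M)} {u : Mˣ} (h : u ∈ locPow 2 (Places.conj σ w)) :
    sU σ u ∈ locPow 2 w := by
  rw [mem_locPow] at h ⊢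
  intro n
  obtain ⟨y, hy⟩ := h n
  refine ⟨sU σ y, ?_⟩
  have h3 := (mem_cong_conj h2 hσ).mp (show u / y ^ 2 ∈ cong (Places.conj σ w) n from hy)
  rw [_root_.map_div, map_pow] at h3
  exact h3

include h2 hσ in
lemma sU_sU (x : Mˣ) : sU σ (sU σ x) = x := Units.ext (Unr.apply_apply h2 hσ _)

omit [NumberField K] [NumberField M] [IsGalois K M] in
lemma sU_mapU (x : Kˣ) : sU σ (mapU K M x) = mapU K M x := Units.ext (AlgEquiv.commutes σ _)

include h2 hσ in
/-- Hilbert 90 for quadratic extensions. -/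
lemma exists_eq_div {r : M} (hr0 : r ≠ 0) (hσr : σ r = -r) {b : Mˣ} (hb : b * sU σ b = 1) :
    ∃ d : Mˣ, b = sU σ d / d := by
  have hb' : (b : M) * σ b = 1 := congrArg Units.val hb
  by_cases h1 : (b : M) = -1
  · refine ⟨Units.mk0 r hr0, ?_⟩
    rw [eq_div_iff_mul_eq']
    apply Units.ext
    change (b : M) * r = σ r
    rw [h1, hσr, neg_one_mul]
  · have h3 : (1 : M) + σ b ≠ 0 := by
      intro h3
      apply h1
      have h4 : σ (b : M) = -1 := by linear_combination h3
      have h5 := congrArg σ h4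
      rw [Unr.apply_apply h2 hσ, map_neg, map_one] at h5
      exact h5
    refine ⟨Units.mk0 _ h3, ?_⟩
    rw [eq_div_iff_mul_eq']
    apply Units.ext
    change (b : M) * (1 + σ b) = σ (1 + σ b)
    rw [map_add, map_one, Unr.apply_apply h2 hσ]
    linear_combination hb'

end Quad

section Main

variable {K : Type} [Field K] [NumberField K]

lemma hmord (v : HeightOneSpectrum (𝓞 K)) (x : Kˣ) (m : ℤ) : ord v (x ^ m) = m * ord v x := by
  rcases m with m | m
  · rw [Int.ofNat_eq_natCast, zpow_natCast, ord_pow]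
  · rw [zpow_negSucc, Fermat.Agent.CFT.SUnits.ord_inv, ord_pow, Int.negSucc_eq]
    push_cast
    ring

/-- **Totally positive elements which are local sums of two squares are sums of two squares.** -/
theorem exists_sum_two_of_local (LS : LocalSymbols 2 K) (φ₀ : K →+* ℝ) {c : Kˣ}
    (hc : ∀ φ : K →+* ℝ, 0 < φ (c : K)) (hloc : ∀ v, LS.sym v (-1) c = 1) :
    ∃ s t : K, (c : K) = s ^ 2 + t ^ 2 := by
  classical
  have hsq : ∀ b : Kˣ, b ^ 2 ≠ -1 := by
    intro b hb
    have h1 := congrArg (fun x : Kˣ => φ₀ (x : K)) hb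
    simp only [Units.val_pow_eq_pow_val, Units.val_neg, map_pow, map_neg, Units.val_one,
      map_one] at h1
    nlinarith [sq_nonneg (φ₀ (b : K))]
  obtain ⟨M, _, _, _, _, σ, r, h2, hσ, hr, hσr, hcoord, hlin⟩ := exists_quad (-1 : Kˣ) hsq
  have hr' : r ^ 2 = -1 := by rw [hr, Units.val_neg, Units.val_one, map_neg, map_one]
  have hr0 : r ≠ 0 := by
    rintro rfl
    norm_num at hr'
  have hTC : IsTotallyComplex M := isTotallyComplex_of_no_real ⟨fun ψ => by
    have h1 := congrArg ψ hr'
    rw [map_pow, map_neg, map_one] at h1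
    nlinarith [sq_nonneg (ψ r)]⟩
  obtain ⟨G⟩ := nonempty_globSym M
  obtain ⟨S', -, hS'2, hS'cl, -⟩ := exists_good (K := M) 2 two_ne_zero ∅ ∅
  obtain ⟨S, hS'S, hS2, -, hSF⟩ := exists_good (K := K) 2 two_ne_zero
    (S'.image fun w => w.under (𝓞 K)) {c}
  have hcS : c ∈ E S := hSF c (Finset.mem_singleton_self c)
  have hsub : S' ⊆ above M S := fun w hw =>
    (mem_above M).mpr (hS'S (Finset.mem_image_of_mem _ hw))
  have hSM2 : AboveP 2 (above M S) := fun w hw => hsub (hS'2 w hw)
  have hSMcl : ClTrivial (above M S) := hS'cl.mono hsub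
  -- norms
  have hnorm : ∀ x y : K, σ (algebraMap K M x + algebraMap K M y * r) =
      algebraMap K M x - algebraMap K M y * r := by
    intro x y
    rw [map_add, map_mul, AlgEquiv.commutes, AlgEquiv.commutes, hσr]
    ring
  have hN : ∀ u : Mˣ, ∃ x y : K, ((normU M u : Kˣ) : K) = x ^ 2 + y ^ 2 := by
    intro u
    obtain ⟨x, y, hxy⟩ := hcoord u
    refine ⟨x, y, (algebraMap K M).injective ?_⟩
    have h3 : algebraMap K M ((normU M u : Kˣ) : K) = u * σ u := Unr.norm_eq_mul h2 hσ (u : M)
    rw [h3, hxy, hnorm, map_add, map_pow, map_pow]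
    linear_combination -(algebraMap K M y) ^ 2 * hr'
  -- the group of norms of `S`-units
  have hmem : c ∈ (E (above M S)).map (normU M : Mˣ →* Kˣ) ⊔ ⨅ v ∈ S, locPow 2 v := by
    by_contra hcon
    obtain ⟨a, ha1, ha2⟩ := exists_sep LS S _ hcon
    have horth : ∀ u ∈ E (above M S), ∏ w ∈ above M S, G.LS.sym w u (mapU K M a) = 1 := by
      intro u hu
      have h3 : ∏ w ∈ above M S, G.LS.sym w (mapU K M a) u = 1 := by
        rw [← Finset.prod_fiberwise_of_maps_to (s := above M S) (t := S)
          (g := fun w => w.under (𝓞 K)) (fun w hw => (mem_above M).mp hw)]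
        rw [← ha1 (normU M u) ⟨u, hu, rfl⟩]
        refine Finset.prod_congr rfl fun v hv => ?_
        rw [← prod_sym_eq_sym_normU h2 hσ LS G.LS v a u]
        refine Finset.prod_congr ?_ fun _ _ => rfl
        ext w
        rw [Finset.mem_filter, mem_above, mem_above, Finset.mem_singleton]
        constructor
        · exact fun h => h.2
        · intro h
          exact ⟨by rw [h]; exact hv, h⟩
      have h4 : (∏ w ∈ above M S, G.LS.sym w u (mapU K M a)) *
          ∏ w ∈ above M S, G.LS.sym w (mapU K M a) u = 1 := by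
        rw [← Finset.prod_mul_distrib]
        exact Finset.prod_eq_one fun w _ => G.LS.skew w u (mapU K M a)
      rwa [h3, mul_one] at h4
    obtain ⟨u, hu, hul⟩ := exists_E_of_orth G hSM2 hSMcl horth
    have hconj : ∀ w ∈ above M S, Places.conj σ w ∈ above M S := by
      intro w hw
      rw [mem_above] at hw ⊢
      rwa [Places.below_conj]
    obtain ⟨b, hb⟩ := sq_of_E hSM2 hSMcl (u := sU σ u / u)
      (div_mem (Fermat.Agent.CFT.FirstIneq.map_mem_E σ hu) hu) (by
        intro w hw
        have h3 := div_mem (hul w hw) (sU_mem_locPow h2 hσ (hul _ (hconj w hw)))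
        rwa [_root_.map_div, sU_mapU, div_div_div_cancel_left] at h3)
    have hbb : b * sU σ b = 1 := by
      have h3 : (b * sU σ b) ^ 2 = 1 := by
        rw [mul_pow, ← map_pow, hb, _root_.map_div, sU_sU h2 hσ, div_mul_div_cancel, div_self']
      have h4 : ((b : M) * σ b) ^ 2 = 1 := congrArg Units.val h3
      obtain ⟨x, y, hxy⟩ := hcoord b
      have h5 : (b : M) * σ b = algebraMap K M (x ^ 2 + y ^ 2) := by
        rw [hxy, hnorm, map_add, map_pow, map_pow]
        linear_combination -(algebraMap K M y) ^ 2 * hr'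
      have h6 : ((b : M) * σ b - 1) * ((b : M) * σ b + 1) = 0 := by linear_combination h4
      rcases mul_eq_zero.mp h6 with h | h
      · exact Units.ext (sub_eq_zero.mp h)
      · exfalso
        have h7 : algebraMap K M (x ^ 2 + y ^ 2 + 1) = algebraMap K M 0 := by
          rw [map_zero, map_add, ← h5, map_one, h]
        have h8 := congrArg φ₀ ((algebraMap K M).injective h7)
        rw [map_add, map_add, map_pow, map_pow, map_one, map_zero] at h8
        nlinarith [sq_nonneg (φ₀ x), sq_nonneg (φ₀ y)]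
    obtain ⟨d, hd⟩ := exists_eq_div h2 hσ hr0 hσr hbb
    have hfix : sU σ (u / d ^ 2) = u / d ^ 2 := by
      have h3 : sU σ u = u * b ^ 2 := by rw [hb, mul_div_cancel]
      have h4 : sU σ d = b * d := by rw [hd, div_mul_cancel]
      rw [_root_.map_div, map_pow, h3, h4, mul_pow, mul_comm u, mul_div_mul_left_eq_div]
    obtain ⟨z, hz⟩ := Unr.mem_range_of_fixed h2 hσ (x := ((u / d ^ 2 : Mˣ) : M))
      (congrArg Units.val hfix)
    have hz0 : z ≠ 0 := by
      rintro rfl
      rw [map_zero] at hz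
      exact (u / d ^ 2).ne_zero hz.symm
    set a₀ : Kˣ := Units.mk0 z hz0 with ha₀
    have ha₀' : mapU K M a₀ = u / d ^ 2 := Units.ext hz
    have h5 : ∀ v ∈ S, LS.sym v a c = LS.sym v a₀ c := by
      intro v hv
      rcases mem_or_mul_mem h2 hσ LS G.LS (δ := -1) (a := a / a₀) (v := v) hr hσr (by
        intro w hw
        have h6 : mapU K M (a / a₀) = mapU K M a / u * d ^ 2 := by
          rw [_root_.map_div, ha₀', div_div_eq_mul_div, div_mul_eq_mul_div]
        rw [h6]
        exact mul_mem (hul w ((mem_above M).mpr (by rw [hw]; exact hv))) (pow_mem_locPow 2 w d))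
        with h | h
      · have h6 := LS.sym_eq_one_of_left (x := c) h
        rwa [_root_.map_div, MonoidHom.div_apply, div_eq_one] at h6
      · have h6 := LS.sym_eq_one_of_left (x := c) h
        rwa [map_mul, MonoidHom.mul_apply, hloc v, one_mul, _root_.map_div, MonoidHom.div_apply,
          div_eq_one] at h6
    have h6 : ∀ v ∉ S, LS.sym v a₀ c = 1 := by
      intro v hv
      obtain ⟨w, rfl⟩ := Places.exists_below_eq M v
      have hv2 : ((2 : ℕ) : 𝓞 K) ∉ (w.under (𝓞 K)).asIdeal := fun h => hv (hS2 _ h)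
      have h7 : ord w (mapU K M a₀) = ord (w.under (𝓞 K)) a₀ := by
        refine ord_map_of_unr (δ := -1) hr hcoord w (by exact_mod_cast hv2) ?_ a₀
        rw [ord_neg]
        exact Fermat.Agent.CFT.SUnits.ord_one (K := K) (R := 𝓞 K) _
      have h8 : ord w u = 0 := mem_E.mp hu w (fun h => hv ((mem_above M).mp h))
      rw [ha₀', ord_div, ord_pow, h8] at h7
      obtain ⟨π, hπ⟩ := exists_ord_eq_one (w.under (𝓞 K))
      have h9 : LS.sym (w.under (𝓞 K)) (a₀ / (π ^ (-(ord w d))) ^ 2) c = 1 := by
        refine LS.unit_mem _ hv2 _ _ ?_ (mem_E.mp hcS _ hv)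
        rw [ord_div, ord_pow, ← h7, hmord, hπ]
        push_cast
        ring
      rw [_root_.map_div, MonoidHom.div_apply, map_pow, MonoidHom.pow_apply, sq, mul_self_eq_one,
        div_one] at h9
      exact h9
    have h7 := sum_symVec_of_pos LS hc a₀
    rw [Finsupp.sum_of_support_subset (s := S) _ (fun v hv => by
      by_contra h
      rw [Finsupp.mem_support_iff, symVec_apply, h6 v h] at hv
      exact hv rfl) _ (fun _ _ => rfl)] at h7
    apply ha2
    rw [Finset.prod_congr rfl h5]
    apply Multiplicative.toAdd.injective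
    rw [toAdd_prod, toAdd_one, ← h7]
    rfl
  -- conclusion
  obtain ⟨_, ⟨u, hu, rfl⟩, x, hx, hxc⟩ := Subgroup.mem_sup.mp hmem
  obtain ⟨s, t, hst⟩ := hN u
  have hxE : mapU K M x ∈ E (above M S) := by
    have h3 : x = c / normU M u := by rw [← hxc, mul_div_cancel_left]
    rw [h3, _root_.map_div, mapU_normU h2 hσ]
    exact div_mem (Fermat.Agent.CFT.Global.map_mem_E S hcS)
      (mul_mem hu (Fermat.Agent.CFT.FirstIneq.map_mem_E σ hu))
  obtain ⟨b, hb⟩ := sq_of_E hSM2 hSMcl hxE (fun w hw =>
    map_mem_locPow (mem_iInf_locPow.mp hx _ ((mem_above M).mp hw)))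
  obtain ⟨p, q, hpq⟩ := hcoord b
  have hb' : (algebraMap K M p + algebraMap K M q * r) ^ 2 = algebraMap K M (x : K) := by
    rw [← hpq]
    exact congrArg Units.val hb
  obtain ⟨h3, h4⟩ := hlin (p ^ 2 - q ^ 2 - x) (2 * (p * q)) (by
    rw [map_sub, map_sub, map_mul, map_mul, map_pow, map_pow, map_ofNat]
    linear_combination hb' - (algebraMap K M q) ^ 2 * hr')
  have hxc' : ((normU M u : Kˣ) : K) * x = c := congrArg Units.val hxc
  rcases mul_eq_zero.mp ((mul_eq_zero.mp h4).resolve_left two_ne_zero) with h | h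
  · exfalso
    have h5 : (x : K) = -q ^ 2 := by
      rw [h] at h3
      linear_combination -h3
    have h6 := hc φ₀
    rw [← hxc', hst, h5, map_mul, map_add, map_pow, map_pow, map_neg, map_pow] at h6
    nlinarith [mul_nonneg (add_nonneg (sq_nonneg (φ₀ s)) (sq_nonneg (φ₀ t))) (sq_nonneg (φ₀ q))]
  · refine ⟨s * p, t * p, ?_⟩
    rw [h] at h3
    rw [← hxc', hst]
    linear_combination -(s ^ 2 + t ^ 2) * h3

end Main

end Fermat.Agent.Cor.HM
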