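import Fermat.Agent.Corollaries.HM.NFThree
import Fermat.Agent.Corollaries.HM.NFFive
import Fermat.Agent.Corollaries.HM.ApproxReal
import Fermat.Agent.Corollaries.HM.TwoSq

/-!
# The theorem of Hasse and Minkowski over number fields

`K` is a number field; the places are the finite places `v` with completion
`v.adicCompletion K`, and the real places `w` (`w : InfinitePlace K`, `w.IsReal`) with completion
`w.Completion`, or the embeddings `σ : K →+* ℝ`.

* `hasse_minkowski_nf`: a quadratic form over `K` is isotropic iff it is isotropic over all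
  completions;
* `hasse_minkowski_nf_diag`: the same in coordinates;
* `exists_value_nf`: a quadratic form over `K` represents `c ∈ K` iff it does over all completions;
* `equivalent_nf`: regular quadratic forms over `K` are equivalent iff they are equivalent over all
  completions (weak Hasse principle);
* `not_anisotropic_of_five_le_nf`: forms in at least five variables are isotropic iff they are
  isotropic at the real places;
* `sum_four_squares_nf`: `c ∈ K` is a sum of four squares iff `σ c ≥ 0` for all `σ : K →+* ℝ`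
  (Siegel); `sum_two_squares_nf`, `sum_three_squares_nf`;
* `hasse_norm_nf`: `c = s ^ 2 - a t ^ 2` is solvable in `K` iff it is solvable in all completions
  (Hasse's norm theorem for quadratic extensions);
* `split_nf`: `a x ^ 2 + b y ^ 2 = z ^ 2` (splitting of quaternion algebras).
-/

set_option autoImplicit false

noncomputable section

namespace Fermat.Agent.Cor.HM

open IsDedekindDomain NumberField QuadraticMap
open scoped TensorProduct

/-- Sums of two squares: a totally positive `c ∈ Kˣ` with `(-1, c)_v = 1` for all finite `v` is a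
sum of two squares. -/
theorem twoSq_nf (K : Type) [Field K] [NumberField K] (h : Nonempty (K →+* ℝ)) : TwoSq K :=
  fun LS _ hc hloc => exists_sum_two_of_local LS h.some hc hloc

/-- The local-global principle for ternary forms. -/
theorem three_nf (K : Type) [Field K] [NumberField K] : Three K :=
  three_of_twoSq K (twoSq_nf K)

/-- The local-global principle for diagonal forms without zero coefficient. -/
theorem allDiag_nf (K : Type) [Field K] [NumberField K] : AllDiag K :=
  allDiag_of (fun L _ _ => three_nf L) K (approxStmt K)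

/-- Indefinite diagonal forms in at least five variables, without zero coefficient, are
isotropic. -/
theorem allFive_nf (K : Type) [Field K] [NumberField K] : AllFive K :=
  allFive_of (approxStmt K) (four_of_three (fun L _ _ => three_nf L) K)

variable {K : Type} [Field K] [NumberField K]

/-- **The theorem of Hasse and Minkowski over a number field**, in coordinates. -/
theorem hasse_minkowski_nf_diag {n : ℕ} (a : Fin n → K) :
    (∃ x : Fin n → K, x ≠ 0 ∧ ∑ i, a i * x i ^ 2 = 0) ↔
      (∀ v : HeightOneSpectrum (𝓞 K), ∃ x : Fin n → v.adicCompletion K, x ≠ 0 ∧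
        ∑ i, algebraMap K (v.adicCompletion K) (a i) * x i ^ 2 = 0) ∧
      ∀ σ : K →+* ℝ, ∃ x : Fin n → ℝ, x ≠ 0 ∧ ∑ i, σ (a i) * x i ^ 2 = 0 :=
  hasse_minkowski_all_diag_of (allDiag_nf K) a

section Forms

variable {V : Type*} [AddCommGroup V] [Module K V] [FiniteDimensional K V] [Invertible (2 : K)]

/-- **The theorem of Hasse and Minkowski over a number field.** -/
theorem hasse_minkowski_nf (Q : QuadraticForm K V) :
    ¬ Q.Anisotropic ↔
      (∀ v : HeightOneSpectrum (𝓞 K), ¬ (Q.baseChange (v.adicCompletion K)).Anisotropic) ∧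
      ∀ w : InfinitePlace K, w.IsReal → ¬ (Q.baseChange w.Completion).Anisotropic :=
  hasse_minkowski_all_of (allDiag_nf K) Q

/-- The theorem of Hasse and Minkowski with all the infinite places. -/
theorem hasse_minkowski_nf' (Q : QuadraticForm K V) :
    ¬ Q.Anisotropic ↔
      (∀ v : HeightOneSpectrum (𝓞 K), ¬ (Q.baseChange (v.adicCompletion K)).Anisotropic) ∧
      ∀ w : InfinitePlace K, ¬ (Q.baseChange w.Completion).Anisotropic := by
  constructor
  · exact fun h => ⟨fun v => not_anisotropic_baseChange Q h,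
      fun w => not_anisotropic_baseChange Q h⟩
  · exact fun h => (hasse_minkowski_nf Q).2 ⟨h.1, fun w _ => h.2 w⟩

/-- **Representation of numbers by quadratic forms over a number field** is a local question. -/
theorem exists_value_nf (Q : QuadraticForm K V) (c : K) :
    (∃ w : V, Q w = c) ↔
      (∀ v : HeightOneSpectrum (𝓞 K), ∃ x : v.adicCompletion K ⊗[K] V,
        (Q.baseChange (v.adicCompletion K)) x = algebraMap K (v.adicCompletion K) c) ∧
      ∀ w : InfinitePlace K, w.IsReal → ∃ x : w.Completion ⊗[K] V,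
        (Q.baseChange w.Completion) x = algebraMap K w.Completion c :=
  exists_value_all_of (allDiag_nf K) Q c

/-- **The weak Hasse principle over a number field.** -/
theorem equivalent_nf {V' : Type*} [AddCommGroup V'] [Module K V']
    [FiniteDimensional K V'] {Q : QuadraticForm K V} {Q' : QuadraticForm K V'}
    (hQ : (associated (R := K) Q).SeparatingLeft)
    (hQ' : (associated (R := K) Q').SeparatingLeft) :
    Q.Equivalent Q' ↔
      (∀ v : HeightOneSpectrum (𝓞 K),
        (Q.baseChange (v.adicCompletion K)).Equivalent (Q'.baseChange (v.adicCompletion K))) ∧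
      ∀ w : InfinitePlace K, w.IsReal →
        (Q.baseChange w.Completion).Equivalent (Q'.baseChange w.Completion) :=
  equivalent_all_of (allDiag_nf K) hQ hQ'

/-- **Forms in at least five variables** over a number field are isotropic if and only if they are
isotropic at the real places. -/
theorem not_anisotropic_of_five_le_nf (Q : QuadraticForm K V) (h : 5 ≤ Module.finrank K V) :
    ¬ Q.Anisotropic ↔
      ∀ w : InfinitePlace K, w.IsReal → ¬ (Q.baseChange w.Completion).Anisotropic :=
  not_anisotropic_of_five_le_all_of (allFive_nf K) Q h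

end Forms

/-- **Siegel's theorem**: the sums of four squares of a number field are the elements which are
non-negative for every real embedding. -/
theorem sum_four_squares_nf (c : K) :
    (∃ x y z t : K, c = x ^ 2 + y ^ 2 + z ^ 2 + t ^ 2) ↔ ∀ σ : K →+* ℝ, 0 ≤ σ c :=
  sum_four_squares_all_of (allFive_nf K) c

/-- Every sum of squares in a number field is a sum of four squares. -/
theorem sum_squares_nf {ι : Type*} (s : Finset ι) (f : ι → K) :
    ∃ x y z t : K, ∑ i ∈ s, f i ^ 2 = x ^ 2 + y ^ 2 + z ^ 2 + t ^ 2 :=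
  sum_squares_all_of (allFive_nf K) s f

/-- Representation of `c ≠ 0` by a diagonal form without zero coefficient, with signs at the real
embeddings. -/
theorem exists_value_diag_nf {n : ℕ} {a : Fin n → K} (ha : ∀ i, a i ≠ 0) {c : K} (hc : c ≠ 0) :
    (∃ x : Fin n → K, ∑ i, a i * x i ^ 2 = c) ↔
      (∀ v : HeightOneSpectrum (𝓞 K), ∃ x : Fin n → v.adicCompletion K,
        ∑ i, algebraMap K (v.adicCompletion K) (a i) * x i ^ 2 =
          algebraMap K (v.adicCompletion K) c) ∧
      ∀ σ : K →+* ℝ, ∃ i, 0 < σ (a i) * σ c := by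
  constructor
  · rintro ⟨x, hx⟩
    refine ⟨fun v => ⟨fun i => algebraMap K _ (x i), ?_⟩, fun σ => ?_⟩
    · rw [← hx, map_sum]
      exact Finset.sum_congr rfl fun i _ => by rw [map_mul, map_pow]
    · by_contra! hcon
      have h1 := congrArg σ hx
      rw [map_sum] at h1
      have h2 : 0 < σ c * σ c := mul_self_pos.2 ((map_ne_zero σ).2 hc)
      have h3 : σ c * σ c = ∑ i, (σ (a i) * σ c) * σ (x i) ^ 2 := by
        nth_rw 1 [← h1]
        rw [Finset.sum_mul]
        exact Finset.sum_congr rfl fun i _ => by rw [map_mul, map_pow]; ring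
      rw [h3] at h2
      exact absurd h2 (not_lt.2 (Finset.sum_nonpos fun i _ =>
        mul_nonpos_of_nonpos_of_nonneg (hcon i) (sq_nonneg _)))
  · rintro ⟨h1, h2⟩
    refine exists_value_of_snoc two_ne_zero ha (allDiag_nf K (n + 1) _ (fun i => ?_) (fun v => ?_)
      fun σ => ?_)
    · refine Fin.lastCases ?_ (fun j => ?_) i
      · rw [Fin.snoc_last]
        exact neg_ne_zero.2 hc
      · rw [Fin.snoc_castSucc]
        exact ha j
    · obtain ⟨y, hy0, hy⟩ := isotropic_snoc_of_value
        (a := fun i => algebraMap K (v.adicCompletion K) (a i)) (h1 v)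
      refine ⟨y, hy0, ?_⟩
      rw [← hy]
      refine Finset.sum_congr rfl fun i _ => ?_
      refine Fin.lastCases ?_ (fun j => ?_) i
      · rw [Fin.snoc_last, Fin.snoc_last, map_neg]
      · rw [Fin.snoc_castSucc, Fin.snoc_castSucc]
    · obtain ⟨i, hi⟩ := h2 σ
      rcases lt_or_gt_of_ne ((map_ne_zero σ).2 hc) with h | h
      · refine ⟨Fin.last n, Fin.castSucc i, ?_, ?_⟩
        · rw [Fin.snoc_last, map_neg]
          linarith
        · rw [Fin.snoc_castSucc]
          exact neg_of_mul_pos_left hi h.le
      · refine ⟨Fin.castSucc i, Fin.last n, ?_, ?_⟩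
        · rw [Fin.snoc_castSucc]
          exact (pos_iff_pos_of_mul_pos hi).2 h
        · rw [Fin.snoc_last, map_neg]
          linarith

/-- **Sums of two squares** in a number field. -/
theorem sum_two_squares_nf (c : K) : (∃ s t : K, c = s ^ 2 + t ^ 2) ↔
    (∀ v : HeightOneSpectrum (𝓞 K), ∃ s t : v.adicCompletion K,
      algebraMap K (v.adicCompletion K) c = s ^ 2 + t ^ 2) ∧ ∀ σ : K →+* ℝ, 0 ≤ σ c := by
  constructor
  · rintro ⟨s, t, rfl⟩
    exact ⟨fun v => ⟨algebraMap K _ s, algebraMap K _ t, by simp⟩, fun σ => by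
      rw [map_add, map_pow, map_pow]
      positivity⟩
  · rintro ⟨h1, h2⟩
    by_cases hc : c = 0
    · exact ⟨0, 0, by rw [hc]; ring⟩
    obtain ⟨x, hx⟩ := (exists_value_diag_nf (a := fun _ : Fin 2 => (1 : K))
      (fun _ => one_ne_zero) hc).2 ⟨fun v => by
        obtain ⟨s, t, h⟩ := h1 v
        exact ⟨![s, t], by rw [h, Fin.sum_univ_two]; simp⟩, fun σ => ⟨0, by
        rw [map_one, one_mul]
        exact lt_of_le_of_ne (h2 σ) ((map_ne_zero σ).2 hc).symm⟩⟩
    exact ⟨x 0, x 1, by rw [← hx, Fin.sum_univ_two, one_mul, one_mul]⟩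

/-- **Sums of three squares** in a number field. -/
theorem sum_three_squares_nf (c : K) : (∃ x y z : K, c = x ^ 2 + y ^ 2 + z ^ 2) ↔
    (∀ v : HeightOneSpectrum (𝓞 K), ∃ x y z : v.adicCompletion K,
      algebraMap K (v.adicCompletion K) c = x ^ 2 + y ^ 2 + z ^ 2) ∧
      ∀ σ : K →+* ℝ, 0 ≤ σ c := by
  constructor
  · rintro ⟨x, y, z, rfl⟩
    exact ⟨fun v => ⟨algebraMap K _ x, algebraMap K _ y, algebraMap K _ z, by simp⟩, fun σ => by
      rw [map_add, map_add, map_pow, map_pow, map_pow]
      positivity⟩
  · rintro ⟨h1, h2⟩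
    by_cases hc : c = 0
    · exact ⟨0, 0, 0, by rw [hc]; ring⟩
    obtain ⟨x, hx⟩ := (exists_value_diag_nf (a := fun _ : Fin 3 => (1 : K))
      (fun _ => one_ne_zero) hc).2 ⟨fun v => by
        obtain ⟨s, t, u, h⟩ := h1 v
        exact ⟨![s, t, u], by rw [h, Fin.sum_univ_three]; simp⟩, fun σ => ⟨0, by
        rw [map_one, one_mul]
        exact lt_of_le_of_ne (h2 σ) ((map_ne_zero σ).2 hc).symm⟩⟩
    exact ⟨x 0, x 1, x 2, by rw [← hx, Fin.sum_univ_three, one_mul, one_mul, one_mul]⟩

/-- **Hasse's norm theorem for quadratic extensions** of an arbitrary number field. -/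
theorem hasse_norm_nf {a c : K} (ha : a ≠ 0) (hc : c ≠ 0) :
    (∃ s t : K, c = s ^ 2 - a * t ^ 2) ↔
      (∀ v : HeightOneSpectrum (𝓞 K), ∃ s t : v.adicCompletion K,
        algebraMap K (v.adicCompletion K) c =
          s ^ 2 - algebraMap K (v.adicCompletion K) a * t ^ 2) ∧
      ∀ σ : K →+* ℝ, σ a < 0 → 0 < σ c := by
  have h0 : ∀ i, (![1, -a] : Fin 2 → K) i ≠ 0 := by
    intro i
    fin_cases i
    · exact one_ne_zero
    · exact neg_ne_zero.2 ha
  have key := exists_value_diag_nf h0 hc
  have e1 : (∃ s t : K, c = s ^ 2 - a * t ^ 2) ↔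
      ∃ x : Fin 2 → K, ∑ i, (![1, -a] : Fin 2 → K) i * x i ^ 2 = c := by
    constructor
    · rintro ⟨s, t, h⟩
      exact ⟨![s, t], by rw [h, Fin.sum_univ_two]; simp; ring⟩
    · rintro ⟨x, hx⟩
      exact ⟨x 0, x 1, by rw [← hx, Fin.sum_univ_two]; simp; ring⟩
  have e2 : ∀ v : HeightOneSpectrum (𝓞 K), (∃ s t : v.adicCompletion K,
      algebraMap K (v.adicCompletion K) c =
        s ^ 2 - algebraMap K (v.adicCompletion K) a * t ^ 2) ↔
      ∃ x : Fin 2 → v.adicCompletion K, ∑ i, algebraMap K (v.adicCompletion K)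
        ((![1, -a] : Fin 2 → K) i) * x i ^ 2 = algebraMap K (v.adicCompletion K) c := by
    intro v
    constructor
    · rintro ⟨s, t, h⟩
      exact ⟨![s, t], by rw [h, Fin.sum_univ_two]; simp; ring⟩
    · rintro ⟨x, hx⟩
      exact ⟨x 0, x 1, by rw [← hx, Fin.sum_univ_two]; simp; ring⟩
  have e3 : ∀ σ : K →+* ℝ, (σ a < 0 → 0 < σ c) ↔
      ∃ i, 0 < σ ((![1, -a] : Fin 2 → K) i) * σ c := by
    intro σ
    have ha' : σ a ≠ 0 := (map_ne_zero σ).2 ha
    have hc' : σ c ≠ 0 := (map_ne_zero σ).2 hc
    constructor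
    · intro h
      rcases lt_or_gt_of_ne hc' with h1 | h1
      · have h2 : 0 < σ a := by
          rcases lt_or_gt_of_ne ha' with h2 | h2
          · exact absurd (h h2) (not_lt.2 h1.le)
          · exact h2
        refine ⟨1, ?_⟩
        change 0 < σ (-a) * σ c
        rw [map_neg]
        exact mul_pos_of_neg_of_neg (by linarith) h1
      · refine ⟨0, ?_⟩
        change 0 < σ 1 * σ c
        rw [map_one, one_mul]
        exact h1
    · rintro ⟨i, hi⟩ h
      fin_cases i
      · change 0 < σ 1 * σ c at hi
        rwa [map_one, one_mul] at hi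
      · change 0 < σ (-a) * σ c at hi
        rw [map_neg] at hi
        exact (pos_iff_pos_of_mul_pos hi).1 (by linarith)
  rw [e1, key]
  exact and_congr (forall_congr' fun v => (e2 v).symm) (forall_congr' fun σ => (e3 σ).symm)

/-- **Splitting of quaternion algebras** over a number field is a local question:
`a x ^ 2 + b y ^ 2 = z ^ 2` has a non-trivial solution in `K` iff it has one in every completion. -/
theorem split_nf {a b : K} (ha : a ≠ 0) (hb : b ≠ 0) :
    (∃ x y z : K, ¬ (x = 0 ∧ y = 0 ∧ z = 0) ∧ a * x ^ 2 + b * y ^ 2 = z ^ 2) ↔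
      (∀ v : HeightOneSpectrum (𝓞 K), IsSplitAt v a b) ∧
      ∀ σ : K →+* ℝ, ¬ (σ a < 0 ∧ σ b < 0) := by
  constructor
  · rintro ⟨x, y, z, h0, h⟩
    refine ⟨fun v => ⟨algebraMap K _ x, algebraMap K _ y, algebraMap K _ z, fun h' => h0 ?_, ?_⟩,
      fun σ hσ => h0 ?_⟩
    · simpa using h'
    · rw [← map_pow, ← map_pow, ← map_pow, ← map_mul, ← map_mul, ← map_add, h]
    · have h1 := congrArg σ h
      rw [map_add, map_mul, map_mul, map_pow, map_pow, map_pow] at h1
      have hx : σ x = 0 := by
        by_contra hx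
        have h2 : 0 < σ x ^ 2 := by positivity
        nlinarith [sq_nonneg (σ y), sq_nonneg (σ z), mul_pos_of_neg_of_neg hσ.1 (neg_neg_of_pos h2),
          mul_nonneg (neg_nonneg.2 hσ.2.le) (sq_nonneg (σ y))]
      have hy : σ y = 0 := by
        by_contra hy
        have h2 : 0 < σ y ^ 2 := by positivity
        nlinarith [sq_nonneg (σ x), sq_nonneg (σ z), mul_pos_of_neg_of_neg hσ.2 (neg_neg_of_pos h2),
          mul_nonneg (neg_nonneg.2 hσ.1.le) (sq_nonneg (σ x))]
      rw [hx, hy] at h1
      have hz : σ z = 0 := by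
        have : σ z ^ 2 = 0 := by rw [← h1]; ring
        exact pow_eq_zero_iff two_ne_zero |>.1 this
      exact ⟨(map_eq_zero σ).1 hx, (map_eq_zero σ).1 hy, (map_eq_zero σ).1 hz⟩
  · rintro ⟨h1, h2⟩
    obtain ⟨x, hx0, hx⟩ := allDiag_nf K 3 ![a, b, -1] (fun i => by
        fin_cases i
        · exact ha
        · exact hb
        · exact neg_ne_zero.2 one_ne_zero) (fun v => by
        obtain ⟨x, y, z, h0, h⟩ := h1 v
        refine ⟨![x, y, z], fun h' => h0 ⟨congrFun h' 0, congrFun h' 1, congrFun h' 2⟩, ?_⟩
        rw [Fin.sum_univ_three]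
        simp only [Matrix.cons_val_zero, Matrix.cons_val_one, Matrix.cons_val, map_neg, map_one]
        linear_combination h) (fun σ => by
        have h3 := h2 σ
        rw [not_and_or, not_lt, not_lt] at h3
        rcases h3 with h3 | h3
        · refine ⟨0, 2, lt_of_le_of_ne h3 ((map_ne_zero σ).2 ha).symm, ?_⟩
          change σ (-1) < 0
          rw [map_neg, map_one]
          norm_num
        · refine ⟨1, 2, lt_of_le_of_ne h3 ((map_ne_zero σ).2 hb).symm, ?_⟩
          change σ (-1) < 0
          rw [map_neg, map_one]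
          norm_num)
    refine ⟨x 0, x 1, x 2, fun h' => hx0 ?_, ?_⟩
    · funext i
      fin_cases i
      · exact h'.1
      · exact h'.2.1
      · exact h'.2.2
    · rw [Fin.sum_univ_three] at hx
      simp only [Matrix.cons_val_zero, Matrix.cons_val_one, Matrix.cons_val] at hx
      linear_combination hx

end Fermat.Agent.Cor.HM
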