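import Fermat.Agent.Corollaries.HM.CyclicAll
import Fermat.Agent.Corollaries.HM.NumberField

/-!
# The Hasse norm theorem, all places

`hasse_norm_all_places`: `L / K` a cyclic extension of number fields (no other condition): `b ∈ K` is a
norm from `L` iff it is a norm from `K_v ⊗ L` for all places `v` of `K`, finite and infinite.
-/

set_option autoImplicit false
set_option linter.style.haveILetI false

namespace Fermat.Agent.Cor.HN

open NumberField IsDedekindDomain Module Fermat.Agent.LT.Ext Polynomial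
open Fermat.Agent.CFT.Global Fermat.Agent.CFT.Global2
open scoped TensorProduct

/-- `c` is a norm from `F ⊗[K] L`, `F` a `K`-algebra by `σ`. -/
def NormAt {K : Type*} [Field K] (L : Type*) [CommRing L] [Algebra K L] {F : Type*} [Field F]
    (σ : K →+* F) (c : F) : Prop :=
  letI := σ.toAlgebra
  NormOver K L F c

/-- The local conditions: all finite places and all real embeddings. -/
structure LocNorm (K L : Type) [Field K] [NumberField K] [Field L] [Algebra K L] (b : K) :
    Prop where
  fin : ∀ v : HeightOneSpectrum (𝓞 K), NormOver K L (v.adicCompletion K) (algebraMap K _ b)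
  real : ∀ σ : K →+* ℝ, NormAt L σ (σ b)

section Two

theorem normOver_two_iff {K F : Type*} [Field K] [Field F] [Algebra K F] (a b : Kˣ) :
    NormOver K (AdjoinRoot (X ^ 2 - C (a : K))) F (algebraMap K F b) ↔
      ∃ s t : F, algebraMap K F b = s ^ 2 - algebraMap K F a * t ^ 2 := by
  have hf : (X ^ 2 - C (a : K) : K[X]) ≠ 0 := X_pow_sub_C_ne_zero two_pos _
  have he : (X ^ 2 - C (a : K) : K[X]).map (algebraMap K F) =
      X ^ 2 - C ((Units.map (algebraMap K F : K →* F) a : Fˣ) : F) := by
    rw [Polynomial.map_sub, Polynomial.map_pow, map_X, map_C]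
    rfl
  rw [normOver_adjoinRoot_iff hf, he]
  exact isNormFrom_two_iff (Units.map (algebraMap K F : K →* F) a)
    (Units.map (algebraMap K F : K →* F) b)

/-- **The Hasse norm theorem for quadratic extensions**, all places. -/
theorem hasse_norm_two {K L : Type} [Field K] [NumberField K] [Field L] [Algebra K L]
    [FiniteDimensional K L] [IsGalois K L] (hd : finrank K L = 2) {b : K} (hb : b ≠ 0)
    (h : LocNorm K L b) : ∃ z : L, Algebra.norm K z = b := by
  have hζ : IsPrimitiveRoot (-1 : K) 2 := IsPrimitiveRoot.neg_one 0 (by norm_num)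
  obtain ⟨a, ⟨e⟩⟩ := exists_kummer_equiv Nat.prime_two hd hζ
  have h1 : ∃ s t : K, b = s ^ 2 - (a : K) * t ^ 2 := by
    rw [Fermat.Agent.Cor.HM.hasse_norm_nf a.ne_zero hb]
    constructor
    · intro v
      exact (normOver_two_iff a (Units.mk0 b hb)).mp ((h.fin v).congr e.symm)
    · intro σ hσ
      letI := σ.toAlgebra
      have h2 : NormOver K L ℝ (algebraMap K ℝ b) := h.real σ
      obtain ⟨s, t, hst⟩ := (normOver_two_iff (F := ℝ) a (Units.mk0 b hb)).mp (h2.congr e.symm)
      have h3 : σ b = s ^ 2 - σ a * t ^ 2 := hst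
      have h4 : 0 ≤ σ b := by
        rw [h3]
        nlinarith [sq_nonneg s, sq_nonneg t, mul_nonneg (neg_nonneg.2 hσ.le) (sq_nonneg t)]
      exact lt_of_le_of_ne h4 ((_root_.map_ne_zero σ).mpr hb).symm
  obtain ⟨z, hz⟩ := (isNormFrom_two_iff a (Units.mk0 b hb)).mpr h1
  exact ⟨e z, by rw [Algebra.norm_eq_of_algEquiv, hz]; rfl⟩

end Two

section Real

variable {K L : Type} [Field K] [NumberField K] [Field L] [Algebra K L] [FiniteDimensional K L]

theorem locNorm_of_norm {b : K} (h : ∃ z : L, Algebra.norm K z = b) : LocNorm K L b where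
  fin v := NormOver.of_norm h
  real σ := by
    letI := σ.toAlgebra
    exact NormOver.of_norm (F := ℝ) h

/-- The local conditions go up to an intermediate field. -/
theorem LocNorm.up [IsGalois K L] {σ : L ≃ₐ[K] L} {p m : ℕ}
    (hσ : ∀ g, g ∈ Subgroup.zpowers σ) (hn : finrank K L = p * m) (hp : p ≠ 0)
    [NumberField (Mid σ p)] {b : K} (h : LocNorm K L b) :
    LocNorm (Mid σ p) L (algebraMap K (Mid σ p) b) where
  fin := normOver_up_place hσ hn hp h.fin
  real τ := by
    letI a1 : Algebra (Mid σ p) ℝ := τ.toAlgebra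
    letI a2 : Algebra K ℝ := (τ.comp (algebraMap K (Mid σ p))).toAlgebra
    haveI a3 : IsScalarTower K (Mid σ p) ℝ := IsScalarTower.of_algebraMap_eq fun _ => rfl
    have h1 : NormOver K L ℝ ((τ.comp (algebraMap K (Mid σ p))) b) :=
      h.real (τ.comp (algebraMap K (Mid σ p)))
    exact normOver_up hσ hn hp h1

/-- The local dévissage at all places. -/
theorem LocNorm.mid [IsGalois K L] {σ : L ≃ₐ[K] L} {p m : ℕ}
    (hσ : ∀ g, g ∈ Subgroup.zpowers σ) (hn : finrank K L = p * m) (hp : p ≠ 0) (hm : m ≠ 0)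
    {b c : K} (hb : b ≠ 0) (hc : c ≠ 0) {u : L} (hu : Algebra.norm K u = c ^ m * b)
    (h : LocNorm K L b) : LocNorm K (Mid σ p) c := by
  have hd : finrank K L ≠ 0 := (finrank_pos).ne'
  constructor
  · intro v
    have hc0' : algebraMap K (v.adicCompletion K) c ≠ 0 := (_root_.map_ne_zero _).mpr hc
    have hb0'' : algebraMap K (v.adicCompletion K) b ≠ 0 := (_root_.map_ne_zero _).mpr hb
    apply normOver_mid hσ hn hp hm hc0'
    have h1 : NormOver K L (v.adicCompletion K) (algebraMap K _ (c ^ m * b)) :=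
      NormOver.of_norm ⟨u, hu⟩
    have h2 := h1.mul ((h.fin v).inv hd hb0'')
    rwa [map_mul, map_pow, mul_assoc, mul_inv_cancel₀ hb0'', mul_one] at h2
  · intro τ
    letI := τ.toAlgebra
    have hc0' : algebraMap K ℝ c ≠ 0 := (_root_.map_ne_zero _).mpr hc
    have hb0'' : algebraMap K ℝ b ≠ 0 := (_root_.map_ne_zero _).mpr hb
    have h0 : NormOver K L ℝ (algebraMap K ℝ b) := h.real τ
    have h1 : NormOver K L ℝ (algebraMap K ℝ (c ^ m * b)) := NormOver.of_norm ⟨u, hu⟩
    have h2 := h1.mul (h0.inv hd hb0'')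
    rw [map_mul, map_pow, mul_assoc, mul_inv_cancel₀ hb0'', mul_one] at h2
    exact normOver_mid hσ hn hp hm hc0' h2

end Real

set_option maxHeartbeats 1000000 in
/-- **The Hasse norm theorem** for cyclic extensions of number fields, with the real embeddings. -/
theorem exists_norm_of_locNorm {K L : Type} [Field K] [NumberField K] [Field L] [Algebra K L]
    [FiniteDimensional K L] [IsGalois K L] [IsCyclic (L ≃ₐ[K] L)] {b : K} (h : LocNorm K L b) :
    ∃ z : L, Algebra.norm K z = b := by
  rcases eq_or_ne b 0 with rfl | hb0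
  · exact ⟨0, Algebra.norm_zero⟩
  generalize hd : finrank K L = n
  induction n using Nat.strong_induction_on generalizing K with
  | _ n ih =>
    rcases eq_or_ne n 1 with rfl | hn1
    · exact ⟨algebraMap K L b, by rw [Algebra.norm_algebraMap, hd, pow_one]⟩
    have hn0 : n ≠ 0 := by rw [← hd]; exact (finrank_pos).ne'
    obtain ⟨p, hp, m, rfl⟩ : ∃ p, p.Prime ∧ p ∣ n := Nat.exists_prime_and_dvd hn1
    have hm0 : m ≠ 0 := right_ne_zero_of_mul hn0
    have hp0 := hp.ne_zero
    obtain ⟨σ, hσ⟩ := IsCyclic.exists_generator (α := L ≃ₐ[K] L)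
    have hgal := isGalois_mid hσ p
    have hnf : NumberField (Mid σ p) := NumberField.of_module_finite K (Mid σ p)
    have hcyc : IsCyclic (L ≃ₐ[Mid σ p] L) := ⟨⟨topMid σ p, topMid_gen σ p⟩⟩
    have hmlt : m < p * m := by
      have := hp.two_le
      have := Nat.pos_of_ne_zero hm0
      nlinarith
    have hb0' : algebraMap K (Mid σ p) b ≠ 0 := (_root_.map_ne_zero _).mpr hb0
    obtain ⟨y, hy⟩ := ih m hmlt (K := Mid σ p) (b := algebraMap K (Mid σ p) b)
      (h.up hσ hd hp0) hb0' (finrank_mid_top hσ hd hp0)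
    obtain ⟨c, u, hc0, hu⟩ := exists_norm_eq_pow_mul hσ hd hp0 hb0 hy
    have hc := h.mid hσ hd hp0 hm0 hb0 hc0 hu
    obtain ⟨s, hs⟩ : ∃ s : Mid σ p, Algebra.norm K s = c := by
      by_cases h2 : p = 2
      · subst h2
        exact hasse_norm_two (finrank_mid hσ hd hp0 hm0) hc0 hc
      · exact (hasse_norm_prime hp (finrank_mid hσ hd hp0 hm0) (Or.inl h2) c).mpr hc.fin
    have hs' := norm_algebraMap_mid hσ hd hp0 s
    rw [hs] at hs'
    exact ⟨_, norm_div_eq hc0 hu hs'⟩

section Final

variable {K L : Type} [Field K] [NumberField K] [Field L] [Algebra K L] [FiniteDimensional K L]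

/-- **The Hasse norm theorem** with the real embeddings of `K`. -/
theorem hasse_norm_embeddings [IsGalois K L] [IsCyclic (L ≃ₐ[K] L)] (b : K) :
    (∃ z : L, Algebra.norm K z = b) ↔
      (∀ v : HeightOneSpectrum (𝓞 K), NormOver K L (v.adicCompletion K) (algebraMap K _ b)) ∧
      ∀ σ : K →+* ℝ, NormAt L σ (σ b) :=
  ⟨fun h => ⟨(locNorm_of_norm h).fin, (locNorm_of_norm h).real⟩,
    fun h => exists_norm_of_locNorm ⟨h.1, h.2⟩⟩

/-- **The Hasse norm theorem** (Hasse 1931): `L / K` a cyclic extension of number fields, `b ∈ K`. Then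
`b` is a norm from `L` iff it is a norm from `K_v ⊗ L` for all places `v` of `K`, finite and
infinite. -/
theorem hasse_norm_all_places [IsGalois K L] [IsCyclic (L ≃ₐ[K] L)] (b : K) :
    (∃ z : L, Algebra.norm K z = b) ↔
      (∀ v : HeightOneSpectrum (𝓞 K), NormOver K L (v.adicCompletion K) (algebraMap K _ b)) ∧
      ∀ w : InfinitePlace K, NormOver K L w.Completion (algebraMap K _ b) := by
  constructor
  · exact fun h => ⟨fun v => NormOver.of_norm h, fun w => NormOver.of_norm h⟩
  · rintro ⟨h1, h2⟩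
    refine exists_norm_of_locNorm ⟨h1, fun σ => ?_⟩
    obtain ⟨w, hw, rfl⟩ := Fermat.Agent.Cor.HM.exists_place_of_ringHom σ
    letI := (InfinitePlace.embedding_of_isReal hw).toAlgebra
    let ψ : w.Completion →ₐ[K] ℝ :=
      { InfinitePlace.Completion.extensionEmbeddingOfIsReal hw with
        commutes' := fun x => Fermat.Agent.Cor.HM.extension_algebraMap hw x }
    have h3 := (h2 w).map ψ
    rw [AlgHom.commutes] at h3
    exact h3

end Final

end Fermat.Agent.Cor.HN
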