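import Fermat.Agent.Corollaries.HM.ClassifyNF
import Fermat.Agent.Corollaries.HM.RealExist

/-!
# The quadratic forms over a number field with given invariants

`exists_form_nf_iff`: the discriminants, signatures and sets of finite places with non-trivial Hasse
invariant which occur for the quadratic forms over a number field `K` in `n` variables.
-/

set_option autoImplicit false

namespace Fermat.Agent.Cor.HM

open IsDedekindDomain NumberField
open Fermat.Agent.CFT Fermat.Agent.CFT.Global Fermat.Agent.CFT.Global2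

section Aux

theorem odd_card_symmDiff_nf {α : Type*} [DecidableEq α] (T R : Finset α) :
    Odd (symmDiff T R).card ↔ ¬ (Odd T.card ↔ Odd R.card) := by
  have e1 := Finset.card_sdiff_add_card_inter T R
  have e2 := Finset.card_sdiff_add_card_inter R T
  rw [Finset.inter_comm R T] at e2
  have e3 : (symmDiff T R).card = (T \ R).card + (R \ T).card := by
    rw [symmDiff_def, Finset.sup_eq_union, Finset.card_union_of_disjoint]
    exact disjoint_sdiff_sdiff
  rw [e3]
  simp only [Nat.odd_iff]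
  omega

theorem even_symmDiff_add {α ι : Type*} [DecidableEq α] [Fintype ι] {T R : Finset α}
    {f g h : ι → ℕ} (h1 : Even (T.card + ∑ i, f i)) (h2 : Even (R.card + ∑ i, g i))
    (h3 : ∀ i, Even (f i + g i + h i)) : Even ((symmDiff T R).card + ∑ i, h i) := by
  have h4 : Even (∑ i, (f i + g i + h i)) := Finset.even_sum _ fun i _ => h3 i
  rw [Finset.sum_add_distrib, Finset.sum_add_distrib] at h4
  have h5 := odd_card_symmDiff_nf T R
  simp only [Nat.odd_iff] at h5
  rw [Nat.even_iff] at h1 h2 h4 ⊢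
  omega

theorem prop_aux_nf (p q : Prop) : ¬ (¬ (p ∧ ¬ q ∨ q ∧ ¬ p) ↔ ¬ q) ↔ p := by
  tauto

theorem prop_aux_nf' (p q r : Prop) (h : ¬ r ↔ (p ∧ ¬ q ∨ q ∧ ¬ p)) : ¬ (¬ q ↔ r) ↔ p := by
  tauto

/-- The signature of `<-dα, -dβ, dαβ>`. -/
theorem sign_three {d α β : ℝ} (hd0 : d ≠ 0) (hα : α ≠ 0) (hβ : β ≠ 0) {s : ℕ} (hs : s ≤ 3)
    (hd : d < 0 ↔ Odd s) (hs' : (α < 0 ∧ β < 0) ↔ (s = 0 ∨ s = 3)) :
    (if -(d * α) < 0 then 1 else 0) + ((if -(d * β) < 0 then 1 else 0) +
      ((if d * α * β < 0 then 1 else 0) + 0)) = s := by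
  simp only [neg_lt_zero]
  rcases lt_or_gt_of_ne hd0 with h | h
  · have h1 := hd.mp h
    have h2 := not_lt.mpr h.le
    rw [Nat.odd_iff] at h1
    rcases lt_or_gt_of_ne hα with h3 | h3 <;> rcases lt_or_gt_of_ne hβ with h5 | h5
    · have h4 := not_lt.mpr h3.le
      have h6 := not_lt.mpr h5.le
      have h7 := hs'.mp ⟨h3, h5⟩
      simp only [mul_pos_iff, mul_neg_iff, h, h2, h3, h4, h5, h6]
      simp
      omega
    · have h4 := not_lt.mpr h3.le
      have h6 := not_lt.mpr h5.le
      have h7 : ¬ (s = 0 ∨ s = 3) := fun h' => h6 (hs'.mpr h').2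
      simp only [mul_pos_iff, mul_neg_iff, h, h2, h3, h4, h5, h6]
      simp
      omega
    · have h4 := not_lt.mpr h3.le
      have h6 := not_lt.mpr h5.le
      have h7 : ¬ (s = 0 ∨ s = 3) := fun h' => h4 (hs'.mpr h').1
      simp only [mul_pos_iff, mul_neg_iff, h, h2, h3, h4, h5, h6]
      simp
      omega
    · have h4 := not_lt.mpr h3.le
      have h6 := not_lt.mpr h5.le
      have h7 : ¬ (s = 0 ∨ s = 3) := fun h' => h4 (hs'.mpr h').1
      simp only [mul_pos_iff, mul_neg_iff, h, h2, h3, h4, h5, h6]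
      simp
      omega
  · have h1 : ¬ Odd s := fun h' => absurd (hd.mpr h') (not_lt.mpr h.le)
    have h2 := not_lt.mpr h.le
    rw [Nat.odd_iff] at h1
    rcases lt_or_gt_of_ne hα with h3 | h3 <;> rcases lt_or_gt_of_ne hβ with h5 | h5
    · have h4 := not_lt.mpr h3.le
      have h6 := not_lt.mpr h5.le
      have h7 := hs'.mp ⟨h3, h5⟩
      simp only [mul_pos_iff, mul_neg_iff, h, h2, h3, h4, h5, h6]
      simp
      omega
    · have h4 := not_lt.mpr h3.le
      have h6 := not_lt.mpr h5.le
      have h7 : ¬ (s = 0 ∨ s = 3) := fun h' => h6 (hs'.mpr h').2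
      simp only [mul_pos_iff, mul_neg_iff, h, h2, h3, h4, h5, h6]
      simp
      omega
    · have h4 := not_lt.mpr h3.le
      have h6 := not_lt.mpr h5.le
      have h7 : ¬ (s = 0 ∨ s = 3) := fun h' => h4 (hs'.mpr h').1
      simp only [mul_pos_iff, mul_neg_iff, h, h2, h3, h4, h5, h6]
      simp
      omega
    · have h4 := not_lt.mpr h3.le
      have h6 := not_lt.mpr h5.le
      have h7 : ¬ (s = 0 ∨ s = 3) := fun h' => h4 (hs'.mpr h').1
      simp only [mul_pos_iff, mul_neg_iff, h, h2, h3, h4, h5, h6]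
      simp
      omega

/-- The signature of `<x, d x>`. -/
theorem sign_two {d x : ℝ} (hd0 : d ≠ 0) (hx0 : x ≠ 0) {s : ℕ} (hs : s ≤ 2)
    (hd : d < 0 ↔ Odd s) (hx : 0 < d → (x < 0 ↔ s = 2)) :
    (if x < 0 then 1 else 0) + ((if d * x < 0 then 1 else 0) + 0) = s := by
  rcases lt_or_gt_of_ne hd0 with h | h
  · have h1 := hd.mp h
    have h2 := not_lt.mpr h.le
    rw [Nat.odd_iff] at h1
    rcases lt_or_gt_of_ne hx0 with h3 | h3
    · have h4 := not_lt.mpr h3.le
      simp only [mul_neg_iff, h, h2, h3, h4]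
      simp
      omega
    · have h4 := not_lt.mpr h3.le
      simp only [mul_neg_iff, h, h2, h3, h4]
      simp
      omega
  · have h1 : ¬ Odd s := fun h' => absurd (hd.mpr h') (not_lt.mpr h.le)
    have h2 := not_lt.mpr h.le
    rw [Nat.odd_iff] at h1
    rcases lt_or_gt_of_ne hx0 with h3 | h3
    · have h4 := not_lt.mpr h3.le
      have h5 := (hx h).mp h3
      simp only [mul_neg_iff, h, h2, h3, h4]
      simp
      omega
    · have h4 := not_lt.mpr h3.le
      have h5 : s ≠ 2 := fun h' => h4 ((hx h).mpr h')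
      simp only [mul_neg_iff, h, h2, h3, h4]
      simp
      omega

end Aux

variable {K : Type} [Field K] [NumberField K]

/-- The finite places at which `(c, e)` is not trivial. -/
theorem exists_symSet (c e : Kˣ) : ∃ R : Finset (HeightOneSpectrum (𝓞 K)),
    Even (R.card + ∑ σ : K →+* ℝ, if σ c < 0 ∧ σ e < 0 then 1 else 0) ∧
      ∀ (LS : LocalSymbols 2 K) (v : HeightOneSpectrum (𝓞 K)),
        (symbAt LS v).s c e = 1 ↔ v ∉ R := by
  classical
  obtain ⟨hRf, hRe⟩ := hilbert_reciprocity_all (a := (c : K)) (b := (e : K))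
    (Units.ne_zero _) (Units.ne_zero _)
  refine ⟨hRf.toFinset, ?_, fun LS v => ?_⟩
  · rw [← Set.ncard_eq_toFinset_card _ hRf]
    have h1 : {σ : K →+* ℝ | σ c < 0 ∧ σ e < 0}.ncard =
        ∑ σ : K →+* ℝ, if σ c < 0 ∧ σ e < 0 then 1 else 0 := by
      rw [← Finset.card_filter, ← Set.ncard_coe_finset]
      congr 1
      ext σ
      simp
    rw [← h1]
    exact hRe
  · rw [Set.Finite.mem_toFinset, Set.mem_ofPred_eq, not_not]
    exact sym_eq_one_iff LS v _ _

theorem exists_three_nf (d : Kˣ) (s : (K →+* ℝ) → ℕ) (hs : ∀ σ, s σ ≤ 3)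
    (hd : ∀ σ, σ d < 0 ↔ Odd (s σ)) (T : Finset (HeightOneSpectrum (𝓞 K)))
    (hT : Even (T.card + ∑ σ, (s σ).choose 2)) :
    ∃ a : Fin 3 → Kˣ, IsSquare (d * ∏ i, a i) ∧ (∀ σ, negAt σ a = s σ) ∧
      ∀ v : HeightOneSpectrum (𝓞 K), ¬ HasseTriv v a ↔ v ∈ T := by
  classical
  obtain ⟨LS⟩ := Bridge.nonempty_localSymbols_all (p := 2) K (Unr.isPrimitiveRoot_neg_one' K)
  obtain ⟨R, hR1, hR2⟩ := exists_symSet (-1) (-1 * d)
  obtain ⟨α, β, hα, hβ, hαβ, hs'⟩ := exists_ramified_all (symmDiff T R)
    (Finset.univ.filter fun σ : K →+* ℝ => s σ = 0 ∨ s σ = 3) (by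
    rw [Finset.card_filter]
    refine even_symmDiff_add hT hR1 fun σ => ?_
    have h0 := map_unit_ne_zero σ d
    have h1 : (σ ((-1 : Kˣ) : K) < 0 ∧ σ ((-1 * d : Kˣ) : K) < 0) ↔ ¬ Odd (s σ) := by
      rw [← hd σ, not_lt]
      simp only [Units.val_neg, Units.val_one, neg_one_mul, map_neg, map_one,
        neg_lt_zero, zero_lt_one, true_and]
      exact ⟨le_of_lt, fun h => lt_of_le_of_ne h h0.symm⟩
    have h2 := hs σ
    simp only [h1]
    generalize s σ = t at *
    interval_cases t <;> decide)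
  refine ⟨Fin.cons (-1 * (d * Units.mk0 α hα)) (Fin.cons (-1 * (d * Units.mk0 β hβ))
    (Fin.cons (d * Units.mk0 α hα * Units.mk0 β hβ) (fun i : Fin 0 => i.elim0))), ?_, ?_, ?_⟩
  · simp only [Fin.prod_cons, Finset.univ_eq_empty, Finset.prod_empty, mul_one]
    refine ⟨d * d * Units.mk0 α hα * Units.mk0 β hβ, ?_⟩
    apply Units.ext
    push_cast
    ring
  · intro σ
    rw [negAt_cons, negAt_cons, negAt_cons]
    have h0 : negAt σ (fun i : Fin 0 => (i.elim0 : Kˣ)) = 0 := by simp [negAt_eq_sum]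
    rw [h0]
    have h1 := hs' σ
    rw [Finset.mem_filter] at h1
    simp only [Units.val_mul, Units.val_mk0, Units.val_neg, neg_one_mul, map_neg, map_mul]
    exact sign_three (map_unit_ne_zero σ d) ((map_ne_zero σ).mpr hα) ((map_ne_zero σ).mpr hβ)
      (hs σ) (hd σ) (h1.trans (and_iff_right (Finset.mem_univ _)))
  · intro v
    rw [← hasse_eq_one_iff LS, hasse_three]
    have h1 : (symbAt LS v).s (Units.mk0 α hα) (Units.mk0 β hβ) = 1 ↔
        v ∉ symmDiff T R := by
      rw [← hαβ v, not_not]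
      exact sym_eq_one_iff LS v _ _
    have h2 := hR2 LS v
    rw [Finset.mem_symmDiff] at h1
    have h3 : ∀ s t : Multiplicative (ZMod 2), s * t = 1 ↔ (s = 1 ↔ t = 1) := by decide
    rw [h3, h1, h2]
    exact prop_aux_nf _ _

theorem exists_nf_of_three_le {n : ℕ} (hn : 3 ≤ n) (d : Kˣ) (s : (K →+* ℝ) → ℕ)
    (hs : ∀ σ, s σ ≤ n) (hd : ∀ σ, σ d < 0 ↔ Odd (s σ))
    (T : Finset (HeightOneSpectrum (𝓞 K))) (hT : Even (T.card + ∑ σ, (s σ).choose 2)) :
    ∃ a : Fin n → Kˣ, IsSquare (d * ∏ i, a i) ∧ (∀ σ, negAt σ a = s σ) ∧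
      ∀ v : HeightOneSpectrum (𝓞 K), ¬ HasseTriv v a ↔ v ∈ T := by
  classical
  obtain ⟨LS⟩ := Bridge.nonempty_localSymbols_all (p := 2) K (Unr.isPrimitiveRoot_neg_one' K)
  induction n, hn using Nat.le_induction generalizing d s T with
  | base => exact exists_three_nf d s hs hd T hT
  | succ n hn ih =>
    obtain ⟨c, -, hc⟩ := exists_sign_locPow (approxStmt K) ∅ (fun _ => 1)
      (fun σ => s σ = n + 1)
    obtain ⟨R, hR1, hR2⟩ := exists_symSet c (c * d)
    have hcd : ∀ σ : K →+* ℝ, σ ((c * d : Kˣ) : K) < 0 ↔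
        Odd (if s σ = n + 1 then n else s σ) := by
      intro σ
      have h0 := map_unit_ne_zero σ d
      have h1 := map_unit_ne_zero σ c
      have h2 := hc σ
      have h3 := hd σ
      rw [Units.val_mul, map_mul, mul_neg_iff]
      split_ifs with h
      · rw [h, Nat.odd_add_one] at h3
        have h4 := h2.mpr h
        constructor
        · rintro (⟨h5, -⟩ | ⟨-, h5⟩)
          · exact absurd h4 (not_lt.mpr h5.le)
          · by_contra h6
            exact absurd (h3.mpr h6) (not_lt.mpr h5.le)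
        · intro h5
          refine Or.inr ⟨h4, lt_of_le_of_ne (not_lt.mp fun h6 => h3.mp h6 h5) h0.symm⟩
      · have h4 : 0 < σ c := lt_of_le_of_ne (not_lt.mp fun h' => h (h2.mp h')) h1.symm
        rw [← h3]
        constructor
        · rintro (⟨-, h5⟩ | ⟨h5, -⟩)
          · exact h5
          · exact absurd h5 (not_lt.mpr h4.le)
        · exact fun h5 => Or.inl ⟨h4, h5⟩
    obtain ⟨a, ha, hsa, hv⟩ := ih (c * d) (fun σ => if s σ = n + 1 then n else s σ)
      (fun σ => by
        have := hs σ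
        split_ifs <;> omega) hcd (symmDiff T R) (by
      refine even_symmDiff_add hT hR1 fun σ => ?_
      have h2 := hc σ
      simp only [hcd, h2]
      by_cases h : s σ = n + 1
      · have hch : (n + 1).choose 2 = n + n.choose 2 := by
          rw [Nat.choose_succ_succ' _ 1, Nat.choose_one_right]
        simp only [h, if_true, true_and, hch]
        split_ifs with h3
        · rw [Nat.odd_iff] at h3
          rw [Nat.even_iff]
          omega
        · rw [Nat.odd_iff] at h3
          rw [Nat.even_iff]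
          omega
      · simp only [h, if_false, false_and, Nat.add_zero]
        exact ⟨_, rfl⟩)
    refine ⟨Fin.cons c a, ?_, fun σ => ?_, fun v => ?_⟩
    · rw [Fin.prod_cons, ← mul_assoc, mul_comm d]
      exact ha
    · rw [negAt_cons, hsa σ]
      have h2 := hc σ
      simp only [h2]
      split_ifs with h
      · omega
      · omega
    · have h0 : (symbAt LS v).s c (∏ i, a i) = (symbAt LS v).s c (c * d) :=
        (symbAt LS v).congr_right (by rw [mul_comm]; exact ha) c
      rw [← hasse_eq_one_iff LS, Symb.hasse_cons, h0]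
      have h1 := hR2 LS v
      have h2 := hv v
      rw [← hasse_eq_one_iff LS, Finset.mem_symmDiff] at h2
      have h3 : ∀ s t : Multiplicative (ZMod 2), s * t = 1 ↔ (s = 1 ↔ t = 1) := by decide
      rw [h3, h1]
      exact prop_aux_nf' _ _ _ h2

theorem exists_two_nf (d : Kˣ) (s : (K →+* ℝ) → ℕ) (hs : ∀ σ, s σ ≤ 2)
    (hd : ∀ σ, σ d < 0 ↔ Odd (s σ)) (T : Finset (HeightOneSpectrum (𝓞 K)))
    (hT : Even (T.card + ∑ σ, (s σ).choose 2))
    (hloc : ∀ v ∈ T, ¬ IsSquare (-algebraMap K (v.adicCompletion K) (d : K))) :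
    ∃ a : Fin 2 → Kˣ, IsSquare (d * ∏ i, a i) ∧ (∀ σ, negAt σ a = s σ) ∧
      ∀ v : HeightOneSpectrum (𝓞 K), ¬ HasseTriv v a ↔ v ∈ T := by
  classical
  obtain ⟨LS⟩ := Bridge.nonempty_localSymbols_all (p := 2) K (Unr.isPrimitiveRoot_neg_one' K)
  -- the element `x`
  obtain ⟨x, hx, hxv⟩ : ∃ x : Kˣ, (∀ σ : K →+* ℝ, 0 < σ d → (σ x < 0 ↔ s σ = 2)) ∧
      ∀ v, LS.sym v (-d) x = 1 ↔ v ∉ T := by
    by_cases hsq : ∃ c : Kˣ, c ^ 2 = -d
    · obtain ⟨c, hc⟩ := hsq
      have hloc' : ∀ v : HeightOneSpectrum (𝓞 K), -d ∈ locPow 2 v := fun v => by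
        rw [← hc]
        exact pow_mem_locPow 2 v c
      refine ⟨1, fun σ hσ => ?_, fun v => ?_⟩
      · have h1 := congrArg (fun u : Kˣ => σ (u : K)) hc
        simp only [Units.val_pow_eq_pow_val, Units.val_neg, map_pow, map_neg] at h1
        nlinarith [sq_nonneg (σ (c : K))]
      · refine iff_of_true (by rw [map_one]) fun hv => hloc v hv ?_
        have h1 := (mem_locPow_two_iff _).mp (hloc' v)
        rwa [Units.val_neg, map_neg] at h1
    · push Not at hsq
      obtain ⟨x, hx1, hx2⟩ := exists_symVec_eq LS hsq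
        (Finsupp.indicator T fun _ _ => (1 : ZMod 2)) (fun v hv => by
          rw [Finsupp.indicator_of_notMem]
          intro hvT
          rw [mem_locPow_two_iff, Units.val_neg, map_neg] at hv
          exact hloc v hvT hv)
        (fun σ => if s σ = 2 then 1 else 0) (fun σ hσ => by
          rw [Units.val_neg, map_neg, neg_pos] at hσ
          refine if_neg fun h => ?_
          have h1 := (hd σ).mp hσ
          rw [h] at h1
          exact absurd h1 (by decide)) (by
          rw [Finsupp.sum_indicator_index _ (fun _ _ => rfl)]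
          simp only [Finset.sum_const, nsmul_eq_mul, mul_one]
          have h1 : ∑ σ : K →+* ℝ, (s σ).choose 2 = ∑ σ : K →+* ℝ, if s σ = 2 then 1 else 0 := by
            refine Finset.sum_congr rfl fun σ _ => ?_
            have := hs σ
            generalize s σ = t at *
            interval_cases t <;> rfl
          rw [h1, ← ZMod.natCast_eq_zero_iff_even] at hT
          push_cast at hT
          rw [eq_comm, ← sub_eq_zero, sub_eq_add_neg, ZMod.neg_eq_self_mod_two, add_comm]
          exact hT)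
      refine ⟨x, fun σ hσ => ?_, fun v => ?_⟩
      · have h1 := hx2 σ
        have h2 : sg σ (-d) = 1 := by
          rw [sg_eq_one_iff, Units.val_neg, map_neg, neg_lt_zero]
          exact hσ
        rw [h2, one_mul] at h1
        rw [← sg_eq_one_iff, h1]
        split_ifs with h <;> simp [h]
      · have h1 := DFunLike.congr_fun hx1 v
        rw [symVec_apply] at h1
        by_cases hv : v ∈ T
        · rw [Finsupp.indicator_of_mem hv] at h1
          refine iff_of_false (fun h => ?_) (fun h => h hv)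
          rw [h] at h1
          exact absurd h1 (by decide)
        · rw [Finsupp.indicator_of_notMem hv] at h1
          exact iff_of_true h1 hv
  refine ⟨Fin.cons x (Fin.cons (d * x) (fun i : Fin 0 => i.elim0)), ?_, fun σ => ?_, fun v => ?_⟩
  · simp only [Fin.prod_cons, Finset.univ_eq_empty, Finset.prod_empty, mul_one]
    exact ⟨d * x, by simp only [mul_comm, mul_left_comm]⟩
  · rw [negAt_cons, negAt_cons]
    have h0 : negAt σ (fun i : Fin 0 => (i.elim0 : Kˣ)) = 0 := by simp [negAt_eq_sum]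
    rw [h0, Units.val_mul, map_mul]
    exact sign_two (map_unit_ne_zero σ d) (map_unit_ne_zero σ x) (hs σ) (hd σ) (hx σ)
  · have h1 : (symbAt LS v).hasse (Fin.cons x (Fin.cons (d * x) (fun i : Fin 0 => i.elim0))) =
        LS.sym v (-d) x := by
      rw [Symb.hasse_cons, Symb.hasse_cons, Symb.hasse_zero, Fin.prod_cons]
      simp only [Finset.univ_eq_empty, Finset.prod_empty, mul_one, map_one]
      rw [map_mul, (symbAt LS v).self_eq, (symbAt LS v).symm x d, (symbAt LS v).symm x (-1),
        ← MonoidHom.mul_apply, ← map_mul, mul_comm d, neg_one_mul]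
      rfl
    rw [← hasse_eq_one_iff LS, h1, hxv, not_not]

theorem hasseTriv_of_le_one_nf {n : ℕ} (hn : n ≤ 1) (a : Fin n → Kˣ)
    (v : HeightOneSpectrum (𝓞 K)) : HasseTriv v a := by
  rw [HasseTriv]
  have : {p : Fin n × Fin n | p.1 < p.2 ∧ ¬ IsSplitAt v (a p.1 : K) (a p.2 : K)} = ∅ := by
    ext p
    simp only [Set.mem_ofPred_eq, Set.mem_empty_iff_false, iff_false, not_and]
    intro h
    have h1 := p.1.isLt
    have h2 := p.2.isLt
    have h3 : (p.1 : ℕ) < p.2 := h
    omega
  rw [this]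
  simp

/-- **The quadratic forms over a number field with given invariants**: there is a form
`<a 0, …, a (n-1)>` over `K` of discriminant `d`, with `s σ` negative coefficients for every real
embedding `σ` and with `T` as set of the finite places with non-trivial Hasse invariant, iff
`s σ ≤ n`, the sign of `σ d` is `(-1) ^ s σ`, the sum of the cardinality of `T` and of the numbers
`s σ (s σ - 1) / 2` is even, and: `T = ∅` if `n ≤ 1`, `d` is a square if `n = 0`, and `-d` is not a
square in `K_v` for `v ∈ T` if `n = 2`. -/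
theorem exists_form_nf_iff {n : ℕ} (d : Kˣ) (s : (K →+* ℝ) → ℕ)
    (T : Finset (HeightOneSpectrum (𝓞 K))) :
    (∃ a : Fin n → Kˣ, IsSquare (d * ∏ i, a i) ∧ (∀ σ, negAt σ a = s σ) ∧
      ∀ v : HeightOneSpectrum (𝓞 K), ¬ HasseTriv v a ↔ v ∈ T) ↔
    (∀ σ, s σ ≤ n) ∧ (∀ σ, σ d < 0 ↔ Odd (s σ)) ∧ Even (T.card + ∑ σ, (s σ).choose 2) ∧
      (n ≤ 1 → T = ∅) ∧ (n = 0 → IsSquare d) ∧
      (n = 2 → ∀ v ∈ T, ¬ IsSquare (-algebraMap K (v.adicCompletion K) (d : K))) := by
  classical
  constructor
  · rintro ⟨a, ha, hs, hv⟩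
    refine ⟨?_, ?_, ?_, ?_, ?_, ?_⟩
    · intro σ
      rw [← hs]
      exact negAt_le σ a
    · intro σ
      rw [← hs, ← prod_neg_iff_nf]
      obtain ⟨r, hr⟩ := ha
      have h1 := congrArg (fun u : Kˣ => σ (u : K)) hr
      simp only [Units.val_mul, map_mul] at h1
      have h2 : (0 : ℝ) < σ (d : K) * σ ((∏ i, a i : Kˣ) : K) := by
        rw [h1]
        exact mul_self_pos.mpr (map_unit_ne_zero σ r)
      rcases pos_and_pos_or_neg_and_neg_of_mul_pos h2 with ⟨h3, h4⟩ | ⟨h3, h4⟩
      · exact iff_of_false (not_lt.mpr h3.le) (not_lt.mpr h4.le)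
      · exact iff_of_true h3 h4
    · have h1 := (finite_hasse_nf a).2
      have h2 : {v : HeightOneSpectrum (𝓞 K) | ¬ HasseTriv v a} = (T : Set _) := by
        ext v
        rw [Set.mem_ofPred_eq, hv, Finset.mem_coe]
      rw [h2, Set.ncard_coe_finset] at h1
      simp only [hs] at h1
      exact h1
    · intro hn
      rw [Finset.eq_empty_iff_forall_notMem]
      intro v hvT
      exact (hv v).mpr hvT (hasseTriv_of_le_one_nf hn a v)
    · rintro rfl
      simpa using ha
    · rintro rfl v hvT h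
      apply (hv v).mpr hvT
      obtain ⟨LS⟩ := Bridge.nonempty_localSymbols_all (p := 2) K (Unr.isPrimitiveRoot_neg_one' K)
      rw [← hasse_eq_one_iff LS]
      have h1 : LS.sym v (a 0) (-d) = 1 := by
        apply LS.sym_eq_one_of_right
        rw [mem_locPow_two_iff, Units.val_neg, map_neg]
        exact h
      have h2 : (symbAt LS v).s (a 0) (-1 * (a 0 * a 1)) = (symbAt LS v).s (a 0) (-d) := by
        refine (symbAt LS v).congr_right ?_ _
        rw [neg_one_mul, neg_mul_neg, mul_comm]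
        rwa [Fin.prod_univ_two] at ha
      have h3 : (symbAt LS v).hasse a = (symbAt LS v).s (a 0) (a 1) := by
        simp [Symb.hasse, Fin.tail]
      have h4 : (symbAt LS v).s (a 0) (-1 * (a 0 * a 1)) = (symbAt LS v).s (a 0) (a 1) := by
        rw [map_mul, map_mul, (symbAt LS v).self_eq, ← mul_assoc, (symbAt LS v).symm (a 0) (-1),
          Symb.mul_self, one_mul]
      rw [h3, ← h4, h2]
      exact h1
  · rintro ⟨hs, hd, hT, h1, h0, h2⟩
    rcases Nat.lt_or_ge n 3 with hn | hn
    · interval_cases n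
      · refine ⟨fun i => i.elim0, ?_, fun σ => ?_, fun v => ?_⟩
        · simpa using h0 rfl
        · rw [Nat.le_zero.mp (hs σ)]
          simp [negAt_eq_sum]
        · rw [h1 (by norm_num)]
          simp [hasseTriv_of_le_one_nf (le_of_lt Nat.zero_lt_one)]
      · refine ⟨fun _ => d, ?_, fun σ => ?_, fun v => ?_⟩
        · simp
        · rw [negAt_eq_sum, Fin.sum_univ_one]
          have h3 := hs σ
          have h4 := hd σ
          generalize s σ = t at *
          interval_cases t
          · rw [if_neg fun h => absurd (h4.mp h) (by decide)]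
          · rw [if_pos (h4.mpr (by decide))]
        · rw [h1 le_rfl]
          simp [hasseTriv_of_le_one_nf le_rfl]
      · exact exists_two_nf d s hs hd T hT (h2 rfl)
    · exact exists_nf_of_three_le hn d s hs hd T hT

end Fermat.Agent.Cor.HM
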