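import Fermat.Agent.Corollaries.HM.ClassifyRat

/-!
# The quadratic forms over `ℚ` with given invariants

* `exists_rat_sym`: the rational numbers `a` with prescribed Hilbert symbols `(b, a)_v`, `b` fixed;
* `finite_hasse_rat`: the Hasse invariant of `<a 0, …, a (n-1)>` is non-trivial at a finite number
  of places, and this number has the parity of `s (s - 1) / 2`, `s` the number of negative `a i`;
* `exists_form_rat_iff`: the discriminants, signatures and sets of places with non-trivial Hasse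
  invariant which occur for the quadratic forms over `ℚ` in `n` variables.
-/

set_option autoImplicit false

namespace Fermat.Agent.Cor.HM

open IsDedekindDomain NumberField WithZero
open Fermat.Agent.CFT Fermat.Agent.CFT.Global Fermat.Agent.CFT.Global2
open Fermat.Agent.CFT.SUnits (ord)

section Sym

/-- Rational numbers `a` with given symbols `(b, a)_v`, for one `b`. -/
theorem exists_rat_sym (LS : LocalSymbols 2 ℚ) (b : ℚˣ) (T : Finset (HeightOneSpectrum (𝓞 ℚ)))
    (hb1 : ∀ v ∈ T, b ∉ locPow 2 v) (s : Prop) (hT : Odd T.card ↔ (b : ℚ) < 0 ∧ s) :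
    ∃ a : ℚˣ, ((a : ℚ) < 0 ↔ s) ∧ ∀ v, LS.sym v b a = 1 ↔ v ∉ T := by
  classical
  obtain ⟨S, hTS, hS2, -, hSb⟩ := exists_good (K := ℚ) 2 two_ne_zero T {b}
  have hbS : ∀ v ∉ S, ord v b = 0 := mem_E.mp (hSb b (by simp))
  -- local elements
  have hloc : ∀ v : HeightOneSpectrum (𝓞 ℚ), ∃ e : ℚˣ,
      LS.sym v b e = if v ∈ T then Multiplicative.ofAdd 1 else 1 := by
    intro v
    by_cases hv : v ∈ T
    · obtain ⟨e, he⟩ := LS.sym_surjective Nat.prime_two (hb1 v hv) (Multiplicative.ofAdd 1)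
      exact ⟨e, by rw [he, if_pos hv]⟩
    · exact ⟨1, by rw [map_one, if_neg hv]⟩
  choose e he using hloc
  obtain ⟨a, v₁, hv₁, haS, hau, has⟩ := exists_rat_approx S e s
  have hne : ∀ v, v ≠ v₁ → LS.sym v b a = if v ∈ T then Multiplicative.ofAdd 1 else 1 := by
    intro v hv
    by_cases hvS : v ∈ S
    · have h2 : LS.sym v b (a / e v) = 1 := LS.sym_eq_one_of_right (haS v hvS)
      rw [_root_.map_div, div_eq_one] at h2
      rw [h2, he]
    · rw [if_neg fun h => hvS (hTS h)]
      exact LS.unit_mem v (fun h => hvS (hS2 v h)) _ _ (hbS v hvS) (hau v hvS hv)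
  have hv₁T : v₁ ∉ T := fun h => hv₁ (hTS h)
  have h1 : LS.sym v₁ b a = 1 := by
    have h2 := prod_rat LS b a
    have h3 : symVec LS two_ne_zero b a =
        Finsupp.indicator T (fun _ _ => (1 : ZMod 2)) +
          Finsupp.single v₁ (LS.sym v₁ b a).toAdd := by
      ext v
      rw [symVec_apply, Finsupp.add_apply]
      by_cases hv : v = v₁
      · subst hv
        rw [Finsupp.indicator_of_notMem hv₁T, Finsupp.single_eq_same, zero_add]
      · rw [hne v hv, Finsupp.single_eq_of_ne hv, add_zero]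
        by_cases hvT : v ∈ T
        · rw [if_pos hvT, Finsupp.indicator_of_mem hvT]
          rfl
        · rw [if_neg hvT, Finsupp.indicator_of_notMem hvT]
          rfl
    rw [h3, Finsupp.sum_add_index' (fun _ => rfl) (fun _ _ _ => rfl),
      Finsupp.sum_indicator_index _ (fun _ _ => rfl), Finsupp.sum_single_index rfl] at h2
    simp only [Finset.sum_const, nsmul_eq_mul, mul_one] at h2
    have h4 : ((b : ℚ) < 0 ∧ (a : ℚ) < 0) ↔ Odd T.card := by rw [hT, has]
    apply Multiplicative.toAdd.injective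
    by_cases hs : Odd T.card
    · rw [if_pos (h4.mpr hs)] at h2
      have h5 : ((T.card : ℕ) : ZMod 2) = 1 := by
        obtain ⟨k, hk⟩ := hs
        rw [hk]
        push_cast
        have : (2 : ZMod 2) = 0 := by decide
        rw [this]
        ring
      rw [h5] at h2
      change (LS.sym v₁ b a).toAdd = 0
      exact add_left_cancel (h2.trans (add_zero 1).symm)
    · rw [if_neg (fun h => hs (h4.mp h))] at h2
      have h5 : ((T.card : ℕ) : ZMod 2) = 0 := by
        rw [ZMod.natCast_eq_zero_iff, ← even_iff_two_dvd, ← Nat.not_odd_iff_even]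
        exact hs
      rw [h5, zero_add] at h2
      exact h2
  refine ⟨a, has, fun v => ?_⟩
  by_cases hv : v = v₁
  · subst hv
    exact iff_of_true h1 hv₁T
  · rw [hne v hv]
    by_cases hvT : v ∈ T
    · rw [if_pos hvT]
      exact iff_of_false (by decide) (fun h => h hvT)
    · rw [if_neg hvT]
      exact iff_of_true rfl hvT

end Sym

section Reciprocity

theorem prod_neg_iff {n : ℕ} (a : Fin n → ℚˣ) :
    (((∏ i, a i : ℚˣ) : ℚ) < 0 ↔ Odd (negCard a)) := by
  induction n with
  | zero => simp [negCard_eq_sum]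
  | succ n ih =>
    have h1 := ih (Fin.tail a)
    have h0 : ((∏ i, Fin.tail a i : ℚˣ) : ℚ) ≠ 0 := Units.ne_zero _
    have h0' : (a 0 : ℚ) ≠ 0 := (a 0).ne_zero
    rw [← Fin.cons_self_tail a, Fin.prod_cons, negCard_cons, Units.val_mul]
    by_cases h : (a 0 : ℚ) < 0
    · rw [if_pos h, Nat.add_comm 1, Nat.odd_add_one, ← h1, mul_neg_iff, not_lt]
      constructor
      · rintro (⟨h2, -⟩ | ⟨-, h2⟩)
        · exact absurd h (not_lt.mpr h2.le)
        · exact h2.le
      · intro h2
        exact Or.inr ⟨h, lt_of_le_of_ne h2 h0.symm⟩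
    · rw [if_neg h, Nat.zero_add, ← h1, mul_neg_iff]
      have h' : 0 < (a 0 : ℚ) := lt_of_le_of_ne (not_lt.mp h) h0'.symm
      constructor
      · rintro (⟨-, h2⟩ | ⟨h2, -⟩)
        · exact h2
        · exact absurd h2 h
      · intro h2
        exact Or.inl ⟨h', h2⟩

theorem exists_hasseVec_rat (LS : LocalSymbols 2 ℚ) {n : ℕ} (a : Fin n → ℚˣ) :
    ∃ F : HeightOneSpectrum (𝓞 ℚ) →₀ ZMod 2,
      (∀ v, F v = ((symbAt LS v).hasse a).toAdd) ∧
        F.sum (fun _ n => n) = (((negCard a).choose 2 : ℕ) : ZMod 2) := by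
  induction n with
  | zero => exact ⟨0, fun v => rfl, by simp [negCard_eq_sum]⟩
  | succ n ih =>
    obtain ⟨F, hF, hs⟩ := ih (Fin.tail a)
    refine ⟨symVec LS two_ne_zero (a 0) (∏ i, Fin.tail a i) + F, fun v => ?_, ?_⟩
    · rw [Finsupp.add_apply, hF, symVec_apply]
      rfl
    · have hif : (if (a 0 : ℚ) < 0 ∧ ((∏ i, Fin.tail a i : ℚˣ) : ℚ) < 0 then (1 : ZMod 2) else 0) =
          if (a 0 : ℚ) < 0 ∧ Odd (negCard (Fin.tail a)) then 1 else 0 :=
        if_congr (and_congr_right fun _ => prod_neg_iff _) rfl rfl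
      rw [Finsupp.sum_add_index' (fun _ => rfl) (fun _ _ _ => rfl), prod_rat, hs, hif]
      have h1 : negCard a = (if (a 0 : ℚ) < 0 then 1 else 0) + negCard (Fin.tail a) := by
        conv_lhs => rw [← Fin.cons_self_tail a]
        exact negCard_cons _ _
      rw [h1]
      by_cases h : (a 0 : ℚ) < 0
      · rw [if_pos h, Nat.add_comm 1, Nat.choose_succ_succ' _ 1, Nat.choose_one_right, Nat.cast_add]
        congr 1
        by_cases h2 : Odd (negCard (Fin.tail a))
        · rw [if_pos ⟨h, h2⟩]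
          obtain ⟨k, hk⟩ := h2
          rw [hk]
          push_cast
          have : (2 : ZMod 2) = 0 := by decide
          rw [this]
          ring
        · rw [if_neg fun h' => h2 h'.2]
          rw [Nat.not_odd_iff_even, even_iff_two_dvd, ← ZMod.natCast_eq_zero_iff] at h2
          exact h2.symm
      · rw [if_neg fun h' => h h'.1, if_neg h, Nat.zero_add, zero_add]

/-- **Reciprocity for the Hasse invariants over `ℚ`.** -/
theorem finite_hasse_rat {n : ℕ} (a : Fin n → ℚˣ) :
    {v : HeightOneSpectrum (𝓞 ℚ) | ¬ HasseTriv v a}.Finite ∧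
      (Odd {v : HeightOneSpectrum (𝓞 ℚ) | ¬ HasseTriv v a}.ncard ↔
        Odd ((negCard a).choose 2)) := by
  classical
  obtain ⟨LS⟩ := Bridge.nonempty_localSymbols_all (p := 2) ℚ (Unr.isPrimitiveRoot_neg_one' ℚ)
  obtain ⟨F, hF, hs⟩ := exists_hasseVec_rat LS a
  have hset : {v : HeightOneSpectrum (𝓞 ℚ) | ¬ HasseTriv v a} = (F.support : Set _) := by
    ext v
    rw [Set.mem_ofPred_eq, Finset.mem_coe, Finsupp.mem_support_iff, hF, ← hasse_eq_one_iff LS,
      Ne, toAdd_eq_zero]
  rw [hset]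
  refine ⟨Finset.finite_toSet _, ?_⟩
  rw [Set.ncard_coe_finset]
  rw [Finsupp.sum] at hs
  have h3 : ∀ t : ZMod 2, t ≠ 0 → t = 1 := by decide
  rw [Finset.sum_congr rfl fun v hv => h3 _ (Finsupp.mem_support_iff.mp hv), Finset.sum_const,
    nsmul_eq_mul, mul_one, ZMod.natCast_eq_natCast_iff] at hs
  have hs' : F.support.card % 2 = (negCard a).choose 2 % 2 := hs
  rw [Nat.odd_iff, Nat.odd_iff, hs']

end Reciprocity

section Exist

theorem odd_card_symmDiff {α : Type*} [DecidableEq α] (T R : Finset α) :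
    Odd (symmDiff T R).card ↔ ¬ (Odd T.card ↔ Odd R.card) := by
  have e1 := Finset.card_sdiff_add_card_inter T R
  have e2 := Finset.card_sdiff_add_card_inter R T
  rw [Finset.inter_comm R T] at e2
  have e3 : (symmDiff T R).card = (T \ R).card + (R \ T).card := by
    rw [symmDiff_def, Finset.sup_eq_union, Finset.card_union_of_disjoint]
    exact disjoint_sdiff_sdiff
  rw [e3]
  simp only [Nat.odd_iff]
  omega

theorem prop_aux (p q : Prop) : ¬ (¬ (p ∧ ¬ q ∨ q ∧ ¬ p) ↔ ¬ q) ↔ p := by
  tauto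

theorem prop_aux' (p q r : Prop) (h : ¬ r ↔ (p ∧ ¬ q ∨ q ∧ ¬ p)) : ¬ (¬ q ↔ r) ↔ p := by
  tauto

/-- The finite places at which `(-1, -d)` is not trivial. -/
theorem exists_R (d : ℚˣ) : ∃ R : Finset (HeightOneSpectrum (𝓞 ℚ)),
    (Odd R.card ↔ 0 < (d : ℚ)) ∧
      ∀ (LS : LocalSymbols 2 ℚ) (v : HeightOneSpectrum (𝓞 ℚ)),
        (symbAt LS v).s (-1) (-1 * d) = 1 ↔ v ∉ R := by
  obtain ⟨hRf, hRe⟩ := hilbert_reciprocity_rat (a := ((-1 : ℚˣ) : ℚ))
    (b := ((-1 * d : ℚˣ) : ℚ)) (Units.ne_zero _) (Units.ne_zero _)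
  refine ⟨hRf.toFinset, ?_, fun LS v => ?_⟩
  · rw [← Set.ncard_eq_toFinset_card _ hRf, hRe]
    simp
  · rw [Set.Finite.mem_toFinset, Set.mem_ofPred_eq, not_not]
    exact sym_eq_one_iff LS v _ _

theorem exists_three_rat (d : ℚˣ) (s : ℕ) (hs : s ≤ 3) (hd : (d : ℚ) < 0 ↔ Odd s)
    (T : Finset (HeightOneSpectrum (𝓞 ℚ))) (hT : Odd T.card ↔ Odd (s.choose 2)) :
    ∃ a : Fin 3 → ℚˣ, IsSquare (d * ∏ i, a i) ∧ negCard a = s ∧
      ∀ v : HeightOneSpectrum (𝓞 ℚ), ¬ HasseTriv v a ↔ v ∈ T := by
  classical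
  obtain ⟨LS⟩ := Bridge.nonempty_localSymbols_all (p := 2) ℚ (Unr.isPrimitiveRoot_neg_one' ℚ)
  obtain ⟨R, hR1, hR2⟩ := exists_R d
  have hd0 : (d : ℚ) ≠ 0 := d.ne_zero
  obtain ⟨α, β, hα, hβ, hs', hαβ⟩ := exists_ramified_rat (symmDiff T R) (s = 0 ∨ s = 3) (by
    rw [odd_card_symmDiff, hT, hR1]
    rcases lt_or_gt_of_ne hd0 with h | h
    · have h1 := hd.mp h
      have h2 := not_lt.mpr h.le
      interval_cases s
      · exact absurd h1 (by decide)
      · simp [h2]
      · exact absurd h1 (by decide)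
      · simp only [h2, iff_false, not_not, or_true, iff_true]
        decide
    · have h1 : ¬ Odd s := fun h' => absurd (hd.mpr h') (not_lt.mpr h.le)
      interval_cases s
      · simp [h]
      · exact absurd (by decide) h1
      · simp [h]
      · exact absurd (by decide) h1)
  refine ⟨Fin.cons (-1 * (d * Units.mk0 α hα)) (Fin.cons (-1 * (d * Units.mk0 β hβ))
    (Fin.cons (d * Units.mk0 α hα * Units.mk0 β hβ) (fun i : Fin 0 => i.elim0))), ?_, ?_, ?_⟩
  · simp only [Fin.prod_cons, Finset.univ_eq_empty, Finset.prod_empty, mul_one]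
    refine ⟨d * d * Units.mk0 α hα * Units.mk0 β hβ, ?_⟩
    apply Units.ext
    push_cast
    ring
  · rw [negCard_cons, negCard_cons, negCard_cons]
    have h0 : negCard (fun i : Fin 0 => (i.elim0 : ℚˣ)) = 0 := by simp [negCard_eq_sum]
    rw [h0]
    simp only [Units.val_mul, Units.val_mk0, Units.val_neg, neg_one_mul, neg_lt_zero]
    rcases lt_or_gt_of_ne hd0 with h | h
    · have h1 := hd.mp h
      have h2 := not_lt.mpr h.le
      rcases lt_or_gt_of_ne hα with h3 | h3 <;> rcases lt_or_gt_of_ne hβ with h5 | h5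
      · have h4 := not_lt.mpr h3.le
        have h6 := not_lt.mpr h5.le
        have h7 := hs'.mp ⟨h3, h5⟩
        simp only [mul_pos_iff, mul_neg_iff, h, h2, h3, h4, h5, h6]
        simp
        rcases h7 with rfl | rfl
        · exact absurd h1 (by decide)
        · rfl
      · have h4 := not_lt.mpr h3.le
        have h6 := not_lt.mpr h5.le
        have h7 : ¬ (s = 0 ∨ s = 3) := fun h' => h6 (hs'.mpr h').2
        simp only [mul_pos_iff, mul_neg_iff, h, h2, h3, h4, h5, h6]
        simp
        rw [Nat.odd_iff] at h1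
        omega
      · have h4 := not_lt.mpr h3.le
        have h6 := not_lt.mpr h5.le
        have h7 : ¬ (s = 0 ∨ s = 3) := fun h' => h4 (hs'.mpr h').1
        simp only [mul_pos_iff, mul_neg_iff, h, h2, h3, h4, h5, h6]
        simp
        rw [Nat.odd_iff] at h1
        omega
      · have h4 := not_lt.mpr h3.le
        have h6 := not_lt.mpr h5.le
        have h7 : ¬ (s = 0 ∨ s = 3) := fun h' => h4 (hs'.mpr h').1
        simp only [mul_pos_iff, mul_neg_iff, h, h2, h3, h4, h5, h6]
        simp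
        rw [Nat.odd_iff] at h1
        omega
    · have h1 : ¬ Odd s := fun h' => absurd (hd.mpr h') (not_lt.mpr h.le)
      have h2 := not_lt.mpr h.le
      rw [Nat.odd_iff] at h1
      rcases lt_or_gt_of_ne hα with h3 | h3 <;> rcases lt_or_gt_of_ne hβ with h5 | h5
      · have h4 := not_lt.mpr h3.le
        have h6 := not_lt.mpr h5.le
        have h7 := hs'.mp ⟨h3, h5⟩
        simp only [mul_pos_iff, mul_neg_iff, h, h2, h3, h4, h5, h6]
        simp
        omega
      · have h4 := not_lt.mpr h3.le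
        have h6 := not_lt.mpr h5.le
        have h7 : ¬ (s = 0 ∨ s = 3) := fun h' => h6 (hs'.mpr h').2
        simp only [mul_pos_iff, mul_neg_iff, h, h2, h3, h4, h5, h6]
        simp
        omega
      · have h4 := not_lt.mpr h3.le
        have h6 := not_lt.mpr h5.le
        have h7 : ¬ (s = 0 ∨ s = 3) := fun h' => h4 (hs'.mpr h').1
        simp only [mul_pos_iff, mul_neg_iff, h, h2, h3, h4, h5, h6]
        simp
        omega
      · have h4 := not_lt.mpr h3.le
        have h6 := not_lt.mpr h5.le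
        have h7 : ¬ (s = 0 ∨ s = 3) := fun h' => h4 (hs'.mpr h').1
        simp only [mul_pos_iff, mul_neg_iff, h, h2, h3, h4, h5, h6]
        simp
        omega
  · intro v
    rw [← hasse_eq_one_iff LS, hasse_three]
    have h1 : (symbAt LS v).s (Units.mk0 α hα) (Units.mk0 β hβ) = 1 ↔
        v ∉ symmDiff T R := by
      rw [← hαβ v, not_not]
      exact sym_eq_one_iff LS v _ _
    have h2 := hR2 LS v
    rw [Finset.mem_symmDiff] at h1
    have h3 : ∀ s t : Multiplicative (ZMod 2), s * t = 1 ↔ (s = 1 ↔ t = 1) := by decide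
    rw [h3, h1, h2]
    exact prop_aux _ _

theorem exists_rat_of_three_le {n : ℕ} (hn : 3 ≤ n) (d : ℚˣ) (s : ℕ) (hs : s ≤ n)
    (hd : (d : ℚ) < 0 ↔ Odd s) (T : Finset (HeightOneSpectrum (𝓞 ℚ)))
    (hT : Odd T.card ↔ Odd (s.choose 2)) :
    ∃ a : Fin n → ℚˣ, IsSquare (d * ∏ i, a i) ∧ negCard a = s ∧
      ∀ v : HeightOneSpectrum (𝓞 ℚ), ¬ HasseTriv v a ↔ v ∈ T := by
  classical
  obtain ⟨LS⟩ := Bridge.nonempty_localSymbols_all (p := 2) ℚ (Unr.isPrimitiveRoot_neg_one' ℚ)
  induction n, hn using Nat.le_induction generalizing d s T with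
  | base => exact exists_three_rat d s hs hd T hT
  | succ n hn ih =>
    rcases Nat.lt_or_ge n s with h | h
    · obtain rfl : s = n + 1 := by omega
      obtain ⟨R, hR1, hR2⟩ := exists_R d
      have hd0 : (d : ℚ) ≠ 0 := d.ne_zero
      have hdn : ((-1 * d : ℚˣ) : ℚ) < 0 ↔ Odd n := by
        rw [Nat.odd_add_one] at hd
        rw [Units.val_mul, Units.val_neg, Units.val_one, neg_one_mul, neg_lt_zero]
        constructor
        · intro h1
          by_contra h2
          exact absurd (hd.mpr h2) (not_lt.mpr h1.le)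
        · intro h1
          by_contra h2
          exact hd.mp (lt_of_le_of_ne (not_lt.mp h2) hd0) h1
      obtain ⟨a, ha, hsa, hv⟩ := ih (-1 * d) n le_rfl hdn (symmDiff T R) (by
        have hch : (n + 1).choose 2 = n + n.choose 2 := by
          rw [Nat.choose_succ_succ' _ 1, Nat.choose_one_right]
        rw [odd_card_symmDiff, hT, hR1, hch]
        rw [Units.val_mul, Units.val_neg, Units.val_one, neg_one_mul, neg_lt_zero] at hdn
        rw [hdn]
        simp only [Nat.odd_iff]
        omega)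
      refine ⟨Fin.cons (-1) a, ?_, ?_, fun v => ?_⟩
      · rw [Fin.prod_cons, ← mul_assoc, mul_comm d]
        exact ha
      · rw [negCard_cons, hsa]
        simp [Nat.add_comm]
      · have h0 : (symbAt LS v).s (-1) (∏ i, a i) = (symbAt LS v).s (-1) (-1 * d) :=
          (symbAt LS v).congr_right (by rw [mul_comm]; exact ha) (-1)
        rw [← hasse_eq_one_iff LS, Symb.hasse_cons, h0]
        have h1 := hR2 LS v
        have h2 := hv v
        rw [← hasse_eq_one_iff LS, Finset.mem_symmDiff] at h2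
        have h3 : ∀ s t : Multiplicative (ZMod 2), s * t = 1 ↔ (s = 1 ↔ t = 1) := by decide
        rw [h3, h1]
        exact prop_aux' _ _ _ h2
    · obtain ⟨a, ha, hsa, hv⟩ := ih d s h hd T hT
      refine ⟨Fin.cons 1 a, ?_, ?_, fun v => ?_⟩
      · rw [Fin.prod_cons, one_mul]
        exact ha
      · rw [negCard_cons, hsa]
        simp
      · rw [← hv v, ← hasse_eq_one_iff LS, ← hasse_eq_one_iff LS, Symb.hasse_cons, map_one,
          MonoidHom.one_apply, one_mul]

theorem exists_two_rat (d : ℚˣ) (s : ℕ) (hs : s ≤ 2) (hd : (d : ℚ) < 0 ↔ Odd s)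
    (T : Finset (HeightOneSpectrum (𝓞 ℚ))) (hT : Odd T.card ↔ Odd (s.choose 2))
    (hloc : ∀ v ∈ T, ¬ IsSquare (-algebraMap ℚ (v.adicCompletion ℚ) (d : ℚ))) :
    ∃ a : Fin 2 → ℚˣ, IsSquare (d * ∏ i, a i) ∧ negCard a = s ∧
      ∀ v : HeightOneSpectrum (𝓞 ℚ), ¬ HasseTriv v a ↔ v ∈ T := by
  classical
  obtain ⟨LS⟩ := Bridge.nonempty_localSymbols_all (p := 2) ℚ (Unr.isPrimitiveRoot_neg_one' ℚ)
  have hd0 : (d : ℚ) ≠ 0 := d.ne_zero
  obtain ⟨x, hx, hv⟩ := exists_rat_sym LS (-d) T (fun v hv h => by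
    rw [mem_locPow_two_iff, Units.val_neg, map_neg] at h
    exact hloc v hv h) (s = 2) (by
    rw [hT, Units.val_neg, neg_lt_zero]
    interval_cases s
    · simp
    · simp
    · have h1 : ¬ (d : ℚ) < 0 := fun h => absurd (hd.mp h) (by decide)
      have h2 : 0 < (d : ℚ) := lt_of_le_of_ne (not_lt.mp h1) hd0.symm
      simp [h2])
  have hx0 : (x : ℚ) ≠ 0 := x.ne_zero
  refine ⟨Fin.cons x (Fin.cons (d * x) (fun i : Fin 0 => i.elim0)), ?_, ?_, fun v => ?_⟩
  · simp only [Fin.prod_cons, Finset.univ_eq_empty, Finset.prod_empty, mul_one]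
    exact ⟨d * x, by simp only [mul_comm, mul_left_comm]⟩
  · rw [negCard_cons, negCard_cons]
    have h0 : negCard (fun i : Fin 0 => (i.elim0 : ℚˣ)) = 0 := by simp [negCard_eq_sum]
    rw [h0, Units.val_mul]
    rcases lt_or_gt_of_ne hd0 with h | h
    · have h1 := hd.mp h
      have h2 := not_lt.mpr h.le
      have hs1 : s = 1 := by
        interval_cases s
        · exact absurd h1 (by decide)
        · rfl
        · exact absurd h1 (by decide)
      rcases lt_or_gt_of_ne hx0 with h3 | h3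
      · have h4 := not_lt.mpr h3.le
        simp only [mul_neg_iff, h, h2, h3, h4]
        simp [hs1]
      · have h4 := not_lt.mpr h3.le
        simp only [mul_neg_iff, h, h2, h3, h4]
        simp [hs1]
    · have h1 : ¬ Odd s := fun h' => absurd (hd.mpr h') (not_lt.mpr h.le)
      have h2 := not_lt.mpr h.le
      rcases lt_or_gt_of_ne hx0 with h3 | h3
      · have h4 := not_lt.mpr h3.le
        simp only [mul_neg_iff, h, h2, h3, h4]
        simp [hx.mp h3]
      · have h4 := not_lt.mpr h3.le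
        have h5 : s ≠ 2 := fun h' => h4 (hx.mpr h')
        have hs0 : s = 0 := by
          rw [Nat.odd_iff] at h1
          omega
        simp only [mul_neg_iff, h, h2, h3, h4]
        simp [hs0]
  · have h1 : (symbAt LS v).hasse (Fin.cons x (Fin.cons (d * x) (fun i : Fin 0 => i.elim0))) =
        LS.sym v (-d) x := by
      rw [Symb.hasse_cons, Symb.hasse_cons, Symb.hasse_zero, Fin.prod_cons]
      simp only [Finset.univ_eq_empty, Finset.prod_empty, mul_one, map_one]
      rw [map_mul, (symbAt LS v).self_eq, (symbAt LS v).symm x d, (symbAt LS v).symm x (-1),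
        ← MonoidHom.mul_apply, ← map_mul, mul_comm d, neg_one_mul]
      rfl
    rw [← hasse_eq_one_iff LS, h1, hv, not_not]

theorem hasseTriv_of_le_one {n : ℕ} (hn : n ≤ 1) (a : Fin n → ℚˣ)
    (v : HeightOneSpectrum (𝓞 ℚ)) : HasseTriv v a := by
  rw [HasseTriv]
  have : {p : Fin n × Fin n | p.1 < p.2 ∧ ¬ IsSplitAt v (a p.1 : ℚ) (a p.2 : ℚ)} = ∅ := by
    ext p
    simp only [Set.mem_ofPred_eq, Set.mem_empty_iff_false, iff_false, not_and]
    intro h
    have h1 := p.1.isLt
    have h2 := p.2.isLt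
    have h3 : (p.1 : ℕ) < p.2 := h
    omega
  rw [this]
  simp

/-- **The quadratic forms over `ℚ` with given invariants**: there is a form `<a 0, …, a (n-1)>` of
discriminant `d`, with `s` negative coefficients and with `T` as set of the finite places with
non-trivial Hasse invariant, iff `s ≤ n`, the sign of `d` is `(-1) ^ s`, the cardinality of `T` is
congruent to `s (s - 1) / 2` modulo `2`, and: `T = ∅` if `n ≤ 1`, `d` is a square if `n = 0`, and
`-d` is not a square in `K_v` for `v ∈ T` if `n = 2`. -/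
theorem exists_form_rat_iff {n : ℕ} (d : ℚˣ) (s : ℕ) (T : Finset (HeightOneSpectrum (𝓞 ℚ))) :
    (∃ a : Fin n → ℚˣ, IsSquare (d * ∏ i, a i) ∧ negCard a = s ∧
      ∀ v : HeightOneSpectrum (𝓞 ℚ), ¬ HasseTriv v a ↔ v ∈ T) ↔
    s ≤ n ∧ ((d : ℚ) < 0 ↔ Odd s) ∧ (Odd T.card ↔ Odd (s.choose 2)) ∧ (n ≤ 1 → T = ∅) ∧
      (n = 0 → IsSquare d) ∧
      (n = 2 → ∀ v ∈ T, ¬ IsSquare (-algebraMap ℚ (v.adicCompletion ℚ) (d : ℚ))) := by
  classical
  constructor
  · rintro ⟨a, ha, hs, hv⟩
    refine ⟨?_, ?_, ?_, ?_, ?_, ?_⟩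
    · rw [← hs, negCard_eq_card]
      exact (Finset.card_le_univ _).trans_eq (Fintype.card_fin n)
    · rw [← hs, ← prod_neg_iff]
      obtain ⟨r, hr⟩ := ha
      have h1 := congrArg (fun u : ℚˣ => (u : ℚ)) hr
      simp only [Units.val_mul] at h1
      have h2 : (0 : ℚ) < (d : ℚ) * ((∏ i, a i : ℚˣ) : ℚ) := by
        rw [h1]
        exact mul_self_pos.mpr r.ne_zero
      rcases pos_and_pos_or_neg_and_neg_of_mul_pos h2 with ⟨h3, h4⟩ | ⟨h3, h4⟩
      · exact iff_of_false (not_lt.mpr h3.le) (not_lt.mpr h4.le)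
      · exact iff_of_true h3 h4
    · have h1 := (finite_hasse_rat a).2
      have h2 : {v : HeightOneSpectrum (𝓞 ℚ) | ¬ HasseTriv v a} = (T : Set _) := by
        ext v
        rw [Set.mem_ofPred_eq, hv, Finset.mem_coe]
      rw [h2, Set.ncard_coe_finset, hs] at h1
      exact h1
    · intro hn
      rw [Finset.eq_empty_iff_forall_notMem]
      intro v hvT
      exact (hv v).mpr hvT (hasseTriv_of_le_one hn a v)
    · rintro rfl
      simpa using ha
    · rintro rfl v hvT h
      apply (hv v).mpr hvT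
      obtain ⟨LS⟩ := Bridge.nonempty_localSymbols_all (p := 2) ℚ (Unr.isPrimitiveRoot_neg_one' ℚ)
      rw [← hasse_eq_one_iff LS]
      have h1 : LS.sym v (a 0) (-d) = 1 := by
        apply LS.sym_eq_one_of_right
        rw [mem_locPow_two_iff, Units.val_neg, map_neg]
        exact h
      have h2 : (symbAt LS v).s (a 0) (-1 * (a 0 * a 1)) = (symbAt LS v).s (a 0) (-d) := by
        refine (symbAt LS v).congr_right ?_ _
        rw [neg_one_mul, neg_mul_neg, mul_comm]
        rwa [Fin.prod_univ_two] at ha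
      have h3 : (symbAt LS v).hasse a = (symbAt LS v).s (a 0) (a 1) := by
        simp [Symb.hasse, Fin.tail]
      have h4 : (symbAt LS v).s (a 0) (-1 * (a 0 * a 1)) = (symbAt LS v).s (a 0) (a 1) := by
        rw [map_mul, map_mul, (symbAt LS v).self_eq, ← mul_assoc, (symbAt LS v).symm (a 0) (-1),
          Symb.mul_self, one_mul]
      rw [h3, ← h4, h2]
      exact h1
  · rintro ⟨hs, hd, hT, h1, h0, h2⟩
    rcases Nat.lt_or_ge n 3 with hn | hn
    · interval_cases n
      · refine ⟨fun i => i.elim0, ?_, ?_, fun v => ?_⟩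
        · simpa using h0 rfl
        · rw [Nat.le_zero.mp hs]
          simp [negCard_eq_sum]
        · rw [h1 (by norm_num)]
          simp [hasseTriv_of_le_one (le_of_lt Nat.zero_lt_one)]
      · refine ⟨fun _ => d, ?_, ?_, fun v => ?_⟩
        · simp
        · rw [negCard_eq_sum, Fin.sum_univ_one]
          interval_cases s
          · rw [if_neg fun h => absurd (hd.mp h) (by decide)]
          · rw [if_pos (hd.mpr (by decide))]
        · rw [h1 le_rfl]
          simp [hasseTriv_of_le_one le_rfl]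
      · exact exists_two_rat d s hs hd T hT (h2 rfl)
    · exact exists_rat_of_three_le hn d s hs hd T hT

end Exist

end Fermat.Agent.Cor.HM
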