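import Fermat.Agent.Corollaries.HM.Global

/-!
# Forms in five variables over a totally complex number field are isotropic
-/

set_option autoImplicit false

namespace Fermat.Agent.Cor.HM

open IsDedekindDomain NumberField WithZero
open Fermat.Agent.CFT Fermat.Agent.CFT.Global Fermat.Agent.CFT.Global2 Fermat.Agent.LT.Ext
open Fermat.Agent.CFT.SUnits (ord)

section Approx

variable {K : Type*} [Field K] [NumberField K]

/-- Weak approximation (additive form). -/
theorem exists_approx_add (S : Finset (HeightOneSpectrum (𝓞 K)))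
    (f : HeightOneSpectrum (𝓞 K) → K) (n : ℕ) :
    ∃ x : K, ∀ v ∈ S, v.valuation K (x - f v) ≤ exp (-(n : ℤ)) := by
  classical
  obtain ⟨d, hd⟩ := IsLocalization.exist_integer_multiples_of_finset (nonZeroDivisors (𝓞 K))
    (S.image f)
  have hdK : algebraMap (𝓞 K) K d ≠ 0 := IsLocalization.to_map_ne_zero_of_mem_nonZeroDivisors K
    le_rfl d.2
  choose g hg using fun v : S => hd (f v) (Finset.mem_image_of_mem _ v.2)
  have hg' : ∀ v : S, algebraMap (𝓞 K) K (g v) = algebraMap (𝓞 K) K d * f v := by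
    intro v
    rw [hg v, Algebra.smul_def]
  let dU : Kˣ := Units.mk0 _ hdK
  let e : HeightOneSpectrum (𝓞 K) → ℕ := fun v => n + (ord v dU).toNat
  obtain ⟨y, hy⟩ := IsDedekindDomain.exists_forall_sub_mem_ideal (s := S)
    (fun v : HeightOneSpectrum (𝓞 K) => v.asIdeal) e (fun v _ => v.prime)
    (fun v _ w _ hvw h => hvw (HeightOneSpectrum.ext h)) g
  refine ⟨algebraMap (𝓞 K) K y / algebraMap (𝓞 K) K d, fun v hv => ?_⟩
  have h1 := hy v hv
  rw [← HeightOneSpectrum.intValuation_le_pow_iff_mem,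
    ← HeightOneSpectrum.valuation_of_algebraMap (K := K)] at h1
  change v.valuation K (algebraMap (𝓞 K) K (y - g ⟨v, hv⟩)) ≤ _ at h1
  rw [map_sub, hg' ⟨v, hv⟩] at h1
  have e1 : algebraMap (𝓞 K) K y / algebraMap (𝓞 K) K d - f v =
      (algebraMap (𝓞 K) K y - algebraMap (𝓞 K) K d * f v) * (algebraMap (𝓞 K) K d)⁻¹ := by
    field_simp
  have h2 : v.valuation K (algebraMap (𝓞 K) K d) = exp (-ord v dU) :=
    SUnits.valuation_eq_exp_neg_ord K (R := 𝓞 K) v dU
  rw [e1, map_mul, map_inv₀, h2, ← exp_neg, neg_neg]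
  calc v.valuation K (algebraMap (𝓞 K) K y - algebraMap (𝓞 K) K d * f v) * exp (ord v dU)
      ≤ exp (-(e v : ℤ)) * exp (ord v dU) := mul_le_mul_left h1 _
    _ ≤ exp (-(n : ℤ)) := by
      rw [← exp_add, exp_le_exp]
      simp only [e]
      have := Int.self_le_toNat (ord v dU)
      push_cast
      omega

end Approx

section Binary

variable {K : Type} [Field K] [NumberField K]

/-- The class of the values of `a x ^ 2 + b y ^ 2` near a suitable point. -/
theorem exists_near_value {LS : LocalSymbols 2 K} {v : HeightOneSpectrum (𝓞 K)} {a b e : Kˣ}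
    (h : Rep LS v a b e) : ∃ (x₀ y₀ : K) (n : ℕ), ∀ x y : K,
      v.valuation K (x - x₀) ≤ exp (-(n : ℤ)) → v.valuation K (y - y₀) ≤ exp (-(n : ℤ)) →
      ∃ c : Kˣ, (c : K) = a * x ^ 2 + b * y ^ 2 ∧ c / e ∈ locPow 2 v := by
  obtain ⟨s, t, c, hc, hce⟩ := mem_norm_mul_locPow LS v _ _ h
  rw [Units.val_neg, Units.val_mul] at hc
  have ha : (a : K) ≠ 0 := a.ne_zero
  have hca : ((c / a : Kˣ) : K) = a * (s / a) ^ 2 + b * t ^ 2 := by
    rw [Units.val_div_eq_div_val, hc]
    field_simp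
    ring
  have hce' : c / a / e ∈ locPow 2 v := by
    have h1 : c / a / e = (a * e / c)⁻¹ := by
      rw [inv_div, div_div]
    rw [h1]
    exact inv_mem hce
  have hb0 : algebraMap K (v.adicCompletion K) (c / a : Kˣ) ≠ 0 :=
    (_root_.map_ne_zero _).mpr (c / a).ne_zero
  have hb' : Valued.v (algebraMap K (v.adicCompletion K) (c / a : Kˣ)) ≠ 0 :=
    (Valuation.ne_zero_iff _).mpr hb0
  have hcont : Continuous fun p : v.adicCompletion K × v.adicCompletion K =>
      algebraMap K (v.adicCompletion K) a * p.1 ^ 2 +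
        algebraMap K (v.adicCompletion K) b * p.2 ^ 2 := by fun_prop
  have hnhds : (fun p : v.adicCompletion K × v.adicCompletion K =>
      algebraMap K (v.adicCompletion K) a * p.1 ^ 2 +
        algebraMap K (v.adicCompletion K) b * p.2 ^ 2) ⁻¹'
      {y | Valued.v (y - algebraMap K (v.adicCompletion K) (c / a : Kˣ)) <
        Valued.v (algebraMap K (v.adicCompletion K) (c / a : Kˣ)) *
        Valued.v (4 : v.adicCompletion K)} ∈
      nhds (algebraMap K (v.adicCompletion K) (s / a), algebraMap K (v.adicCompletion K) t) := by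
    refine hcont.continuousAt.preimage_mem_nhds ?_
    change _ ∈ nhds (algebraMap K (v.adicCompletion K) a *
      algebraMap K (v.adicCompletion K) (s / a) ^ 2 + algebraMap K (v.adicCompletion K) b *
      algebraMap K (v.adicCompletion K) t ^ 2)
    rw [← map_pow, ← map_pow, ← map_mul, ← map_mul, ← map_add, ← hca]
    exact mem_nhds_adic.mpr ⟨_, mul_ne_zero hb' v_four_ne_zero, subset_rfl⟩
  rw [mem_nhds_prod_iff] at hnhds
  obtain ⟨U, hU, W, hW, hUW⟩ := hnhds
  obtain ⟨γ₁, hγ₁, h1⟩ := mem_nhds_adic.mp hU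
  obtain ⟨γ₂, hγ₂, h2⟩ := mem_nhds_adic.mp hW
  obtain ⟨n₁, hn₁⟩ := exists_exp_le hγ₁
  obtain ⟨n₂, hn₂⟩ := exists_exp_le hγ₂
  refine ⟨s / a, t, max n₁ n₂, fun x y hx hy => ?_⟩
  have hxU : algebraMap K (v.adicCompletion K) x ∈ U := by
    apply h1
    rw [Set.mem_ofPred_eq, ← map_sub, v_algebraMap]
    refine lt_of_le_of_lt (hx.trans ?_) hn₁
    rw [exp_le_exp]
    omega
  have hyW : algebraMap K (v.adicCompletion K) y ∈ W := by
    apply h2
    rw [Set.mem_ofPred_eq, ← map_sub, v_algebraMap]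
    refine lt_of_le_of_lt (hy.trans ?_) hn₂
    rw [exp_le_exp]
    omega
  have h3 := hUW (Set.mk_mem_prod hxU hyW)
  change Valued.v (algebraMap K (v.adicCompletion K) a * algebraMap K (v.adicCompletion K) x ^ 2 +
    algebraMap K (v.adicCompletion K) b * algebraMap K (v.adicCompletion K) y ^ 2 -
    algebraMap K (v.adicCompletion K) (c / a : Kˣ)) < _ at h3
  rw [← map_pow, ← map_pow, ← map_mul, ← map_mul, ← map_add] at h3
  obtain ⟨h4, h5⟩ := isSquare_div_of_near hb0 h3
  have h6 : (a : K) * x ^ 2 + b * y ^ 2 ≠ 0 := by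
    intro h
    rw [h, map_zero] at h4
    exact h4 rfl
  refine ⟨Units.mk0 _ h6, rfl, ?_⟩
  have h7 : Units.mk0 _ h6 / (c / a) ∈ locPow 2 v := by
    rw [mem_locPow_two_iff, Units.val_div_eq_div_val, Units.val_mk0, map_div₀]
    exact h5
  have h8 : Units.mk0 _ h6 / e = Units.mk0 _ h6 / (c / a) * (c / a / e) := by
    rw [div_mul_div_cancel]
  rw [h8]
  exact mul_mem h7 hce'

/-- Simultaneous approximation of values of a binary form. -/
theorem exists_binary (LS : LocalSymbols 2 K) (S : Finset (HeightOneSpectrum (𝓞 K))) (a b : Kˣ)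
    (e : HeightOneSpectrum (𝓞 K) → Kˣ) (he : ∀ v, Rep LS v a b (e v)) :
    ∃ (x y : K) (c : Kˣ), (c : K) = a * x ^ 2 + b * y ^ 2 ∧ ∀ v ∈ S, c / e v ∈ locPow 2 v := by
  rcases S.eq_empty_or_nonempty with rfl | hne
  · exact ⟨1, 0, a, by ring, fun v hv => absurd hv (Finset.notMem_empty v)⟩
  choose x₀ y₀ n hn using fun v => exists_near_value (he v)
  obtain ⟨x, hx⟩ := exists_approx_add S x₀ (S.sup n)
  obtain ⟨y, hy⟩ := exists_approx_add S y₀ (S.sup n)
  have key : ∀ v ∈ S, ∃ c : Kˣ, (c : K) = a * x ^ 2 + b * y ^ 2 ∧ c / e v ∈ locPow 2 v := by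
    intro v hv
    have hle : exp (-((S.sup n : ℕ) : ℤ)) ≤ (exp (-(n v : ℤ)) : ℤᵐ⁰) := by
      rw [exp_le_exp]
      have := Finset.le_sup (f := n) hv
      omega
    exact hn v x y ((hx v hv).trans hle) ((hy v hv).trans hle)
  obtain ⟨v, hv⟩ := hne
  obtain ⟨c, hc, -⟩ := key v hv
  refine ⟨x, y, c, hc, fun w hw => ?_⟩
  obtain ⟨c', hc', h'⟩ := key w hw
  have : c = c' := Units.ext (hc.trans hc'.symm)
  rw [this]
  exact h'

end Binary

section Five

variable {K : Type} [Field K] [NumberField K] [IsTotallyComplex K]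

/-- **Forms in five variables over a totally complex field are isotropic.** -/
theorem isotropic_five (a : Fin 5 → K) (ha : ∀ i, a i ≠ 0) :
    ∃ x : Fin 5 → K, x ≠ 0 ∧ ∑ i, a i * x i ^ 2 = 0 := by
  classical
  obtain ⟨G⟩ := nonempty_globSym K
  let u : Fin 5 → Kˣ := fun i => Units.mk0 (a i) (ha i)
  obtain ⟨S, -, hS2, -, hSu⟩ := exists_good (K := K) 2 two_ne_zero ∅ {u 2, u 3, u 4}
  choose e he1 he2 using fun v => exists_two_classes G.LS (v := v) (u 0) (u 1) (u 2 * u 3 * u 4)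
  obtain ⟨x, y, c, hc, hce⟩ := exists_binary G.LS S (u 0) (u 1) e he1
  obtain ⟨z, hz0, hz⟩ := isotropic_four G.LS (a := c) (b := u 2) (c := u 3) (d := u 4) fun v => by
    by_cases hv : v ∈ S
    · apply exists_rep_of_disc
      intro h
      apply he2 v
      have h1 := div_mem h (hce v hv)
      have h2 : c * u 2 * u 3 * u 4 / (c / e v) = e v * (u 2 * u 3 * u 4) := by
        rw [div_div_eq_mul_div, div_eq_iff_eq_mul]
        simp only [mul_assoc, mul_comm, mul_left_comm]
      rwa [h2] at h1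
    · have h2 : ((2 : ℕ) : 𝓞 K) ∉ v.asIdeal := fun h => hv (hS2 v h)
      have h3 : ∀ i : Fin 5, u i ∈ ({u 2, u 3, u 4} : Finset Kˣ) → ord v (u i) = 0 :=
        fun i hi => mem_E.mp (hSu _ hi) v hv
      exact ⟨u 2, rep_of_units h2 (h3 2 (by simp)) (h3 3 (by simp)) (h3 4 (by simp))⟩
  have h1 := isotropic_of_value (a := ![a 2, a 3, a 4]) (a₀ := a 0) (a₁ := a 1) (c := (c : K))
    (x := x) (y := y) hc c.ne_zero ⟨z, hz0, by
      rw [← hz]
      refine Finset.sum_congr rfl fun i _ => ?_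
      fin_cases i <;> rfl⟩
  obtain ⟨w, hw0, hw⟩ := h1
  refine ⟨w, hw0, ?_⟩
  rw [← hw]
  refine Finset.sum_congr rfl fun i _ => ?_
  fin_cases i <;> rfl

end Five

end Fermat.Agent.Cor.HM
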