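import Mathlib

/-!
# The norm of a Galois algebra `R ⊗ L` is the product of the conjugates

`L / K` a finite Galois extension, `K` infinite, `R` any commutative `K`-algebra.
-/

set_option autoImplicit false

namespace Fermat.Agent.Cor.HN

open TensorProduct Module

section Nat

variable {K L : Type*} [Field K] [Field L] [Algebra K L] {R R' : Type*} [CommRing R]
  [Algebra K R] [CommRing R'] [Algebra K R']

/-- The action of `g` on `R ⊗ L`. -/
noncomputable def act (R : Type*) [CommRing R] [Algebra K R] (g : L →ₐ[K] L) :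
    R ⊗[K] L →ₐ[R] R ⊗[K] L :=
  Algebra.TensorProduct.map (AlgHom.id R R) g

@[simp] lemma act_tmul (g : L →ₐ[K] L) (r : R) (l : L) : act R g (r ⊗ₜ l) = r ⊗ₜ g l := rfl

/-- Change of the base ring. -/
noncomputable def chg (L : Type*) [Field L] [Algebra K L] (φ : R →ₐ[K] R') :
    R ⊗[K] L →ₐ[K] R' ⊗[K] L :=
  Algebra.TensorProduct.map φ (AlgHom.id K L)

@[simp] lemma chg_tmul (φ : R →ₐ[K] R') (r : R) (l : L) : chg L φ (r ⊗ₜ l) = φ r ⊗ₜ l := rfl

lemma chg_act (φ : R →ₐ[K] R') (g : L →ₐ[K] L) (z : R ⊗[K] L) :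
    chg L φ (act R g z) = act R' g (chg L φ z) := by
  induction z using TensorProduct.induction_on with
  | zero => simp only [map_zero]
  | tmul r l => rfl
  | add x y hx hy => rw [map_add, map_add, map_add, map_add, hx, hy]

lemma chg_algebraMap (φ : R →ₐ[K] R') (r : R) :
    chg L φ (algebraMap R (R ⊗[K] L) r) = algebraMap R' (R' ⊗[K] L) (φ r) := by
  rw [Algebra.TensorProduct.algebraMap_apply, Algebra.TensorProduct.algebraMap_apply]
  rfl

variable {ι : Type*} [Fintype ι] [DecidableEq ι] (b : Basis ι K L)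

omit [Fintype ι] [DecidableEq ι] in
lemma repr_chg (φ : R →ₐ[K] R') (z : R ⊗[K] L) (i : ι) :
    (Algebra.TensorProduct.basis R' b).repr (chg L φ z) i =
      φ ((Algebra.TensorProduct.basis R b).repr z i) := by
  induction z using TensorProduct.induction_on with
  | zero => simp only [map_zero, Finsupp.coe_zero, Pi.zero_apply]
  | tmul r l =>
    rw [chg_tmul, Algebra.TensorProduct.basis_repr_tmul, Algebra.TensorProduct.basis_repr_tmul,
      Finsupp.smul_apply, Finsupp.smul_apply, Finsupp.mapRange_apply, Finsupp.mapRange_apply,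
      smul_eq_mul, smul_eq_mul, map_mul, AlgHom.commutes]
  | add x y hx hy => rw [map_add, map_add, map_add, Finsupp.add_apply, Finsupp.add_apply, hx, hy,
      map_add]

include b in
theorem norm_chg (φ : R →ₐ[K] R') (z : R ⊗[K] L) :
    Algebra.norm R' (chg L φ z) = φ (Algebra.norm R z) := by
  rw [Algebra.norm_eq_matrix_det (Algebra.TensorProduct.basis R' b),
    Algebra.norm_eq_matrix_det (Algebra.TensorProduct.basis R b), AlgHom.map_det]
  congr 1
  ext i j
  rw [AlgHom.mapMatrix_apply, Matrix.map_apply, Algebra.leftMulMatrix_eq_repr_mul,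
    Algebra.leftMulMatrix_eq_repr_mul, Algebra.TensorProduct.basis_apply,
    Algebra.TensorProduct.basis_apply, ← repr_chg b φ, map_mul (chg L φ), chg_tmul, map_one]

/-- the product of the conjugates -/
noncomputable def prodAct [FiniteDimensional K L] (R : Type*) [CommRing R] [Algebra K R]
    (z : R ⊗[K] L) : R ⊗[K] L := ∏ g : L ≃ₐ[K] L, act R (g : L →ₐ[K] L) z

lemma chg_prodAct [FiniteDimensional K L] (φ : R →ₐ[K] R') (z : R ⊗[K] L) :
    chg L φ (prodAct R z) = prodAct R' (chg L φ z) := by
  rw [prodAct, prodAct, map_prod]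
  exact Finset.prod_congr rfl fun g _ => chg_act φ _ z

end Nat

section LemmaA

variable {K L : Type*} [Field K] [Field L] [Algebra K L] [FiniteDimensional K L] [IsGalois K L]

theorem prodAct_self (z : K ⊗[K] L) :
    prodAct K z = algebraMap K (K ⊗[K] L) (Algebra.norm K z) := by
  obtain ⟨l, rfl⟩ : ∃ l : L, z = 1 ⊗ₜ l :=
    ⟨Algebra.TensorProduct.lid K L z, (Algebra.TensorProduct.lid K L).injective (by simp)⟩
  have h1 : Algebra.norm K ((1 : K) ⊗ₜ[K] l) = Algebra.norm K l := by
    rw [← Algebra.norm_eq_of_algEquiv (Algebra.TensorProduct.lid K L)]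
    simp
  have h2 : prodAct K ((1 : K) ⊗ₜ[K] l) = (1 : K) ⊗ₜ (∏ g : L ≃ₐ[K] L, g l) := by
    have h3 : ∀ g : L ≃ₐ[K] L, act K (g : L →ₐ[K] L) ((1 : K) ⊗ₜ[K] l) =
        (Algebra.TensorProduct.includeRight : L →ₐ[K] K ⊗[K] L) (g l) := fun g => rfl
    rw [prodAct, Finset.prod_congr rfl fun g _ => h3 g, ← map_prod]
    rfl
  rw [h1, h2, ← Algebra.norm_eq_prod_automorphisms, Algebra.TensorProduct.algebraMap_apply']

/-- **The norm is the product of the conjugates**, for `R ⊗ L` over `R`. -/
theorem prodAct_eq [Infinite K] {R : Type*} [CommRing R] [Algebra K R] (z : R ⊗[K] L) :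
    prodAct R z = algebraMap R (R ⊗[K] L) (Algebra.norm R z) := by
  classical
  let b := Module.finBasis K L
  -- polynomial ring
  have hpoly : ∀ z : MvPolynomial (Fin (finrank K L)) K ⊗[K] L,
      prodAct _ z = algebraMap _ _ (Algebra.norm (MvPolynomial (Fin (finrank K L)) K) z) := by
    intro z
    apply (Algebra.TensorProduct.basis (MvPolynomial (Fin (finrank K L)) K) b).ext_elem
    intro i
    apply MvPolynomial.funext
    intro x
    have h1 : ∀ y : MvPolynomial (Fin (finrank K L)) K ⊗[K] L,
        MvPolynomial.eval x ((Algebra.TensorProduct.basis _ b).repr y i) =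
        (Algebra.TensorProduct.basis K b).repr (chg L (MvPolynomial.aeval x) y) i := by
      intro y
      rw [repr_chg, MvPolynomial.aeval_eq_eval]
    rw [h1, h1, chg_prodAct, prodAct_self, chg_algebraMap, norm_chg b]
  let x : Fin (finrank K L) → R := fun i => (Algebra.TensorProduct.basis R b).repr z i
  have hz : chg L (MvPolynomial.aeval x : MvPolynomial (Fin (finrank K L)) K →ₐ[K] R)
      (∑ i, MvPolynomial.X i ⊗ₜ b i) = z := by
    rw [map_sum]
    conv_rhs => rw [← (Algebra.TensorProduct.basis R b).sum_repr z]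
    refine Finset.sum_congr rfl fun i _ => ?_
    rw [chg_tmul, MvPolynomial.aeval_X, Algebra.TensorProduct.basis_apply,
      TensorProduct.smul_tmul', smul_eq_mul, mul_one]
  rw [← hz, ← chg_prodAct, hpoly, chg_algebraMap, norm_chg b]

end LemmaA

end Fermat.Agent.Cor.HN
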