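import Fermat.Agent.Corollaries.HM.SymAlg
import Fermat.Agent.Corollaries.HM.Quad4
import Fermat.Agent.CFT.Global2.Unramified

/-!
# Forms in two, three and four variables over a totally complex number field

The local conditions are expressed with the local symbols.
-/

set_option autoImplicit false

namespace Fermat.Agent.Cor.HM

open IsDedekindDomain NumberField WithZero Polynomial
open Fermat.Agent.CFT Fermat.Agent.CFT.Global Fermat.Agent.CFT.Global2 Fermat.Agent.CFT.Bridge
open Fermat.Agent.CFT.SUnits (ord)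

section BaseChange

variable {K : Type} [Field K] [NumberField K] {L : Type} [Field L] [NumberField L] [Algebra K L]

variable (K L) in
/-- the map on unit groups -/
noncomputable abbrev mapU : Kˣ →* Lˣ := Units.map (algebraMap K L : K →* L)

lemma mapU_neg (x : Kˣ) : mapU K L (-x) = -mapU K L x := Units.ext (map_neg (algebraMap K L) _)

lemma map_mem_locPow {p : ℕ} {w : HeightOneSpectrum (𝓞 L)} {x : Kˣ}
    (h : x ∈ locPow p (w.under (𝓞 K))) : mapU K L x ∈ locPow p w := by
  rw [mem_locPow] at h ⊢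
  intro n
  obtain ⟨y, hy⟩ := h n
  refine ⟨mapU K L y, ?_⟩
  have e : ((mapU K L x / mapU K L y ^ p : Lˣ) : L) - 1 =
      algebraMap K L (((x / y ^ p : Kˣ) : K) - 1) := by
    rw [← map_pow, ← _root_.map_div, map_sub, map_one]
    rfl
  rw [e, Places.valuation_algebraMap]
  have h1 : exp (-((n : ℤ) + 1)) ≤ (1 : ℤᵐ⁰) := by
    rw [← exp_zero, exp_le_exp]
    omega
  exact (pow_le_of_le_one zero_le (hy.trans h1) (Places.ramificationIdx'_ne_zero w)).trans hy

/-- Trivial symbols stay trivial in extensions. -/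
theorem sym_map_eq_one (LS : LocalSymbols 2 K) (LS' : LocalSymbols 2 L)
    {w : HeightOneSpectrum (𝓞 L)} {a b : Kˣ} (h : LS.sym (w.under (𝓞 K)) a b = 1) :
    LS'.sym w (mapU K L a) (mapU K L b) = 1 := by
  obtain ⟨s, t, c, hc, hbc⟩ := mem_norm_mul_locPow LS _ a b h
  have h1 : LS'.sym w (mapU K L a) (mapU K L c) = 1 := by
    refine LS'.norm_mem _ _ _ ((isNormFrom_two_iff _ _).mpr
      ⟨algebraMap K L s, algebraMap K L t, ?_⟩)
    have h2 := congrArg (algebraMap K L) hc
    rw [map_sub, map_mul, map_pow, map_pow] at h2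
    exact h2
  have h2 := LS'.sym_eq_one_of_right (a := mapU K L a) (map_mem_locPow hbc)
  rw [_root_.map_div, _root_.map_div, h1, div_one] at h2
  exact h2

end BaseChange

section Low

variable {K : Type} [Field K] [NumberField K] [IsTotallyComplex K]

/-- **Global square theorem.** -/
theorem exists_sq_of_local {x : Kˣ} (h : ∀ v, x ∈ locPow 2 v) : ∃ y : Kˣ, y ^ 2 = x := by
  by_contra! hcon
  obtain ⟨v, -, hv⟩ := exists_notMem_locPow inputs (Unr.isPrimitiveRoot_neg_one' K) ∅ hcon
  exact hv (h v)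

lemma isotropic_two {a b : Kˣ} (h : ∃ r : Kˣ, r ^ 2 = -(a * b)) :
    ∃ x y : K, ¬ (x = 0 ∧ y = 0) ∧ (a : K) * x ^ 2 + b * y ^ 2 = 0 := by
  obtain ⟨r, hr⟩ := h
  have hr' := congrArg (Units.val) hr
  rw [Units.val_pow_eq_pow_val, Units.val_neg, Units.val_mul] at hr'
  refine ⟨r, a, fun h => a.ne_zero h.2, ?_⟩
  rw [hr']
  ring

/-- **Hasse principle in three variables.** -/
theorem isotropic_three (LS : LocalSymbols 2 K) {a b c : Kˣ} (h : ∀ v, Rep LS v a b (-c)) :
    ∃ x y z : K, ¬ (x = 0 ∧ y = 0 ∧ z = 0) ∧ (a : K) * x ^ 2 + b * y ^ 2 + c * z ^ 2 = 0 := by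
  by_cases hsq : ∃ r : Kˣ, r ^ 2 = -(a * b)
  · obtain ⟨x, y, h0, h1⟩ := isotropic_two hsq
    exact ⟨x, y, 0, fun h' => h0 ⟨h'.1, h'.2.1⟩, by rw [h1]; ring⟩
  · push Not at hsq
    have h1 := hasse_norm_all (Unr.isPrimitiveRoot_neg_one' K) LS hsq (a * -c) h
    obtain ⟨s, t, hst⟩ := (isNormFrom_two_iff _ _).mp h1
    rw [Units.val_mul, Units.val_neg, Units.val_neg, Units.val_mul] at hst
    have ha : (a : K) ≠ 0 := a.ne_zero
    refine ⟨s / a, t, 1, fun h' => one_ne_zero h'.2.2, ?_⟩
    field_simp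
    linear_combination -hst

/-- **Hasse principle in four variables.** -/
theorem isotropic_four (LS : LocalSymbols 2 K) {a b c d : Kˣ}
    (h : ∀ v, ∃ e, Rep LS v a b e ∧ Rep LS v c d (-e)) :
    ∃ x : Fin 4 → K, x ≠ 0 ∧ ∑ i, (![(a : K), b, c, d] : Fin 4 → K) i * x i ^ 2 = 0 := by
  by_cases hD : ∃ r : Kˣ, r ^ 2 = a * b * c * d
  · obtain ⟨r, hr⟩ := hD
    obtain ⟨x, y, z, h0, h1⟩ := isotropic_three LS (a := a) (b := b) (c := c) fun v => by
      obtain ⟨e, h1, h2⟩ := h v
      exact rep_of_rep_of_disc (by rw [← hr]; exact pow_mem_locPow 2 v r) h1 h2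
    refine ⟨![x, y, z, 0], ?_, ?_⟩
    · intro h'
      apply h0
      exact ⟨congrFun h' 0, congrFun h' 1, congrFun h' 2⟩
    · simp [Fin.sum_univ_four]
      linear_combination h1
  · push Not at hD
    have : Fact (Irreducible (X ^ 2 - C ((a * b * c * d : Kˣ) : K))) :=
      ⟨irreducible_of_not_pow Nat.prime_two hD⟩
    have : NumberField (Rad 2 (a * b * c * d)) := numberField_rad Nat.prime_two
    have : IsTotallyComplex (Rad 2 (a * b * c * d)) := isTotallyComplex_of_algebra K _
    obtain ⟨S⟩ := nonempty_globSym (Rad 2 (a * b * c * d))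
    set L := Rad 2 (a * b * c * d) with hL
    set δ : L := AdjoinRoot.root _ with hδ
    have hδ2 : δ ^ 2 = algebraMap K L ((a * b * c * d : Kˣ) : K) :=
      root_X_pow_sub_C_pow 2 ((a * b * c * d : Kˣ) : K)
    have hδ0 : δ ≠ 0 := by
      intro h'
      rw [h', zero_pow two_ne_zero] at hδ2
      exact (_root_.map_ne_zero (algebraMap K L)).mpr (a * b * c * d).ne_zero hδ2.symm
    -- the discriminant becomes a square
    have hDL : ∀ w : HeightOneSpectrum (𝓞 L), mapU K L (a * b * c * d) ∈ locPow 2 w := by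
      intro w
      have h' : mapU K L (a * b * c * d) = (Units.mk0 δ hδ0) ^ 2 :=
        Units.ext (by rw [Units.val_pow_eq_pow_val, Units.val_mk0, hδ2]; rfl)
      rw [h']
      exact pow_mem_locPow 2 w _
    obtain ⟨x, y, z, h0, h1⟩ := isotropic_three S.LS (a := mapU K L a) (b := mapU K L b)
      (c := mapU K L c) fun w => by
      change S.LS.sym w (-(mapU K L a * mapU K L b)) (mapU K L a * -mapU K L c) = 1
      rw [← map_mul, ← mapU_neg, ← mapU_neg, ← map_mul]
      by_cases hv : a * b * c * d ∈ locPow 2 (w.under (𝓞 K))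
      · obtain ⟨e, h1, h2⟩ := h (w.under (𝓞 K))
        exact sym_map_eq_one LS S.LS (rep_of_rep_of_disc hv h1 h2)
      · obtain ⟨e, h1, h2⟩ := exists_split LS (-(a * b)) (a * -c) hv
        have h3 := sym_map_eq_one LS S.LS h1
        have h4 := sym_map_eq_one LS S.LS h2
        have h5 : S.LS.sym w (mapU K L (-(a * b))) (mapU K L e) = 1 := by
          rw [map_mul, map_mul (mapU K L) e, map_mul (S.LS.sym w), MonoidHom.mul_apply,
            S.LS.sym_eq_one_of_left (hDL w), mul_one, map_mul,
            S.LS.sym_eq_one_of_right (hDL w), mul_one] at h4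
          exact h4
        rw [map_mul (mapU K L) (a * -c), map_mul, h5, mul_one] at h3
        exact h3
    refine isotropic4_of_quad (L := L) (δ := δ) two_ne_zero ?_ ?_ ?_ ?_ ?_
    · intro i
      fin_cases i
      · exact a.ne_zero
      · exact b.ne_zero
      · exact c.ne_zero
      · exact d.ne_zero
    · rw [hδ2]
      congr 1
      simp [Fin.prod_univ_four]
    · intro z
      refine ⟨(quadBasis _).repr z 0, (quadBasis _).repr z 1, ?_⟩
      have h1 := (quadBasis ((a * b * c * d : Kˣ) : K)).sum_repr z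
      rw [Fin.sum_univ_two, quadBasis_zero, quadBasis_one] at h1
      rw [← Algebra.smul_def, Algebra.algebraMap_eq_smul_one]
      exact h1.symm
    · intro x y hxy
      have h1 := (quadBasis ((a * b * c * d : Kˣ) : K)).linearIndependent
      rw [Fintype.linearIndependent_iff] at h1
      have h2 := h1 ![x, y] (by
        rw [Fin.sum_univ_two, quadBasis_zero, quadBasis_one]
        rw [← Algebra.smul_def, Algebra.algebraMap_eq_smul_one] at hxy
        exact hxy)
      exact ⟨h2 0, h2 1⟩
    · refine ⟨![x, y, z], ?_, ?_⟩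
      · intro h'
        apply h0
        exact ⟨congrFun h' 0, congrFun h' 1, congrFun h' 2⟩
      · rw [Fin.sum_univ_three]
        exact h1

end Low

end Fermat.Agent.Cor.HM
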