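import Fermat.Agent.Corollaries.HM.RatMain

/-!
# The Hasse-Minkowski theorem over `ℚ`

* `diag_rat`: a diagonal form over `ℚ` which is isotropic over `ℝ` and over all completions at the
  finite places is isotropic over `ℚ`;
* `hilbert_reciprocity_rat`: the number of finite places `v` at which `a x ^ 2 + b y ^ 2 = z ^ 2` has
  no non-trivial solution is odd iff `a, b < 0`;
* `exists_ramified_rat`: existence of quaternion algebras over `ℚ` with given ramification.
-/

set_option autoImplicit false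

namespace Fermat.Agent.Cor.HM

open IsDedekindDomain NumberField WithZero
open Fermat.Agent.CFT Fermat.Agent.CFT.Global Fermat.Agent.CFT.Global2 Fermat.Agent.LT.Ext
open Fermat.Agent.CFT.SUnits (ord)

/-- A real isotropic diagonal form is indefinite. -/
lemma signs_of_real {n : ℕ} {a : Fin n → ℚ} (ha : ∀ i, a i ≠ 0)
    (h : ∃ x : Fin n → ℝ, x ≠ 0 ∧ ∑ i, algebraMap ℚ ℝ (a i) * x i ^ 2 = 0) :
    (∃ i, 0 < a i) ∧ ∃ i, a i < 0 := by
  obtain ⟨x, hx0, hx⟩ := h
  have e : ∀ q : ℚ, algebraMap ℚ ℝ q = (q : ℝ) := fun _ => rfl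
  simp only [e] at hx
  constructor
  · by_contra! hcon
    apply hx0
    have h1 : ∀ i, a i < 0 := fun i => lt_of_le_of_ne (hcon i) (ha i)
    have h2 : ∑ i, -((a i : ℝ) * x i ^ 2) = 0 := by rw [Finset.sum_neg_distrib, hx, neg_zero]
    have h3 : ∀ i ∈ Finset.univ, 0 ≤ -((a i : ℝ) * x i ^ 2) := by
      intro i _
      have : (a i : ℝ) < 0 := by exact_mod_cast h1 i
      nlinarith [sq_nonneg (x i)]
    rw [Finset.sum_eq_zero_iff_of_nonneg h3] at h2
    funext i
    have h4 := h2 i (Finset.mem_univ i)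
    have h5 : (a i : ℝ) ≠ 0 := by exact_mod_cast ha i
    rw [neg_eq_zero, mul_eq_zero, or_iff_right h5] at h4
    exact pow_eq_zero_iff two_ne_zero |>.mp h4
  · by_contra! hcon
    apply hx0
    have h1 : ∀ i, 0 < a i := fun i => lt_of_le_of_ne (hcon i) (ha i).symm
    have h3 : ∀ i ∈ Finset.univ, 0 ≤ (a i : ℝ) * x i ^ 2 := by
      intro i _
      have : 0 < (a i : ℝ) := by exact_mod_cast h1 i
      positivity
    rw [Finset.sum_eq_zero_iff_of_nonneg h3] at hx
    funext i
    have h4 := hx i (Finset.mem_univ i)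
    have h5 : (a i : ℝ) ≠ 0 := by exact_mod_cast ha i
    rw [mul_eq_zero, or_iff_right h5] at h4
    exact pow_eq_zero_iff two_ne_zero |>.mp h4

/-- **The Hasse-Minkowski theorem over `ℚ`**, for diagonal forms without zero coefficient. -/
theorem diag_rat (n : ℕ) (a : Fin n → ℚ) (ha : ∀ i, a i ≠ 0)
    (h : ∀ v : HeightOneSpectrum (𝓞 ℚ), ∃ x : Fin n → v.adicCompletion ℚ, x ≠ 0 ∧
      ∑ i, algebraMap ℚ (v.adicCompletion ℚ) (a i) * x i ^ 2 = 0)
    (hr : ∃ x : Fin n → ℝ, x ≠ 0 ∧ ∑ i, algebraMap ℚ ℝ (a i) * x i ^ 2 = 0) :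
    ∃ x : Fin n → ℚ, x ≠ 0 ∧ ∑ i, a i * x i ^ 2 = 0 := by
  obtain ⟨LS⟩ := Bridge.nonempty_localSymbols_all (p := 2) ℚ (Unr.isPrimitiveRoot_neg_one' ℚ)
  obtain ⟨hp, hn⟩ := signs_of_real ha hr
  let u : Fin n → ℚˣ := fun i => Units.mk0 (a i) (ha i)
  rcases lt_or_ge n 5 with h5 | h5
  · interval_cases n
    · obtain ⟨x, hx0, -⟩ := hr
      exact absurd (Subsingleton.elim x 0) hx0
    · obtain ⟨i, hi⟩ := hp
      obtain ⟨j, hj⟩ := hn
      rw [Subsingleton.elim j i] at hj
      exact absurd hi (not_lt.mpr hj.le)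
    · have h1 : 0 < -(a 0 * a 1) := by
        obtain ⟨i, hi⟩ := hp
        obtain ⟨j, hj⟩ := hn
        fin_cases i <;> fin_cases j
        · exact absurd hi (not_lt.mpr hj.le)
        · exact neg_pos.mpr (mul_neg_of_pos_of_neg hi hj)
        · exact neg_pos.mpr (mul_neg_of_neg_of_pos hj hi)
        · exact absurd hi (not_lt.mpr hj.le)
      obtain ⟨r, hr⟩ := isSquare_rat (-(a 0 * a 1)) h1 fun v => by
        obtain ⟨x, hx0, hx⟩ := h v
        rw [Fin.sum_univ_two] at hx
        have h2 := mem_locPow_of_adic (a := u 0) (b := u 1) (x := x 0) (y := x 1)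
          (fun h' => hx0 (by
            funext i
            fin_cases i
            · exact h'.1
            · exact h'.2)) hx
        exact (mem_locPow_two_iff _).mp h2
      refine ⟨![r, a 0], fun h' => ha 0 (congrFun h' 1), ?_⟩
      rw [Fin.sum_univ_two]
      change a 0 * r ^ 2 + a 1 * a 0 ^ 2 = 0
      rw [sq r, ← hr]
      ring
    · obtain ⟨x, y, z, h0, h1⟩ := isotropic_three_rat LS (a := u 0) (b := u 1) (c := u 2)
        (fun v => by
          obtain ⟨x, hx0, hx⟩ := h v
          rw [Fin.sum_univ_three] at hx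
          refine rep_of_adic_three (x := x 0) (y := x 1) (z := x 2) (fun h' => hx0 ?_) hx
          funext i
          fin_cases i
          · exact h'.1
          · exact h'.2.1
          · exact h'.2.2)
        (by
          obtain ⟨i, hi⟩ := hp
          fin_cases i
          · exact Or.inl hi
          · exact Or.inr (Or.inl hi)
          · exact Or.inr (Or.inr hi))
        (by
          obtain ⟨i, hi⟩ := hn
          fin_cases i
          · exact Or.inl hi
          · exact Or.inr (Or.inl hi)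
          · exact Or.inr (Or.inr hi))
      refine ⟨![x, y, z], fun h' => h0 ⟨congrFun h' 0, congrFun h' 1, congrFun h' 2⟩, ?_⟩
      rw [Fin.sum_univ_three]
      exact h1
    · obtain ⟨z, hz0, hz⟩ := isotropic_four_rat LS (a := u 0) (b := u 1) (c := u 2) (d := u 3)
        (fun v => by
          obtain ⟨x, hx0, hx⟩ := h v
          rw [Fin.sum_univ_four] at hx
          refine rep_of_adic_four (x := x 0) (y := x 1) (z := x 2) (t := x 3) (fun h' => hx0 ?_) hx
          funext i
          fin_cases i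
          · exact h'.1
          · exact h'.2.1
          · exact h'.2.2.1
          · exact h'.2.2.2)
        (by
          obtain ⟨i, hi⟩ := hp
          fin_cases i
          · exact Or.inl hi
          · exact Or.inr (Or.inl hi)
          · exact Or.inr (Or.inr (Or.inl hi))
          · exact Or.inr (Or.inr (Or.inr hi)))
        (by
          obtain ⟨i, hi⟩ := hn
          fin_cases i
          · exact Or.inl hi
          · exact Or.inr (Or.inl hi)
          · exact Or.inr (Or.inr (Or.inl hi))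
          · exact Or.inr (Or.inr (Or.inr hi)))
      refine ⟨z, hz0, ?_⟩
      rw [← hz]
      refine Finset.sum_congr rfl fun i _ => ?_
      fin_cases i <;> rfl
  · exact isotropic_rat_of_five_le h5 a ha hp hn

/-- **Hilbert's reciprocity law over `ℚ`.** -/
theorem hilbert_reciprocity_rat {a b : ℚ} (ha : a ≠ 0) (hb : b ≠ 0) :
    {v : HeightOneSpectrum (𝓞 ℚ) | ¬ IsSplitAt v a b}.Finite ∧
      (Odd {v : HeightOneSpectrum (𝓞 ℚ) | ¬ IsSplitAt v a b}.ncard ↔ a < 0 ∧ b < 0) := by
  classical
  obtain ⟨LS⟩ := Bridge.nonempty_localSymbols_all (p := 2) ℚ (Unr.isPrimitiveRoot_neg_one' ℚ)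
  have hset : {v : HeightOneSpectrum (𝓞 ℚ) | ¬ IsSplitAt v a b} =
      ((symVec LS two_ne_zero (Units.mk0 a ha) (Units.mk0 b hb)).support : Set _) := by
    ext v
    rw [Set.mem_ofPred_eq, Finset.mem_coe, Finsupp.mem_support_iff, symVec_apply]
    refine not_congr ?_
    have h1 := sym_eq_one_iff LS v (Units.mk0 a ha) (Units.mk0 b hb)
    rw [Units.val_mk0, Units.val_mk0] at h1
    rw [← h1]
    exact Iff.rfl
  rw [hset]
  refine ⟨Finset.finite_toSet _, ?_⟩
  rw [Set.ncard_coe_finset]
  have h2 := prod_rat LS (Units.mk0 a ha) (Units.mk0 b hb)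
  rw [Finsupp.sum] at h2
  have h3 : ∀ t : ZMod 2, t ≠ 0 → t = 1 := by decide
  rw [Finset.sum_congr rfl fun v hv => h3 _ (Finsupp.mem_support_iff.mp hv), Finset.sum_const,
    nsmul_eq_mul, mul_one, Units.val_mk0, Units.val_mk0] at h2
  by_cases hab : a < 0 ∧ b < 0
  · rw [if_pos hab] at h2
    refine iff_of_true ?_ hab
    rw [← Nat.not_even_iff_odd, even_iff_two_dvd, ← ZMod.natCast_eq_zero_iff, h2]
    decide
  · rw [if_neg hab] at h2
    refine iff_of_false ?_ hab
    rw [Nat.not_odd_iff_even, even_iff_two_dvd, ← ZMod.natCast_eq_zero_iff]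
    exact h2

/-- **Existence of quaternion algebras over `ℚ` with given ramification**: `T` is a finite set of
primes (finite places), `s` says whether the real place is ramified; the total number of ramified
places has to be even. -/
theorem exists_ramified_rat (T : Finset (HeightOneSpectrum (𝓞 ℚ))) (s : Prop)
    (hT : Odd T.card ↔ s) :
    ∃ a b : ℚ, a ≠ 0 ∧ b ≠ 0 ∧ (a < 0 ∧ b < 0 ↔ s) ∧
      ∀ v : HeightOneSpectrum (𝓞 ℚ), ¬ IsSplitAt v a b ↔ v ∈ T := by
  classical
  obtain ⟨LS⟩ := Bridge.nonempty_localSymbols_all (p := 2) ℚ (Unr.isPrimitiveRoot_neg_one' ℚ)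
  choose π hπ using fun v : HeightOneSpectrum (𝓞 ℚ) => exists_ord_eq_one v
  obtain ⟨b, -, -, hbT, -, hbs⟩ := exists_rat_approx T π s
  have hb1 : ∀ v ∈ T, b ∉ locPow 2 v := by
    intro v hv h
    have h1 := div_mem h (hbT v hv)
    rw [div_div_cancel] at h1
    exact not_mem_locPow_of_ord_eq_one (hπ v) h1
  obtain ⟨S, hTS, hS2, -, hSb⟩ := exists_good (K := ℚ) 2 two_ne_zero T {b}
  have hbS : ∀ v ∉ S, ord v b = 0 := mem_E.mp (hSb b (by simp))
  -- local elements
  have hloc : ∀ v : HeightOneSpectrum (𝓞 ℚ), ∃ e : ℚˣ,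
      LS.sym v b e = if v ∈ T then Multiplicative.ofAdd 1 else 1 := by
    intro v
    by_cases hv : v ∈ T
    · obtain ⟨e, he⟩ := LS.sym_surjective Nat.prime_two (hb1 v hv) (Multiplicative.ofAdd 1)
      exact ⟨e, by rw [he, if_pos hv]⟩
    · exact ⟨1, by rw [map_one, if_neg hv]⟩
  choose e he using hloc
  obtain ⟨a, v₁, hv₁, haS, hau, has⟩ := exists_rat_approx S e s
  have hne : ∀ v, v ≠ v₁ → LS.sym v b a = if v ∈ T then Multiplicative.ofAdd 1 else 1 := by
    intro v hv
    by_cases hvS : v ∈ S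
    · have h2 : LS.sym v b (a / e v) = 1 := LS.sym_eq_one_of_right (haS v hvS)
      rw [_root_.map_div, div_eq_one] at h2
      rw [h2, he]
    · rw [if_neg fun h => hvS (hTS h)]
      exact LS.unit_mem v (fun h => hvS (hS2 v h)) _ _ (hbS v hvS) (hau v hvS hv)
  have hv₁T : v₁ ∉ T := fun h => hv₁ (hTS h)
  have h1 : LS.sym v₁ b a = 1 := by
    have h2 := prod_rat LS b a
    have h3 : symVec LS two_ne_zero b a =
        Finsupp.indicator T (fun _ _ => (1 : ZMod 2)) +
          Finsupp.single v₁ (LS.sym v₁ b a).toAdd := by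
      ext v
      rw [symVec_apply, Finsupp.add_apply]
      by_cases hv : v = v₁
      · subst hv
        rw [Finsupp.indicator_of_notMem hv₁T, Finsupp.single_eq_same, zero_add]
      · rw [hne v hv, Finsupp.single_eq_of_ne hv, add_zero]
        by_cases hvT : v ∈ T
        · rw [if_pos hvT, Finsupp.indicator_of_mem hvT]
          rfl
        · rw [if_neg hvT, Finsupp.indicator_of_notMem hvT]
          rfl
    rw [h3, Finsupp.sum_add_index' (fun _ => rfl) (fun _ _ _ => rfl),
      Finsupp.sum_indicator_index _ (fun _ _ => rfl), Finsupp.sum_single_index rfl] at h2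
    simp only [Finset.sum_const, nsmul_eq_mul, mul_one] at h2
    have h4 : ((b : ℚ) < 0 ∧ (a : ℚ) < 0) ↔ s := by rw [hbs, has, and_self]
    apply Multiplicative.toAdd.injective
    by_cases hs : s
    · rw [if_pos (h4.mpr hs)] at h2
      have h5 : ((T.card : ℕ) : ZMod 2) = 1 := by
        obtain ⟨k, hk⟩ := hT.mpr hs
        rw [hk]
        push_cast
        have : (2 : ZMod 2) = 0 := by decide
        rw [this]
        ring
      rw [h5] at h2
      change (LS.sym v₁ b a).toAdd = 0
      exact add_left_cancel (h2.trans (add_zero 1).symm)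
    · rw [if_neg (fun h => hs (h4.mp h))] at h2
      have h5 : ((T.card : ℕ) : ZMod 2) = 0 := by
        rw [ZMod.natCast_eq_zero_iff, ← even_iff_two_dvd, ← Nat.not_odd_iff_even]
        exact fun h => hs (hT.mp h)
      rw [h5, zero_add] at h2
      exact h2
  refine ⟨b, a, b.ne_zero, a.ne_zero, by rw [hbs, has, and_self], fun v => ?_⟩
  rw [← sym_eq_one_iff LS v b a]
  by_cases hv : v = v₁
  · subst hv
    exact iff_of_false (fun h => h h1) hv₁T
  · rw [hne v hv]
    by_cases hvT : v ∈ T
    · rw [if_pos hvT]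
      exact iff_of_true (by decide) hvT
    · rw [if_neg hvT]
      exact iff_of_false (fun h => h rfl) hvT

end Fermat.Agent.Cor.HM
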