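import Fermat.Agent.Corollaries.HM.RatLoc
import Fermat.Agent.CFT.Global.Functional
import Mathlib.NumberTheory.LegendreSymbol.QuadraticReciprocity

/-!
# The product formula for the local symbols of `ℚ` (Gauss, Hilbert)
-/

set_option autoImplicit false

namespace Fermat.Agent.Cor.HM

namespace RatProd

open IsDedekindDomain NumberField WithZero Rat.HeightOneSpectrum RatDir RatLoc
open Fermat.Agent.CFT Fermat.Agent.CFT.Global Fermat.Agent.CFT.Global2
open Fermat.Agent.CFT.SUnits (ord)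

section Gen

lemma map_inv_of_add {f : ℚˣ → ZMod 2} (hf : ∀ x y, f (x * y) = f x + f y) (x : ℚˣ) :
    f x⁻¹ = f x := by
  have h1 := hf 1 1
  have h2 := hf x x⁻¹
  rw [mul_inv_cancel] at h2
  rw [one_mul] at h1
  revert h1 h2
  generalize f 1 = r
  generalize f x = s
  generalize f x⁻¹ = t
  revert r s t
  decide

lemma eq_of_gen {f g : ℚˣ → ZMod 2} (hf : ∀ x y, f (x * y) = f x + f y)
    (hg : ∀ x y, g (x * y) = g x + g y) (h1 : f (-1) = g (-1))
    (hp : ∀ (p : ℕ) (hp : p.Prime), f (iu p (by exact_mod_cast hp.ne_zero)) =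
      g (iu p (by exact_mod_cast hp.ne_zero))) (x : ℚˣ) : f x = g x := by
  refine units_induction (P := fun x => f x = g x) h1 hp (fun x y hx hy => ?_)
    (fun x hx => ?_) x
  · rw [hf, hg, hx, hy]
  · rw [map_inv_of_add hf, map_inv_of_add hg, hx]

/-- the real symbol -/
noncomputable def rr (a b : ℚˣ) : ZMod 2 := if (a : ℚ) < 0 ∧ (b : ℚ) < 0 then 1 else 0

lemma rr_comm (a b : ℚˣ) : rr a b = rr b a := by
  rw [rr, rr]
  simp only [and_comm]

lemma rr_mul_right (a b c : ℚˣ) : rr a (b * c) = rr a b + rr a c := by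
  rw [rr, rr, rr, Units.val_mul]
  have h2 : (1 : ZMod 2) + 1 = 0 := by decide
  rcases lt_or_gt_of_ne a.ne_zero with ha | ha <;> rcases lt_or_gt_of_ne b.ne_zero with hb | hb <;>
    rcases lt_or_gt_of_ne c.ne_zero with hc | hc <;>
    simp [ha, hb, hc, not_lt.mpr ha.le, not_lt.mpr hb.le, not_lt.mpr hc.le, mul_neg_of_neg_of_pos,
      mul_neg_of_pos_of_neg, h2, mul_nonneg_of_nonpos_of_nonpos, hb.le, hc.le]

lemma rr_of_pos {a b : ℚˣ} (h : 0 < (b : ℚ)) : rr a b = 0 := by
  rw [rr, if_neg]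
  rintro ⟨-, h1⟩
  exact absurd h1 (not_lt.mpr h.le)

end Gen

section Sum

variable (LS : LocalSymbols 2 ℚ)

/-- the sum of the local symbols -/
noncomputable def ss (a b : ℚˣ) : ZMod 2 := (symVec LS two_ne_zero a b).sum fun _ n => n

variable {LS}

lemma ss_mul_right (a b c : ℚˣ) : ss LS a (b * c) = ss LS a b + ss LS a c := by
  rw [ss, symVec_mul, Finsupp.sum_add_index' (fun _ => rfl) (fun _ _ _ => rfl)]
  rfl

lemma symVec_congr {a b c d : ℚˣ} (h : ∀ v, hh LS v a b = hh LS v c d) :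
    ss LS a b = ss LS c d := by
  have h1 : symVec LS two_ne_zero a b = symVec LS two_ne_zero c d := Finsupp.ext h
  rw [ss, h1]
  rfl

lemma ss_comm (a b : ℚˣ) : ss LS a b = ss LS b a := symVec_congr fun _ => hh_comm a b

lemma ss_eq_sum {a b : ℚˣ} (T : Finset (HeightOneSpectrum (𝓞 ℚ)))
    (h : ∀ v ∉ T, hh LS v a b = 0) : ss LS a b = ∑ v ∈ T, hh LS v a b := by
  rw [ss, Finsupp.sum_of_support_subset _ (s := T) _ _ (fun _ _ => rfl)]
  · rfl
  · intro v hv
    by_contra h1
    exact (Finsupp.mem_support_iff.mp hv) (h v h1)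

end Sum

section Values

variable {LS : LocalSymbols 2 ℚ}

/-- the place of a prime number -/
noncomputable def pl (p : ℕ) (hp : p.Prime) : HeightOneSpectrum (𝓞 ℚ) := primesEquiv.symm ⟨p, hp⟩

lemma natGenerator_pl {p : ℕ} (hp : p.Prime) : natGenerator (pl p hp) = p := by
  have h := (primesEquiv (R := 𝓞 ℚ)).apply_symm_apply (⟨p, hp⟩ : Nat.Primes)
  exact congrArg Subtype.val h

lemma ne_pl {p : ℕ} (hp : p.Prime) {v : HeightOneSpectrum (𝓞 ℚ)} (h : v ≠ pl p hp) :
    natGenerator v ≠ p := fun h1 => h (natGenerator_injective (h1.trans (natGenerator_pl hp).symm))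

lemma ord_iu_prime {v : HeightOneSpectrum (𝓞 ℚ)} {p : ℕ} (hp : p.Prime)
    (h : natGenerator v ≠ p) (h0 : (p : ℤ) ≠ 0) : ord v (iu p h0) = 0 :=
  ord_iu v _ fun h1 => h
    ((Nat.prime_dvd_prime_iff_eq (prime_natGenerator v) hp).mp (by exact_mod_cast h1))

lemma iu_neg_one : iu (-1) (by norm_num) = (-1 : ℚˣ) := Units.ext (by simp)

variable {v : HeightOneSpectrum (𝓞 ℚ)}

lemma hh_gen_neg_one (hv : natGenerator v ≠ 2) (h0 : ((natGenerator v : ℕ) : ℤ) ≠ 0) :
    hh LS v (iu (natGenerator v) h0) (-1) = if natGenerator v % 4 = 3 then 1 else 0 := by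
  have : Fact (natGenerator v).Prime := ⟨prime_natGenerator v⟩
  have h1 : ¬ ((natGenerator v : ℕ) : ℤ) ∣ -1 := by
    rw [Int.dvd_neg]
    intro h
    have h2 : natGenerator v ∣ 1 := by exact_mod_cast h
    exact (prime_natGenerator v).one_lt.ne' (Nat.dvd_one.mp h2)
  have h2 := hh_gen (LS := LS) hv (u := -1) (by norm_num) h1
    (g := iu (natGenerator v) h0) (by rw [iu_val, Int.cast_natCast])
  have h3 : (((-1 : ℤ)) : ZMod (natGenerator v)) = -1 := by push_cast; rfl
  rw [iu_neg_one, h3, ZMod.exists_sq_eq_neg_one_iff] at h2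
  by_cases h4 : natGenerator v % 4 = 3
  · rw [if_pos h4]
    exact eq_one_of_ne fun h5 => h2.mp h5 h4
  · rw [if_neg h4]
    exact h2.mpr h4

lemma hh_gen_two (hv : natGenerator v ≠ 2) (h0 : ((natGenerator v : ℕ) : ℤ) ≠ 0) :
    hh LS v (iu (natGenerator v) h0) two =
      if natGenerator v % 8 = 1 ∨ natGenerator v % 8 = 7 then 0 else 1 := by
  have : Fact (natGenerator v).Prime := ⟨prime_natGenerator v⟩
  have h1 : ¬ ((natGenerator v : ℕ) : ℤ) ∣ 2 := by
    intro h
    have h2 : natGenerator v ∣ 2 := by exact_mod_cast h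
    exact hv ((Nat.prime_dvd_prime_iff_eq (prime_natGenerator v) Nat.prime_two).mp h2)
  have h2 := hh_gen (LS := LS) hv (u := 2) (by norm_num) h1
    (g := iu (natGenerator v) h0) (by rw [iu_val, Int.cast_natCast])
  have h3 : (((2 : ℤ)) : ZMod (natGenerator v)) = 2 := by push_cast; rfl
  rw [h3, ZMod.exists_sq_eq_two_iff hv] at h2
  by_cases h4 : natGenerator v % 8 = 1 ∨ natGenerator v % 8 = 7
  · rw [if_pos h4]
    exact h2.mpr h4
  · rw [if_neg h4]
    exact eq_one_of_ne fun h5 => h4 (h2.mp h5)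

open Classical in
lemma hh_gen_prime (hv : natGenerator v ≠ 2) (h0 : ((natGenerator v : ℕ) : ℤ) ≠ 0) {q : ℕ}
    (hq : q.Prime) (hqv : natGenerator v ≠ q) (hq0 : (q : ℤ) ≠ 0) :
    hh LS v (iu (natGenerator v) h0) (iu q hq0) =
      if IsSquare (q : ZMod (natGenerator v)) then 0 else 1 := by
  have h1 : ¬ ((natGenerator v : ℕ) : ℤ) ∣ (q : ℤ) := by
    intro h
    exact hqv ((Nat.prime_dvd_prime_iff_eq (prime_natGenerator v) hq).mp (by exact_mod_cast h))
  have h2 := hh_gen (LS := LS) hv (u := q) hq0 h1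
    (g := iu (natGenerator v) h0) (by rw [iu_val, Int.cast_natCast])
  rw [Int.cast_natCast] at h2
  by_cases h4 : IsSquare (q : ZMod (natGenerator v))
  · rw [if_pos h4]
    exact h2.mpr h4
  · rw [if_neg h4]
    exact eq_one_of_ne fun h5 => h4 (h2.mp h5)

lemma hh_prime_prime {p q : ℕ} (hvp : natGenerator v = p) (hp2 : p ≠ 2) (h0 : (p : ℤ) ≠ 0)
    (hq : q.Prime) (hpq : p ≠ q) (k0 : (q : ℤ) ≠ 0) [Decidable (IsSquare (q : ZMod p))] :
    hh LS v (iu p h0) (iu q k0) = if IsSquare (q : ZMod p) then 0 else 1 := by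
  subst hvp
  rw [hh_gen_prime hp2 h0 hq hpq k0]
  congr

/-! ### The sums -/

lemma ss_neg_one_neg_one : ss LS (-1) (-1) = 1 := by
  rw [ss_eq_sum {pl 2 Nat.prime_two}, Finset.sum_singleton,
    hh_neg_one_neg_one (natGenerator_pl Nat.prime_two)]
  intro v hv
  rw [Finset.mem_singleton] at hv
  exact hh_units (ne_pl Nat.prime_two hv) (ord_neg_one v) (ord_neg_one v)

lemma ss_neg_one_two : ss LS (-1) two = 0 := by
  rw [ss_eq_sum ∅ fun v _ => hh_neg_one_two, Finset.sum_empty]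

lemma not_two_dvd {p : ℕ} (hp : p.Prime) (hp2 : p ≠ 2) : ¬ (2 : ℤ) ∣ (p : ℤ) := by
  intro h2
  exact hp2 ((Nat.prime_dvd_prime_iff_eq Nat.prime_two hp).mp (by exact_mod_cast h2)).symm

lemma pl_ne {p q : ℕ} (hp : p.Prime) (hq : q.Prime) (h : p ≠ q) : pl p hp ≠ pl q hq := by
  intro h1
  apply h
  rw [← natGenerator_pl hp, ← natGenerator_pl hq, h1]

lemma add_self_two (t : ZMod 2) : t + t = 0 := by
  revert t
  decide

lemma ss_neg_one_prime {p : ℕ} (hp : p.Prime) (hp2 : p ≠ 2) (h0 : (p : ℤ) ≠ 0) :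
    ss LS (-1) (iu p h0) = 0 := by
  classical
  rw [ss_eq_sum {pl 2 Nat.prime_two, pl p hp}, Finset.sum_pair (pl_ne _ _ hp2.symm),
    hh_neg_one_odd (natGenerator_pl Nat.prime_two) h0 (not_two_dvd hp hp2)]
  · have h1 := natGenerator_pl hp
    have h2 : hh LS (pl p hp) (-1) (iu p h0) = if p % 4 = 3 then 1 else 0 := by
      rw [hh_comm]
      have h3 := hh_gen_neg_one (LS := LS) (v := pl p hp) (by rw [h1]; exact hp2)
        (by rw [h1]; exact h0)
      simp only [h1] at h3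
      exact h3
    rw [h2]
    have h4 : (p : ℤ) % 4 = 3 ↔ p % 4 = 3 := by omega
    simp only [h4]
    exact add_self_two _
  · intro v hv
    rw [Finset.mem_insert, Finset.mem_singleton, not_or] at hv
    exact hh_units (ne_pl Nat.prime_two hv.1) (ord_neg_one v) (ord_iu_prime hp (ne_pl hp hv.2) h0)

lemma ss_two_prime {p : ℕ} (hp : p.Prime) (hp2 : p ≠ 2) (h0 : (p : ℤ) ≠ 0) :
    ss LS two (iu p h0) = 0 := by
  classical
  rw [ss_eq_sum {pl 2 Nat.prime_two, pl p hp}, Finset.sum_pair (pl_ne _ _ hp2.symm),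
    hh_two_odd (natGenerator_pl Nat.prime_two) h0 (not_two_dvd hp hp2)]
  · have h1 := natGenerator_pl hp
    have h2 : hh LS (pl p hp) two (iu p h0) = if p % 8 = 1 ∨ p % 8 = 7 then 0 else 1 := by
      rw [hh_comm]
      have h3 := hh_gen_two (LS := LS) (v := pl p hp) (by rw [h1]; exact hp2)
        (by rw [h1]; exact h0)
      simp only [h1] at h3
      exact h3
    rw [h2]
    have h4 : ((p : ℤ) % 8 = 1 ∨ (p : ℤ) % 8 = 7) ↔ (p % 8 = 1 ∨ p % 8 = 7) := by omega
    simp only [h4]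
    exact add_self_two _
  · intro v hv
    rw [Finset.mem_insert, Finset.mem_singleton, not_or] at hv
    exact hh_units (ne_pl Nat.prime_two hv.1) (ord_iu_prime Nat.prime_two
      (ne_pl Nat.prime_two hv.1) _) (ord_iu_prime hp (ne_pl hp hv.2) h0)

lemma ss_self_two : ss LS two two = 0 := by
  rw [ss_eq_sum ∅ fun v _ => hh_two_two, Finset.sum_empty]

lemma ss_self {p : ℕ} (hp : p.Prime) (hp2 : p ≠ 2) (h0 : (p : ℤ) ≠ 0) :
    ss LS (iu p h0) (iu p h0) = 0 := by
  rw [symVec_congr (c := -1) (d := iu p h0) fun v => by rw [hh_self, hh_comm]]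
  exact ss_neg_one_prime hp hp2 h0

/-- **Quadratic reciprocity.** -/
lemma ss_prime_prime {p q : ℕ} (hp : p.Prime) (hp2 : p ≠ 2) (h0 : (p : ℤ) ≠ 0) (hq : q.Prime)
    (hq2 : q ≠ 2) (k0 : (q : ℤ) ≠ 0) (hpq : p ≠ q) : ss LS (iu p h0) (iu q k0) = 0 := by
  classical
  have : Fact p.Prime := ⟨hp⟩
  have : Fact q.Prime := ⟨hq⟩
  have h2 : hh LS (pl p hp) (iu p h0) (iu q k0) = if IsSquare (q : ZMod p) then 0 else 1 :=
    hh_prime_prime (natGenerator_pl hp) hp2 h0 hq hpq k0
  have k2 : hh LS (pl q hq) (iu p h0) (iu q k0) = if IsSquare (p : ZMod q) then 0 else 1 := by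
    rw [hh_comm]
    exact hh_prime_prime (natGenerator_pl hq) hq2 k0 hp hpq.symm h0
  rw [ss_eq_sum {pl 2 Nat.prime_two, pl p hp, pl q hq}]
  · rw [Finset.sum_insert, Finset.sum_pair (pl_ne _ _ hpq),
      hh_odd_odd (natGenerator_pl Nat.prime_two) h0 (not_two_dvd hp hp2) k0 (not_two_dvd hq hq2),
      h2, k2]
    · have hp1 : p % 2 = 1 := hp.mod_two_eq_one_iff_ne_two.mpr hp2
      have hq1 : q % 2 = 1 := hq.mod_two_eq_one_iff_ne_two.mpr hq2
      have h11 : (1 : ZMod 2) + 1 = 0 := by decide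
      by_cases h3 : p % 4 = 3 ∧ q % 4 = 3
      · rw [if_pos (by omega)]
        have h4 := ZMod.exists_sq_eq_prime_iff_of_mod_four_eq_three h3.1 h3.2 hpq
        by_cases h5 : IsSquare (p : ZMod q)
        · rw [if_neg (fun h6 => (h4.mp h6) h5), if_pos h5, add_zero, h11]
        · rw [if_pos (h4.mpr h5), if_neg h5, zero_add, h11]
      · rw [if_neg (by omega)]
        have h4 : IsSquare (q : ZMod p) ↔ IsSquare (p : ZMod q) := by
          by_cases h5 : p % 4 = 1
          · exact ZMod.exists_sq_eq_prime_iff_of_mod_four_eq_one h5 hq2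
          · exact (ZMod.exists_sq_eq_prime_iff_of_mod_four_eq_one (by omega) hp2).symm
        simp only [h4, zero_add]
        exact add_self_two _
    · rw [Finset.mem_insert, Finset.mem_singleton, not_or]
      exact ⟨pl_ne _ _ hp2.symm, pl_ne _ _ hq2.symm⟩
  · intro v hv
    rw [Finset.mem_insert, Finset.mem_insert, Finset.mem_singleton, not_or, not_or] at hv
    exact hh_units (ne_pl Nat.prime_two hv.1) (ord_iu_prime hp (ne_pl hp hv.2.1) h0)
      (ord_iu_prime hq (ne_pl hq hv.2.2) k0)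

end Values

end RatProd

open IsDedekindDomain NumberField RatLoc RatProd
open Fermat.Agent.CFT.Global

/-- **The product formula over `ℚ`**: the sum of the local symbols at the finite places is the real
symbol. -/
theorem prod_rat (LS : LocalSymbols 2 ℚ) (a b : ℚˣ) :
    (symVec LS two_ne_zero a b).sum (fun _ n => n) =
      if (a : ℚ) < 0 ∧ (b : ℚ) < 0 then 1 else 0 := by
  change ss LS a b = rr a b
  have hpos : ∀ (p : ℕ) (hp : p.Prime) (h0 : (p : ℤ) ≠ 0), 0 < ((iu p h0 : ℚˣ) : ℚ) :=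
    fun p hp h0 => by
      rw [iu_val, Int.cast_natCast]
      exact_mod_cast hp.pos
  have hcases : ∀ (p : ℕ) (hp : p.Prime) (h0 : (p : ℤ) ≠ 0), ss LS (-1) (iu p h0) = 0 :=
    fun p hp h0 => by
      by_cases hp2 : p = 2
      · subst hp2
        exact ss_neg_one_two
      · exact ss_neg_one_prime hp hp2 h0
  have hcases2 : ∀ (p : ℕ) (hp : p.Prime) (h0 : (p : ℤ) ≠ 0) (q : ℕ) (hq : q.Prime)
      (k0 : (q : ℤ) ≠ 0), ss LS (iu p h0) (iu q k0) = 0 := fun p hp h0 q hq k0 => by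
    by_cases hp2 : p = 2
    · subst hp2
      by_cases hq2 : q = 2
      · subst hq2
        exact ss_self_two
      · exact ss_two_prime hq hq2 k0
    · by_cases hq2 : q = 2
      · subst hq2
        rw [ss_comm]
        exact ss_two_prime hp hp2 h0
      · by_cases hpq : p = q
        · subst hpq
          exact ss_self hp hp2 h0
        · exact ss_prime_prime hp hp2 h0 hq hq2 k0 hpq
  refine eq_of_gen (f := fun b => ss LS a b) (g := fun b => rr a b)
    (fun x y => ss_mul_right a x y) (fun x y => rr_mul_right a x y) ?_ (fun q hq => ?_) b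
  · rw [ss_comm, rr_comm]
    refine eq_of_gen (f := fun a => ss LS (-1) a) (g := fun a => rr (-1) a)
      (fun x y => ss_mul_right _ x y) (fun x y => rr_mul_right _ x y) ?_ (fun p hp => ?_) a
    · rw [ss_neg_one_neg_one, rr, if_pos]
      rw [Units.val_neg, Units.val_one]
      norm_num
    · rw [hcases p hp, rr_of_pos (hpos p hp _)]
  · rw [ss_comm, rr_of_pos (hpos q hq _)]
    have h1 : (0 : ZMod 2) = rr (iu q (by exact_mod_cast hq.ne_zero)) a := by
      rw [rr_comm, rr_of_pos (hpos q hq _)]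
    rw [h1]
    refine eq_of_gen (f := fun a => ss LS (iu q (by exact_mod_cast hq.ne_zero)) a)
      (g := fun a => rr (iu q (by exact_mod_cast hq.ne_zero)) a)
      (fun x y => ss_mul_right _ x y) (fun x y => rr_mul_right _ x y) ?_ (fun p hp => ?_) a
    · rw [ss_comm, hcases q hq, rr_comm, rr_of_pos (hpos q hq _)]
    · rw [hcases2 q hq _ p hp, rr_of_pos (hpos p hp _)]

end Fermat.Agent.Cor.HM
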