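import Fermat.Agent.Corollaries.HM.GalAlg
import Fermat.Agent.Corollaries.HM.NormForm

/-!
# Hilbert's theorem 90 for the algebras `F ⊗ L`

* `hilbert90_tensor`: `τ` an automorphism of `L / K` of order `m`, `X ∈ F ⊗ L` with
  `∏_{j < m} τ^j X = 1`: there is a unit `t` with `τ t = X t`;
* `mem_range_of_fixed`: the elements of `F ⊗ L` fixed by `τ` come from `F ⊗ L^τ`.
-/

set_option autoImplicit false

namespace Fermat.Agent.Cor.HN

open TensorProduct Module Finset

section Act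

variable {K L : Type*} [Field K] [Field L] [Algebra K L] {R : Type*} [CommRing R] [Algebra K R]

/-- `σ ^ i` acting on `R ⊗ L`. -/
noncomputable def pw (R : Type*) [CommRing R] [Algebra K R] (σ : L ≃ₐ[K] L) (i : ℕ) :
    R ⊗[K] L →ₐ[R] R ⊗[K] L := act R ((σ ^ i : L ≃ₐ[K] L) : L →ₐ[K] L)

lemma pw_tmul (σ : L ≃ₐ[K] L) (i : ℕ) (r : R) (l : L) :
    pw R σ i (r ⊗ₜ l) = r ⊗ₜ (σ ^ i) l := rfl

lemma pw_of_pow_eq_one {σ : L ≃ₐ[K] L} {i : ℕ} (h : σ ^ i = 1) (z : R ⊗[K] L) :
    pw R σ i z = z := by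
  induction z using TensorProduct.induction_on with
  | zero => rw [map_zero]
  | tmul r l => rw [pw_tmul, h]; rfl
  | add x y hx hy => rw [map_add, hx, hy]

@[simp] lemma pw_zero (σ : L ≃ₐ[K] L) (z : R ⊗[K] L) : pw R σ 0 z = z :=
  pw_of_pow_eq_one (pow_zero σ) z

lemma pw_add (σ : L ≃ₐ[K] L) (i j : ℕ) (z : R ⊗[K] L) :
    pw R σ (i + j) z = pw R σ i (pw R σ j z) := by
  induction z using TensorProduct.induction_on with
  | zero => simp only [map_zero]
  | tmul r l => rw [pw_tmul, pw_tmul, pw_tmul, pow_add, AlgEquiv.mul_apply]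
  | add x y hx hy => rw [map_add, map_add, map_add, hx, hy]

lemma pw_pow (σ : L ≃ₐ[K] L) (p j : ℕ) (z : R ⊗[K] L) :
    pw R (σ ^ p) j z = pw R σ (p * j) z := by
  rw [pw, pw, ← pow_mul]

lemma pw_algebraMap (σ : L ≃ₐ[K] L) (i : ℕ) (r : R) :
    pw R σ i (algebraMap R (R ⊗[K] L) r) = algebraMap R (R ⊗[K] L) r :=
  AlgHom.commutes _ _

theorem prodAct_eq_range [FiniteDimensional K L] {σ : L ≃ₐ[K] L}
    (hσ : ∀ g, g ∈ Subgroup.zpowers σ) (z : R ⊗[K] L) :
    prodAct R z = ∏ i ∈ range (orderOf σ), pw R σ i z := by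
  classical
  rw [prodAct, ← IsCyclic.image_range_orderOf hσ, prod_image]
  · rfl
  · intro i hi j hj hij
    exact pow_injOn_Iio_orderOf (by simpa using hi) (by simpa using hj) hij

end Act

/-- Regrouping a product. -/
theorem prod_regroup {B : Type*} [CommMonoid B] (f : ℕ → B) (p m : ℕ) :
    ∏ j ∈ range m, ∏ i ∈ range p, f (p * j + i) = ∏ k ∈ range (p * m), f k := by
  induction m with
  | zero => simp
  | succ m ih => rw [prod_range_succ, ih, Nat.mul_succ, prod_range_add]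

/-- An element of a finite algebra over a field is a unit if it is not killed by any
homomorphism to the algebraic closure. -/
theorem isUnit_of_forall_algHom {F B : Type*} [Field F] [CommRing B] [Algebra F B]
    [FiniteDimensional F B] (x : B) (h : ∀ φ : B →ₐ[F] AlgebraicClosure F, φ x ≠ 0) :
    IsUnit x := by
  by_contra hx
  obtain ⟨𝔪, h𝔪, hx𝔪⟩ := exists_max_ideal_of_mem_nonunits hx
  let fM : Field (B ⧸ 𝔪) := Ideal.Quotient.field 𝔪
  have hfin : FiniteDimensional F (B ⧸ 𝔪) :=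
    Module.Finite.of_surjective (Ideal.Quotient.mkₐ F 𝔪).toLinearMap
      (Ideal.Quotient.mkₐ_surjective F 𝔪)
  let φ₀ : B ⧸ 𝔪 →ₐ[F] AlgebraicClosure F := IsAlgClosed.lift
  apply h (φ₀.comp (Ideal.Quotient.mkₐ F 𝔪))
  rw [AlgHom.comp_apply, Ideal.Quotient.mkₐ_eq_mk, Ideal.Quotient.eq_zero_iff_mem.mpr hx𝔪,
    map_zero]

section H90

variable {K L : Type*} [Field K] [Field L] [Algebra K L] [FiniteDimensional K L] {F : Type*}
  [Field F] [Algebra K F]

/-- **Hilbert's theorem 90 for `F ⊗ L`.** -/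
theorem hilbert90_tensor [Infinite F] (τ : L ≃ₐ[K] L) {m : ℕ} (hm : orderOf τ = m)
    (hm0 : 0 < m) {X : F ⊗[K] L} (hX : ∏ j ∈ range m, pw F τ j X = 1) :
    ∃ t : F ⊗[K] L, IsUnit t ∧ pw F τ 1 t = X * t := by
  have hτm : τ ^ m = 1 := by rw [← hm]; exact pow_orderOf_eq_one τ
  let d : ℕ → F ⊗[K] L := fun j => ∏ i ∈ Ico j m, pw F τ i X
  have hd0 : d 0 = 1 := by
    change ∏ i ∈ Ico 0 m, _ = _
    rw [Nat.Ico_zero_eq_range, hX]
  have hdm : d m = 1 := by
    change ∏ i ∈ Ico m m, _ = _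
    rw [Ico_self, prod_empty]
  have hd : ∀ j < m, pw F τ 1 (d j) = d (j + 1) * X := by
    intro j hj
    change pw F τ 1 (∏ i ∈ Ico j m, pw F τ i X) = (∏ i ∈ Ico (j + 1) m, pw F τ i X) * X
    rw [map_prod]
    have h1 : ∀ i ∈ Ico j m, pw F τ 1 (pw F τ i X) = pw F τ (i + 1) X := by
      intro i _
      rw [← pw_add, add_comm]
    rw [prod_congr rfl h1, prod_Ico_add' (fun i => pw F τ i X) j m 1, prod_Ico_succ_top (by omega),
      pw_of_pow_eq_one hτm]
  let tf : F ⊗[K] L →ₗ[F] F ⊗[K] L :=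
    ∑ j ∈ range m, (LinearMap.mulLeft F (d j)).comp (pw F τ j).toLinearMap
  have htf : ∀ θ, tf θ = ∑ j ∈ range m, d j * pw F τ j θ := by
    intro θ
    simp only [tf, LinearMap.sum_apply, LinearMap.comp_apply, LinearMap.mulLeft_apply,
      AlgHom.toLinearMap_apply]
  have heq : ∀ θ, pw F τ 1 (tf θ) = X * tf θ := by
    intro θ
    rw [htf, map_sum, mul_sum]
    have h1 : ∀ j ∈ range m, pw F τ 1 (d j * pw F τ j θ) =
        X * (d (j + 1) * pw F τ (j + 1) θ) := by
      intro j hj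
      rw [map_mul, hd j (mem_range.mp hj), ← pw_add, add_comm 1 j]
      ring
    rw [sum_congr rfl h1, ← mul_sum, ← mul_sum]
    congr 1
    have h2 := sum_range_succ (fun j => d j * pw F τ j θ) m
    have h3 := sum_range_succ' (fun j => d j * pw F τ j θ) m
    rw [h2] at h3
    rw [hd0, hdm, pw_zero, pw_of_pow_eq_one hτm] at h3
    exact (add_right_cancel h3).symm
  -- a good `θ`
  let V : (F ⊗[K] L →ₐ[F] AlgebraicClosure F) → Submodule F (F ⊗[K] L) := fun φ =>
    LinearMap.ker (φ.toLinearMap.comp tf)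
  have hV : ∀ φ, V φ ≠ ⊤ := by
    intro φ hφ
    let ψ : L →+* AlgebraicClosure F :=
      φ.toRingHom.comp (Algebra.TensorProduct.includeRight : L →ₐ[K] F ⊗[K] L).toRingHom
    let ch : Fin m → (L →* AlgebraicClosure F) := fun j =>
      (ψ.comp ((τ ^ (j : ℕ) : L ≃ₐ[K] L) : L →+* L)).toMonoidHom
    have hch : Function.Injective ch := by
      intro i j hij
      have h1 : τ ^ (i : ℕ) = τ ^ (j : ℕ) := by
        ext l
        have h2 := DFunLike.congr_fun hij l
        exact ψ.injective h2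
      exact Fin.ext (pow_injOn_Iio_orderOf (by simp [hm]) (by simp [hm]) h1)
    have hli := (linearIndependent_monoidHom L (AlgebraicClosure F)).comp ch hch
    rw [Fintype.linearIndependent_iff] at hli
    have h3 := hli (fun j => φ (d j)) (by
      ext l
      have h4 : φ (tf (1 ⊗ₜ l)) = 0 := by
        have h5 : (1 : F) ⊗ₜ[K] l ∈ V φ := by rw [hφ]; trivial
        exact h5
      rw [htf, map_sum, sum_range] at h4
      rw [Finset.sum_apply, Pi.zero_apply, ← h4]
      refine sum_congr rfl fun j _ => ?_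
      rw [Pi.smul_apply, smul_eq_mul, map_mul]
      rfl) ⟨0, hm0⟩
    rw [hd0, map_one] at h3
    exact one_ne_zero h3
  obtain ⟨θ, hθ⟩ : ∃ θ, ∀ φ, θ ∉ V φ := by
    by_contra hcon
    push Not at hcon
    obtain ⟨φ, hφ⟩ := Subspace.exists_eq_top_of_iUnion_eq_univ (p := V)
      (Set.eq_univ_of_forall fun θ => Set.mem_iUnion.mpr (hcon θ))
    exact hV φ hφ
  exact ⟨tf θ, isUnit_of_forall_algHom _ fun φ h => hθ φ h, heq θ⟩

omit [FiniteDimensional K L] in
/-- The fixed elements of `F ⊗ L`. -/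
theorem mem_range_of_fixed (τ : L ≃ₐ[K] L) {z : F ⊗[K] L} (hz : pw F τ 1 z = z) :
    ∃ z₀ : F ⊗[K] (IntermediateField.fixedField (Subgroup.zpowers τ)),
      Algebra.TensorProduct.map (AlgHom.id F F)
        (IntermediateField.fixedField (Subgroup.zpowers τ)).val z₀ = z := by
  classical
  let ℬ := Basis.ofVectorSpace K F
  obtain ⟨c, hc⟩ := TensorProduct.eq_repr_basis_left ℬ z
  have h1 : pw F τ 1 z = (c.mapRange τ (map_zero τ)).sum (fun i n => ℬ i ⊗ₜ[K] n) := by
    rw [← hc, Finsupp.sum_mapRange_index (fun i => by rw [TensorProduct.tmul_zero]),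
      Finsupp.sum, map_sum]
    refine sum_congr rfl fun i _ => ?_
    rw [pw_tmul, pow_one]
  rw [hz, ← hc] at h1
  have h2 : c = c.mapRange τ (map_zero τ) := by
    apply TensorProduct.sum_tmul_basis_left_injective (N := L) ℬ
    exact h1
  have h3 : ∀ i, c i ∈ IntermediateField.fixedField (Subgroup.zpowers τ) := by
    intro i
    have h4 : τ (c i) = c i := by
      conv_rhs => rw [h2]
      rfl
    rw [IntermediateField.mem_fixedField_iff]
    rintro _ ⟨k, rfl⟩
    have h5 : τ ∈ MulAction.stabilizer (L ≃ₐ[K] L) (c i) := h4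
    exact zpow_mem h5 k
  refine ⟨∑ i ∈ c.support, ℬ i ⊗ₜ ⟨c i, h3 i⟩, ?_⟩
  rw [map_sum, ← hc, Finsupp.sum]
  rfl

end H90

end Fermat.Agent.Cor.HN
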