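import Fermat.Agent.Corollaries.Diff.Real
import Fermat.Agent.CFT.Global.Reciprocity
import Fermat.Agent.CFT.Global2.Final2

/-!
# The global square theorem over an arbitrary number field

`K` an arbitrary number field (real places allowed).
* `exists_notMem_locPow_all`: an element of `Kˣ` which is a square in almost all completions is a
  square;
* `exists_inj_all`: for arbitrarily large finite sets `S` of places, an `S`-unit which is a local
  square at all `v ∈ S` is a square.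
-/

set_option autoImplicit false

namespace Fermat.Agent.Cor.HM

open IsDedekindDomain NumberField
open Fermat.Agent.Frob
open Fermat.Agent.Cor.Diff (exists_emb exists_rt exists_frob_sgn sgn_frob_iff exists_nat_mem'
  finite_natCast_mem Rt GK FrobAt)
open Fermat.Agent.CFT.Global (locPow E mem_E AboveP ClTrivial exists_good powE mem_powE index_powE
  nonempty_places dvd_ord_of_mem_locPow pow_mem_locPow)
open Fermat.Agent.CFT.SUnits (ord ord_mul ord_inv ord_pow ord_div finite_ord_ne_zero div div_apply)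

/-- The square root of a non-square is moved by an automorphism fixing `K`. -/
theorem exists_sgn_ne {K : Type*} [Field K] [NumberField K] {i : K →+* AlgebraicClosure ℚ}
    (α : Rt i) (ha : ∀ c : Kˣ, c ^ 2 ≠ α.x) : ∃ g : GK i, α.sgn g ≠ 1 := by
  by_contra! hcon
  let F : IntermediateField ℚ (AlgebraicClosure ℚ) := i.toRatAlgHom.fieldRange
  have h1 : α.r ∈ IntermediateField.fixedField F.fixingSubgroup := by
    rw [IntermediateField.mem_fixedField_iff]
    intro σ hσ
    have h2 : ∀ x, σ (i x) = i x := fun x =>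
      (IntermediateField.mem_fixingSubgroup_iff F σ).mp hσ (i x) ⟨x, rfl⟩
    exact (α.sgn_eq_one_iff ⟨σ, h2⟩).mp (hcon _)
  rw [InfiniteGalois.fixedField_fixingSubgroup] at h1
  obtain ⟨c, hc⟩ := h1
  have hc' : i c = α.r := hc
  have hc0 : c ≠ 0 := by
    rintro rfl
    exact α.ne_zero (by rw [← hc', map_zero])
  apply ha (Units.mk0 c hc0)
  ext
  apply i.injective
  rw [Units.val_pow_eq_pow_val, Units.val_mk0, map_pow, hc', α.eq]

/-- **The global square theorem**, `K` an arbitrary number field. -/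
theorem exists_notMem_locPow_all {K : Type*} [Field K] [NumberField K]
    (S₀ : Finset (HeightOneSpectrum (𝓞 K))) {a : Kˣ} (ha : ∀ c : Kˣ, c ^ 2 ≠ a) :
    ∃ v ∉ S₀, a ∉ locPow 2 v := by
  classical
  obtain ⟨i⟩ := exists_emb K
  obtain ⟨α, rfl⟩ := exists_rt i a
  obtain ⟨g, hg⟩ := exists_sgn_ne α ha
  obtain ⟨D, hD, hDv⟩ := exists_nat_mem' ((S₀ : Set (HeightOneSpectrum (𝓞 K))) ∪
    {v | ord v α.x ≠ 0}) (S₀.finite_toSet.union (finite_ord_ne_zero K _)) 2 two_ne_zero
  obtain ⟨v, φ, hv, hφ, hs⟩ := exists_frob_sgn g [α] ⟨α, by simp, hg⟩ hD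
  obtain ⟨h1, h2⟩ := hDv v hv
  simp only [Set.mem_union, Set.mem_ofPred_eq, not_or, not_not, Finset.mem_coe] at h1
  refine ⟨v, h1.1, fun h => hg ?_⟩
  rw [← hs α (by simp)]
  exact (sgn_frob_iff α hφ h2 h1.2).mpr h

/-- An element of `Kˣ` which is a local square at all places outside a finite set is a square. -/
theorem exists_sq_of_forall_locPow {K : Type*} [Field K] [NumberField K]
    (S₀ : Finset (HeightOneSpectrum (𝓞 K))) {a : Kˣ} (h : ∀ v ∉ S₀, a ∈ locPow 2 v) :
    ∃ c : Kˣ, c ^ 2 = a := by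
  by_contra! hcon
  obtain ⟨v, hv, hav⟩ := exists_notMem_locPow_all S₀ hcon
  exact hav (h v hv)

/-- For suitable large `S`, `S`-units which are local squares at `S` are squares. -/
theorem exists_inj_all {K : Type*} [Field K] [NumberField K]
    (S₀ : Finset (HeightOneSpectrum (𝓞 K))) :
    ∃ S : Finset (HeightOneSpectrum (𝓞 K)), S₀ ⊆ S ∧ AboveP 2 S ∧ ClTrivial S ∧
      ∀ y ∈ E S, (∀ v ∈ S, y ∈ locPow 2 v) → ∃ b : Kˣ, b ^ 2 = y := by
  classical
  have hp := Nat.prime_two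
  have hζ : IsPrimitiveRoot (-1 : K) 2 := IsPrimitiveRoot.neg_one 0 (by norm_num)
  obtain ⟨S₁, hS₀, hS₁p, hcl, -⟩ := exists_good (K := K) 2 hp.ne_zero S₀ ∅
  have hfin : Finite (E S₁ ⧸ powE 2 S₁) := by
    apply Nat.finite_of_card_ne_zero
    change (powE 2 S₁).index ≠ 0
    rw [index_powE hp hζ]
    exact pow_ne_zero _ hp.ne_zero
  have := Fintype.ofFinite (E S₁ ⧸ powE 2 S₁)
  choose g hg using QuotientGroup.mk_surjective (s := powE 2 S₁)
  have hv : ∀ e : E S₁ ⧸ powE 2 S₁, ∃ v : HeightOneSpectrum (𝓞 K),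
      (∀ b : Kˣ, b ^ 2 ≠ g e) → (g e : Kˣ) ∉ locPow 2 v := by
    intro e
    by_cases h : ∀ b : Kˣ, b ^ 2 ≠ g e
    · obtain ⟨v, -, hv⟩ := exists_notMem_locPow_all ∅ h
      exact ⟨v, fun _ => hv⟩
    · obtain ⟨v⟩ := nonempty_places (K := K)
      exact ⟨v, fun h' => absurd h' h⟩
  choose w hw using hv
  refine ⟨S₁ ∪ Finset.univ.image w, hS₀.trans Finset.subset_union_left,
    fun v hv => Finset.mem_union_left _ (hS₁p v hv), hcl.mono Finset.subset_union_left, ?_⟩
  intro y hy hyS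
  -- divide the divisor by `2`
  have hdvd : ∀ v ∉ S₁, ((2 : ℕ) : ℤ) ∣ ord v y := by
    intro v hv
    by_cases h : v ∈ S₁ ∪ Finset.univ.image w
    · exact dvd_ord_of_mem_locPow (hyS v h)
    · rw [mem_E.mp hy v h]
      exact dvd_zero _
  obtain ⟨b, hb⟩ := hcl ((div y).mapRange (fun n => n / ((2 : ℕ) : ℤ)) (by simp))
  have he : y / b ^ 2 ∈ E S₁ := by
    rw [mem_E]
    intro v hv
    rw [ord_div, ord_pow, hb v hv, Finsupp.mapRange_apply, div_apply,
      Int.mul_ediv_cancel' (hdvd v hv), sub_self]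
  set e : E S₁ := ⟨y / b ^ 2, he⟩ with hedef
  have hge : ((e : E S₁ ⧸ powE 2 S₁)) = (g (e : E S₁ ⧸ powE 2 S₁)) := (hg _).symm
  obtain ⟨z, hz⟩ := (QuotientGroup.eq.mp hge)
  have hz' : (g (e : E S₁ ⧸ powE 2 S₁) : Kˣ) = y / b ^ 2 * (z : Kˣ) ^ 2 := by
    have h1 : ((e⁻¹ * g (e : E S₁ ⧸ powE 2 S₁) : E S₁) : Kˣ) = (z : Kˣ) ^ 2 := by
      rw [← hz]
      rfl
    have h2 : (e : Kˣ) = y / b ^ 2 := rfl
    rw [← h1, ← h2]
    push_cast
    rw [mul_inv_cancel_left]
  by_contra hcon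
  push Not at hcon
  have h3 : ∀ c : Kˣ, c ^ 2 ≠ g (e : E S₁ ⧸ powE 2 S₁) := by
    intro c hc
    apply hcon (c * b / z)
    rw [hz'] at hc
    rw [_root_.div_pow, mul_pow, hc]
    rw [div_eq_iff_eq_mul]
    rw [mul_right_comm, div_mul_cancel]
  apply hw _ h3
  rw [hz']
  have h4 := hyS (w (e : E S₁ ⧸ powE 2 S₁))
    (Finset.mem_union_right _ (Finset.mem_image_of_mem _ (Finset.mem_univ _)))
  exact mul_mem (div_mem h4 (pow_mem_locPow 2 _ b)) (pow_mem_locPow 2 _ _)

end Fermat.Agent.Cor.HM
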