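import Fermat.Agent.Corollaries.HM.NoHasse

/-!
# The Hasse principle fails for curves of genus one (Lind, Reichardt)

The equation `x ^ 4 - 17 y ^ 4 = 2 z ^ 2` has a nontrivial solution in `ℝ` and in `ℚ_p` for all
primes `p`, but only the trivial solution in `ℚ`.
-/

set_option autoImplicit false

namespace Fermat.Agent.Cor.HM.Lind

/-! ### Finite fields -/

section Finite

variable {F : Type*} [Field F] [Fintype F] [DecidableEq F]

lemma isSquare_mul_of_not {a b : F} (ha : ¬ IsSquare a) (hb : ¬ IsSquare b) :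
    IsSquare (a * b) := by
  have ha0 : a ≠ 0 := fun h => ha (h ▸ IsSquare.zero)
  have hb0 : b ≠ 0 := fun h => hb (h ▸ IsSquare.zero)
  rw [← quadraticChar_one_iff_isSquare (mul_ne_zero ha0 hb0), map_mul,
    quadraticChar_neg_one_iff_not_isSquare.mpr ha, quadraticChar_neg_one_iff_not_isSquare.mpr hb]
  norm_num

/-- the number of nonsquares -/
lemma card_nonsquares (hF : ringChar F ≠ 2) :
    2 * (Finset.univ.filter fun a : F => ¬ IsSquare a).card + 1 = Fintype.card F := by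
  have h := quadraticChar_sum_zero hF
  have h1 : ∀ a : F, (1 : ℤ) - quadraticChar F a =
      2 * (if ¬ IsSquare a then 1 else 0) + (if a = 0 then 1 else 0) := by
    intro a
    by_cases ha : IsSquare a
    · by_cases ha0 : a = 0
      · subst ha0
        simp
      · rw [(quadraticChar_one_iff_isSquare ha0).mpr ha]
        simp [ha, ha0]
    · have ha0 : a ≠ 0 := fun h => ha (h ▸ IsSquare.zero)
      rw [quadraticChar_neg_one_iff_not_isSquare.mpr ha]
      simp [ha, ha0]
  have h2 : ∑ a : F, ((1 : ℤ) - quadraticChar F a) = Fintype.card F := by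
    rw [Finset.sum_sub_distrib, h]
    simp
  rw [Finset.sum_congr rfl fun a _ => h1 a, Finset.sum_add_distrib, ← Finset.mul_sum,
    Finset.sum_boole, Finset.sum_boole, Finset.filter_eq'] at h2
  simp only [Finset.mem_univ, if_true, Finset.card_singleton] at h2
  exact_mod_cast h2

/-- If `-1` is a square, there is a nonsquare `t` with `t ^ 2 - 1` a nonsquare. -/
lemma exists_nonsquare (hF : ringChar F ≠ 2) (hm : IsSquare (-1 : F)) :
    ∃ t : F, ¬ IsSquare t ∧ ¬ IsSquare (t ^ 2 - 1) := by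
  have h2 : (2 : F) ≠ 0 := Ring.two_ne_zero hF
  have hne : (1 : F) ≠ -1 := fun h => h2 (by linear_combination h)
  let P : Finset F := Finset.univ \ {0, 1, -1}
  let S : Finset F := Finset.univ.filter fun a : F => ¬ IsSquare a
  have hP : P.card + 3 = Fintype.card F := by
    have h3 : ({0, 1, -1} : Finset F).card = 3 := by
      rw [Finset.card_eq_three]
      exact ⟨0, 1, -1, zero_ne_one, fun h => by simpa using h.symm, hne, rfl⟩
    have h4 := Finset.card_sdiff_add_card_eq_card (Finset.subset_univ ({0, 1, -1} : Finset F))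
    rw [h3] at h4
    exact h4
  have hS : 2 * S.card + 1 = Fintype.card F := card_nonsquares hF
  obtain ⟨t, htS, ht⟩ := Finset.exists_card_fiber_lt_of_card_lt_mul (s := P) (t := S) (n := 2)
    (f := fun s => (s + s⁻¹) / 2) (by omega)
  have ht1 : ¬ IsSquare t := (Finset.mem_filter.mp htS).2
  refine ⟨t, ht1, ?_⟩
  rintro ⟨u, hu⟩
  have hu0 : u ≠ 0 := by
    rintro rfl
    have h5 : (t - 1) * (t + 1) = 0 := by linear_combination hu
    rcases mul_eq_zero.mp h5 with h | h
    · exact ht1 (by rw [sub_eq_zero.mp h]; exact IsSquare.one)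
    · exact ht1 (by rw [eq_neg_of_add_eq_zero_left h]; exact hm)
  have key : ∀ v : F, v * v = u * u → t + v ∈ {x ∈ P | (x + x⁻¹) / 2 = t} := by
    intro v hv
    have h6 : (t + v) * (t - v) = 1 := by linear_combination hu - hv
    have h7 : t + v ≠ 0 := left_ne_zero_of_mul_eq_one h6
    have hv0 : v ≠ 0 := by
      rintro rfl
      apply hu0
      rw [mul_zero] at hv
      exact mul_self_eq_zero.mp hv.symm
    have h8 : (t + v)⁻¹ = t - v := by
      rw [inv_eq_iff_eq_inv, eq_comm, inv_eq_of_mul_eq_one_left h6]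
    rw [Finset.mem_filter]
    refine ⟨?_, ?_⟩
    · simp only [P, Finset.mem_sdiff, Finset.mem_univ, true_and, Finset.mem_insert,
        Finset.mem_singleton, not_or]
      refine ⟨h7, fun h => ?_, fun h => ?_⟩
      · apply hv0
        rw [h, one_mul] at h6
        have : 2 * v = 0 := by linear_combination h - h6
        exact (mul_eq_zero.mp this).resolve_left h2
      · apply hv0
        rw [h] at h6
        have : 2 * v = 0 := by linear_combination h + h6
        exact (mul_eq_zero.mp this).resolve_left h2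
    · rw [h8]
      field_simp
      ring
  have h9 : ({t + u, t + -u} : Finset F) ⊆ {x ∈ P | (x + x⁻¹) / 2 = t} := by
    intro x hx
    rcases Finset.mem_insert.mp hx with rfl | hx
    · exact key u rfl
    · rw [Finset.mem_singleton.mp hx]
      exact key (-u) (by ring)
  have h10 : ({t + u, t + -u} : Finset F).card = 2 := by
    apply Finset.card_pair
    intro h
    apply hu0
    have : 2 * u = 0 := by linear_combination h
    exact (mul_eq_zero.mp this).resolve_left h2
  have h11 := Finset.card_le_card h9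
  rw [h10] at h11
  exact absurd ht (not_lt.mpr h11)

/-- The analysis over a finite field of characteristic prime to `34`. -/
theorem finite_cases (hF : ringChar F ≠ 2) (h17 : (17 : F) ≠ 0) :
    IsSquare (2 : F) ∨ IsSquare (-34 : F) ∨ (∃ a : F, a ^ 4 = 17) ∨
      ∃ a : F, 2 * (a ^ 4 - 17) ≠ 0 ∧ IsSquare (2 * (a ^ 4 - 17)) := by
  have h2 : (2 : F) ≠ 0 := Ring.two_ne_zero hF
  by_cases hm : IsSquare (-1 : F)
  · by_cases hs2 : IsSquare (2 : F)
    · exact Or.inl hs2
    by_cases hs17 : IsSquare (17 : F)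
    · obtain ⟨w, hw⟩ := hs17
      by_cases hsw : IsSquare w
      · obtain ⟨a, ha⟩ := hsw
        right; right; left
        refine ⟨a, ?_⟩
        rw [hw, ha]
        ring
      · obtain ⟨t, ht, ht'⟩ := exists_nonsquare hF hm
        obtain ⟨a, ha⟩ := isSquare_mul_of_not ht hsw
        obtain ⟨c, hc⟩ := isSquare_mul_of_not hs2 ht'
        right; right; right
        have e : 2 * (a ^ 4 - 17) = 17 * (2 * (t ^ 2 - 1)) := by
          have e1 : a ^ 4 = (t * w) ^ 2 := by rw [ha]; ring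
          rw [e1, hw]
          ring
        refine ⟨a, ?_, ?_⟩
        · rw [e]
          refine mul_ne_zero h17 (mul_ne_zero h2 fun h => ht' ?_)
          rw [h]
          exact IsSquare.zero
        · rw [e, hc, hw]
          exact ⟨w * c, by ring⟩
    · right; left
      have h34 := hm.mul (isSquare_mul_of_not hs2 hs17)
      have e : (-1 : F) * (2 * 17) = -34 := by norm_num
      rwa [e] at h34
  · right; right
    have hodd : Fintype.card F % 2 = 1 := by
      rcases Nat.mod_two_eq_zero_or_one (Fintype.card F) with h | h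
      · exact absurd (FiniteField.even_card_iff_char_two.mpr h) hF
      · exact h
    obtain ⟨u, z, huz⟩ := FiniteField.exists_root_sum_quadratic (R := F)
      (f := Polynomial.C 1 * Polynomial.X ^ 2 + Polynomial.C 0 * Polynomial.X + Polynomial.C (-17))
      (g := Polynomial.C (-2) * Polynomial.X ^ 2 + Polynomial.C 0 * Polynomial.X + Polynomial.C 0)
      (Polynomial.degree_quadratic one_ne_zero)
      (Polynomial.degree_quadratic (neg_ne_zero.mpr h2)) hodd
    simp only [Polynomial.eval_add, Polynomial.eval_mul, Polynomial.eval_C, Polynomial.eval_pow,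
      Polynomial.eval_X] at huz
    have hu : ∃ a : F, a ^ 4 = u ^ 2 := by
      by_cases hsu : IsSquare u
      · obtain ⟨a, ha⟩ := hsu
        exact ⟨a, by rw [ha]; ring⟩
      · obtain ⟨a, ha⟩ := isSquare_mul_of_not hm hsu
        refine ⟨a, ?_⟩
        have : a ^ 4 = (-1 * u) ^ 2 := by rw [ha]; ring
        rw [this]
        ring
    obtain ⟨a, ha⟩ := hu
    have e : a ^ 4 - 17 = 2 * z ^ 2 := by
      rw [ha]
      linear_combination huz
    by_cases hz : z = 0
    · left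
      refine ⟨a, ?_⟩
      rw [hz] at e
      linear_combination e
    · right
      refine ⟨a, ?_, ?_⟩
      · rw [e]
        exact mul_ne_zero h2 (mul_ne_zero h2 (pow_ne_zero 2 hz))
      · rw [e]
        exact ⟨2 * z, by ring⟩

end Finite

/-! ### Local solutions -/

section Local

variable {p : ℕ} [hp : Fact p.Prime]

lemma norm_eq_one {k : ℤ} (hk : ¬ (p : ℤ) ∣ k) : ‖(k : ℤ_[p])‖ = 1 := by
  refine le_antisymm (PadicInt.norm_le_one _) (not_lt.mp ?_)
  rw [PadicInt.norm_int_lt_one_iff_dvd]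
  exact hk

/-- Hensel's lemma for fourth powers -/
lemma exists_fourth {k a : ℤ}
    (h : ‖((a ^ 4 - k : ℤ) : ℤ_[p])‖ < ‖((4 * a ^ 3 : ℤ) : ℤ_[p])‖ ^ 2) :
    ∃ z : ℚ_[p], z ^ 4 = k := by
  obtain ⟨z, hz, -⟩ := hensels_lemma (p := p)
    (F := (Polynomial.X ^ 4 - Polynomial.C (k : ℤ_[p]))) (a := (a : ℤ_[p])) (by
      have e1 : (Polynomial.X ^ 4 - Polynomial.C (k : ℤ_[p])).aeval (a : ℤ_[p]) =
          ((a ^ 4 - k : ℤ) : ℤ_[p]) := by
        simp only [map_sub, map_pow, Polynomial.aeval_X, Polynomial.aeval_C,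
          Algebra.algebraMap_self, RingHom.id_apply]
        push_cast
        ring
      have e2 : (Polynomial.derivative (Polynomial.X ^ 4 - Polynomial.C (k : ℤ_[p]))).aeval
          (a : ℤ_[p]) = ((4 * a ^ 3 : ℤ) : ℤ_[p]) := by
        rw [Polynomial.derivative_sub, Polynomial.derivative_X_pow, Polynomial.derivative_C,
          sub_zero]
        simp
      rw [e1, e2]
      exact h)
  simp only [map_sub, map_pow, Polynomial.aeval_X, Polynomial.aeval_C, Algebra.algebraMap_self,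
    RingHom.id_apply] at hz
  refine ⟨(z : ℚ_[p]), ?_⟩
  have h3 := congrArg (PadicInt.Coe.ringHom (p := p)) (sub_eq_zero.mp hz)
  rw [map_pow, map_intCast] at h3
  exact h3

lemma exists_fourth_two : ∃ z : ℚ_[2], z ^ 4 = 17 := by
  have h := exists_fourth (p := 2) (k := 17) (a := 3) (by
    have e1 : (((3 : ℤ) ^ 4 - 17 : ℤ) : ℤ_[2]) = 2 ^ 6 := by norm_num
    have e2 : ((4 * (3 : ℤ) ^ 3 : ℤ) : ℤ_[2]) = 2 ^ 2 * ((27 : ℤ) : ℤ_[2]) := by norm_num
    have h3 : ‖(2 : ℤ_[2])‖ = 2⁻¹ := by simpa using PadicInt.norm_p (p := 2)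
    rw [e1, e2, norm_mul, norm_pow, norm_pow, h3, norm_eq_one (by norm_num)]
    norm_num)
  simpa using h

lemma exists_fourth_odd (h2 : p ≠ 2) (h17 : p ≠ 17) {a : ZMod p} (ha : a ^ 4 = 17) :
    ∃ z : ℚ_[p], z ^ 4 = 17 := by
  obtain ⟨a, rfl⟩ := ZMod.intCast_surjective a
  have hd : (p : ℤ) ∣ a ^ 4 - 17 := by
    rw [← ZMod.intCast_zmod_eq_zero_iff_dvd]
    push_cast
    rw [ha, sub_self]
  have hd17 : ¬ (p : ℤ) ∣ 17 := fun h => h17
    ((Nat.prime_dvd_prime_iff_eq hp.out (by norm_num)).mp (by exact_mod_cast h))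
  have hd2 : ¬ (p : ℤ) ∣ 2 := fun h => h2
    ((Nat.prime_dvd_prime_iff_eq hp.out (by norm_num)).mp (by exact_mod_cast h))
  have hpp : Prime (p : ℤ) := Nat.prime_iff_prime_int.mp hp.out
  have hda : ¬ (p : ℤ) ∣ a := fun h => hd17 (by
    have h5 := dvd_sub (dvd_pow h (by norm_num : 4 ≠ 0)) hd
    rwa [sub_sub_cancel] at h5)
  have hd4 : ¬ (p : ℤ) ∣ 4 * a ^ 3 := by
    intro h
    have e : (4 : ℤ) * a ^ 3 = 2 * (2 * a ^ 3) := by ring
    rw [e] at h
    rcases hpp.dvd_or_dvd h with h | h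
    · exact hd2 h
    rcases hpp.dvd_or_dvd h with h | h
    · exact hd2 h
    · exact hda (hpp.dvd_of_dvd_pow h)
  have h := exists_fourth (p := p) (k := 17) (a := a) (by
    rw [norm_eq_one hd4, one_pow, PadicInt.norm_int_lt_one_iff_dvd]
    exact hd)
  simpa using h

lemma two_mod : ((2 : ℤ) : ZMod 17) = 6 * 6 := by decide

/-- The equation has nontrivial solutions in every `ℚ_p`. -/
theorem exists_padic (p : ℕ) [hp : Fact p.Prime] : ∃ x y z : ℚ_[p], (x ≠ 0 ∨ y ≠ 0 ∨ z ≠ 0) ∧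
    x ^ 4 - 17 * y ^ 4 = 2 * z ^ 2 := by
  have hA : IsSquare (2 : ℚ_[p]) → ∃ x y z : ℚ_[p], (x ≠ 0 ∨ y ≠ 0 ∨ z ≠ 0) ∧
      x ^ 4 - 17 * y ^ 4 = 2 * z ^ 2 := by
    rintro ⟨s, hs⟩
    refine ⟨s, 0, s, Or.inl ?_, ?_⟩
    · rintro rfl
      norm_num at hs
    · linear_combination -s ^ 2 * hs
  have hC : (∃ z : ℚ_[p], z ^ 4 = 17) → ∃ x y z : ℚ_[p], (x ≠ 0 ∨ y ≠ 0 ∨ z ≠ 0) ∧
      x ^ 4 - 17 * y ^ 4 = 2 * z ^ 2 := by
    rintro ⟨s, hs⟩
    refine ⟨s, 1, 0, Or.inr (Or.inl one_ne_zero), ?_⟩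
    linear_combination hs
  by_cases hp2 : p = 2
  · subst hp2
    exact hC exists_fourth_two
  by_cases hp17 : p = 17
  · subst hp17
    apply hA
    have h := HN.NoHasse.isSquare_padic (p := 17) (k := 2) (by norm_num) (by norm_num)
      ⟨6, two_mod⟩
    simpa using h
  have hd17 : ¬ (p : ℤ) ∣ 17 := fun h => hp17
    ((Nat.prime_dvd_prime_iff_eq hp.out (by norm_num)).mp (by exact_mod_cast h))
  have hd2 : ¬ (p : ℤ) ∣ 2 := fun h => hp2
    ((Nat.prime_dvd_prime_iff_eq hp.out (by norm_num)).mp (by exact_mod_cast h))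
  have hpp : Prime (p : ℤ) := Nat.prime_iff_prime_int.mp hp.out
  have h17' : (17 : ZMod p) ≠ 0 := fun h => hd17
    ((ZMod.intCast_zmod_eq_zero_iff_dvd _ _).mp (by exact_mod_cast h))
  have hF : ringChar (ZMod p) ≠ 2 := by
    rw [ZMod.ringChar_zmod_n]
    exact hp2
  rcases finite_cases hF h17' with h | h | ⟨a, h⟩ | ⟨a, h, h'⟩
  · apply hA
    have h1 := HN.NoHasse.isSquare_padic (p := p) (k := 2) hp2 hd2 (by exact_mod_cast h)
    simpa using h1
  · have hd34 : ¬ (p : ℤ) ∣ -34 := by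
      intro h
      have e : (-34 : ℤ) = 2 * -17 := by norm_num
      rw [e] at h
      rcases hpp.dvd_or_dvd h with h | h
      · exact hd2 h
      · exact hd17 ((Int.dvd_neg).mp h)
    have h1 := HN.NoHasse.isSquare_padic (p := p) (k := -34) hp2 hd34 (by exact_mod_cast h)
    obtain ⟨s, hs⟩ := h1
    push_cast at hs
    refine ⟨0, 1, s / 2, Or.inr (Or.inl one_ne_zero), ?_⟩
    have e : 2 * (s / 2) ^ 2 = s * s / 2 := by ring
    rw [e, ← hs]
    norm_num
  · exact hC (exists_fourth_odd hp2 hp17 h)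
  · obtain ⟨a, rfl⟩ := ZMod.intCast_surjective a
    have e0 : ((2 * (a ^ 4 - 17) : ℤ) : ZMod p) = 2 * ((a : ZMod p) ^ 4 - 17) := by push_cast; rfl
    have hk : ¬ (p : ℤ) ∣ 2 * (a ^ 4 - 17) := by
      intro h5
      apply h
      rw [← e0]
      exact (ZMod.intCast_zmod_eq_zero_iff_dvd _ _).mpr h5
    have h1 := HN.NoHasse.isSquare_padic (p := p) (k := 2 * (a ^ 4 - 17)) hp2 hk
      (by rw [e0]; exact h')
    obtain ⟨r, hr⟩ := h1
    push_cast at hr
    refine ⟨a, 1, r / 2, Or.inr (Or.inl one_ne_zero), ?_⟩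
    have e : 2 * (r / 2) ^ 2 = r * r / 2 := by ring
    rw [e, ← hr]
    ring

end Local

/-! ### No global solution -/

section Global

lemma isSquare_of_primes {n : ℕ} (hn : n ≠ 0)
    (h : ∀ q : ℕ, q.Prime → q ∣ n → IsSquare (q : ZMod 17)) : IsSquare (n : ZMod 17) := by
  induction n using Nat.recOnMul with
  | zero => exact absurd rfl hn
  | one => exact ⟨1, by norm_num⟩
  | prime q hq => exact h q hq dvd_rfl
  | mul a b iha ihb =>
    rw [Nat.cast_mul]
    exact (iha (left_ne_zero_of_mul hn) fun q hq hd => h q hq (hd.mul_right b)).mul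
      (ihb (right_ne_zero_of_mul hn) fun q hq hd => h q hq (hd.mul_left a))

lemma fourth_mod : ∀ a d : ZMod 17, d ≠ 0 → a ^ 4 ≠ 2 * d ^ 4 := by decide

/-- The equation has no solution in coprime integers `a`, `b`. -/
theorem no_int {a b c : ℤ} (hab : IsCoprime a b) (h : a ^ 4 - 17 * b ^ 4 = 2 * c ^ 2) : False := by
  have h17 : Prime (17 : ℤ) := by norm_num
  have hcop : ∀ {q : ℤ}, Prime q → q ∣ a → q ∣ b → False := fun hq ha hb =>
    hq.not_isUnit (hab.isUnit_of_dvd' ha hb)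
  have hc : ¬ (17 : ℤ) ∣ c := by
    rintro ⟨c, rfl⟩
    have ha : (17 : ℤ) ∣ a := h17.dvd_of_dvd_pow (n := 4) ⟨b ^ 4 + 2 * 17 * c ^ 2, by
      linear_combination h⟩
    obtain ⟨a', rfl⟩ := ha
    refine hcop h17 (Dvd.intro _ rfl) (h17.dvd_of_dvd_pow (n := 4)
      ⟨17 ^ 2 * a' ^ 4 - 2 * c ^ 2, ?_⟩)
    have h5 : (17 : ℤ) * b ^ 4 = 17 * (17 * (17 ^ 2 * a' ^ 4 - 2 * c ^ 2)) := by
      linear_combination -h
    exact mul_left_cancel₀ (by norm_num) h5
  have hc0 : c ≠ 0 := fun h0 => hc (h0 ▸ dvd_zero _)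
  have hsq : IsSquare ((c.natAbs : ℕ) : ZMod 17) := by
    apply isSquare_of_primes (Int.natAbs_ne_zero.mpr hc0)
    intro q hq hqc
    have hqc' : (q : ℤ) ∣ c := Int.natCast_dvd.mpr hqc
    by_cases hq2 : q = 2
    · subst hq2
      exact ⟨6, by decide⟩
    have : Fact q.Prime := ⟨hq⟩
    have : Fact (Nat.Prime 17) := ⟨by norm_num⟩
    rw [ZMod.exists_sq_eq_prime_iff_of_mod_four_eq_one (p := 17) (q := q) (by norm_num) hq2]
    have hqp : Prime (q : ℤ) := Nat.prime_iff_prime_int.mp hq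
    have hqb : ¬ (q : ℤ) ∣ b := by
      intro hb
      refine hcop hqp (hqp.dvd_of_dvd_pow (n := 4) ?_) hb
      have e : a ^ 4 = 17 * b ^ 4 + 2 * c ^ 2 := by linear_combination h
      rw [e]
      exact dvd_add (Dvd.dvd.mul_left (dvd_pow hb (by norm_num)) _)
        (Dvd.dvd.mul_left (dvd_pow hqc' (by norm_num)) _)
    have hb0 : (b : ZMod q) ≠ 0 := fun h0 => hqb ((ZMod.intCast_zmod_eq_zero_iff_dvd _ _).mp h0)
    have hc0' : (c : ZMod q) = 0 := (ZMod.intCast_zmod_eq_zero_iff_dvd _ _).mpr hqc'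
    have h6 := congrArg (fun t : ℤ => (t : ZMod q)) h
    push_cast at h6
    rw [hc0'] at h6
    refine ⟨(a : ZMod q) ^ 2 / (b : ZMod q) ^ 2, ?_⟩
    push_cast
    field_simp
    linear_combination -h6
  obtain ⟨d, hd⟩ := hsq
  have h7 := congrArg (fun t : ℤ => (t : ZMod 17)) h
  push_cast at h7
  have e17 : (17 : ZMod 17) = 0 := by decide
  have hcd : (c : ZMod 17) ^ 2 = d ^ 4 := by
    have h8 : ((c.natAbs : ℤ) : ZMod 17) ^ 2 = (c : ZMod 17) ^ 2 := by
      rw [← Int.cast_pow, ← Int.cast_pow, Int.natAbs_sq]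
    rw [← h8, Int.cast_natCast, hd]
    ring
  have hd0 : d ≠ 0 := by
    rintro rfl
    apply hc
    have h9 : (c : ZMod 17) ^ 2 = 0 := by rw [hcd]; decide
    have h10 : (c : ZMod 17) = 0 := by
      have : Fact (Nat.Prime 17) := ⟨by norm_num⟩
      exact pow_eq_zero_iff two_ne_zero |>.mp h9
    exact (ZMod.intCast_zmod_eq_zero_iff_dvd _ _).mp h10
  apply fourth_mod a d hd0
  rw [← hcd, ← h7, e17]
  ring

lemma not_isSquare_two : ¬ IsSquare (2 : ℕ) := by
  rintro ⟨r, hr⟩
  have : r < 2 := by nlinarith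
  interval_cases r <;> omega

/-- The equation has only the trivial solution in `ℚ`. -/
theorem rat_trivial {x y z : ℚ} (h : x ^ 4 - 17 * y ^ 4 = 2 * z ^ 2) :
    x = 0 ∧ y = 0 ∧ z = 0 := by
  by_cases hy : y = 0
  · subst hy
    by_cases hz : z = 0
    · subst hz
      refine ⟨?_, rfl, rfl⟩
      have h1 : x ^ 4 = 0 := by linear_combination h
      exact pow_eq_zero_iff (by norm_num) |>.mp h1
    · exfalso
      apply HN.NoHasse.rat_sq_ne (r := x ^ 2 / z) not_isSquare_two
      field_simp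
      push_cast
      linear_combination h
  · exfalso
    set q : ℚ := x / y with hq
    have hb0 : (q.den : ℚ) ≠ 0 := by exact_mod_cast q.den_ne_zero
    have hx : x = q.num / q.den * y := by
      rw [Rat.num_div_den, hq]
      field_simp
    have h1 : (((2 * (q.num ^ 4 - 17 * (q.den : ℤ) ^ 4) : ℤ)) : ℚ) =
        (2 * z * (q.den : ℚ) ^ 2 / y ^ 2) ^ 2 := by
      rw [hx] at h
      field_simp at h
      push_cast
      field_simp
      linear_combination h
    have h2 : IsSquare (2 * (q.num ^ 4 - 17 * (q.den : ℤ) ^ 4) : ℤ) := by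
      rw [← Rat.isSquare_intCast_iff]
      exact ⟨_, by rw [h1, sq]⟩
    obtain ⟨m, hm⟩ := h2
    have hm2 : (2 : ℤ) ∣ m := by
      rcases Int.prime_two.dvd_or_dvd (⟨_, hm.symm⟩ : (2 : ℤ) ∣ m * m) with h | h <;> exact h
    obtain ⟨c, rfl⟩ := hm2
    refine no_int (a := q.num) (b := q.den) (c := c) ?_ ?_
    · rw [Int.isCoprime_iff_nat_coprime, Int.natAbs_natCast]
      exact q.reduced
    · have h3 : (2 : ℤ) * (q.num ^ 4 - 17 * (q.den : ℤ) ^ 4) = 2 * (2 * c ^ 2) := by
        rw [hm]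
        ring
      exact mul_left_cancel₀ two_ne_zero h3

end Global

/-- **The Hasse principle fails for curves of genus one** (Lind 1940, Reichardt 1942): the
equation `x ^ 4 - 17 y ^ 4 = 2 z ^ 2` has a nontrivial solution in `ℝ` and in `ℚ_p` for every prime
`p`, but only the trivial solution in `ℚ`. -/
theorem lind_reichardt :
    (∃ x y z : ℝ, (x ≠ 0 ∨ y ≠ 0 ∨ z ≠ 0) ∧ x ^ 4 - 17 * y ^ 4 = 2 * z ^ 2) ∧
    (∀ (p : ℕ) [Fact p.Prime], ∃ x y z : ℚ_[p], (x ≠ 0 ∨ y ≠ 0 ∨ z ≠ 0) ∧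
      x ^ 4 - 17 * y ^ 4 = 2 * z ^ 2) ∧
    ∀ x y z : ℚ, x ^ 4 - 17 * y ^ 4 = 2 * z ^ 2 → x = 0 ∧ y = 0 ∧ z = 0 := by
  refine ⟨?_, fun p _ => exists_padic p, fun x y z h => rat_trivial h⟩
  have hs : Real.sqrt 2 * Real.sqrt 2 = 2 := Real.mul_self_sqrt (by norm_num)
  refine ⟨Real.sqrt 2, 0, Real.sqrt 2, Or.inl ?_, ?_⟩
  · exact (Real.sqrt_pos.mpr (by norm_num)).ne'
  · linear_combination (Real.sqrt 2 * Real.sqrt 2) * hs

end Fermat.Agent.Cor.HM.Lind
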