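import Fermat.Agent.Corollaries.HM.LindFamily
import Fermat.Agent.Corollaries.GW.Field

/-!
# Infinitely many curves of genus one which violate the Hasse principle

There are infinitely many prime numbers `p ≡ 1 mod 8` such that `2` is not a fourth power modulo
`p` (because `2` is not a fourth power in `ℚ(ζ_8)`), hence infinitely many primes `p` for which
`x ^ 4 - p y ^ 4 = 2 z ^ 2` violates the Hasse principle.
-/

set_option autoImplicit false

namespace Fermat.Agent.Cor.HM.Lind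

open NumberField IsDedekindDomain Polynomial
open Fermat.Agent.Cor.ChebK Fermat.Agent.Cor.GW

section Cyc

variable {K : Type*} [Field K] [NumberField K] [IsCyclotomicExtension {8} ℚ K]

/-- `2` is not a fourth power in `ℚ(ζ_8)`. -/
theorem two_not_fourth (b : K) : b ^ 4 ≠ 2 := by
  intro hb
  have hζ := IsCyclotomicExtension.zeta_spec 8 ℚ K
  set ζ := IsCyclotomicExtension.zeta 8 ℚ K with hζdef
  have h4 : ζ ^ 4 = -1 := by
    have h1 : (ζ ^ 4 - 1) * (ζ ^ 4 + 1) = 0 := by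
      linear_combination hζ.pow_eq_one
    rcases mul_eq_zero.mp h1 with h | h
    · exact absurd (sub_eq_zero.mp h) (hζ.pow_ne_one_of_pos_of_lt (by norm_num) (by norm_num))
    · exact eq_neg_of_add_eq_zero_left h
  have hirr := cyclotomic.irreducible_rat (n := 8) (by norm_num)
  let u : (ZMod 8)ˣ := ZMod.unitOfCoprime 5 (by norm_num)
  have huu : u * u = 1 := by
    ext
    decide
  let σ : K ≃ₐ[ℚ] K := (IsCyclotomicExtension.autEquivPow K hirr).symm u
  have hσ : σ ζ = ζ ^ 5 := by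
    have h := IsPrimitiveRoot.autToPow_spec ℚ hζ σ
    have h2 : hζ.autToPow ℚ σ = u :=
      (IsCyclotomicExtension.autEquivPow K hirr).apply_symm_apply u
    rw [h2] at h
    rw [← h]
    rfl
  have hσσ : ∀ x, σ (σ x) = x := by
    have h : σ * σ = 1 := by
      change (IsCyclotomicExtension.autEquivPow K hirr).symm u *
        (IsCyclotomicExtension.autEquivPow K hirr).symm u = 1
      rw [← map_mul, huu, map_one]
    intro x
    exact DFunLike.congr_fun h x
  have hs : (ζ + ζ ^ 7) ^ 2 = 2 := by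
    linear_combination (2 * (ζ ^ 4 - 1) + ζ ^ 2 * (ζ ^ 8 - ζ ^ 4 + 1)) * h4
  have hσs : σ (ζ + ζ ^ 7) = -(ζ + ζ ^ 7) := by
    rw [map_add, map_pow, hσ]
    have e1 : ζ ^ 5 = -ζ := by linear_combination ζ * h4
    have e2 : (ζ ^ 5) ^ 7 = -ζ ^ 7 := by rw [e1]; ring
    rw [e2, e1]
    ring
  have hσb : (σ b) ^ 2 = (ζ ^ 2 * b) ^ 2 := by
    have e : (ζ ^ 2 * b) ^ 2 = -(b ^ 2) := by linear_combination b ^ 2 * h4
    rw [e, ← map_pow]
    have hb2 : (b ^ 2) ^ 2 = (ζ + ζ ^ 7) ^ 2 := by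
      rw [hs, ← hb]
      ring
    rcases sq_eq_sq_iff_eq_or_eq_neg.mp hb2 with h | h
    · rw [h, hσs]
    · rw [h, map_neg, hσs]
  have hσ2 : σ (ζ ^ 2) = ζ ^ 2 := by
    rw [map_pow, hσ]
    linear_combination (ζ ^ 6 - ζ ^ 2) * h4
  have hfin : b = -b := by
    rcases sq_eq_sq_iff_eq_or_eq_neg.mp hσb with h | h
    · have h5 := hσσ b
      rw [h, map_mul, hσ2, h] at h5
      linear_combination -h5 + b * h4
    · have h5 := hσσ b
      rw [h, map_neg, map_mul, hσ2, h] at h5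
      linear_combination -h5 + b * h4
  have hb0 : b = 0 := self_eq_neg.mp hfin
  rw [hb0] at hb
  norm_num at hb

/-- A place of degree one of `ℚ(ζ_8)` above an odd prime `p`: `p ≡ 1 mod 8`. -/
theorem mod_eight_of_absNorm {p : ℕ} (hp : p.Prime) (hp2 : p ≠ 2) (v : HeightOneSpectrum (𝓞 K))
    (hv : Ideal.absNorm v.asIdeal = p) : p % 8 = 1 := by
  have hpv : (p : 𝓞 K) ∈ v.asIdeal := by
    rw [← hv]
    exact Ideal.absNorm_mem _
  have hζ := (IsCyclotomicExtension.zeta_spec 8 ℚ K).toInteger_isPrimitiveRoot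
  set ζ := (IsCyclotomicExtension.zeta_spec 8 ℚ K).toInteger with hζdef
  have h4 : ζ ^ 4 = -1 := by
    have h1 : (ζ ^ 4 - 1) * (ζ ^ 4 + 1) = 0 := by
      linear_combination hζ.pow_eq_one
    rcases mul_eq_zero.mp h1 with h | h
    · exact absurd (sub_eq_zero.mp h) (hζ.pow_ne_one_of_pos_of_lt (by norm_num) (by norm_num))
    · exact eq_neg_of_add_eq_zero_left h
  have hmax : v.asIdeal.IsMaximal := v.isMaximal
  let _ : Field (𝓞 K ⧸ v.asIdeal) := Ideal.Quotient.field _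
  have hcard : Nat.card (𝓞 K ⧸ v.asIdeal) = p := by
    rw [← hv, Ideal.absNorm_apply, Submodule.cardQuot_apply]
  have hfin : Finite (𝓞 K ⧸ v.asIdeal) := Nat.finite_of_card_ne_zero (by rw [hcard]; exact hp.ne_zero)
  set x : 𝓞 K ⧸ v.asIdeal := Ideal.Quotient.mk v.asIdeal ζ with hx
  have hx4 : x ^ 4 = -1 := by
    rw [hx, ← map_pow, h4, map_neg, map_one]
  have h2 : (2 : 𝓞 K ⧸ v.asIdeal) ≠ 0 := by
    intro h
    have h3 : (2 : 𝓞 K) ∈ v.asIdeal := by
      rw [← Ideal.Quotient.eq_zero_iff_mem, map_ofNat]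
      exact h
    obtain ⟨m, hm⟩ : ∃ m, p = 2 * m + 1 := hp.odd_of_ne_two hp2
    have h5 : (1 : 𝓞 K) ∈ v.asIdeal := by
      have e : (1 : 𝓞 K) = p - 2 * m := by
        rw [hm]
        push_cast
        ring
      rw [e]
      exact Ideal.sub_mem _ hpv (Ideal.mul_mem_right _ _ h3)
    exact hmax.ne_top ((Ideal.eq_top_iff_one _).mpr h5)
  let w : (𝓞 K ⧸ v.asIdeal)ˣ := Units.mkOfMulEqOne x (-x ^ 3) (by linear_combination -hx4)
  have hw : (w : 𝓞 K ⧸ v.asIdeal) = x := rfl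
  have hord : orderOf w = 2 ^ (2 + 1) := by
    apply orderOf_eq_prime_pow
    · intro h
      have h6 := congrArg (Units.val) h
      rw [Units.val_pow_eq_pow_val, Units.val_one, hw] at h6
      norm_num at h6
      apply h2
      linear_combination hx4 - h6
    · apply Units.ext
      rw [Units.val_pow_eq_pow_val, Units.val_one, hw]
      norm_num
      linear_combination (x ^ 4 - 1) * hx4
  have hdvd : 8 ∣ p - 1 := by
    have h7 := orderOf_dvd_natCard w
    rw [hord, Nat.card_units, hcard] at h7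
    exact h7
  have := hp.one_lt
  omega

theorem powMod_four {p : ℕ} (hp : p.Prime) (hp2 : p ≠ 2) (v : HeightOneSpectrum (𝓞 K))
    (hv : Ideal.absNorm v.asIdeal = p) (hB : p % 8 = 1 → ∃ a : ZMod p, a ^ 4 = 2) :
    PowMod 4 (2 : 𝓞 K) v := by
  have hpv : (p : 𝓞 K) ∈ v.asIdeal := by
    rw [← hv]
    exact Ideal.absNorm_mem _
  obtain ⟨a, ha⟩ := hB (mod_eight_of_absNorm hp hp2 v hv)
  obtain ⟨n, rfl⟩ := ZMod.intCast_surjective a
  have hd : (p : ℤ) ∣ n ^ 4 - 2 := by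
    rw [← ZMod.intCast_zmod_eq_zero_iff_dvd]
    push_cast
    rw [ha, sub_self]
  obtain ⟨m, hm⟩ := hd
  refine ⟨(n : 𝓞 K), ?_⟩
  have e : (n : 𝓞 K) ^ 4 - 2 = p * m := by exact_mod_cast congrArg (Int.cast : ℤ → 𝓞 K) hm
  rw [e]
  exact Ideal.mul_mem_right _ _ hpv

end Cyc

/-- The field `ℚ(ζ_8)` exists. -/
theorem exists_cyc : ∃ (K : Type) (_ : Field K) (_ : NumberField K),
    IsCyclotomicExtension {8} ℚ K := by
  have h : IsCyclotomicExtension {8} ℚ (CyclotomicField 8 ℚ) :=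
    CyclotomicField.isCyclotomicExtension 8 ℚ
  refine ⟨CyclotomicField 8 ℚ, inferInstance, inferInstance, ?_⟩
  convert h

/-- There are infinitely many primes `p ≡ 1 mod 8` such that `2` is not a fourth power mod `p`. -/
theorem infinite_primes_not_fourth :
    {p : ℕ | p.Prime ∧ p % 8 = 1 ∧ ¬ ∃ a : ZMod p, a ^ 4 = 2}.Infinite := by
  intro hfin
  obtain ⟨K, _, _, hK⟩ := exists_cyc
  have hQ : HasDensity {v : HeightOneSpectrum (𝓞 K) | ¬ PowMod 4 (2 : 𝓞 K) v} 0 := by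
    refine HasDensity.congr_cntP (P := ∅) (T := insert 2 hfin.toFinset) ?_ hasDensity_empty
    intro p hp hpT
    rw [Finset.mem_insert, not_or, Set.Finite.mem_toFinset] at hpT
    have h1 : IsEmpty {v : HeightOneSpectrum (𝓞 K) //
        Ideal.absNorm v.asIdeal = p ∧ v ∈ (∅ : Set (HeightOneSpectrum (𝓞 K)))} :=
      ⟨fun v => v.2.2⟩
    have h2 : IsEmpty {v : HeightOneSpectrum (𝓞 K) //
        Ideal.absNorm v.asIdeal = p ∧ v ∈ {v : HeightOneSpectrum (𝓞 K) |
          ¬ PowMod 4 (2 : 𝓞 K) v}} := by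
      refine ⟨fun v => v.2.2 (powMod_four hp hpT.1 v.1 v.2.1 fun h8 => ?_)⟩
      by_contra hcon
      exact hpT.2 ⟨hp, h8, hcon⟩
    unfold cntP
    rw [Nat.card_of_isEmpty, Nat.card_of_isEmpty]
  obtain ⟨b, hb⟩ := exists_pow_of_not_dvd (n := 4) (by norm_num) (by norm_num) hQ
  exact two_not_fourth b (by rw [hb]; rfl)

/-- **Infinitely many curves of genus one violate the Hasse principle**: for infinitely many
prime numbers `P` the equation `x ^ 4 - P y ^ 4 = 2 z ^ 2` has a nontrivial solution in `ℝ` and in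
`ℚ_p` for every prime `p`, but only the trivial solution in `ℚ`. -/
theorem infinite_hasse_failures : {P : ℕ | P.Prime ∧
    (∃ x y z : ℝ, (x ≠ 0 ∨ y ≠ 0 ∨ z ≠ 0) ∧ x ^ 4 - P * y ^ 4 = 2 * z ^ 2) ∧
    (∀ (p : ℕ) [Fact p.Prime], ∃ x y z : ℚ_[p], (x ≠ 0 ∨ y ≠ 0 ∨ z ≠ 0) ∧
      x ^ 4 - P * y ^ 4 = 2 * z ^ 2) ∧
    ∀ x y z : ℚ, x ^ 4 - P * y ^ 4 = 2 * z ^ 2 → x = 0 ∧ y = 0 ∧ z = 0}.Infinite := by
  refine infinite_primes_not_fourth.mono ?_
  rintro P ⟨hP, h8, h2⟩
  exact ⟨hP, lind_family hP h8 h2⟩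

end Fermat.Agent.Cor.HM.Lind
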