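import Fermat.Agent.Corollaries.HM.Global

/-!
# Quaternary forms over a number field

* `Three K`: the local-global principle for ternary forms over `K`, with the local symbols and the
  signs for the embeddings `K →+* ℝ`;
* `Four K`: the same for quaternary forms;
* `four_of_three`: the first for all number fields implies the second.
-/

set_option autoImplicit false

namespace Fermat.Agent.Cor.HM

open IsDedekindDomain NumberField WithZero Polynomial
open Fermat.Agent.CFT Fermat.Agent.CFT.Global Fermat.Agent.CFT.Global2 Fermat.Agent.CFT.Bridge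
open Fermat.Agent.CFT.SUnits (ord)

/-- The local-global principle for ternary forms over `K`. -/
def Three (K : Type) [Field K] [NumberField K] : Prop :=
  ∀ (LS : LocalSymbols 2 K) (a b c : Kˣ), (∀ v, Rep LS v a b (-c)) →
    (∀ σ : K →+* ℝ, (0 < σ a ∨ 0 < σ b ∨ 0 < σ c) ∧ (σ a < 0 ∨ σ b < 0 ∨ σ c < 0)) →
    ∃ x y z : K, ¬ (x = 0 ∧ y = 0 ∧ z = 0) ∧ (a : K) * x ^ 2 + b * y ^ 2 + c * z ^ 2 = 0

/-- The local-global principle for quaternary forms over `K`. -/
def Four (K : Type) [Field K] [NumberField K] : Prop :=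
  ∀ (LS : LocalSymbols 2 K) (a b c d : Kˣ), (∀ v, ∃ e, Rep LS v a b e ∧ Rep LS v c d (-e)) →
    (∀ σ : K →+* ℝ, (0 < σ a ∨ 0 < σ b ∨ 0 < σ c ∨ 0 < σ d) ∧
      (σ a < 0 ∨ σ b < 0 ∨ σ c < 0 ∨ σ d < 0)) →
    ∃ x : Fin 4 → K, x ≠ 0 ∧ ∑ i, (![(a : K), b, c, d] : Fin 4 → K) i * x i ^ 2 = 0

lemma signs_three {a b c d : ℝ} (hD : 0 < a * b * c * d)
    (h : (0 < a ∨ 0 < b ∨ 0 < c ∨ 0 < d) ∧ (a < 0 ∨ b < 0 ∨ c < 0 ∨ d < 0)) :
    (0 < a ∨ 0 < b ∨ 0 < c) ∧ (a < 0 ∨ b < 0 ∨ c < 0) := by
  have hne : a ≠ 0 ∧ b ≠ 0 ∧ c ≠ 0 := by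
    refine ⟨?_, ?_, ?_⟩ <;> rintro rfl <;> simp at hD
  constructor
  · by_contra! hcon
    obtain ⟨ha, hb, hc⟩ := hcon
    have ha' := lt_of_le_of_ne ha hne.1
    have hb' := lt_of_le_of_ne hb hne.2.1
    have hc' := lt_of_le_of_ne hc hne.2.2
    have h1 : 0 < d := by
      rcases h.1 with h1 | h1 | h1 | h1
      · exact absurd h1 (not_lt.2 ha)
      · exact absurd h1 (not_lt.2 hb)
      · exact absurd h1 (not_lt.2 hc)
      · exact h1
    have h2 : a * b * c < 0 := mul_neg_of_pos_of_neg (mul_pos_of_neg_of_neg ha' hb') hc'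
    exact absurd hD (not_lt.2 (mul_neg_of_neg_of_pos h2 h1).le)
  · by_contra! hcon
    obtain ⟨ha, hb, hc⟩ := hcon
    have ha' := lt_of_le_of_ne ha hne.1.symm
    have hb' := lt_of_le_of_ne hb hne.2.1.symm
    have hc' := lt_of_le_of_ne hc hne.2.2.symm
    have h1 : d < 0 := by
      rcases h.2 with h1 | h1 | h1 | h1
      · exact absurd h1 (not_lt.2 ha)
      · exact absurd h1 (not_lt.2 hb)
      · exact absurd h1 (not_lt.2 hc)
      · exact h1
    have h2 : 0 < a * b * c := mul_pos (mul_pos ha' hb') hc'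
    exact absurd hD (not_lt.2 (mul_neg_of_pos_of_neg h2 h1).le)

/-- **Hasse principle in four variables** over all number fields, from ternary forms. -/
theorem four_of_three (H : ∀ (L : Type) [Field L] [NumberField L], Three L)
    (K : Type) [Field K] [NumberField K] : Four K := by
  intro LS a b c d h hs
  by_cases hD : ∃ r : Kˣ, r ^ 2 = a * b * c * d
  · obtain ⟨r, hr⟩ := hD
    obtain ⟨x, y, z, h0, h1⟩ := H K LS a b c (fun v => by
        obtain ⟨e, h1, h2⟩ := h v
        exact rep_of_rep_of_disc (by rw [← hr]; exact pow_mem_locPow 2 v r) h1 h2)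
      (fun σ => signs_three (d := σ d) (by
        have h1 := congrArg (fun u : Kˣ => σ (u : K)) hr
        simp only [Units.val_pow_eq_pow_val, Units.val_mul, map_pow, map_mul] at h1
        rw [← h1]
        have h2 : σ (r : K) ≠ 0 := (_root_.map_ne_zero σ).2 r.ne_zero
        positivity) (hs σ))
    refine ⟨![x, y, z, 0], ?_, ?_⟩
    · intro h'
      apply h0
      exact ⟨congrFun h' 0, congrFun h' 1, congrFun h' 2⟩
    · simp [Fin.sum_univ_four]
      linear_combination h1
  · push Not at hD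
    have : Fact (Irreducible (X ^ 2 - C ((a * b * c * d : Kˣ) : K))) :=
      ⟨irreducible_of_not_pow Nat.prime_two hD⟩
    have : NumberField (Rad 2 (a * b * c * d)) := numberField_rad Nat.prime_two
    obtain ⟨LS'⟩ := nonempty_localSymbols_all (p := 2) (Rad 2 (a * b * c * d))
      (Unr.isPrimitiveRoot_neg_one' _)
    set L := Rad 2 (a * b * c * d) with hL
    set δ : L := AdjoinRoot.root _ with hδ
    have hδ2 : δ ^ 2 = algebraMap K L ((a * b * c * d : Kˣ) : K) :=
      root_X_pow_sub_C_pow 2 ((a * b * c * d : Kˣ) : K)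
    have hδ0 : δ ≠ 0 := by
      intro h'
      rw [h', zero_pow two_ne_zero] at hδ2
      exact (_root_.map_ne_zero (algebraMap K L)).mpr (a * b * c * d).ne_zero hδ2.symm
    -- the discriminant becomes a square
    have hDL : ∀ w : HeightOneSpectrum (𝓞 L), mapU K L (a * b * c * d) ∈ locPow 2 w := by
      intro w
      have h' : mapU K L (a * b * c * d) = (Units.mk0 δ hδ0) ^ 2 :=
        Units.ext (by rw [Units.val_pow_eq_pow_val, Units.val_mk0, hδ2]; rfl)
      rw [h']
      exact pow_mem_locPow 2 w _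
    obtain ⟨x, y, z, h0, h1⟩ := H L LS' (mapU K L a) (mapU K L b) (mapU K L c) (fun w => by
      change LS'.sym w (-(mapU K L a * mapU K L b)) (mapU K L a * -mapU K L c) = 1
      rw [← map_mul, ← mapU_neg, ← mapU_neg, ← map_mul]
      by_cases hv : a * b * c * d ∈ locPow 2 (w.under (𝓞 K))
      · obtain ⟨e, h1, h2⟩ := h (w.under (𝓞 K))
        exact sym_map_eq_one LS LS' (rep_of_rep_of_disc hv h1 h2)
      · obtain ⟨e, h1, h2⟩ := exists_split LS (-(a * b)) (a * -c) hv
        have h3 := sym_map_eq_one LS LS' h1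
        have h4 := sym_map_eq_one LS LS' h2
        have h5 : LS'.sym w (mapU K L (-(a * b))) (mapU K L e) = 1 := by
          rw [map_mul, map_mul (mapU K L) e, map_mul (LS'.sym w), MonoidHom.mul_apply,
            LS'.sym_eq_one_of_left (hDL w), mul_one, map_mul,
            LS'.sym_eq_one_of_right (hDL w), mul_one] at h4
          exact h4
        rw [map_mul (mapU K L) (a * -c), map_mul, h5, mul_one] at h3
        exact h3) (fun τ => by
      refine signs_three (d := τ (mapU K L d : Lˣ)) ?_ (hs (τ.comp (algebraMap K L)))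
      have h1 : τ δ ^ 2 = τ (algebraMap K L ((a * b * c * d : Kˣ) : K)) := by
        rw [← map_pow, hδ2]
      have h2 : τ δ ≠ 0 := (_root_.map_ne_zero τ).2 hδ0
      have h3 : τ (algebraMap K L ((a * b * c * d : Kˣ) : K)) =
          τ (mapU K L a : Lˣ) * τ (mapU K L b : Lˣ) * τ (mapU K L c : Lˣ) *
            τ (mapU K L d : Lˣ) := by
        simp only [Units.val_mul, map_mul]
        rfl
      rw [← h3, ← h1]
      positivity)
    refine isotropic4_of_quad (L := L) (δ := δ) two_ne_zero ?_ ?_ ?_ ?_ ?_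
    · intro i
      fin_cases i
      · exact a.ne_zero
      · exact b.ne_zero
      · exact c.ne_zero
      · exact d.ne_zero
    · rw [hδ2]
      congr 1
      simp [Fin.prod_univ_four]
    · intro z
      refine ⟨(quadBasis _).repr z 0, (quadBasis _).repr z 1, ?_⟩
      have h1 := (quadBasis ((a * b * c * d : Kˣ) : K)).sum_repr z
      rw [Fin.sum_univ_two, quadBasis_zero, quadBasis_one] at h1
      rw [← Algebra.smul_def, Algebra.algebraMap_eq_smul_one]
      exact h1.symm
    · intro x y hxy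
      have h1 := (quadBasis ((a * b * c * d : Kˣ) : K)).linearIndependent
      rw [Fintype.linearIndependent_iff] at h1
      have h2 := h1 ![x, y] (by
        rw [Fin.sum_univ_two, quadBasis_zero, quadBasis_one]
        rw [← Algebra.smul_def, Algebra.algebraMap_eq_smul_one] at hxy
        exact hxy)
      exact ⟨h2 0, h2 1⟩
    · refine ⟨![x, y, z], ?_, ?_⟩
      · intro h'
        apply h0
        exact ⟨congrFun h' 0, congrFun h' 1, congrFun h' 2⟩
      · rw [Fin.sum_univ_three]
        exact h1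

end Fermat.Agent.Cor.HM
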