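import Mathlib.NumberTheory.LSeries.PrimesInAP
import Mathlib.NumberTheory.Padics.HeightOneSpectrum
import Fermat.Agent.CFT.Global.Approx

/-!
# Approximation over `ℚ` with one auxiliary prime (Dirichlet's theorem)
-/

set_option autoImplicit false

namespace Fermat.Agent.Cor.HM

namespace RatDir

open IsDedekindDomain NumberField WithZero Rat.HeightOneSpectrum
open Fermat.Agent.CFT Fermat.Agent.CFT.Global
open Fermat.Agent.CFT.SUnits (ord)

section

/-- primes are prime -/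
theorem fact_prime_of_primes (p : Nat.Primes) : Fact p.1.Prime := ⟨p.2⟩

attribute [local instance] fact_prime_of_primes

variable (v : HeightOneSpectrum (𝓞 ℚ))

/-- The valuation of an integer at a place of `ℚ`. -/
lemma val_intCast_lt_one_iff (k : ℤ) :
    v.valuation ℚ (k : ℚ) < 1 ↔ (natGenerator v : ℤ) ∣ k := by
  rw [(valuation_equiv_padicValuation v).lt_one_iff_lt_one, Rat.padicValuation_cast,
    Int.padicValuation_lt_one_iff]
  rfl

lemma val_intCast_le_one (k : ℤ) : v.valuation ℚ (k : ℚ) ≤ 1 := by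
  have h := v.valuation_le_one (K := ℚ) (k : 𝓞 ℚ)
  simpa using h

lemma val_intCast_eq_one {k : ℤ} (h : ¬ (natGenerator v : ℤ) ∣ k) : v.valuation ℚ (k : ℚ) = 1 :=
  le_antisymm (val_intCast_le_one v k) (not_lt.mp ((val_intCast_lt_one_iff v k).not.mpr h))

lemma val_gen_le : v.valuation ℚ ((natGenerator v : ℤ) : ℚ) ≤ exp (-1 : ℤ) := by
  have h0 : ((natGenerator v : ℤ) : ℚ) ≠ 0 := by
    exact_mod_cast (prime_natGenerator v).ne_zero
  have h1 := (val_intCast_lt_one_iff v (natGenerator v)).mpr dvd_rfl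
  have h2 := SUnits.valuation_eq_exp_neg_ord ℚ v (Units.mk0 _ h0)
  rw [Units.val_mk0] at h2
  rw [h2, ← exp_zero, exp_lt_exp] at h1
  rw [h2, exp_le_exp]
  omega

lemma val_le_of_pow_dvd {m : ℕ} {k : ℤ} (h : (natGenerator v : ℤ) ^ m ∣ k) :
    v.valuation ℚ (k : ℚ) ≤ exp (-(m : ℤ)) := by
  obtain ⟨l, rfl⟩ := h
  push_cast
  rw [map_mul, map_pow]
  refine (mul_le_of_le_one_right' (val_intCast_le_one v l)).trans ?_
  refine (pow_le_pow_left' (val_gen_le v) m).trans ?_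
  rw [← exp_nsmul, exp_le_exp]
  simp

lemma natGenerator_injective {v w : HeightOneSpectrum (𝓞 ℚ)}
    (h : natGenerator v = natGenerator w) : v = w := by
  apply primesEquiv.injective
  exact Subtype.ext h

/-- Every divisor of `ℚ` is principal. -/
lemma exists_ord_eq (D : HeightOneSpectrum (𝓞 ℚ) →₀ ℤ) : ∃ x : ℚˣ, ∀ v, ord v x = D v := by
  have h1 : Subsingleton (ClassGroup (𝓞 ℚ)) := by
    have h2 := Rat.classNumber_eq
    rw [classNumber, Fintype.card_eq_one_iff] at h2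
    obtain ⟨c, hc⟩ := h2
    exact ⟨fun a b => (hc a).trans (hc b).symm⟩
  obtain ⟨x, hx⟩ := (SUnits.exists_div_eq_iff ℚ D).mpr (Subsingleton.elim _ _)
  exact ⟨x, fun v => by rw [← hx, SUnits.div_apply]⟩

lemma ord_neg (x : ℚˣ) : ord v (-x) = ord v x := by
  have h1 := SUnits.valuation_eq_exp_neg_ord ℚ v (-x)
  have h2 := SUnits.valuation_eq_exp_neg_ord ℚ v x
  rw [Units.val_neg, Valuation.map_neg, h2, exp_inj] at h1
  omega

/-- the divisor of `y` on `S`, with a prescribed sign -/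
lemma exists_ord_sign (S : Finset (HeightOneSpectrum (𝓞 ℚ))) (y : ℚˣ) (s : Prop) :
    ∃ x : ℚˣ, (∀ v ∈ S, ord v x = ord v y) ∧ (∀ v ∉ S, ord v x = 0) ∧ ((x : ℚ) < 0 ↔ s) := by
  classical
  obtain ⟨x, hx⟩ := exists_ord_eq ((SUnits.div (R := 𝓞 ℚ) y).filter (· ∈ S))
  have h1 : ∀ v ∈ S, ord v x = ord v y := fun v hv => by
    rw [hx, Finsupp.filter_apply_pos _ _ hv, SUnits.div_apply]
  have h2 : ∀ v ∉ S, ord v x = 0 := fun v hv => by rw [hx, Finsupp.filter_apply_neg _ _ hv]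
  by_cases h3 : ((x : ℚ) < 0 ↔ s)
  · exact ⟨x, h1, h2, h3⟩
  · refine ⟨-x, fun v hv => by rw [ord_neg, h1 v hv], fun v hv => by rw [ord_neg, h2 v hv], ?_⟩
    rw [Units.val_neg, neg_lt_zero]
    have h4 := x.ne_zero
    rcases lt_or_gt_of_ne h4 with h5 | h5
    · constructor
      · intro h6
        exact absurd h6 (not_lt.mpr h5.le)
      · intro h6
        exact absurd ⟨fun _ => h6, fun _ => h5⟩ h3
    · constructor
      · intro _
        by_contra h6
        exact h3 ⟨fun h7 => absurd h7 (not_lt.mpr h5.le), fun h7 => absurd h7 h6⟩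
      · intro _
        exact h5

/-- **Dirichlet**: a prime number congruent to a given rational number. -/
lemma exists_prime_cong (S : Finset (HeightOneSpectrum (𝓞 ℚ))) (n : ℕ) {z : ℚˣ}
    (hz : ∀ v ∈ S, ord v z = 0) : ∃ q : ℕ, q.Prime ∧ (∀ v ∈ S, natGenerator v ≠ q) ∧
      ∀ v ∈ S, v.valuation ℚ ((q : ℚ) / (z : ℚ) - 1) ≤ exp (-((n : ℤ) + 1)) := by
  set N : ℕ := ∏ v ∈ S, natGenerator v ^ (n + 1) with hN
  have hN0 : N ≠ 0 := Finset.prod_ne_zero_iff.mpr fun v _ => pow_ne_zero _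
    (prime_natGenerator v).ne_zero
  have hdN : ∀ v ∈ S, (natGenerator v : ℤ) ^ (n + 1) ∣ (N : ℤ) := fun v hv => by
    have h := Finset.dvd_prod_of_mem (fun v => natGenerator v ^ (n + 1)) hv
    exact_mod_cast h
  have hzq : (z : ℚ) = ((z : ℚ).num : ℚ) / (((z : ℚ).den : ℤ) : ℚ) := by
    rw [Int.cast_natCast]
    exact (Rat.num_div_den _).symm
  have hnum0 : (((z : ℚ).num : ℤ) : ℚ) ≠ 0 := by
    exact_mod_cast Rat.num_ne_zero.mpr z.ne_zero
  have hden0 : (((z : ℚ).den : ℤ) : ℚ) ≠ 0 := by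
    exact_mod_cast (z : ℚ).den_ne_zero
  have hval : ∀ v ∈ S, v.valuation ℚ (((z : ℚ).num : ℤ) : ℚ) =
      v.valuation ℚ ((((z : ℚ).den : ℤ)) : ℚ) := fun v hv => by
    have h1 := (SUnits.ord_eq_zero_iff ℚ v z).mp (hz v hv)
    rw [hzq, map_div₀, div_eq_one_iff_eq ((Valuation.ne_zero_iff _).mpr hden0)] at h1
    exact h1
  have hcop : ∀ v ∈ S, ¬ (natGenerator v : ℤ) ∣ (z : ℚ).num ∧
      ¬ (natGenerator v : ℤ) ∣ ((z : ℚ).den : ℤ) := fun v hv => by
    have h1 : ¬ ((natGenerator v : ℤ) ∣ (z : ℚ).num ∧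
        (natGenerator v : ℤ) ∣ ((z : ℚ).den : ℤ)) := by
      rintro ⟨h2, h3⟩
      have h4 := Nat.dvd_gcd (Int.natCast_dvd.mp h2) (by exact_mod_cast h3)
      rw [(z : ℚ).reduced] at h4
      exact (prime_natGenerator v).one_lt.ne' (Nat.dvd_one.mp h4)
    have h5 : (natGenerator v : ℤ) ∣ (z : ℚ).num ↔ (natGenerator v : ℤ) ∣ ((z : ℚ).den : ℤ) := by
      rw [← val_intCast_lt_one_iff, ← val_intCast_lt_one_iff, hval v hv]
    tauto
  have hNn : IsCoprime (z : ℚ).num (N : ℤ) := by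
    rw [hN, Nat.cast_prod]
    refine IsCoprime.prod_right fun v hv => ?_
    rw [Nat.cast_pow]
    refine IsCoprime.pow_right (IsCoprime.symm ?_)
    exact ((Nat.prime_iff_prime_int.mp (prime_natGenerator v)).coprime_iff_not_dvd).mpr
      (hcop v hv).1
  have hNd : IsCoprime ((z : ℚ).den : ℤ) (N : ℤ) := by
    rw [hN, Nat.cast_prod]
    refine IsCoprime.prod_right fun v hv => ?_
    rw [Nat.cast_pow]
    refine IsCoprime.pow_right (IsCoprime.symm ?_)
    exact ((Nat.prime_iff_prime_int.mp (prime_natGenerator v)).coprime_iff_not_dvd).mpr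
      (hcop v hv).2
  obtain ⟨a, b, hab⟩ := hNd
  have hNa : IsCoprime a (N : ℤ) := ⟨((z : ℚ).den : ℤ), b, by linear_combination hab⟩
  obtain ⟨q, hqN, hq, hqc⟩ := Nat.forall_exists_prime_gt_and_zmodEq N hN0 (hNn.mul_left hNa)
  refine ⟨q, hq, fun v hv h => ?_, fun v hv => ?_⟩
  · have h1 : q ∣ N := by
      rw [← h]
      exact (dvd_pow_self _ (Nat.succ_ne_zero n)).trans
        (Finset.dvd_prod_of_mem (fun v => natGenerator v ^ (n + 1)) hv)
    exact absurd (Nat.le_of_dvd (Nat.pos_of_ne_zero hN0) h1) (not_le.mpr hqN)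
  · obtain ⟨k, hk⟩ := hqc.symm.dvd
    have h1 : (N : ℤ) ∣ (q : ℤ) * ((z : ℚ).den : ℤ) - (z : ℚ).num := by
      refine ⟨k * ((z : ℚ).den : ℤ) - b * (z : ℚ).num, ?_⟩
      linear_combination ((z : ℚ).den : ℤ) * hk + (z : ℚ).num * hab
    have h2 := val_le_of_pow_dvd v ((hdN v hv).trans h1)
    have h3 : (q : ℚ) / (z : ℚ) - 1 =
        (((q : ℤ) * ((z : ℚ).den : ℤ) - (z : ℚ).num : ℤ) : ℚ) / (((z : ℚ).num : ℤ) : ℚ) := by
      rw [eq_div_iff hnum0]
      push_cast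
      have h4 : (z : ℚ) * ((z : ℚ).den : ℚ) = ((z : ℚ).num : ℚ) := Rat.mul_den_eq_num _
      have h5 := z.ne_zero
      field_simp
      linear_combination (-(q : ℚ)) * h4
    rw [h3, map_div₀, val_intCast_eq_one v (hcop v hv).1, div_one]
    refine h2.trans (le_of_eq ?_)
    push_cast
    rfl

end

end RatDir

open IsDedekindDomain NumberField WithZero Rat.HeightOneSpectrum RatDir
open Fermat.Agent.CFT Fermat.Agent.CFT.Global
open Fermat.Agent.CFT.SUnits (ord)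

/-- **Approximation with one auxiliary prime.** -/
theorem exists_rat_approx (S : Finset (HeightOneSpectrum (𝓞 ℚ)))
    (e : HeightOneSpectrum (𝓞 ℚ) → ℚˣ) (s : Prop) :
    ∃ (x : ℚˣ) (v₁ : HeightOneSpectrum (𝓞 ℚ)), v₁ ∉ S ∧ (∀ v ∈ S, x / e v ∈ locPow 2 v) ∧
      (∀ v ∉ S, v ≠ v₁ → ord v x = 0) ∧ ((x : ℚ) < 0 ↔ s) := by
  choose m hm using fun v : HeightOneSpectrum (𝓞 ℚ) => exists_cong_le_locPow 2 two_ne_zero v
  set n := S.sup m with hn
  have hcl : ∀ v ∈ S, cong v n ≤ locPow 2 v := fun v hv =>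
    (cong_anti v (Finset.le_sup hv)).trans (hm v)
  obtain ⟨y, hy⟩ := indep_cong S n e
  obtain ⟨x₀, hx₀, hx₁, hx₂⟩ := exists_ord_sign S y s
  obtain ⟨q, hq, hqS, hqz⟩ := exists_prime_cong S n (z := y / x₀) fun v hv => by
    rw [SUnits.ord_div, hx₀ v hv, sub_self]
  have hq0 : (q : ℚ) ≠ 0 := by exact_mod_cast hq.ne_zero
  set v₁ : HeightOneSpectrum (𝓞 ℚ) := primesEquiv.symm ⟨q, hq⟩ with hv₁
  have hgen : natGenerator v₁ = q := by
    have h := (primesEquiv (R := 𝓞 ℚ)).apply_symm_apply (⟨q, hq⟩ : Nat.Primes)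
    exact congrArg Subtype.val h
  refine ⟨x₀ * Units.mk0 (q : ℚ) hq0, v₁, fun h => hqS v₁ h hgen, fun v hv => hcl v hv ?_,
    fun v hv hne => ?_, ?_⟩
  · have h1 : x₀ * Units.mk0 (q : ℚ) hq0 / e v = Units.mk0 (q : ℚ) hq0 / (y / x₀) * (y / e v) := by
      rw [div_div_eq_mul_div, mul_comm (Units.mk0 (q : ℚ) hq0) x₀, div_mul_div_cancel]
    rw [h1]
    refine mul_mem ?_ (hy v hv)
    rw [mem_cong, Units.val_div_eq_div_val, Units.val_mk0]
    exact hqz v hv
  · rw [SUnits.ord_mul, hx₁ v hv, zero_add, SUnits.ord_eq_zero_iff, Units.val_mk0]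
    have h1 : ¬ (natGenerator v : ℤ) ∣ ((q : ℕ) : ℤ) := by
      intro h
      have h2 := (Nat.prime_dvd_prime_iff_eq (prime_natGenerator v) hq).mp (by exact_mod_cast h)
      exact hne (natGenerator_injective (h2.trans hgen.symm))
    have h2 := val_intCast_eq_one v h1
    rwa [Int.cast_natCast] at h2
  · rw [Units.val_mul, Units.val_mk0, ← hx₂]
    have h1 : (0 : ℚ) < q := by exact_mod_cast hq.pos
    constructor
    · intro h2
      by_contra h3
      exact absurd h2 (not_lt.mpr (mul_nonneg (not_lt.mp h3) h1.le))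
    · intro h2
      exact mul_neg_of_neg_of_pos h2 h1

end Fermat.Agent.Cor.HM
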