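import Mathlib

/-!
# Ternary forms which become isotropic over `F(√-1)`

If `<a, b, c>` is isotropic over `F(√-1)`, then it is isotropic over `F`, or there is `l ≠ 0` with
`<a, b, c> ≅ <l, l, abc>`; in the second case `<a, b, c>` is isotropic over an extension `E` of `F`
iff `-l a b c` is a sum of two squares in `E`.
-/

set_option autoImplicit false

namespace Fermat.Agent.Cor.HM

section Alg

variable {E : Type*} [Field E] {a b c l x y z x' y' z' : E}

/-- An orthogonal pair with the common value `l` decides about isotropy. -/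
theorem isotropic_iff_sum_two (h2 : (2 : E) ≠ 0) (ha : a ≠ 0) (hb : b ≠ 0) (hc : c ≠ 0)
    (hl : l ≠ 0) (hu : a * x ^ 2 + b * y ^ 2 + c * z ^ 2 = l)
    (hw : a * x' ^ 2 + b * y' ^ 2 + c * z' ^ 2 = l)
    (huw : a * (x * x') + b * (y * y') + c * (z * z') = 0) :
    (∃ X Y Z : E, ¬ (X = 0 ∧ Y = 0 ∧ Z = 0) ∧ a * X ^ 2 + b * Y ^ 2 + c * Z ^ 2 = 0) ↔
      ∃ s t : E, -(l * a * b * c) = s ^ 2 + t ^ 2 := by
  have hp : b * c * (y * z' - z * y') ^ 2 + a * c * (z * x' - x * z') ^ 2 +
      a * b * (x * y' - y * x') ^ 2 = l ^ 2 := by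
    linear_combination (a * x' ^ 2 + b * y' ^ 2 + c * z' ^ 2) * hu + l * hw -
      (a * (x * x') + b * (y * y') + c * (z * z')) * huw
  constructor
  · rintro ⟨X, Y, Z, h0, hv⟩
    obtain ⟨α, hα⟩ : ∃ α, α = a * X * x + b * Y * y + c * Z * z := ⟨_, rfl⟩
    obtain ⟨β, hβ⟩ : ∃ β, β = a * X * x' + b * Y * y' + c * Z * z' := ⟨_, rfl⟩
    obtain ⟨γ, hγ⟩ : ∃ γ, γ = a * b * c * (X * (y * z' - z * y') + Y * (z * x' - x * z') +
        Z * (x * y' - y * x')) := ⟨_, rfl⟩
    have e1 : l ^ 2 * (a * X) = (y * z' - z * y') * γ + a * c * (z * x' - x * z') *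
        (z * β - z' * α) - a * b * (x * y' - y * x') * (y * β - y' * α) := by
      rw [← hp, hα, hβ, hγ]
      ring
    have e2 : l ^ 2 * (b * Y) = (z * x' - x * z') * γ + a * b * (x * y' - y * x') *
        (x * β - x' * α) - b * c * (y * z' - z * y') * (z * β - z' * α) := by
      rw [← hp, hα, hβ, hγ]
      ring
    have e3 : l ^ 2 * (c * Z) = (x * y' - y * x') * γ + b * c * (y * z' - z * y') *
        (y * β - y' * α) - a * c * (z * x' - x * z') * (x * β - x' * α) := by
      rw [← hp, hα, hβ, hγ]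
      ring
    have f1 : c * z * (z * x' - x * z') - b * y * (x * y' - y * x') = l * x' := by
      linear_combination x' * hu - x * huw
    have f2 : a * x * (x * y' - y * x') - c * z * (y * z' - z * y') = l * y' := by
      linear_combination y' * hu - y * huw
    have f3 : b * y * (y * z' - z * y') - a * x * (z * x' - x * z') = l * z' := by
      linear_combination z' * hu - z * huw
    have g1 : c * z' * (z * x' - x * z') - b * y' * (x * y' - y * x') = -(l * x) := by
      linear_combination x' * huw - x * hw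
    have g2 : a * x' * (x * y' - y * x') - c * z' * (y * z' - z * y') = -(l * y) := by
      linear_combination y' * huw - y * hw
    have g3 : b * y' * (y * z' - z * y') - a * x' * (z * x' - x * z') = -(l * z) := by
      linear_combination z' * huw - z * hw
    have key : γ ^ 2 + l * a * b * c * (α ^ 2 + β ^ 2) = 0 := by
      have k1 : a * b * c * (X * (l ^ 2 * (a * X)) + Y * (l ^ 2 * (b * Y)) +
          Z * (l ^ 2 * (c * Z))) = 0 := by
        linear_combination a * b * c * l ^ 2 * hv
      rw [e1, e2, e3] at k1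
      have k2 : γ * (a * b * c * (X * (y * z' - z * y') + Y * (z * x' - x * z') +
          Z * (x * y' - y * x'))) + a * b * c * β *
          (a * X * (c * z * (z * x' - x * z') - b * y * (x * y' - y * x')) +
            b * Y * (a * x * (x * y' - y * x') - c * z * (y * z' - z * y')) +
            c * Z * (b * y * (y * z' - z * y') - a * x * (z * x' - x * z'))) -
          a * b * c * α *
          (a * X * (c * z' * (z * x' - x * z') - b * y' * (x * y' - y * x')) +
            b * Y * (a * x' * (x * y' - y * x') - c * z' * (y * z' - z * y')) +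
            c * Z * (b * y' * (y * z' - z * y') - a * x' * (z * x' - x * z'))) = 0 := by
        rw [← k1]
        ring
      rw [f1, f2, f3, g1, g2, g3, ← hγ] at k2
      have k3 : a * X * (l * x') + b * Y * (l * y') + c * Z * (l * z') = l * β := by
        rw [hβ]
        ring
      have k4 : a * X * -(l * x) + b * Y * -(l * y) + c * Z * -(l * z) = -(l * α) := by
        rw [hα]
        ring
      rw [k3, k4] at k2
      linear_combination k2
    by_cases hs : α ^ 2 + β ^ 2 = 0
    · -- `-1` is a square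
      have hγ0 : γ = 0 := by
        rw [hs, mul_zero, add_zero] at key
        exact pow_eq_zero_iff two_ne_zero |>.mp key
      have hβ0 : β ≠ 0 := by
        intro hβ0
        have hα0 : α = 0 := by
          rw [hβ0, zero_pow two_ne_zero, add_zero] at hs
          exact pow_eq_zero_iff two_ne_zero |>.mp hs
        apply h0
        rw [hα0, hβ0, hγ0] at e1 e2 e3
        have hl2 : l ^ 2 ≠ 0 := pow_ne_zero 2 hl
        refine ⟨?_, ?_, ?_⟩
        · have : l ^ 2 * (a * X) = 0 := by rw [e1]; ring
          simpa [hl, ha] using this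
        · have : l ^ 2 * (b * Y) = 0 := by rw [e2]; ring
          simpa [hl, hb] using this
        · have : l ^ 2 * (c * Z) = 0 := by rw [e3]; ring
          simpa [hl, hc] using this
      refine ⟨(-(l * a * b * c) + 1) / 2, (α / β) * ((-(l * a * b * c) - 1) / 2), ?_⟩
      have hi : (α / β) ^ 2 = -1 := by
        field_simp
        linear_combination hs
      rw [mul_pow, hi]
      field_simp
      ring
    · refine ⟨γ * α / (α ^ 2 + β ^ 2), γ * β / (α ^ 2 + β ^ 2), ?_⟩
      field_simp
      linear_combination -key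
  · rintro ⟨s, t, hst⟩
    refine ⟨s * x + t * x' + b * c * (y * z' - z * y'), s * y + t * y' + a * c * (z * x' - x * z'),
      s * z + t * z' + a * b * (x * y' - y * x'), ?_, ?_⟩
    · rintro ⟨h1, h3, h4⟩
      have h5 : a * b * c * l ^ 2 = 0 := by
        rw [← hp]
        linear_combination a * b * c * ((y * z' - z * y') * h1 + (z * x' - x * z') * h3 +
          (x * y' - y * x') * h4)
      exact (mul_ne_zero (mul_ne_zero (mul_ne_zero ha hb) hc) (pow_ne_zero 2 hl)) h5
    · linear_combination s ^ 2 * hu + t ^ 2 * hw + 2 * s * t * huw + a * b * c * hp - l * hst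

end Alg

/-- **Ternary forms which become isotropic over `F(√-1)`.** -/
theorem exists_sum_two {F : Type*} [Field F] (h2 : (2 : F) ≠ 0) {a b c : F} (ha : a ≠ 0)
    (hb : b ≠ 0) (hc : c ≠ 0) (H : ∃ x y z x' y' z' : F,
      ¬ (x = 0 ∧ y = 0 ∧ z = 0 ∧ x' = 0 ∧ y' = 0 ∧ z' = 0) ∧
      a * (x ^ 2 - x' ^ 2) + b * (y ^ 2 - y' ^ 2) + c * (z ^ 2 - z' ^ 2) = 0 ∧
      a * (x * x') + b * (y * y') + c * (z * z') = 0) :
    (∃ x y z : F, ¬ (x = 0 ∧ y = 0 ∧ z = 0) ∧ a * x ^ 2 + b * y ^ 2 + c * z ^ 2 = 0) ∨
    ∃ l : F, l ≠ 0 ∧ ∀ (E : Type*) [Field E] [Algebra F E],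
      (∃ x y z : E, ¬ (x = 0 ∧ y = 0 ∧ z = 0) ∧
        algebraMap F E a * x ^ 2 + algebraMap F E b * y ^ 2 + algebraMap F E c * z ^ 2 = 0) ↔
      ∃ s t : E, algebraMap F E (-(l * a * b * c)) = s ^ 2 + t ^ 2 := by
  obtain ⟨x, y, z, x', y', z', h0, h1, huw⟩ := H
  by_cases hl : a * x ^ 2 + b * y ^ 2 + c * z ^ 2 = 0
  · left
    by_cases hu : x = 0 ∧ y = 0 ∧ z = 0
    · refine ⟨x', y', z', fun h' => h0 ⟨hu.1, hu.2.1, hu.2.2, h'.1, h'.2.1, h'.2.2⟩, ?_⟩
      linear_combination hl - h1
    · exact ⟨x, y, z, hu, hl⟩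
  · right
    refine ⟨_, hl, fun E _ _ => ?_⟩
    have m : ∀ {u w : F}, u = w → algebraMap F E u = algebraMap F E w := fun h => congrArg _ h
    have h2' : (2 : E) ≠ 0 := by
      have := (map_ne_zero (algebraMap F E)).mpr h2
      rwa [map_ofNat] at this
    have hne : ∀ {u : F}, u ≠ 0 → algebraMap F E u ≠ 0 := fun h => (map_ne_zero _).mpr h
    have hw : a * x' ^ 2 + b * y' ^ 2 + c * z' ^ 2 = a * x ^ 2 + b * y ^ 2 + c * z ^ 2 := by
      linear_combination -h1
    have key := isotropic_iff_sum_two (E := E) (a := algebraMap F E a) (b := algebraMap F E b)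
      (c := algebraMap F E c) (l := algebraMap F E (a * x ^ 2 + b * y ^ 2 + c * z ^ 2))
      (x := algebraMap F E x) (y := algebraMap F E y) (z := algebraMap F E z)
      (x' := algebraMap F E x') (y' := algebraMap F E y') (z' := algebraMap F E z')
      h2' (hne ha) (hne hb) (hne hc) (hne hl) (by simp) (by rw [← hw]; simp)
      (by simpa using m huw)
    rw [key]
    simp

end Fermat.Agent.Cor.HM
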