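import Fermat.Agent.Corollaries.HM.Main
import Fermat.Agent.Corollaries.HM.RatTwo
import Fermat.Agent.Corollaries.HM.SumTwo
import Fermat.Agent.Corollaries.HM.RatDir
import Fermat.Agent.Corollaries.HM.RatProd

/-!
# Quadratic forms over `ℚ` in three, four and at least five variables

The local conditions at the finite places are expressed with local symbols, the condition at the
real place with signs.
-/

set_option autoImplicit false

namespace Fermat.Agent.Cor.HM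

open IsDedekindDomain NumberField WithZero Polynomial
open Fermat.Agent.CFT Fermat.Agent.CFT.Global Fermat.Agent.CFT.Global2 Fermat.Agent.CFT.Bridge
  Fermat.Agent.LT.Ext
open Fermat.Agent.CFT.SUnits (ord)

lemma isTotallyComplex_of_sq {L : Type*} [Field L] [NumberField L] {δ : L} (h : δ ^ 2 = -1) :
    IsTotallyComplex L := by
  constructor
  intro w
  rw [← InfinitePlace.not_isReal_iff_isComplex]
  rintro ⟨φ, hφ, rfl⟩
  have h1 := DFunLike.congr_fun (ComplexEmbedding.isReal_iff.mp hφ) δ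
  rw [ComplexEmbedding.conjugate_coe_eq] at h1
  obtain ⟨r, hr⟩ := Complex.conj_eq_iff_real.mp h1
  have h2 : (φ δ) ^ 2 = -1 := by rw [← map_pow, h, map_neg, map_one]
  rw [hr] at h2
  have h3 : r ^ 2 = -1 := by exact_mod_cast h2
  nlinarith [sq_nonneg r]

/-- The symbol condition in three variables implies isotropy over `K_v`. -/
theorem adic_of_rep {K : Type} [Field K] [NumberField K] {LS : LocalSymbols 2 K}
    {v : HeightOneSpectrum (𝓞 K)} {a b c : Kˣ} (h : Rep LS v a b (-c)) :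
    ∃ x y z : v.adicCompletion K, ¬ (x = 0 ∧ y = 0 ∧ z = 0) ∧
      algebraMap K (v.adicCompletion K) a * x ^ 2 + algebraMap K (v.adicCompletion K) b * y ^ 2 +
        algebraMap K (v.adicCompletion K) c * z ^ 2 = 0 := by
  obtain ⟨x, y, z, h0, h1⟩ := (sym_eq_one_iff LS v _ _).mp h
  have ha : algebraMap K (v.adicCompletion K) a ≠ 0 := (_root_.map_ne_zero _).mpr a.ne_zero
  refine ⟨z / algebraMap K _ a, x, y, fun h' => h0 ⟨h'.2.1, h'.2.2, ?_⟩, ?_⟩
  · exact (div_eq_zero_iff.mp h'.1).resolve_right ha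
  · rw [Units.val_neg, Units.val_mul, Units.val_mul, Units.val_neg, map_neg, map_mul, map_mul,
      map_neg] at h1
    field_simp
    linear_combination -h1

/-- Real isotropy of an indefinite ternary form. -/
lemma real_three {a b c : ℝ} (hp : 0 < a ∨ 0 < b ∨ 0 < c) (hn : a < 0 ∨ b < 0 ∨ c < 0) :
    ∃ x y z : ℝ, ¬ (x = 0 ∧ y = 0 ∧ z = 0) ∧ a * x ^ 2 + b * y ^ 2 + c * z ^ 2 = 0 := by
  have key : ∀ u w : ℝ, 0 < u → w < 0 → u * Real.sqrt (-w) ^ 2 + w * Real.sqrt u ^ 2 = 0 := by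
    intro u w hu hw
    rw [Real.sq_sqrt hu.le, Real.sq_sqrt (by linarith)]
    ring
  have hs : ∀ u : ℝ, 0 < u → Real.sqrt u ≠ 0 := fun u hu => (Real.sqrt_pos.mpr hu).ne'
  rcases hp with ha | hb | hc
  · rcases hn with h | h | h
    · linarith
    · exact ⟨Real.sqrt (-b), Real.sqrt a, 0, fun h' => hs _ ha h'.2.1, by
        have := key a b ha h; linear_combination this⟩
    · exact ⟨Real.sqrt (-c), 0, Real.sqrt a, fun h' => hs _ ha h'.2.2, by
        have := key a c ha h; linear_combination this⟩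
  · rcases hn with h | h | h
    · exact ⟨Real.sqrt b, Real.sqrt (-a), 0, fun h' => hs _ hb h'.1, by
        have := key b a hb h; linear_combination this⟩
    · linarith
    · exact ⟨0, Real.sqrt (-c), Real.sqrt b, fun h' => hs _ hb h'.2.2, by
        have := key b c hb h; linear_combination this⟩
  · rcases hn with h | h | h
    · exact ⟨Real.sqrt c, 0, Real.sqrt (-a), fun h' => hs _ hc h'.1, by
        have := key c a hc h; linear_combination this⟩
    · exact ⟨0, Real.sqrt c, Real.sqrt (-b), fun h' => hs _ hc h'.2.1, by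
        have := key c b hc h; linear_combination this⟩
    · linarith

/-- **Hasse principle for ternary forms over `ℚ`.** -/
theorem isotropic_three_rat (LS : LocalSymbols 2 ℚ) {a b c : ℚˣ} (h : ∀ v, Rep LS v a b (-c))
    (hp : 0 < (a : ℚ) ∨ 0 < (b : ℚ) ∨ 0 < (c : ℚ)) (hn : (a : ℚ) < 0 ∨ (b : ℚ) < 0 ∨ (c : ℚ) < 0) :
    ∃ x y z : ℚ, ¬ (x = 0 ∧ y = 0 ∧ z = 0) ∧ (a : ℚ) * x ^ 2 + b * y ^ 2 + c * z ^ 2 = 0 := by
  have hns : ∀ b : ℚˣ, b ^ 2 ≠ -1 := by
    intro b hb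
    have h1 := congrArg (Units.val) hb
    rw [Units.val_pow_eq_pow_val, Units.val_neg, Units.val_one] at h1
    nlinarith [sq_nonneg (b : ℚ)]
  have : Fact (Irreducible (X ^ 2 - C ((-1 : ℚˣ) : ℚ))) :=
    ⟨irreducible_of_not_pow Nat.prime_two hns⟩
  have : NumberField (Rad 2 (-1 : ℚˣ)) := numberField_rad Nat.prime_two
  set L := Rad 2 (-1 : ℚˣ) with hL
  set δ : L := AdjoinRoot.root _ with hδ
  have hδ2 : δ ^ 2 = -1 := by
    have h1 : δ ^ 2 = algebraMap ℚ L ((-1 : ℚˣ) : ℚ) := root_X_pow_sub_C_pow 2 ((-1 : ℚˣ) : ℚ)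
    have h2 : ((-1 : ℚˣ) : ℚ) = -1 := rfl
    exact h1.trans ((congrArg (algebraMap ℚ L) h2).trans (by rw [map_neg, map_one]))
  have : IsTotallyComplex L := isTotallyComplex_of_sq hδ2
  obtain ⟨S⟩ := nonempty_globSym L
  obtain ⟨x, y, z, h0, h1⟩ := isotropic_three S.LS (a := mapU ℚ L a) (b := mapU ℚ L b)
    (c := mapU ℚ L c) fun w => by
    change S.LS.sym w (-(mapU ℚ L a * mapU ℚ L b)) (mapU ℚ L a * -mapU ℚ L c) = 1
    rw [← map_mul, ← mapU_neg, ← mapU_neg, ← map_mul]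
    exact sym_map_eq_one LS S.LS (h (w.under (𝓞 ℚ)))
  have hcoord : ∀ z : L, ∃ u w : ℚ, z = algebraMap ℚ L u + algebraMap ℚ L w * δ := by
    intro z
    refine ⟨(quadBasis _).repr z 0, (quadBasis _).repr z 1, ?_⟩
    have h1 := (quadBasis ((-1 : ℚˣ) : ℚ)).sum_repr z
    rw [Fin.sum_univ_two, quadBasis_zero, quadBasis_one] at h1
    rw [← Algebra.smul_def, Algebra.algebraMap_eq_smul_one]
    exact h1.symm
  have hlin : ∀ u w : ℚ, algebraMap ℚ L u + algebraMap ℚ L w * δ = 0 → u = 0 ∧ w = 0 := by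
    intro u w huw
    have h1 := (quadBasis ((-1 : ℚˣ) : ℚ)).linearIndependent
    rw [Fintype.linearIndependent_iff] at h1
    have h2 := h1 ![u, w] (by
      rw [Fin.sum_univ_two, quadBasis_zero, quadBasis_one]
      rw [← Algebra.smul_def, Algebra.algebraMap_eq_smul_one] at huw
      exact huw)
    exact ⟨h2 0, h2 1⟩
  obtain ⟨x₁, x₂, rfl⟩ := hcoord x
  obtain ⟨y₁, y₂, rfl⟩ := hcoord y
  obtain ⟨z₁, z₂, rfl⟩ := hcoord z
  have h2 := hlin ((a : ℚ) * (x₁ ^ 2 - x₂ ^ 2) + b * (y₁ ^ 2 - y₂ ^ 2) + c * (z₁ ^ 2 - z₂ ^ 2))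
    (2 * (a * (x₁ * x₂) + b * (y₁ * y₂) + c * (z₁ * z₂))) (by
      have e : ∀ u : ℚˣ, ((mapU ℚ L u : Lˣ) : L) = algebraMap ℚ L u := fun _ => rfl
      rw [e, e, e] at h1
      simp only [map_add, map_mul, map_sub, map_pow, map_ofNat]
      linear_combination h1 - (algebraMap ℚ L a * algebraMap ℚ L x₂ ^ 2 +
        algebraMap ℚ L b * algebraMap ℚ L y₂ ^ 2 + algebraMap ℚ L c * algebraMap ℚ L z₂ ^ 2) * hδ2)
  have h00 : ¬ (x₁ = 0 ∧ y₁ = 0 ∧ z₁ = 0 ∧ x₂ = 0 ∧ y₂ = 0 ∧ z₂ = 0) := by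
    intro h'
    apply h0
    simp [h'.1, h'.2.1, h'.2.2.1, h'.2.2.2.1, h'.2.2.2.2.1, h'.2.2.2.2.2]
  rcases exists_sum_two two_ne_zero a.ne_zero b.ne_zero c.ne_zero
    ⟨x₁, y₁, z₁, x₂, y₂, z₂, h00, h2.1, by linarith [h2.2]⟩ with h3 | ⟨l, hl, h3⟩
  · exact h3
  · have h4 : ∀ v : HeightOneSpectrum (𝓞 ℚ), ∃ s t : v.adicCompletion ℚ,
        algebraMap ℚ (v.adicCompletion ℚ) (-(l * a * b * c)) = s ^ 2 + t ^ 2 :=
      fun v => (h3 (v.adicCompletion ℚ)).mp (adic_of_rep (h v))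
    have h5 : ∃ s t : ℝ, algebraMap ℚ ℝ (-(l * a * b * c)) = s ^ 2 + t ^ 2 := by
      have e : ∀ q : ℚ, algebraMap ℚ ℝ q = (q : ℝ) := fun _ => rfl
      refine (h3 ℝ).mp (real_three ?_ ?_)
      · rw [e, e, e]
        rcases hp with h | h | h
        · exact Or.inl (by exact_mod_cast h)
        · exact Or.inr (Or.inl (by exact_mod_cast h))
        · exact Or.inr (Or.inr (by exact_mod_cast h))
      · rw [e, e, e]
        rcases hn with h | h | h
        · exact Or.inl (by exact_mod_cast h)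
        · exact Or.inr (Or.inl (by exact_mod_cast h))
        · exact Or.inr (Or.inr (by exact_mod_cast h))
    have h6 : 0 < -(l * (a : ℚ) * b * c) := by
      obtain ⟨s, t, hst⟩ := h5
      have h7 : (0 : ℝ) ≤ ((-(l * (a : ℚ) * b * c) : ℚ) : ℝ) := by
        have : algebraMap ℚ ℝ (-(l * a * b * c)) = ((-(l * (a : ℚ) * b * c) : ℚ) : ℝ) := rfl
        rw [← this, hst]
        positivity
      have h8 : 0 ≤ -(l * (a : ℚ) * b * c) := by exact_mod_cast h7
      refine lt_of_le_of_ne h8 (Ne.symm (neg_ne_zero.mpr ?_))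
      exact mul_ne_zero (mul_ne_zero (mul_ne_zero hl a.ne_zero) b.ne_zero) c.ne_zero
    have h9 := (h3 ℚ).mpr (sum_two_squares_rat _ h6 h4)
    simpa using h9

/-- Glueing two ternary forms. -/
lemma isotropic_four_of_three {F : Type*} [Field F] {a b c d x : F} (hx : x ≠ 0)
    (h1 : ∃ u w r : F, ¬ (u = 0 ∧ w = 0 ∧ r = 0) ∧ a * u ^ 2 + b * w ^ 2 + -x * r ^ 2 = 0)
    (h2 : ∃ u w r : F, ¬ (u = 0 ∧ w = 0 ∧ r = 0) ∧ c * u ^ 2 + d * w ^ 2 + x * r ^ 2 = 0) :
    ∃ z : Fin 4 → F, z ≠ 0 ∧ ∑ i, (![a, b, c, d] : Fin 4 → F) i * z i ^ 2 = 0 := by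
  obtain ⟨u, w, r, h0, h1⟩ := h1
  obtain ⟨u', w', r', h0', h2⟩ := h2
  by_cases hr : r = 0
  · subst hr
    refine ⟨![u, w, 0, 0], fun h' => h0 ⟨congrFun h' 0, congrFun h' 1, rfl⟩, ?_⟩
    simp [Fin.sum_univ_four]
    linear_combination h1
  by_cases hr' : r' = 0
  · subst hr'
    refine ⟨![0, 0, u', w'], fun h' => h0' ⟨congrFun h' 2, congrFun h' 3, rfl⟩, ?_⟩
    simp [Fin.sum_univ_four]
    linear_combination h2
  refine ⟨![u / r, w / r, u' / r', w' / r'], fun h' => ?_, ?_⟩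
  · have hu : u / r = 0 := congrFun h' 0
    have hw : w / r = 0 := congrFun h' 1
    rw [div_eq_zero_iff, or_iff_left hr] at hu hw
    rw [hu, hw] at h1
    have : x * r ^ 2 = 0 := by linear_combination -h1
    exact (mul_ne_zero hx (pow_ne_zero 2 hr)) this
  · simp [Fin.sum_univ_four]
    have e1 : a * (u / r) ^ 2 + b * (w / r) ^ 2 = x := by
      field_simp
      linear_combination h1
    have e2 : c * (u' / r') ^ 2 + d * (w' / r') ^ 2 = -x := by
      field_simp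
      linear_combination h2
    linear_combination e1 + e2

/-- Signs in the decomposition of an indefinite quaternary form. -/
lemma exists_sign {a b c d : ℚ} (ha : a ≠ 0) (hb : b ≠ 0) (hc : c ≠ 0)
    (hp : 0 < a ∨ 0 < b ∨ 0 < c ∨ 0 < d) (hn : a < 0 ∨ b < 0 ∨ c < 0 ∨ d < 0) :
    ∃ s : Prop, ∀ x : ℚ, x ≠ 0 → (x < 0 ↔ s) →
      ((0 < a ∨ 0 < b ∨ 0 < -x) ∧ (a < 0 ∨ b < 0 ∨ -x < 0)) ∧
      ((0 < c ∨ 0 < d ∨ 0 < x) ∧ (c < 0 ∨ d < 0 ∨ x < 0)) := by
  have key : ∀ x : ℚ, x ≠ 0 → ¬ x < 0 → 0 < x := fun x hx h =>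
    lt_of_le_of_ne (not_lt.mp h) hx.symm
  by_cases h1 : 0 < a ∧ 0 < b
  · refine ⟨False, fun x hx hs => ?_⟩
    have hx0 : 0 < x := key x hx (fun h => hs.mp h)
    have h2 : c < 0 ∨ d < 0 := by
      rcases hn with h | h | h | h
      · linarith [h1.1]
      · linarith [h1.2]
      · exact Or.inl h
      · exact Or.inr h
    refine ⟨⟨Or.inl h1.1, Or.inr (Or.inr (by linarith))⟩, ⟨Or.inr (Or.inr hx0), ?_⟩⟩
    rcases h2 with h | h
    · exact Or.inl h
    · exact Or.inr (Or.inl h)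
  by_cases h3 : a < 0 ∧ b < 0
  · refine ⟨True, fun x hx hs => ?_⟩
    have hx0 : x < 0 := hs.mpr trivial
    have h2 : 0 < c ∨ 0 < d := by
      rcases hp with h | h | h | h
      · linarith [h3.1]
      · linarith [h3.2]
      · exact Or.inl h
      · exact Or.inr h
    refine ⟨⟨Or.inr (Or.inr (by linarith)), Or.inl h3.1⟩, ⟨?_, Or.inr (Or.inr hx0)⟩⟩
    rcases h2 with h | h
    · exact Or.inl h
    · exact Or.inr (Or.inl h)
  have h4 : (0 < a ∨ 0 < b) ∧ (a < 0 ∨ b < 0) := by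
    rcases lt_or_gt_of_ne ha with h | h
    · rcases lt_or_gt_of_ne hb with h' | h'
      · exact absurd ⟨h, h'⟩ h3
      · exact ⟨Or.inr h', Or.inl h⟩
    · rcases lt_or_gt_of_ne hb with h' | h'
      · exact ⟨Or.inl h, Or.inr h'⟩
      · exact absurd ⟨h, h'⟩ h1
  have h5 : ∀ x : ℚ, (0 < a ∨ 0 < b ∨ 0 < -x) ∧ (a < 0 ∨ b < 0 ∨ -x < 0) := by
    intro x
    constructor
    · rcases h4.1 with h | h
      · exact Or.inl h
      · exact Or.inr (Or.inl h)
    · rcases h4.2 with h | h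
      · exact Or.inl h
      · exact Or.inr (Or.inl h)
  by_cases h6 : 0 < c ∨ 0 < d
  · by_cases h7 : c < 0 ∨ d < 0
    · refine ⟨True, fun x hx hs => ⟨h5 x, ?_, Or.inr (Or.inr (hs.mpr trivial))⟩⟩
      rcases h6 with h | h
      · exact Or.inl h
      · exact Or.inr (Or.inl h)
    · refine ⟨True, fun x hx hs => ⟨h5 x, ?_, Or.inr (Or.inr (hs.mpr trivial))⟩⟩
      rcases h6 with h | h
      · exact Or.inl h
      · exact Or.inr (Or.inl h)
  · refine ⟨False, fun x hx hs => ⟨h5 x, Or.inr (Or.inr (key x hx (fun h => hs.mp h))), ?_⟩⟩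
    push Not at h6
    exact Or.inl (lt_of_le_of_ne h6.1 hc)

/-- **Hasse principle for quaternary forms over `ℚ`.** -/
theorem isotropic_four_rat (LS : LocalSymbols 2 ℚ) {a b c d : ℚˣ}
    (h : ∀ v, ∃ e, Rep LS v a b e ∧ Rep LS v c d (-e))
    (hp : 0 < (a : ℚ) ∨ 0 < (b : ℚ) ∨ 0 < (c : ℚ) ∨ 0 < (d : ℚ))
    (hn : (a : ℚ) < 0 ∨ (b : ℚ) < 0 ∨ (c : ℚ) < 0 ∨ (d : ℚ) < 0) :
    ∃ x : Fin 4 → ℚ, x ≠ 0 ∧ ∑ i, (![(a : ℚ), b, c, d] : Fin 4 → ℚ) i * x i ^ 2 = 0 := by
  classical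
  choose e he1 he2 using h
  obtain ⟨S, -, hS2, -, hSu⟩ := exists_good (K := ℚ) 2 two_ne_zero ∅ {a, b, c, d}
  obtain ⟨s, hs⟩ := exists_sign a.ne_zero b.ne_zero c.ne_zero hp hn
  obtain ⟨x, v₁, hv₁, hxS, hxu, hxs⟩ := exists_rat_approx S e s
  obtain ⟨⟨hr1, hr2⟩, hr3, hr4⟩ := hs x x.ne_zero hxs
  have hord : ∀ v ∉ S, ord v a = 0 ∧ ord v b = 0 ∧ ord v c = 0 ∧ ord v d = 0 := fun v hv =>
    ⟨mem_E.mp (hSu a (by simp)) v hv, mem_E.mp (hSu b (by simp)) v hv,
      mem_E.mp (hSu c (by simp)) v hv, mem_E.mp (hSu d (by simp)) v hv⟩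
  have hmul : ∀ (v : HeightOneSpectrum (𝓞 ℚ)) (x y : ℚˣ), ord v x = 0 → ord v y = 0 →
      ord v (x * y) = 0 := by
    intro v x y hx hy
    rw [SUnits.ord_mul, hx, hy, add_zero]
  -- one place is enough by the product formula
  have key : ∀ (u w y : ℚˣ), (∀ v ∉ S, ord v u = 0 ∧ ord v w = 0) →
      (∀ v ∉ S, v ≠ v₁ → ord v y = 0) → (∀ v ∈ S, Rep LS v u w y) →
      ¬ ((-(u * w) : ℚˣ) < (0 : ℚ) ∧ ((u * y : ℚˣ) : ℚ) < 0) → ∀ v, Rep LS v u w y := by
    intro u w y hu hy hRS hreal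
    have hne : ∀ v, v ≠ v₁ → Rep LS v u w y := by
      intro v hv
      by_cases hvS : v ∈ S
      · exact hRS v hvS
      · refine LS.unit_mem v (fun h => hvS (hS2 v h)) _ _ ?_ ?_
        · rw [ord_neg]
          exact hmul v _ _ (hu v hvS).1 (hu v hvS).2
        · exact hmul v _ _ (hu v hvS).1 (hy v hvS hv)
    intro v
    by_cases hv : v = v₁
    · subst hv
      have h1 := prod_rat LS (-(u * w)) (u * y)
      rw [if_neg hreal] at h1
      have h2 : (symVec LS two_ne_zero (-(u * w)) (u * y)).support ⊆ {v} := by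
        intro w' hw'
        rw [Finset.mem_singleton]
        by_contra hne'
        rw [Finsupp.mem_support_iff, symVec_apply] at hw'
        exact hw' (congrArg Multiplicative.toAdd (hne w' hne'))
      rw [Finsupp.sum_of_support_subset _ h2 _ (fun _ _ => rfl), Finset.sum_singleton,
        symVec_apply] at h1
      exact Multiplicative.toAdd.injective h1
    · exact hne v hv
  have hab : ∀ v, Rep LS v a b x := by
    refine key a b x (fun v hv => ⟨(hord v hv).1, (hord v hv).2.1⟩) hxu (fun v hv => ?_) ?_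
    · have h1 := he1 v
      rw [Rep] at h1 ⊢
      have h2 : LS.sym v (-(a * b)) (x / e v) = 1 := LS.sym_eq_one_of_right (hxS v hv)
      have h3 : a * x = (a * e v) * (x / e v) := by
        rw [mul_assoc, mul_div_cancel]
      rw [h3, map_mul, h1, h2, one_mul]
    · rintro ⟨h1, h2⟩
      rw [Units.val_neg, Units.val_mul] at h1
      rw [Units.val_mul] at h2
      have h3 : 0 < (a : ℚ) * b := by linarith
      rcases pos_and_pos_or_neg_and_neg_of_mul_pos h3 with ⟨ha, hb⟩ | ⟨ha, hb⟩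
      · have hx : (x : ℚ) < 0 := by
          by_contra hx
          push Not at hx
          nlinarith
        rcases hr2 with h | h | h <;> linarith
      · have hx : 0 < (x : ℚ) := by
          by_contra hx
          push Not at hx
          nlinarith
        rcases hr1 with h | h | h <;> linarith
  have hcd : ∀ v, Rep LS v c d (-x) := by
    refine key c d (-x) (fun v hv => ⟨(hord v hv).2.2.1, (hord v hv).2.2.2⟩)
      (fun v hv hv' => by rw [ord_neg]; exact hxu v hv hv') (fun v hv => ?_) ?_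
    · have h1 := he2 v
      rw [Rep] at h1 ⊢
      have h2 : LS.sym v (-(c * d)) (x / e v) = 1 := LS.sym_eq_one_of_right (hxS v hv)
      have h3 : c * -x = (c * -e v) * (x / e v) := by
        rw [mul_neg, mul_neg, neg_mul, mul_assoc, mul_div_cancel]
      rw [h3, map_mul, h1, h2, one_mul]
    · rintro ⟨h1, h2⟩
      rw [Units.val_neg, Units.val_mul] at h1
      rw [Units.val_mul, Units.val_neg] at h2
      have h3 : 0 < (c : ℚ) * d := by linarith
      rcases pos_and_pos_or_neg_and_neg_of_mul_pos h3 with ⟨ha, hb⟩ | ⟨ha, hb⟩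
      · have hx : 0 < (x : ℚ) := by
          by_contra hx
          push Not at hx
          nlinarith
        rcases hr4 with h | h | h <;> linarith
      · have hx : (x : ℚ) < 0 := by
          by_contra hx
          push Not at hx
          nlinarith
        rcases hr3 with h | h | h <;> linarith
  have h1 := isotropic_three_rat LS (a := a) (b := b) (c := -x)
    (fun v => by rw [neg_neg]; exact hab v) (by rw [Units.val_neg]; exact hr1)
    (by rw [Units.val_neg]; exact hr2)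
  have h2 := isotropic_three_rat LS (a := c) (b := d) (c := x) hcd hr3 hr4
  rw [Units.val_neg] at h1
  exact isotropic_four_of_three x.ne_zero h1 h2

/-- Five variables, the first two coefficients having the same sign. -/
theorem isotropic_five_rat_aux (u : Fin 5 → ℚˣ) (h01 : 0 < (u 0 : ℚ) * u 1)
    (hp : ∃ i, 0 < (u i : ℚ)) (hn : ∃ i, (u i : ℚ) < 0) :
    ∃ x : Fin 5 → ℚ, x ≠ 0 ∧ ∑ i, (u i : ℚ) * x i ^ 2 = 0 := by
  classical
  obtain ⟨LS⟩ := Bridge.nonempty_localSymbols_all (p := 2) ℚ (Unr.isPrimitiveRoot_neg_one' ℚ)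
  obtain ⟨S, -, hS2, -, hSu⟩ := exists_good (K := ℚ) 2 two_ne_zero ∅ {u 2, u 3, u 4}
  choose e he1 he2 using fun v => exists_two_classes LS (v := v) (u 0) (u 1) (u 2 * u 3 * u 4)
  obtain ⟨x, y, c, hc, hce⟩ := exists_binary LS S (u 0) (u 1) e he1
  have hsign : (0 < (u 0 : ℚ) ∧ 0 < (u 1 : ℚ) ∧ 0 < (c : ℚ)) ∨
      ((u 0 : ℚ) < 0 ∧ (u 1 : ℚ) < 0 ∧ (c : ℚ) < 0) := by
    rcases pos_and_pos_or_neg_and_neg_of_mul_pos h01 with ⟨h0, h1⟩ | ⟨h0, h1⟩
    · refine Or.inl ⟨h0, h1, lt_of_le_of_ne ?_ c.ne_zero.symm⟩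
      rw [hc]
      positivity
    · refine Or.inr ⟨h0, h1, lt_of_le_of_ne ?_ c.ne_zero⟩
      rw [hc]
      nlinarith [mul_nonneg (neg_nonneg.mpr h0.le) (sq_nonneg x),
        mul_nonneg (neg_nonneg.mpr h1.le) (sq_nonneg y)]
  have hp' : 0 < (c : ℚ) ∨ 0 < (u 2 : ℚ) ∨ 0 < (u 3 : ℚ) ∨ 0 < (u 4 : ℚ) := by
    rcases hsign with ⟨-, -, h⟩ | ⟨h0, h1, -⟩
    · exact Or.inl h
    · obtain ⟨i, hi⟩ := hp
      fin_cases i
      · exact absurd hi (not_lt.mpr h0.le)
      · exact absurd hi (not_lt.mpr h1.le)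
      · exact Or.inr (Or.inl hi)
      · exact Or.inr (Or.inr (Or.inl hi))
      · exact Or.inr (Or.inr (Or.inr hi))
  have hn' : (c : ℚ) < 0 ∨ (u 2 : ℚ) < 0 ∨ (u 3 : ℚ) < 0 ∨ (u 4 : ℚ) < 0 := by
    rcases hsign with ⟨h0, h1, -⟩ | ⟨-, -, h⟩
    · obtain ⟨i, hi⟩ := hn
      fin_cases i
      · exact absurd hi (not_lt.mpr h0.le)
      · exact absurd hi (not_lt.mpr h1.le)
      · exact Or.inr (Or.inl hi)
      · exact Or.inr (Or.inr (Or.inl hi))
      · exact Or.inr (Or.inr (Or.inr hi))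
    · exact Or.inl h
  obtain ⟨z, hz0, hz⟩ := isotropic_four_rat LS (a := c) (b := u 2) (c := u 3) (d := u 4)
    (fun v => by
      by_cases hv : v ∈ S
      · apply exists_rep_of_disc
        intro h
        apply he2 v
        have h1 := div_mem h (hce v hv)
        have h2 : c * u 2 * u 3 * u 4 / (c / e v) = e v * (u 2 * u 3 * u 4) := by
          rw [div_div_eq_mul_div, div_eq_iff_eq_mul]
          simp only [mul_assoc, mul_comm, mul_left_comm]
        rwa [h2] at h1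
      · have h2 : ((2 : ℕ) : 𝓞 ℚ) ∉ v.asIdeal := fun h => hv (hS2 v h)
        have h3 : ∀ i : Fin 5, u i ∈ ({u 2, u 3, u 4} : Finset ℚˣ) → ord v (u i) = 0 :=
          fun i hi => mem_E.mp (hSu _ hi) v hv
        exact ⟨u 2, rep_of_units h2 (h3 2 (by simp)) (h3 3 (by simp)) (h3 4 (by simp))⟩) hp' hn'
  have h1 := isotropic_of_value (F := ℚ) (a := ![(u 2 : ℚ), u 3, u 4]) (a₀ := (u 0 : ℚ))
    (a₁ := (u 1 : ℚ)) (c := (c : ℚ))
    (x := x) (y := y) hc c.ne_zero ⟨z, hz0, by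
      rw [← hz]
      refine Finset.sum_congr rfl fun i _ => ?_
      fin_cases i <;> rfl⟩
  obtain ⟨w, hw0, hw⟩ := h1
  refine ⟨w, hw0, ?_⟩
  rw [← hw]
  refine Finset.sum_congr rfl fun i _ => ?_
  fin_cases i <;> rfl

lemma exists_perm {α : Type*} [DecidableEq α] {x y i j : α} (hxy : x ≠ y) (hij : i ≠ j) :
    ∃ σ : Equiv.Perm α, σ x = i ∧ σ y = j := by
  refine ⟨(Equiv.swap x i).trans (Equiv.swap ((Equiv.swap x i) y) j), ?_, ?_⟩
  · rw [Equiv.trans_apply, Equiv.swap_apply_left]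
    refine Equiv.swap_apply_of_ne_of_ne ?_ hij
    intro h
    apply hxy
    apply (Equiv.swap x i).injective
    rw [Equiv.swap_apply_left]
    exact h
  · rw [Equiv.trans_apply, Equiv.swap_apply_left]

/-- **Indefinite forms in five variables over `ℚ` are isotropic.** -/
theorem isotropic_five_rat (a : Fin 5 → ℚ) (ha : ∀ i, a i ≠ 0) (hp : ∃ i, 0 < a i)
    (hn : ∃ i, a i < 0) : ∃ x : Fin 5 → ℚ, x ≠ 0 ∧ ∑ i, a i * x i ^ 2 = 0 := by
  -- two coefficients have the same sign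
  obtain ⟨i, j, hij, hs⟩ : ∃ i j : Fin 5, i ≠ j ∧ 0 < a i * a j := by
    rcases lt_or_gt_of_ne (ha 0) with h0 | h0 <;> rcases lt_or_gt_of_ne (ha 1) with h1 | h1 <;>
      rcases lt_or_gt_of_ne (ha 2) with h2 | h2
    · exact ⟨0, 1, by decide, mul_pos_of_neg_of_neg h0 h1⟩
    · exact ⟨0, 1, by decide, mul_pos_of_neg_of_neg h0 h1⟩
    · exact ⟨0, 2, by decide, mul_pos_of_neg_of_neg h0 h2⟩
    · exact ⟨1, 2, by decide, mul_pos h1 h2⟩
    · exact ⟨1, 2, by decide, mul_pos_of_neg_of_neg h1 h2⟩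
    · exact ⟨0, 2, by decide, mul_pos h0 h2⟩
    · exact ⟨0, 1, by decide, mul_pos h0 h1⟩
    · exact ⟨0, 1, by decide, mul_pos h0 h1⟩
  obtain ⟨σ, hσ0, hσ1⟩ := exists_perm (show (0 : Fin 5) ≠ 1 by decide) hij
  rw [← isotropic_perm_iff σ]
  refine isotropic_five_rat_aux (fun k => Units.mk0 (a (σ k)) (ha _)) ?_ ?_ ?_
  · simp only [Units.val_mk0, hσ0, hσ1]
    exact hs
  · obtain ⟨k, hk⟩ := hp
    exact ⟨σ.symm k, by simpa using hk⟩
  · obtain ⟨k, hk⟩ := hn
    exact ⟨σ.symm k, by simpa using hk⟩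

/-- **Indefinite forms in at least five variables over `ℚ` are isotropic** (Meyer). -/
theorem isotropic_rat_of_five_le {n : ℕ} (hn5 : 5 ≤ n) (a : Fin n → ℚ) (ha : ∀ i, a i ≠ 0)
    (hp : ∃ i, 0 < a i) (hn : ∃ i, a i < 0) : ∃ x : Fin n → ℚ, x ≠ 0 ∧ ∑ i, a i * x i ^ 2 = 0 := by
  obtain ⟨i, hi⟩ := hp
  obtain ⟨j, hj⟩ := hn
  have hij : i ≠ j := by
    rintro rfl
    linarith
  have h01 : (Fin.castLE hn5 0) ≠ (Fin.castLE hn5 1) := by
    intro h
    have := congrArg Fin.val h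
    simp at this
  obtain ⟨σ, hσ0, hσ1⟩ := exists_perm h01 hij
  refine isotropic_of_sub ((Fin.castLEEmb hn5).trans σ.toEmbedding) ?_
  refine isotropic_five_rat _ (fun k => ha _) ⟨0, ?_⟩ ⟨1, ?_⟩
  · change 0 < a (σ (Fin.castLE hn5 0))
    rw [hσ0]
    exact hi
  · change a (σ (Fin.castLE hn5 1)) < 0
    rw [hσ1]
    exact hj

end Fermat.Agent.Cor.HM
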