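import Fermat.Agent.Corollaries.HM.NFFour
import Fermat.Agent.Corollaries.HM.PosRecip
import Fermat.Agent.Corollaries.HM.RatMain

/-!
# Ternary forms over a number field

* `TwoSq K`: a totally positive `c ∈ Kˣ` with `(-1, c)_v = 1` for all finite `v` is a sum of two
  squares;
* `three_of_twoSq`: this implies the local-global principle for ternary forms over `K`.
-/

set_option autoImplicit false

namespace Fermat.Agent.Cor.HM

open IsDedekindDomain NumberField WithZero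
open Fermat.Agent.CFT Fermat.Agent.CFT.Global Fermat.Agent.CFT.Global2 Fermat.Agent.CFT.Bridge
open Fermat.Agent.CFT.SUnits (ord)

/-- Sums of two squares. -/
def TwoSq (K : Type) [Field K] [NumberField K] : Prop :=
  ∀ (LS : LocalSymbols 2 K) (c : Kˣ), (∀ σ : K →+* ℝ, 0 < σ c) → (∀ v, LS.sym v (-1) c = 1) →
    ∃ s t : K, (c : K) = s ^ 2 + t ^ 2

/-- **Hasse principle in three variables** over a number field, from sums of two squares. -/
theorem three_of_twoSq (K : Type) [Field K] [NumberField K] (H : Nonempty (K →+* ℝ) → TwoSq K) :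
    Three K := by
  intro LS a b c h hs
  by_cases hE : Nonempty (K →+* ℝ)
  swap
  · have := isTotallyComplex_of_no_real (not_nonempty_iff.1 hE)
    exact isotropic_three LS h
  have hT := H hE
  obtain ⟨σ₀⟩ := hE
  have hns : ∀ b : Kˣ, b ^ 2 ≠ -1 := by
    intro b hb
    have h1 := congrArg (fun u : Kˣ => σ₀ (u : K)) hb
    simp only [Units.val_pow_eq_pow_val, Units.val_neg, Units.val_one, map_pow, map_neg,
      map_one] at h1
    nlinarith [sq_nonneg (σ₀ (b : K))]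
  obtain ⟨L, _, _, _, _, τ, δ, -, -, hδ, -, hcoord, hlin⟩ := exists_quad (-1 : Kˣ) hns
  have hδ2 : δ ^ 2 = -1 := by
    rw [hδ, Units.val_neg, Units.val_one, map_neg, map_one]
  have : IsTotallyComplex L := isTotallyComplex_of_sq hδ2
  obtain ⟨S⟩ := nonempty_globSym L
  obtain ⟨x, y, z, h0, h1⟩ := isotropic_three S.LS (a := mapU K L a) (b := mapU K L b)
    (c := mapU K L c) fun w => by
    change S.LS.sym w (-(mapU K L a * mapU K L b)) (mapU K L a * -mapU K L c) = 1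
    rw [← map_mul, ← mapU_neg, ← mapU_neg, ← map_mul]
    exact sym_map_eq_one LS S.LS (h (w.under (𝓞 K)))
  obtain ⟨x₁, x₂, rfl⟩ := hcoord x
  obtain ⟨y₁, y₂, rfl⟩ := hcoord y
  obtain ⟨z₁, z₂, rfl⟩ := hcoord z
  have h2 := hlin ((a : K) * (x₁ ^ 2 - x₂ ^ 2) + b * (y₁ ^ 2 - y₂ ^ 2) + c * (z₁ ^ 2 - z₂ ^ 2))
    (2 * (a * (x₁ * x₂) + b * (y₁ * y₂) + c * (z₁ * z₂))) (by
      have e : ∀ u : Kˣ, ((mapU K L u : Lˣ) : L) = algebraMap K L u := fun _ => rfl
      rw [e, e, e] at h1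
      simp only [map_add, map_mul, map_sub, map_pow, map_ofNat]
      linear_combination h1 - (algebraMap K L a * algebraMap K L x₂ ^ 2 +
        algebraMap K L b * algebraMap K L y₂ ^ 2 + algebraMap K L c * algebraMap K L z₂ ^ 2) * hδ2)
  have h00 : ¬ (x₁ = 0 ∧ y₁ = 0 ∧ z₁ = 0 ∧ x₂ = 0 ∧ y₂ = 0 ∧ z₂ = 0) := by
    intro h'
    apply h0
    simp [h'.1, h'.2.1, h'.2.2.1, h'.2.2.2.1, h'.2.2.2.2.1, h'.2.2.2.2.2]
  have h2' : a * (x₁ * x₂) + b * (y₁ * y₂) + c * (z₁ * z₂) = 0 :=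
    (mul_eq_zero.1 h2.2).resolve_left two_ne_zero
  rcases exists_sum_two two_ne_zero a.ne_zero b.ne_zero c.ne_zero
    ⟨x₁, y₁, z₁, x₂, y₂, z₂, h00, h2.1, h2'⟩ with h3 | ⟨l, hl, h3⟩
  · exact h3
  · have hne : -(l * (a : K) * b * c) ≠ 0 :=
      neg_ne_zero.2 (mul_ne_zero (mul_ne_zero (mul_ne_zero hl a.ne_zero) b.ne_zero) c.ne_zero)
    have h4 : ∀ v : HeightOneSpectrum (𝓞 K), LS.sym v (-1) (Units.mk0 _ hne) = 1 := by
      intro v
      obtain ⟨s, t, hst⟩ := (h3 (v.adicCompletion K)).mp (adic_of_rep (h v))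
      rw [sym_eq_one_iff]
      refine ⟨s, 1, t, fun h' => one_ne_zero h'.2.1, ?_⟩
      rw [Units.val_mk0, hst, Units.val_neg, Units.val_one, map_neg, map_one]
      ring
    have h5 : ∀ σ : K →+* ℝ, 0 < σ ((Units.mk0 _ hne : Kˣ) : K) := by
      intro σ
      let _ : Algebra K ℝ := σ.toAlgebra
      obtain ⟨s, t, hst⟩ := (h3 ℝ).mp (real_three (hs σ).1 (hs σ).2)
      have h6 : σ (-(l * a * b * c)) = s ^ 2 + t ^ 2 := hst
      rw [Units.val_mk0]
      refine lt_of_le_of_ne ?_ ((_root_.map_ne_zero σ).2 hne).symm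
      rw [h6]
      positivity
    obtain ⟨s, t, hst⟩ := hT LS _ h5 h4
    exact (h3 K).mpr ⟨s, t, hst⟩

end Fermat.Agent.Cor.HM
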