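import Fermat.Agent.Corollaries.HM.NormForm
import Fermat.Agent.Corollaries.HM.Hilb.Product

/-!
# The Hasse norm principle fails for `ℚ(√13, √17)`

`L` a number field of degree `4` containing square roots of `13` and `17`: `25` is a norm from
`ℚ_v ⊗ L` for all places `v` of `ℚ`, and `25` is not a norm from `L`.
-/

set_option autoImplicit false

namespace Fermat.Agent.Cor.HN.NoHasse

open TensorProduct Module NumberField IsDedekindDomain
open Fermat.Agent.Cor.Hilb

/-! ### The norm form -/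

section Form

variable {L : Type*} [Field L] [Algebra ℚ L] {α β : L}

lemma rat_sq_ne {r : ℚ} {m : ℕ} (hm : ¬ IsSquare m) : r ^ 2 ≠ m := by
  intro h
  apply hm
  rw [← Rat.isSquare_natCast_iff]
  exact ⟨r, by rw [← h, sq]⟩

lemma not_isSquare_13 : ¬ IsSquare (13 : ℕ) := by
  rintro ⟨r, hr⟩
  have : r < 4 := by nlinarith
  interval_cases r <;> omega

lemma not_isSquare_17 : ¬ IsSquare (17 : ℕ) := by
  rintro ⟨r, hr⟩
  have : r < 5 := by nlinarith
  interval_cases r <;> omega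

lemma not_isSquare_221 : ¬ IsSquare (221 : ℕ) := by
  rintro ⟨r, hr⟩
  have : r < 15 := by nlinarith
  interval_cases r <;> omega

lemma sq_sub_ne {r s : ℚ} (h : r ^ 2 - 13 * s ^ 2 = 0) : r = 0 ∧ s = 0 := by
  by_cases hs : s = 0
  · subst hs
    refine ⟨?_, rfl⟩
    simpa using h
  · exfalso
    apply rat_sq_ne (r := r / s) not_isSquare_13
    field_simp
    push_cast
    linear_combination h

/-- `1, √13` are independent -/
lemma indep_two (hα : α ^ 2 = 13) {r s : ℚ} (h : algebraMap ℚ L r + algebraMap ℚ L s * α = 0) :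
    r = 0 ∧ s = 0 := by
  have h1 : algebraMap ℚ L (r ^ 2 - 13 * s ^ 2) = 0 := by
    have h2 : algebraMap ℚ L (r ^ 2 - 13 * s ^ 2) =
        (algebraMap ℚ L r) ^ 2 - 13 * (algebraMap ℚ L s) ^ 2 := by
      simp only [map_sub, map_mul, map_pow, map_ofNat]
    rw [h2]
    linear_combination (algebraMap ℚ L r - algebraMap ℚ L s * α) * h +
      (algebraMap ℚ L s) ^ 2 * hα
  exact sq_sub_ne ((map_eq_zero _).mp h1)

lemma linInd (hα : α ^ 2 = 13) (hβ : β ^ 2 = 17) :
    LinearIndependent ℚ ![1, α, β, α * β] := by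
  rw [Fintype.linearIndependent_iff]
  intro g hg
  rw [Fin.sum_univ_four] at hg
  simp only [Matrix.cons_val_zero, Matrix.cons_val_one, Matrix.cons_val, Algebra.smul_def] at hg
  have h0 : (algebraMap ℚ L (g 0) + algebraMap ℚ L (g 1) * α) +
      (algebraMap ℚ L (g 2) + algebraMap ℚ L (g 3) * α) * β = 0 := by
    rw [← hg]
    ring
  by_cases hN : g 2 ^ 2 - 13 * g 3 ^ 2 = 0
  · obtain ⟨h2, h3⟩ := sq_sub_ne hN
    rw [h2, h3, map_zero, zero_mul, add_zero, zero_mul, add_zero] at h0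
    obtain ⟨h4, h5⟩ := indep_two hα h0
    intro i
    fin_cases i
    · exact h4
    · exact h5
    · exact h2
    · exact h3
  · exfalso
    set N : ℚ := g 2 ^ 2 - 13 * g 3 ^ 2 with hNdef
    set r : ℚ := -(g 0 * g 2 - 13 * g 1 * g 3) / N with hr
    set s : ℚ := -(g 1 * g 2 - g 0 * g 3) / N with hs
    have hrN : r * N = -(g 0 * g 2 - 13 * g 1 * g 3) := by rw [hr, div_mul_cancel₀ _ hN]
    have hsN : s * N = -(g 1 * g 2 - g 0 * g 3) := by rw [hs, div_mul_cancel₀ _ hN]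
    have hN' : algebraMap ℚ L N ≠ 0 := (_root_.map_ne_zero _).mpr hN
    have hNL : algebraMap ℚ L N = (algebraMap ℚ L (g 2)) ^ 2 - 13 * (algebraMap ℚ L (g 3)) ^ 2 := by
      simp only [hNdef, map_sub, map_mul, map_pow, map_ofNat]
    have hrL : algebraMap ℚ L r * algebraMap ℚ L N = -(algebraMap ℚ L (g 0) * algebraMap ℚ L (g 2) -
        13 * algebraMap ℚ L (g 1) * algebraMap ℚ L (g 3)) := by
      rw [← map_mul, hrN]
      simp only [map_sub, map_mul, map_neg, map_ofNat]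
    have hsL : algebraMap ℚ L s * algebraMap ℚ L N = -(algebraMap ℚ L (g 1) * algebraMap ℚ L (g 2) -
        algebraMap ℚ L (g 0) * algebraMap ℚ L (g 3)) := by
      rw [← map_mul, hsN]
      simp only [map_sub, map_mul, map_neg]
    have hβ' : β = algebraMap ℚ L r + algebraMap ℚ L s * α := by
      apply mul_right_cancel₀ hN'
      have e1 : (algebraMap ℚ L r + algebraMap ℚ L s * α) * algebraMap ℚ L N =
          (algebraMap ℚ L r * algebraMap ℚ L N) + (algebraMap ℚ L s * algebraMap ℚ L N) * α := by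
        ring
      rw [e1, hrL, hsL, hNL]
      linear_combination (algebraMap ℚ L (g 2) - algebraMap ℚ L (g 3) * α) * h0 +
        (algebraMap ℚ L (g 1) * algebraMap ℚ L (g 3) +
          (algebraMap ℚ L (g 3)) ^ 2 * β) * hα
    have h1 := indep_two (L := L) hα (r := r ^ 2 + 13 * s ^ 2 - 17) (s := 2 * r * s) (by
      simp only [map_sub, map_add, map_mul, map_pow, map_ofNat]
      rw [hβ'] at hβ
      linear_combination hβ - (algebraMap ℚ L s) ^ 2 * hα)
    have h2 : r = 0 ∨ s = 0 := by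
      rcases mul_eq_zero.mp h1.2 with h | h
      · exact Or.inl ((mul_eq_zero.mp h).resolve_left two_ne_zero)
      · exact Or.inr h
    rcases h2 with h2 | h2
    · apply rat_sq_ne (r := 13 * s) not_isSquare_221
      push_cast
      rw [h2] at h1
      linear_combination 13 * h1.1
    · apply rat_sq_ne (r := r) not_isSquare_17
      push_cast
      rw [h2] at h1
      linear_combination h1.1

/-- The basis `1, √13, √17, √221`. -/
noncomputable def bas (hα : α ^ 2 = 13) (hβ : β ^ 2 = 17) (hd : finrank ℚ L = 4) :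
    Basis (Fin 4) ℚ L :=
  basisOfLinearIndependentOfCardEqFinrank (linInd hα hβ) (by rw [hd]; rfl)

/-- The norm form of `ℚ(√13, √17)`. -/
def Nf {F : Type*} [Field F] (x : Fin 4 → F) : F :=
  (x 0 ^ 2 + 13 * x 1 ^ 2 - 17 * x 2 ^ 2 - 221 * x 3 ^ 2) ^ 2 -
    13 * (2 * x 0 * x 1 - 34 * x 2 * x 3) ^ 2

/-- multiplication by `√13` -/
def M1 : Matrix (Fin 4) (Fin 4) ℚ := !![0, 13, 0, 0; 1, 0, 0, 0; 0, 0, 0, 13; 0, 0, 1, 0]

/-- multiplication by `√17` -/
def M2 : Matrix (Fin 4) (Fin 4) ℚ := !![0, 0, 17, 0; 0, 0, 0, 17; 1, 0, 0, 0; 0, 1, 0, 0]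

lemma leftMul_eq {b : Basis (Fin 4) ℚ L} {a : L} {M : Matrix (Fin 4) (Fin 4) ℚ}
    (h : ∀ j, a * b j = ∑ k, M k j • b k) : Algebra.leftMulMatrix b a = M := by
  ext k j
  rw [Algebra.leftMulMatrix_eq_repr_mul, h, Basis.repr_sum_self]

theorem nf_bas (hα : α ^ 2 = 13) (hβ : β ^ 2 = 17) (hd : finrank ℚ L = 4) {F : Type*} [Field F]
    [Algebra ℚ F] (x : Fin 4 → F) : nf (bas hα hβ hd) x = Nf x := by
  have b0 : bas hα hβ hd 0 = 1 := by simp [bas]
  have b1 : bas hα hβ hd 1 = α := by simp [bas]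
  have b2 : bas hα hβ hd 2 = β := by simp [bas]
  have b3 : bas hα hβ hd 3 = α * β := by simp [bas]
  have m1 : Algebra.leftMulMatrix (bas hα hβ hd) α = M1 := by
    apply leftMul_eq
    intro j
    rw [Fin.sum_univ_four, b0, b1, b2, b3]
    fin_cases j
    · simp [M1, b0]
    · simp [M1, b1, Algebra.smul_def]
      linear_combination hα
    · simp [M1, b2]
    · simp [M1, b3, Algebra.smul_def]
      linear_combination β * hα
  have m2 : Algebra.leftMulMatrix (bas hα hβ hd) β = M2 := by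
    apply leftMul_eq
    intro j
    rw [Fin.sum_univ_four, b0, b1, b2, b3]
    fin_cases j
    · simp [M2, b0]
    · simp [M2, b1, mul_comm]
    · simp [M2, b2, Algebra.smul_def]
      linear_combination hβ
    · simp [M2, b3, Algebra.smul_def]
      linear_combination α * hβ
  rw [nf, Fin.sum_univ_four, b0, b1, b2, b3, map_one, map_mul, m1, m2]
  have hm : x 0 • (1 : Matrix (Fin 4) (Fin 4) ℚ).map (algebraMap ℚ F) +
      x 1 • M1.map (algebraMap ℚ F) + x 2 • M2.map (algebraMap ℚ F) +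
      x 3 • (M1 * M2).map (algebraMap ℚ F) =
      !![x 0, 13 * x 1, 17 * x 2, 221 * x 3; x 1, x 0, 17 * x 3, 17 * x 2;
        x 2, 13 * x 3, x 0, 13 * x 1; x 3, x 2, x 1, x 0] := by
    ext i j
    fin_cases i <;> fin_cases j <;> simp [M1, M2, mul_comm]
    norm_num
    ring
  rw [hm, Nf]
  simp [Matrix.det_succ_row_zero, Fin.sum_univ_succ, Fin.succAbove]
  ring

end Form

/-! ### Squares in `ℚ_p` -/

section Padic

lemma z1 : ((17 : ℤ) : ZMod 13) = 2 * 2 := by decide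

lemma z2 : ((221 : ℤ) : ZMod 5) = 1 * 1 := by decide

lemma z3 : ((13 : ℤ) : ZMod 17) = 8 * 8 := by decide

lemma coe_sq {p : ℕ} [hp : Fact p.Prime] {k : ℤ} {z : ℤ_[p]} (h : z ^ 2 = (k : ℤ_[p])) :
    IsSquare (k : ℚ_[p]) := by
  refine ⟨(z : ℚ_[p]), ?_⟩
  have h3 := congrArg (PadicInt.Coe.ringHom (p := p)) h
  rw [map_pow, map_intCast] at h3
  rw [← sq]
  exact h3.symm

/-- An integer prime to the odd prime `p` which is a square mod `p` is a square in `ℚ_p`. -/
theorem isSquare_padic {p : ℕ} [hp : Fact p.Prime] (hp2 : p ≠ 2) {k : ℤ} (hk : ¬ (p : ℤ) ∣ k)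
    (h : IsSquare (k : ZMod p)) : IsSquare (k : ℚ_[p]) := by
  obtain ⟨r, hr⟩ := h
  obtain ⟨a, rfl⟩ := ZMod.intCast_surjective r
  have h1 : (p : ℤ) ∣ k - a * a := by
    rw [← ZMod.intCast_zmod_eq_zero_iff_dvd]
    push_cast
    rw [hr, sub_self]
  have ha : ¬ (p : ℤ) ∣ a := fun h => hk (by
    have := dvd_add h1 (Dvd.dvd.mul_right h a)
    rwa [sub_add_cancel] at this)
  have h2 : ¬ (p : ℤ) ∣ 2 := by
    intro h
    exact hp2 ((Nat.prime_dvd_prime_iff_eq hp.out Nat.prime_two).mp (by exact_mod_cast h))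
  have hna : ‖(a : ℤ_[p])‖ = 1 := by
    refine le_antisymm (PadicInt.norm_le_one _) (not_lt.mp ?_)
    rw [PadicInt.norm_int_lt_one_iff_dvd]
    exact ha
  have hn2 : ‖((2 : ℤ) : ℤ_[p])‖ = 1 := by
    refine le_antisymm (PadicInt.norm_le_one _) (not_lt.mp ?_)
    rw [PadicInt.norm_int_lt_one_iff_dvd]
    exact h2
  obtain ⟨z, hz, -⟩ := hensels_lemma (p := p) (F := (Polynomial.X ^ 2 - Polynomial.C (k : ℤ_[p])))
    (a := (a : ℤ_[p])) (by
      have e1 : (Polynomial.X ^ 2 - Polynomial.C (k : ℤ_[p])).aeval (a : ℤ_[p]) =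
          -((k - a * a : ℤ) : ℤ_[p]) := by
        simp only [map_sub, map_pow, Polynomial.aeval_X, Polynomial.aeval_C,
          Algebra.algebraMap_self, RingHom.id_apply]
        push_cast
        ring
      have e2 : (Polynomial.derivative (Polynomial.X ^ 2 - Polynomial.C (k : ℤ_[p]))).aeval
          (a : ℤ_[p]) = ((2 : ℤ) : ℤ_[p]) * a := by
        simp
        left
        norm_num
      rw [e1, e2, norm_neg, norm_mul, hna, hn2]
      norm_num
      rw [← Int.cast_mul, ← Int.cast_sub, PadicInt.norm_int_lt_one_iff_dvd]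
      exact h1)
  simp only [map_sub, map_pow, Polynomial.aeval_X, Polynomial.aeval_C, Algebra.algebraMap_self,
    RingHom.id_apply] at hz
  exact coe_sq (z := z) (by linear_combination hz)

theorem isSquare_17_two : IsSquare (17 : ℚ_[2]) := by
  have h1 : IsSquare (17 : ℤ_[2]) := by
    apply isSquare_of_norm
    have h2 : (17 : ℤ_[2]) - 1 = 2 ^ 4 := by norm_num
    have h3 : ‖(2 : ℤ_[2])‖ = 2⁻¹ := by simpa using PadicInt.norm_p (p := 2)
    rw [h2, norm_pow, h3]
    norm_num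
  obtain ⟨z, hz⟩ := h1
  have h4 := coe_sq (p := 2) (k := 17) (z := z) (by
    push_cast
    rw [hz, sq])
  simpa using h4

/-- Among `13`, `17`, `221` there is a square in `ℚ_p`; if `p ≠ 17`, either `17` or `221` is a
square, or `13` is a square and `p ∤ 2 · 5 · 17`. -/
theorem cases_padic (p : ℕ) [hp : Fact p.Prime] (hp17 : p ≠ 17) :
    IsSquare (17 : ℚ_[p]) ∨ IsSquare (221 : ℚ_[p]) ∨
      (IsSquare (13 : ℚ_[p]) ∧ p ≠ 2 ∧ p ≠ 5) := by
  by_cases hp2 : p = 2
  · subst hp2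
    exact Or.inl isSquare_17_two
  by_cases hp13 : p = 13
  · subst hp13
    left
    have h := isSquare_padic (p := 13) (k := 17) (by norm_num) (by norm_num) ⟨2, z1⟩
    simpa using h
  by_cases hp5 : p = 5
  · subst hp5
    right; left
    have h := isSquare_padic (p := 5) (k := 221) (by norm_num) (by norm_num) ⟨1, z2⟩
    simpa using h
  have hd13 : ¬ (p : ℤ) ∣ 13 := fun h => hp13
    ((Nat.prime_dvd_prime_iff_eq hp.out (by norm_num)).mp (by exact_mod_cast h))
  have hd17 : ¬ (p : ℤ) ∣ 17 := fun h => hp17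
    ((Nat.prime_dvd_prime_iff_eq hp.out (by norm_num)).mp (by exact_mod_cast h))
  have hd221 : ¬ (p : ℤ) ∣ 221 := by
    have e : (221 : ℤ) = 13 * 17 := by norm_num
    rw [e, Prime.dvd_mul (Nat.prime_iff_prime_int.mp hp.out)]
    exact not_or.mpr ⟨hd13, hd17⟩
  by_cases h17 : IsSquare ((17 : ℤ) : ZMod p)
  · left
    simpa using isSquare_padic hp2 hd17 h17
  by_cases h13 : IsSquare ((13 : ℤ) : ZMod p)
  · right; right
    exact ⟨by simpa using isSquare_padic hp2 hd13 h13, hp2, hp5⟩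
  right; left
  have h221 : IsSquare ((221 : ℤ) : ZMod p) := by
    have z13 : ((13 : ℤ) : ZMod p) ≠ 0 := fun h => hd13 ((ZMod.intCast_zmod_eq_zero_iff_dvd _ _).mp h)
    have z17 : ((17 : ℤ) : ZMod p) ≠ 0 := fun h => hd17 ((ZMod.intCast_zmod_eq_zero_iff_dvd _ _).mp h)
    have e : ((221 : ℤ) : ZMod p) = ((13 : ℤ) : ZMod p) * ((17 : ℤ) : ZMod p) := by
      push_cast
      norm_num
    rw [e]
    have q13 : quadraticChar (ZMod p) ((13 : ℤ) : ZMod p) = -1 :=
      (quadraticChar_neg_one_iff_not_isSquare).mpr h13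
    have q17 : quadraticChar (ZMod p) ((17 : ℤ) : ZMod p) = -1 :=
      (quadraticChar_neg_one_iff_not_isSquare).mpr h17
    rw [← quadraticChar_one_iff_isSquare (mul_ne_zero z13 z17), map_mul, q13, q17]
    norm_num
  simpa using isSquare_padic hp2 hd221 h221

theorem isSquare_13_17 [Fact (Nat.Prime 17)] : IsSquare (13 : ℚ_[17]) := by
  have h := isSquare_padic (p := 17) (k := 13) (by norm_num) (by norm_num) ⟨8, z3⟩
  simpa using h

end Padic

/-! ### Global: `25` is not a norm -/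

section Global

lemma exists_unit_coe {p : ℕ} [hp : Fact p.Prime] {k : ℤ} (hk : ¬ (p : ℤ) ∣ k) :
    ∃ u : ℤ_[p]ˣ, (u : ℤ_[p]) = k := by
  have h1 : IsUnit (k : ℤ_[p]) := by
    rw [PadicInt.isUnit_iff]
    refine le_antisymm (PadicInt.norm_le_one _) (not_lt.mp ?_)
    rw [PadicInt.norm_int_lt_one_iff_dvd]
    exact hk
  obtain ⟨u, hu⟩ := h1
  exact ⟨u, hu⟩

/-- `(17, 5)_p = 1` for `p ∤ 2 · 5 · 17` -/
lemma hilb_17_5 {p : ℕ} [hp : Fact p.Prime] (h2 : p ≠ 2) (h5 : p ≠ 5) (h17 : p ≠ 17) :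
    hilb (17 : ℚ_[p]) 5 = 1 := by
  have hd5 : ¬ (p : ℤ) ∣ 5 := fun h => h5
    ((Nat.prime_dvd_prime_iff_eq hp.out (by norm_num)).mp (by exact_mod_cast h))
  have hd17 : ¬ (p : ℤ) ∣ 17 := fun h => h17
    ((Nat.prime_dvd_prime_iff_eq hp.out (by norm_num)).mp (by exact_mod_cast h))
  obtain ⟨u, hu⟩ := exists_unit_coe hd17
  obtain ⟨w, hw⟩ := exists_unit_coe hd5
  have h := hs_units_odd h2 u w
  have e17 : (((17 : ℤ) : ℤ_[p]) : ℚ_[p]) = 17 := by
    rw [PadicInt.coe_intCast]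
    norm_num
  have e5 : (((5 : ℤ) : ℤ_[p]) : ℚ_[p]) = 5 := by
    rw [PadicInt.coe_intCast]
    norm_num
  rw [hs_apply, uu_val, uu_val, hu, hw, e17, e5] at h
  exact h

lemma z5 : ¬ IsSquare (5 : ZMod 17) := by decide

/-- `(17, 5)_17 = -1` -/
lemma hilb_17_5_17 [Fact (Nat.Prime 17)] : hilb (17 : ℚ_[17]) 5 = -1 := by
  obtain ⟨w, hw⟩ := exists_unit_coe (p := 17) (k := 5) (by norm_num)
  have h := hs_pp_unit (p := 17) (by norm_num) w
  have hleg : leg w = -1 := by
    rw [leg, if_neg]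
    rw [hw, map_intCast]
    exact_mod_cast z5
  have e5 : (((5 : ℤ) : ℤ_[17]) : ℚ_[17]) = 5 := by
    rw [PadicInt.coe_intCast]
    norm_num
  rw [hs_apply, uu_val, hw, hleg, e5] at h
  have e1 : ((pp 17 : ℚ_[17]ˣ) : ℚ_[17]) = 17 := by
    rw [pp, Units.val_mk0]
    norm_num
  rw [e1] at h
  exact h

/-- The arithmetic heart: `5` is not a product of a norm from `ℚ(√13)` and of a rational number
which is a relative norm from `ℚ(√13, √17)` to `ℚ(√13)`. -/
theorem no_global {n s x y : ℚ} (hn : n = x ^ 2 - 13 * y ^ 2) (h5 : n * s = 5)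
    (hs : ∀ (p : ℕ) [Fact p.Prime] (c : ℚ_[p]), c ^ 2 = 13 →
      ∃ A B : ℚ_[p], (s : ℚ_[p]) = A ^ 2 - 17 * B ^ 2) : False := by
  have hn0 : n ≠ 0 := by
    rintro rfl
    rw [zero_mul] at h5
    norm_num at h5
  have hs0 : s ≠ 0 := by
    rintro rfl
    rw [mul_zero] at h5
    norm_num at h5
  -- at the places where `13` is a square
  have key13 : ∀ (p : ℕ) [Fact p.Prime], IsSquare (13 : ℚ_[p]) →
      hilb (17 : ℚ_[p]) (n : ℚ_[p]) = hilb (17 : ℚ_[p]) 5 := by
    intro p hp h13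
    obtain ⟨c, hc⟩ := h13
    obtain ⟨A, B, hAB⟩ := hs p c (by rw [hc, sq])
    have h17 : (17 : ℚ_[p]) ≠ 0 := by norm_num
    have hn' : (n : ℚ_[p]) ≠ 0 := by exact_mod_cast hn0
    have hs' : (s : ℚ_[p]) ≠ 0 := by exact_mod_cast hs0
    have h1 : hilb (17 : ℚ_[p]) (s : ℚ_[p]) = 1 :=
      hilb_eq_one_iff.mpr ((sol_iff_norm two_ne_zero h17).mpr ⟨A, B, hAB⟩)
    have h2 := hilb_padic_mul_right h17 hn' hs'
    have h3 : (n : ℚ_[p]) * (s : ℚ_[p]) = 5 := by
      exact_mod_cast congrArg (fun q : ℚ => (q : ℚ_[p])) h5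
    rw [h1, mul_one, h3] at h2
    exact h2.symm
  have hp : ∀ p : Nat.Primes, (p : ℕ) ≠ 17 → hilbAt p 17 n = 1 := by
    rintro ⟨p, hp⟩ hp17
    have : Fact p.Prime := ⟨hp⟩
    change p ≠ 17 at hp17
    rw [hilbAt_eq p]
    have e17 : (((17 : ℚ)) : ℚ_[p]) = 17 := by norm_num
    rw [e17]
    rcases cases_padic p hp17 with h | h | ⟨h, h2, h5'⟩
    · obtain ⟨c, hc⟩ := h
      rw [hilb_comm, hc, ← sq]
      exact hilb_sq_right _ _
    · obtain ⟨c, hc⟩ := h
      have hc0 : c ≠ 0 := by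
        rintro rfl
        norm_num at hc
      have e : (17 : ℚ_[p]) = 13 * (c / 13) ^ 2 := by
        field_simp
        linear_combination hc
      rw [e, hilb_mul_sq_left _ _ (div_ne_zero hc0 (by norm_num)), hilb_eq_one_iff,
        sol_iff_norm two_ne_zero (by norm_num)]
      refine ⟨x, y, ?_⟩
      rw [hn]
      push_cast
      ring
    · rw [key13 p h]
      exact hilb_17_5 h2 h5' hp17
  have hprime : Nat.Prime 17 := by norm_num
  have h17 : hilbAt ⟨17, hprime⟩ 17 n = -1 := by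
    have : Fact (Nat.Prime 17) := ⟨hprime⟩
    rw [hilbAt_eq 17]
    have e17 : (((17 : ℚ)) : ℚ_[17]) = 17 := by norm_num
    rw [e17, key13 17 isSquare_13_17]
    exact hilb_17_5_17
  have hprod := product_formula (a := 17) (b := n) (by norm_num) hn0
  have hfs := finprod_eq_single (fun p : Nat.Primes => hilbAt p 17 n) ⟨17, hprime⟩
    (fun p hp' => hp p fun h => hp' (Subtype.ext h))
  rw [hilbInf_eq (by norm_num) hn0, if_neg (by norm_num)] at hprod
  have hfs' : (∏ᶠ p : Nat.Primes, hilbAt p 17 n) = -1 := hfs.trans h17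
  rw [hfs'] at hprod
  exact absurd hprod (by decide)

variable {L : Type*} [Field L] [Algebra ℚ L] {α β : L}

/-- `25` is not a norm from `ℚ(√13, √17)`. -/
theorem not_norm (hα : α ^ 2 = 13) (hβ : β ^ 2 = 17) (hd : finrank ℚ L = 4) :
    ¬ ∃ z : L, Algebra.norm ℚ z = 25 := by
  intro h
  rw [← normOver_self, normOver_iff (bas hα hβ hd)] at h
  obtain ⟨x, hx⟩ := h
  rw [nf_bas, Nf] at hx
  set P : ℚ := x 0 ^ 2 + 13 * x 1 ^ 2 - 17 * x 2 ^ 2 - 221 * x 3 ^ 2 with hP
  set Q : ℚ := 2 * x 0 * x 1 - 34 * x 2 * x 3 with hQ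
  -- the relative norm in a field with `c ^ 2 = 13`
  have hrel : ∀ (p : ℕ) [Fact p.Prime] (c : ℚ_[p]), c ^ 2 = 13 →
      ((x 0 : ℚ_[p]) + x 1 * c) ^ 2 - 17 * ((x 2 : ℚ_[p]) + x 3 * c) ^ 2 = P + Q * c := by
    intro p _ c hc
    rw [hP, hQ]
    push_cast
    linear_combination ((x 1 : ℚ_[p]) ^ 2 - 17 * (x 3 : ℚ_[p]) ^ 2) * hc
  by_cases hP5 : P = -5
  · have hQ0 : Q = 0 := by
      have h1 : Q ^ 2 = 0 := by
        rw [hP5] at hx
        linarith
      exact pow_eq_zero_iff two_ne_zero |>.mp h1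
    refine no_global (n := -13) (s := -5 / 13) (x := 0) (y := 1) (by norm_num) (by norm_num) ?_
    intro p _ c hc
    have hc0 : c ≠ 0 := by
      rintro rfl
      norm_num at hc
    refine ⟨((x 0 : ℚ_[p]) + x 1 * c) / c, ((x 2 : ℚ_[p]) + x 3 * c) / c, ?_⟩
    have h1 := hrel p c hc
    rw [hP5, hQ0] at h1
    rw [div_pow, div_pow, hc]
    push_cast at h1 ⊢
    linear_combination (-1 / 13) * h1
  · have h5P : 5 + P ≠ 0 := fun h => hP5 (by linarith)
    refine no_global (n := (5 + P) ^ 2 - 13 * Q ^ 2) (s := 1 / (2 * (5 + P))) (x := 5 + P)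
      (y := Q) rfl ?_ ?_
    · field_simp
      linear_combination hx
    · intro p _ c hc
      set t : ℚ_[p] := 5 + P + Q * c with ht
      have hxp : (P : ℚ_[p]) ^ 2 - 13 * (Q : ℚ_[p]) ^ 2 = 25 := by exact_mod_cast hx
      have h5P' : (5 : ℚ_[p]) + P ≠ 0 := by exact_mod_cast h5P
      have ht0 : t ≠ 0 := by
        intro h0
        have h1 : t * (5 + P - Q * c) = 10 * (5 + P) := by
          rw [ht]
          linear_combination hxp - (Q : ℚ_[p]) ^ 2 * hc
        rw [h0, zero_mul] at h1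
        exact (mul_ne_zero (by norm_num) h5P') h1.symm
      refine ⟨((x 0 : ℚ_[p]) + x 1 * c) / t, ((x 2 : ℚ_[p]) + x 3 * c) / t, ?_⟩
      have h1 := hrel p c hc
      have h2 : t ^ 2 = 2 * (5 + P) * (P + Q * c) := by
        rw [ht]
        linear_combination -hxp + (Q : ℚ_[p]) ^ 2 * hc
      have h3 : (((1 / (2 * (5 + P)) : ℚ)) : ℚ_[p]) = 1 / (2 * (5 + P)) := by push_cast; rfl
      rw [h3, div_pow, div_pow]
      have h4 : ((x 0 : ℚ_[p]) + x 1 * c) ^ 2 / t ^ 2 -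
          17 * (((x 2 : ℚ_[p]) + x 3 * c) ^ 2 / t ^ 2) = (P + Q * c) / t ^ 2 := by
        rw [← h1]
        ring
      rw [h4, eq_div_iff (pow_ne_zero 2 ht0), h2]
      field_simp

end Global

/-! ### Local: `25` is a norm everywhere -/

section Local

variable {L : Type*} [Field L] [Algebra ℚ L] {α β : L} {F : Type*} [Field F] [Algebra ℚ F]

theorem local_norm (hα : α ^ 2 = 13) (hβ : β ^ 2 = 17) (hd : finrank ℚ L = 4)
    (h : IsSquare (13 : F) ∨ IsSquare (17 : F) ∨ IsSquare (221 : F)) :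
    NormOver ℚ L F (algebraMap ℚ F 25) := by
  have : CharZero F := algebraRat.charZero F
  rw [normOver_iff (bas hα hβ hd), map_ofNat]
  rcases h with ⟨c, hc⟩ | ⟨c, hc⟩ | ⟨c, hc⟩
  · have hc0 : c ≠ 0 := by
      rintro rfl
      norm_num at hc
    refine ⟨![3, 2 / c, 0, 0], ?_⟩
    rw [nf_bas, Nf]
    simp only [Matrix.cons_val_zero, Matrix.cons_val_one, Matrix.cons_val]
    have e : (2 / c) ^ 2 = 4 / 13 := by rw [div_pow, hc, ← sq]; norm_num
    have e1 : ((3 : F) ^ 2 + 13 * (2 / c) ^ 2 - 17 * 0 ^ 2 - 221 * 0 ^ 2) ^ 2 -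
        13 * (2 * 3 * (2 / c) - 34 * 0 * 0) ^ 2 =
        (9 + 13 * (2 / c) ^ 2) ^ 2 - 468 * (2 / c) ^ 2 := by ring
    rw [e1, e]
    norm_num
  · have hc0 : c ≠ 0 := by
      rintro rfl
      norm_num at hc
    refine ⟨![3, 0, 2 / c, 0], ?_⟩
    rw [nf_bas, Nf]
    simp only [Matrix.cons_val_zero, Matrix.cons_val_one, Matrix.cons_val]
    have e : (2 / c) ^ 2 = 4 / 17 := by rw [div_pow, hc, ← sq]; norm_num
    have e1 : ((3 : F) ^ 2 + 13 * 0 ^ 2 - 17 * (2 / c) ^ 2 - 221 * 0 ^ 2) ^ 2 -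
        13 * (2 * 3 * 0 - 34 * (2 / c) * 0) ^ 2 = (9 - 17 * (2 / c) ^ 2) ^ 2 := by ring
    rw [e1, e]
    norm_num
  · have hc0 : c ≠ 0 := by
      rintro rfl
      norm_num at hc
    refine ⟨![3, 0, 0, 2 / c], ?_⟩
    rw [nf_bas, Nf]
    simp only [Matrix.cons_val_zero, Matrix.cons_val_one, Matrix.cons_val]
    have e : (2 / c) ^ 2 = 4 / 221 := by rw [div_pow, hc, ← sq]; norm_num
    have e1 : ((3 : F) ^ 2 + 13 * 0 ^ 2 - 17 * 0 ^ 2 - 221 * (2 / c) ^ 2) ^ 2 -
        13 * (2 * 3 * 0 - 34 * 0 * (2 / c)) ^ 2 = (9 - 221 * (2 / c) ^ 2) ^ 2 := by ring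
    rw [e1, e]
    norm_num

end Local

/-- **The Hasse norm principle fails for `ℚ(√13, √17)`** (Hasse): `25` is a norm from `ℚ_v ⊗ L` at
every place `v` of `ℚ`, finite or infinite, but not from `L`. -/
theorem hasse_principle_fails {L : Type*} [Field L] [NumberField L] {α β : L} (hα : α ^ 2 = 13)
    (hβ : β ^ 2 = 17) (hd : finrank ℚ L = 4) :
    (∀ v : HeightOneSpectrum (𝓞 ℚ),
      NormOver ℚ L (v.adicCompletion ℚ) (algebraMap ℚ (v.adicCompletion ℚ) 25)) ∧
    (∀ w : InfinitePlace ℚ, NormOver ℚ L w.Completion (algebraMap ℚ w.Completion 25)) ∧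
    ¬ ∃ z : L, Algebra.norm ℚ z = 25 := by
  refine ⟨fun v => ?_, fun w => ?_, not_norm hα hβ hd⟩
  · obtain ⟨⟨p, hp⟩, rfl⟩ := (Rat.HeightOneSpectrum.primesEquiv (R := 𝓞 ℚ)).symm.surjective v
    have : Fact p.Prime := ⟨hp⟩
    have h1 : NormOver ℚ L ℚ_[p] (algebraMap ℚ ℚ_[p] 25) := by
      apply local_norm hα hβ hd
      by_cases h17 : p = 17
      · subst h17
        exact Or.inl isSquare_13_17
      · rcases cases_padic p h17 with h | h | h
        · exact Or.inr (Or.inl h)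
        · exact Or.inr (Or.inr h)
        · exact Or.inl h.1
    have h2 := h1.map (eqv p : ℚ_[p] →ₐ[ℚ] (plc p).adicCompletion ℚ)
    rw [AlgHom.commutes] at h2
    exact h2
  · apply local_norm hα hβ hd
    left
    have hw : w.IsReal := IsTotallyReal.isReal w
    let e := InfinitePlace.Completion.ringEquivRealOfIsReal hw
    refine ⟨e.symm (Real.sqrt 13), ?_⟩
    rw [← map_mul, Real.mul_self_sqrt (by norm_num), map_ofNat]

end Fermat.Agent.Cor.HN.NoHasse
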