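import Fermat.Agent.Corollaries.HM.NoHasse

/-!
# A Galois extension of `ℚ` with group `(ℤ/2)²` for which the Hasse norm principle fails

The existence of the field `ℚ(√13, √17)` of `HM/NoHasse.lean`: it is Galois over `ℚ`, its Galois
group is the Klein four group.
-/

set_option autoImplicit false

namespace Fermat.Agent.Cor.HN.NoHasse

open Module Polynomial NumberField IsDedekindDomain

section Gen

variable {L : Type*} [Field L] [Algebra ℚ L] {α β : L}

/-- the elements of `ℚ[α, β]` -/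
lemma mem_form (hα : α ^ 2 = 13) (hβ : β ^ 2 = 17) (x : L)
    (hx : x ∈ Algebra.adjoin ℚ ({α, β} : Set L)) :
    ∃ a b c d : ℚ, x = algebraMap ℚ L a + algebraMap ℚ L b * α + algebraMap ℚ L c * β +
      algebraMap ℚ L d * (α * β) := by
  induction hx using Algebra.adjoin_induction with
  | mem x hx =>
    rcases hx with hx | hx
    · exact ⟨0, 1, 0, 0, by rw [hx]; simp⟩
    · exact ⟨0, 0, 1, 0, by rw [Set.mem_singleton_iff.mp hx]; simp⟩
  | algebraMap r => exact ⟨r, 0, 0, 0, by simp⟩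
  | add x y _ _ hx hy =>
    obtain ⟨a, b, c, d, rfl⟩ := hx
    obtain ⟨a', b', c', d', rfl⟩ := hy
    refine ⟨a + a', b + b', c + c', d + d', ?_⟩
    simp only [map_add]
    ring
  | mul x y _ _ hx hy =>
    obtain ⟨a, b, c, d, rfl⟩ := hx
    obtain ⟨a', b', c', d', rfl⟩ := hy
    refine ⟨a * a' + 13 * (b * b') + 17 * (c * c') + 221 * (d * d'),
      a * b' + b * a' + 17 * (c * d' + d * c'),
      a * c' + c * a' + 13 * (b * d' + d * b'),
      a * d' + d * a' + b * c' + c * b', ?_⟩
    simp only [map_add, map_mul, map_ofNat]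
    set A : ℚ → L := fun q => algebraMap ℚ L q with hA
    change (A a + A b * α + A c * β + A d * (α * β)) *
      (A a' + A b' * α + A c' * β + A d' * (α * β)) =
      A a * A a' + 13 * (A b * A b') + 17 * (A c * A c') + 221 * (A d * A d') +
      (A a * A b' + A b * A a' + 17 * (A c * A d' + A d * A c')) * α +
      (A a * A c' + A c * A a' + 13 * (A b * A d' + A d * A b')) * β +
      (A a * A d' + A d * A a' + A b * A c' + A c * A b') * (α * β)
    linear_combination (A b * A b' + (A b * A d' + A d * A b') * β + A d * A d' * β ^ 2) * hα +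
      (A c * A c' + (A c * A d' + A d * A c') * α + 13 * (A d * A d')) * hβ

/-- `[ℚ(√13, √17) : ℚ] = 4` -/
theorem finrank_four (hα : α ^ 2 = 13) (hβ : β ^ 2 = 17)
    (htop : Algebra.adjoin ℚ ({α, β} : Set L) = ⊤) : finrank ℚ L = 4 := by
  have h := linInd hα hβ
  have hs : ⊤ ≤ Submodule.span ℚ (Set.range ![1, α, β, α * β]) := by
    rintro x -
    obtain ⟨a, b, c, d, rfl⟩ := mem_form hα hβ x (by rw [htop]; trivial)
    have hm : ∀ i : Fin 4, (![1, α, β, α * β] : Fin 4 → L) i ∈
        Submodule.span ℚ (Set.range ![1, α, β, α * β]) := fun i =>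
      Submodule.subset_span ⟨i, rfl⟩
    refine add_mem (add_mem (add_mem ?_ ?_) ?_) ?_
    · rw [Algebra.algebraMap_eq_smul_one]
      exact Submodule.smul_mem _ _ (hm 0)
    · rw [← Algebra.smul_def]
      exact Submodule.smul_mem _ _ (hm 1)
    · rw [← Algebra.smul_def]
      exact Submodule.smul_mem _ _ (hm 2)
    · rw [← Algebra.smul_def]
      exact Submodule.smul_mem _ _ (hm 3)
  rw [finrank_eq_card_basis (Basis.mk h hs), Fintype.card_fin]

/-- the polynomial `(X ^ 2 - 13) (X ^ 2 - 17)` -/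
noncomputable def biq : ℚ[X] := (X ^ 2 - C 13) * (X ^ 2 - C 17)

lemma biq_map (hα : α ^ 2 = 13) (hβ : β ^ 2 = 17) : biq.map (algebraMap ℚ L) =
    ((X - C α) * (X - C (-α))) * ((X - C β) * (X - C (-β))) := by
  have e1 : (X - C α) * (X - C (-α)) = X ^ 2 - C (13 : L) := by
    rw [← hα, C_neg, C_pow]
    ring
  have e2 : (X - C β) * (X - C (-β)) = X ^ 2 - C (17 : L) := by
    rw [← hβ, C_neg, C_pow]
    ring
  rw [e1, e2, biq]
  simp only [Polynomial.map_mul, Polynomial.map_sub, Polynomial.map_pow, map_X, map_ofNat,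
    Polynomial.map_ofNat]

lemma mem_rootSet_biq {x : L} : x ∈ biq.rootSet L ↔ x ^ 2 = 13 ∨ x ^ 2 = 17 := by
  have h0 : biq ≠ 0 := mul_ne_zero (X_pow_sub_C_ne_zero (by norm_num) _)
    (X_pow_sub_C_ne_zero (by norm_num) _)
  rw [mem_rootSet_of_ne h0, biq, map_mul, mul_eq_zero]
  simp only [map_sub, map_pow, aeval_X, map_ofNat, sub_eq_zero]

theorem isSplittingField_biq (hα : α ^ 2 = 13) (hβ : β ^ 2 = 17)
    (htop : Algebra.adjoin ℚ ({α, β} : Set L) = ⊤) : IsSplittingField ℚ L biq where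
  splits' := by
    rw [biq_map hα hβ]
    exact ((Splits.X_sub_C _).mul (Splits.X_sub_C _)).mul
      ((Splits.X_sub_C _).mul (Splits.X_sub_C _))
  adjoin_rootSet' := by
    rw [eq_top_iff, ← htop]
    apply Algebra.adjoin_mono
    rintro x (hx | hx)
    · rw [hx]
      exact mem_rootSet_biq.mpr (Or.inl hα)
    · rw [Set.mem_singleton_iff.mp hx]
      exact mem_rootSet_biq.mpr (Or.inr hβ)

/-- `ℚ(√13, √17)` is Galois over `ℚ` -/
theorem isGalois_biq (hα : α ^ 2 = 13) (hβ : β ^ 2 = 17)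
    (htop : Algebra.adjoin ℚ ({α, β} : Set L) = ⊤) : IsGalois ℚ L := by
  have h1 : IsSplittingField ℚ L biq := isSplittingField_biq hα hβ htop
  have h2 : Normal ℚ L := Normal.of_isSplittingField biq
  have h3 : FiniteDimensional ℚ L :=
    FiniteDimensional.of_finrank_pos (by rw [finrank_four hα hβ htop]; norm_num)
  exact { }

/-- the Galois group of `ℚ(√13, √17)` is the Klein four group -/
theorem isKleinFour_biq (hα : α ^ 2 = 13) (hβ : β ^ 2 = 17)
    (htop : Algebra.adjoin ℚ ({α, β} : Set L) = ⊤) : IsKleinFour (L ≃ₐ[ℚ] L) := by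
  have h1 : IsGalois ℚ L := isGalois_biq hα hβ htop
  have h3 : FiniteDimensional ℚ L :=
    FiniteDimensional.of_finrank_pos (by rw [finrank_four hα hβ htop]; norm_num)
  have hc : Nat.card (L ≃ₐ[ℚ] L) = 4 := by
    rw [IsGalois.card_aut_eq_finrank, finrank_four hα hβ htop]
  have : Nontrivial (L ≃ₐ[ℚ] L) := by
    have : Finite (L ≃ₐ[ℚ] L) := Nat.finite_of_card_ne_zero (by rw [hc]; norm_num)
    rw [← Finite.one_lt_card_iff_nontrivial, hc]
    norm_num
  refine ⟨hc, (Monoid.exponent_eq_prime_iff Nat.prime_two).mpr fun g hg => ?_⟩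
  apply orderOf_eq_prime _ hg
  have key : ∀ x : L, (x = α ∨ x = β) → g (g x) = x := by
    intro x hx
    have h4 : (g x) ^ 2 = x ^ 2 := by
      rw [← map_pow]
      rcases hx with rfl | rfl
      · rw [hα, map_ofNat]
      · rw [hβ, map_ofNat]
    rcases sq_eq_sq_iff_eq_or_eq_neg.mp h4 with h | h
    · rw [h, h]
    · rw [h, map_neg, h, neg_neg]
  have h5 : ((g * g : L ≃ₐ[ℚ] L) : L →ₐ[ℚ] L) = AlgHom.id ℚ L := by
    apply AlgHom.ext_of_adjoin_eq_top htop
    rintro x (hx | hx)
    · exact key x (Or.inl hx)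
    · exact key x (Or.inr hx)
  ext x
  rw [sq]
  exact DFunLike.congr_fun h5 x

end Gen

/-- the field `ℚ(√13, √17)` exists -/
theorem exists_field : ∃ (L : Type) (_ : Field L) (_ : Algebra ℚ L) (α β : L),
    α ^ 2 = 13 ∧ β ^ 2 = 17 ∧ Algebra.adjoin ℚ ({α, β} : Set L) = ⊤ := by
  have hsp := SplittingField.splits biq
  have h0 : biq ≠ 0 := mul_ne_zero (X_pow_sub_C_ne_zero (by norm_num) _)
    (X_pow_sub_C_ne_zero (by norm_num) _)
  have h0' : biq.map (algebraMap ℚ biq.SplittingField) ≠ 0 := Polynomial.map_ne_zero h0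
  have hroot : ∀ m : ℚ, (X ^ 2 - C m) ∣ biq → ∃ x : biq.SplittingField, x ^ 2 = algebraMap _ _ m := by
    intro m hm
    obtain ⟨x, hx⟩ := Splits.exists_eval_eq_zero
      (Splits.of_dvd hsp h0' (Polynomial.map_dvd (algebraMap ℚ biq.SplittingField) hm))
      (by rw [degree_map, degree_X_pow_sub_C (by norm_num)]; norm_num)
    refine ⟨x, ?_⟩
    rw [eval_map_algebraMap] at hx
    simpa [sub_eq_zero] using hx
  obtain ⟨α, hα⟩ := hroot 13 (Dvd.intro _ rfl)
  obtain ⟨β, hβ⟩ := hroot 17 (Dvd.intro_left _ rfl)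
  rw [map_ofNat] at hα hβ
  refine ⟨biq.SplittingField, inferInstance, SplittingField.instAlgebra_1 biq, α, β, hα, hβ, ?_⟩
  have htop := SplittingField.adjoin_rootSet biq
  rw [eq_top_iff, ← htop, Algebra.adjoin_le_iff]
  intro x hx
  have h1 : α ∈ Algebra.adjoin ℚ ({α, β} : Set biq.SplittingField) :=
    Algebra.subset_adjoin (Set.mem_insert _ _)
  have h2 : β ∈ Algebra.adjoin ℚ ({α, β} : Set biq.SplittingField) :=
    Algebra.subset_adjoin (Set.mem_insert_of_mem _ rfl)
  rcases mem_rootSet_biq.mp hx with h | h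
  · rw [← hα] at h
    rcases sq_eq_sq_iff_eq_or_eq_neg.mp h with rfl | rfl
    · exact h1
    · exact neg_mem h1
  · rw [← hβ] at h
    rcases sq_eq_sq_iff_eq_or_eq_neg.mp h with rfl | rfl
    · exact h2
    · exact neg_mem h2

/-- **The Hasse norm principle fails for some Galois extension of `ℚ` with group `(ℤ/2)²`**: there
is a number field `L`, Galois over `ℚ` with Galois group the Klein four group, such that `25` is a
norm from `ℚ_v ⊗ L` at every place `v` of `ℚ`, but not a norm from `L`. -/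
theorem exists_hasse_principle_fails : ∃ (L : Type) (_ : Field L) (_ : NumberField L),
    IsGalois ℚ L ∧ IsKleinFour (L ≃ₐ[ℚ] L) ∧
    (∀ v : HeightOneSpectrum (𝓞 ℚ),
      NormOver ℚ L (v.adicCompletion ℚ) (algebraMap ℚ (v.adicCompletion ℚ) 25)) ∧
    (∀ w : InfinitePlace ℚ, NormOver ℚ L w.Completion (algebraMap ℚ w.Completion 25)) ∧
    ¬ ∃ z : L, Algebra.norm ℚ z = 25 := by
  obtain ⟨L, hF, hA, α, β, hα, hβ, htop⟩ := exists_field
  have hc : CharZero L := algebraRat.charZero L
  obtain rfl : hA = DivisionRing.toRatAlgebra := Subsingleton.elim _ _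
  have hd := finrank_four hα hβ htop
  have hfin : FiniteDimensional ℚ L := FiniteDimensional.of_finrank_pos (by rw [hd]; norm_num)
  have hN : NumberField L := { to_charZero := hc, to_finiteDimensional := hfin }
  exact ⟨L, hF, hN, isGalois_biq hα hβ htop, isKleinFour_biq hα hβ htop,
    hasse_principle_fails hα hβ hd⟩

end Fermat.Agent.Cor.HN.NoHasse
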