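import Fermat.Agent.Corollaries.HM.AdicPow
import Fermat.Agent.CFT.Bridge.LocNorm
import Fermat.Agent.CFT.Bridge.LocPow
import Fermat.Agent.CFT.Bridge.Symbols
import Fermat.Agent.CFT.Global2.Final2

/-!
# Norm residue symbols mod `p` and local norms; the Hasse norm theorem for Kummer extensions

* `exists_norm_mul_locPow`: if `(a, b)_v = 1` then `b` is a norm from `K[X]/(X^p - a)` up to an element
  which is a `p`-th power in `K_v`;
* `sym_eq_one_iff`: `(a, b)_v = 1` iff `b` is a norm from `K_v[X]/(X^p - a)`;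
* `hasse_norm_kummer`: `K` totally complex, `ζ_p ∈ K`: `b` is a norm from `K[X]/(X^p - a)` iff it is
  one over all completions.
-/

set_option autoImplicit false

namespace Fermat.Agent.Cor.HN

open Fermat.Agent.CFT Fermat.Agent.CFT.Global Fermat.Agent.CFT.Bridge Fermat.Agent.CFT.Global2
open NumberField IsDedekindDomain Polynomial IntermediateField
open scoped Topology TensorProduct

/-- The norms from `k[X]/(X^p - a)` in `kˣ`. -/
def nP {k : Type*} [Field k] (p : ℕ) (hp : p ≠ 0) (a : kˣ) : Subgroup kˣ where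
  carrier := {x | IsNormFrom p a x}
  one_mem' := ⟨1, by rw [map_one, Units.val_one]⟩
  mul_mem' := by
    rintro x y ⟨z, hz⟩ ⟨w, hw⟩
    exact ⟨z * w, by rw [map_mul, hz, hw, Units.val_mul]⟩
  inv_mem' := by
    rintro x ⟨z, hz⟩
    have hf : (X ^ p - C (a : k) : k[X]) ≠ 0 := X_pow_sub_C_ne_zero (Nat.pos_of_ne_zero hp) _
    refine ⟨z ^ (p - 1) * algebraMap k _ ((x⁻¹ : kˣ) : k), ?_⟩
    rw [map_mul, map_pow, hz, Algebra.norm_algebraMap_of_basis (AdjoinRoot.powerBasis hf).basis,
      Fintype.card_fin, AdjoinRoot.powerBasis_dim, natDegree_X_pow_sub_C, ← Units.val_pow_eq_pow_val,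
      ← Units.val_pow_eq_pow_val, ← Units.val_mul]
    congr 1
    obtain ⟨j, rfl⟩ : ∃ j, p = j + 1 := ⟨p - 1, by omega⟩
    rw [Nat.add_sub_cancel, pow_succ, ← mul_assoc, ← mul_pow, mul_inv_cancel, one_pow, one_mul]

lemma mem_nP {k : Type*} [Field k] {p : ℕ} (hp : p ≠ 0) {a x : kˣ} :
    x ∈ nP p hp a ↔ IsNormFrom p a x := Iff.rfl

section Local

variable {q : ℕ} [hq : Fact q.Prime] {p : ℕ}

/-- The norm group of a Kummer extension of prime degree has index `p`. -/
theorem index_nP (hp : p.Prime) (l : Type) [Field l] [Algebra ℚ_[q] l]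
    [FiniteDimensional ℚ_[q] l] {ξ : l} (hξ : IsPrimitiveRoot ξ p) {a : lˣ}
    (ha : ∀ b : lˣ, b ^ p ≠ a) : (nP p hp.ne_zero a).index = p := by
  have hchar : CharZero l := charZero_of_injective_algebraMap (algebraMap ℚ_[q] l).injective
  have Hirr := irreducible_of_not_pow hp ha
  have : Fact (Irreducible (X ^ p - C (a : l))) := ⟨Hirr⟩
  have hroot : (AdjoinRoot.root (X ^ p - C (a : l)) : Rad p a) ^ p =
      algebraMap l (Rad p a) (a : l) := by
    have h := AdjoinRoot.eval₂_root (X ^ p - C (a : l))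
    rw [eval₂_sub, eval₂_X_pow, eval₂_C, sub_eq_zero] at h
    exact h
  have hfin : Module.Finite l (Rad p a) := (AdjoinRoot.powerBasis Hirr.ne_zero).finite
  have htop : (IntermediateField.adjoin l {(AdjoinRoot.root (X ^ p - C (a : l)) :
      Rad p a)}) = ⊤ := by
    have h : Algebra.adjoin l {(AdjoinRoot.root (X ^ p - C (a : l)) : Rad p a)} = ⊤ :=
      AdjoinRoot.adjoinRoot_eq_top
    rw [IntermediateField.adjoin_eq_top_iff_of_isAlgebraic]
    · exact h
    · exact fun x _ => Algebra.IsAlgebraic.isAlgebraic x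
  have ha' : ∀ b : l, b ^ p ≠ (a : l) := by
    intro b hb
    have hb0 : b ≠ 0 := by
      rintro rfl
      rw [zero_pow hp.ne_zero] at hb
      exact a.ne_zero hb.symm
    exact ha (Units.mk0 b hb0) (Units.ext hb)
  have hfr := KummerExt.finrank_eq hp ha' hroot htop
  obtain ⟨hgal, -⟩ := KummerExt.exists_gen hp hξ ha' hroot htop
  have : FiniteDimensional ℚ_[q] (Rad p a) := FiniteDimensional.trans ℚ_[q] l _
  have hidx := CFTLocal.norm_index_local q l (Rad p a) p hp hfr
  have heq : nP p hp.ne_zero a = (CFTLocal.normUnits l (Rad p a)).range := by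
    ext x
    rw [mem_nP]
    constructor
    · rintro ⟨z, hz⟩
      have hz0 : z ≠ 0 := by
        rintro rfl
        rw [Algebra.norm_zero] at hz
        exact x.ne_zero hz.symm
      exact ⟨Units.mk0 z hz0, Units.ext hz⟩
    · rintro ⟨z, rfl⟩
      exact ⟨(z : Rad p a), rfl⟩
  rw [heq, hidx]

variable {K : Type*} [Field K] [NumberField K]

/-- Weak approximation: an element of `Kˣ` which is locally a norm from `X ^ p - a` is a global
norm up to local `p`-th powers. -/
theorem exists_approx_toLoc (hp : p ≠ 0) (τ : K →ₐ[ℚ] PadicAlgCl q) {a b : Kˣ}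
    (h : IsNormFrom p (toLocU τ a) (toLocU τ b)) :
    ∃ c : Kˣ, IsNormFrom p a c ∧ b / c ∈ locPow p (placeOf τ) := by
  let _ : Algebra K (locField τ) := (toLoc τ).toRingHom.toAlgebra
  have hf : (X ^ p - C (a : K) : K[X]) ≠ 0 := X_pow_sub_C_ne_zero (Nat.pos_of_ne_zero hp) _
  have hfin : Module.Finite K (AdjoinRoot (X ^ p - C (a : K))) := (AdjoinRoot.powerBasis hf).finite
  have he : (X ^ p - C (a : K) : K[X]).map (algebraMap K (locField τ)) =
      X ^ p - C ((toLocU τ a : (locField τ)ˣ) : locField τ) := by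
    rw [Polynomial.map_sub, Polynomial.map_pow, map_X, map_C]
    rfl
  have h1 : NormOver K (AdjoinRoot (X ^ p - C (a : K))) (locField τ)
      (algebraMap K (locField τ) b) := by
    rw [normOver_adjoinRoot_iff hf, he]
    exact h
  obtain ⟨ε, hε, hnear⟩ := exists_pow_eq_of_near (locField τ) hp
  have hU : Metric.ball (1 : locField τ) (min ε 1) ∈ 𝓝 (1 : locField τ) :=
    Metric.ball_mem_nhds _ (lt_min hε one_pos)
  have hU0 : (0 : locField τ) ∉ Metric.ball (1 : locField τ) (min ε 1) := by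
    intro h0
    rw [Metric.mem_ball, dist_eq_norm, zero_sub, norm_neg, norm_one] at h0
    exact absurd (h0.trans_le (min_le_right _ _)) (lt_irrefl _)
  obtain ⟨c, hc, hcU⟩ := exists_approx_norm (denseRange_toLoc τ) h1 hU hU0
  refine ⟨c, hc, ?_⟩
  rw [← inv_mem_iff, inv_div, mem_locPow_placeOf_iff hp]
  apply hnear
  have h2 : dist (toLoc τ ((c / b : Kˣ) : K)) 1 < min ε 1 := hcU
  rw [dist_eq_norm] at h2
  exact h2.trans_le (min_le_left _ _)

end Local

section Symbol

variable {K : Type} [Field K] [NumberField K] {p : ℕ} [hp : Fact p.Prime]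

/-- **The kernel of `(a, ·)_v`**: if `(a, b)_v = 1` then `b` is a norm from `K[X]/(X^p - a)` up to an
element which is a `p`-th power in `K_v`. -/
theorem exists_norm_mul_locPow {ζ : K} (hζ : IsPrimitiveRoot ζ p) (LS : LocalSymbols p K)
    (v : HeightOneSpectrum (𝓞 K)) (a b : Kˣ) (h : LS.sym v a b = 1) :
    ∃ c : Kˣ, IsNormFrom p a c ∧ b / c ∈ locPow p v := by
  have hp0 := hp.out.ne_zero
  obtain ⟨q, hq, τ, rfl⟩ := exists_prime_placeOf_eq v
  apply exists_approx_toLoc hp0 τ
  by_cases ha : a ∈ locPow p (placeOf τ)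
  · -- `a` is a local `p`-th power: everything is a norm
    rw [mem_locPow_placeOf_iff hp0] at ha
    obtain ⟨r, hr⟩ := ha
    have hr0 : r ≠ 0 := by
      rintro rfl
      rw [zero_pow hp0] at hr
      exact (_root_.map_ne_zero (toLoc τ)).mpr a.ne_zero hr.symm
    have h2 : (p : locField τ) ≠ 0 := Nat.cast_ne_zero.mpr hp0
    have h3 := exists_norm_of_pow h2 hr0 ((toLocU τ b : (locField τ)ˣ) : locField τ)
    rw [hr] at h3
    exact h3
  · have hskew : ∀ y ∈ locPow p (placeOf τ), LS.sym (placeOf τ) a y = 1 := by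
      intro y hy
      have h1 := LS.skew (placeOf τ) a y
      rwa [(LS.mem_locPow_iff _ _).mp hy a, mul_one] at h1
    set P : Subgroup Kˣ := (nP p hp0 (toLocU τ a)).comap (toLocU τ) with hP
    set M : Subgroup Kˣ := (LS.sym (placeOf τ) a).ker with hM
    have hPM : P ≤ M := by
      intro x hx
      obtain ⟨c, hc, hxc⟩ := exists_approx_toLoc hp0 τ (Subgroup.mem_comap.mp hx)
      rw [hM, MonoidHom.mem_ker]
      have h1 : x = (x / c) * c := by rw [div_mul_cancel]
      rw [h1, map_mul, hskew _ hxc, one_mul]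
      exact LS.norm_mem _ _ _ hc
    have hMt : M ≠ ⊤ := by
      intro htop
      apply ha
      rw [LS.mem_locPow_iff]
      intro x
      have : x ∈ M := by rw [htop]; trivial
      exact this
    have hns : ∀ b : (locField τ)ˣ, b ^ p ≠ toLocU τ a := by
      intro b hb
      apply ha
      rw [mem_locPow_placeOf_iff hp0]
      exact ⟨(b : locField τ), by rw [← coe_toLocU, ← hb, Units.val_pow_eq_pow_val]⟩
    have hidx := index_nP (q := q) hp.out (locField τ)
      (hζ.map_of_injective (toLoc τ).toRingHom.injective) hns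
    have hPidx : P.index ∣ p := by
      rw [hP, Subgroup.index_comap]
      conv_rhs => rw [← hidx]
      exact Subgroup.relIndex_dvd_index_of_normal _ _
    have h1 : P.relIndex M * M.index = P.index := Subgroup.relIndex_mul_index hPM
    have hM1 : M.index ≠ 1 := by rwa [Ne, Subgroup.index_eq_one]
    have hM2 : M.index ∣ p := (Dvd.intro_left _ h1).trans hPidx
    have hM3 : M.index = p := ((Nat.dvd_prime hp.out).mp hM2).resolve_left hM1
    have hP3 : P.index = p := by
      refine ((Nat.dvd_prime hp.out).mp hPidx).resolve_left fun h2 => ?_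
      rw [h2, hM3] at h1
      exact hp.out.one_lt.ne' (Nat.eq_one_of_mul_eq_one_left h1)
    rw [hP3, hM3] at h1
    have h2 : P.relIndex M = 1 := by
      exact Nat.eq_of_mul_eq_mul_right hp.out.pos (by rw [h1, one_mul])
    rw [Subgroup.relIndex_eq_one] at h2
    exact Subgroup.mem_comap.mp (h2 (show b ∈ M from h))

/-- If `b` is a norm from `K_v[X]/(X^p - a)`, then `(a, b)_v = 1`. -/
theorem sym_eq_one_of_normOver (LS : LocalSymbols p K) (v : HeightOneSpectrum (𝓞 K)) (a b : Kˣ)
    (h : NormOver K (AdjoinRoot (X ^ p - C (a : K))) (v.adicCompletion K) (algebraMap K _ b)) :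
    LS.sym v a b = 1 := by
  have hf : (X ^ p - C (a : K) : K[X]) ≠ 0 := X_pow_sub_C_ne_zero hp.out.pos _
  have hfin : Module.Finite K (AdjoinRoot (X ^ p - C (a : K))) := (AdjoinRoot.powerBasis hf).finite
  obtain ⟨N, hN⟩ := exists_cong_le_locPow p hp.out.ne_zero v
  obtain ⟨c, hc, hbc⟩ := exists_approx_adic v N h
  have h1 : LS.sym v a c = 1 := LS.norm_mem v a c hc
  have h2 : LS.sym v a (b / c) = 1 := by
    have h3 := LS.skew v a (b / c)
    rwa [(LS.mem_locPow_iff _ _).mp (hN hbc) a, mul_one] at h3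
  rw [_root_.map_div, h1, div_one] at h2
  exact h2

/-- **The norm residue symbol**: `(a, b)_v = 1` iff `b` is a norm from `K_v[X]/(X^p - a)`. -/
theorem sym_eq_one_iff {ζ : K} (hζ : IsPrimitiveRoot ζ p) (LS : LocalSymbols p K)
    (v : HeightOneSpectrum (𝓞 K)) (a b : Kˣ) : LS.sym v a b = 1 ↔
      NormOver K (AdjoinRoot (X ^ p - C (a : K))) (v.adicCompletion K) (algebraMap K _ b) := by
  refine ⟨fun h => ?_, sym_eq_one_of_normOver LS v a b⟩
  have hf : (X ^ p - C (a : K) : K[X]) ≠ 0 := X_pow_sub_C_ne_zero hp.out.pos _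
  have hfin : Module.Finite K (AdjoinRoot (X ^ p - C (a : K))) := (AdjoinRoot.powerBasis hf).finite
  obtain ⟨c, hc, hbc⟩ := exists_norm_mul_locPow hζ LS v a b h
  obtain ⟨y, hy⟩ := (mem_locPow_iff_adic hp.out.ne_zero _).mp hbc
  have h1 : NormOver K (AdjoinRoot (X ^ p - C (a : K))) (v.adicCompletion K)
      (algebraMap K _ c) := NormOver.of_norm hc
  have h2 : NormOver K (AdjoinRoot (X ^ p - C (a : K))) (v.adicCompletion K) (y ^ p) := by
    have h3 := NormOver.pow_finrank (K := K) (A := AdjoinRoot (X ^ p - C (a : K))) y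
    rwa [(AdjoinRoot.powerBasis hf).finrank, AdjoinRoot.powerBasis_dim,
      natDegree_X_pow_sub_C] at h3
  have h4 := h2.mul h1
  rwa [hy, ← map_mul, ← Units.val_mul, div_mul_cancel] at h4

/-- **The Hasse norm theorem for Kummer extensions of prime degree**, `K` totally complex. -/
theorem hasse_norm_kummer [IsTotallyComplex K] {ζ : K} (hζ : IsPrimitiveRoot ζ p) (a b : Kˣ) :
    (∃ z : AdjoinRoot (X ^ p - C (a : K)), Algebra.norm K z = b) ↔
      ∀ v : HeightOneSpectrum (𝓞 K), NormOver K (AdjoinRoot (X ^ p - C (a : K)))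
        (v.adicCompletion K) (algebraMap K _ b) := by
  have hf : (X ^ p - C (a : K) : K[X]) ≠ 0 := X_pow_sub_C_ne_zero hp.out.pos _
  have hfin : Module.Finite K (AdjoinRoot (X ^ p - C (a : K))) := (AdjoinRoot.powerBasis hf).finite
  refine ⟨fun h v => NormOver.of_norm h, fun h => ?_⟩
  by_cases ha : ∃ r : Kˣ, r ^ p = a
  · obtain ⟨r, rfl⟩ := ha
    have h2 : (p : K) ≠ 0 := Nat.cast_ne_zero.mpr hp.out.ne_zero
    have h3 := exists_norm_of_pow h2 r.ne_zero (b : K)
    rw [Units.val_pow_eq_pow_val]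
    exact h3
  · push Not at ha
    obtain ⟨LS⟩ := nonempty_localSymbols_all K hζ
    exact hasse_norm_all hζ LS ha b fun v => sym_eq_one_of_normOver LS v a b (h v)

end Symbol

end Fermat.Agent.Cor.HN
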