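import Fermat.Agent.Corollaries.HM.Five

/-!
# The projection formula for quadratic extensions of number fields

`M/K` quadratic, `a ∈ Kˣ`, `y ∈ Mˣ`: `(a, N y)_v = ∏_{w ∣ v} (a, y)_w`.
-/

set_option autoImplicit false

namespace Fermat.Agent.Cor.HM

open IsDedekindDomain NumberField WithZero
open Fermat.Agent.CFT Fermat.Agent.CFT.Global Fermat.Agent.CFT.Global2 Fermat.Agent.LT.Ext
open Fermat.Agent.CFT.Global2.Unr (norm_eq_mul apply_apply eq_one_or_of_card_two smul_asIdeal)
open Fermat.Agent.CFT.SUnits (ord)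

section Proj

variable {K M : Type} [Field K] [NumberField K] [Field M] [NumberField M] [Algebra K M]
  [IsGalois K M] (h2 : Module.finrank K M = 2) {σ : M ≃ₐ[K] M} (hσ : σ ≠ 1)

/-- the automorphism on units -/
noncomputable abbrev sU (σ : M ≃ₐ[K] M) : Mˣ →* Mˣ := Units.map (σ : M →* M)

include h2 hσ in
lemma mapU_normU (y : Mˣ) : mapU K M (normU M y) = y * sU σ y :=
  Units.ext (norm_eq_mul h2 hσ (y : M))

include h2 hσ in
lemma conj_conj (w : HeightOneSpectrum (𝓞 M)) : Places.conj σ (Places.conj σ w) = w := by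
  rw [← Places.conj_mul]
  have h : σ * σ = 1 := AlgEquiv.ext fun x => apply_apply h2 hσ x
  rw [h, Places.conj_one]

include h2 hσ in
/-- the places over a place of `K` -/
lemma eq_or_eq_conj {w w' : HeightOneSpectrum (𝓞 M)} (h : w'.under (𝓞 K) = w.under (𝓞 K)) :
    w' = w ∨ w' = Places.conj σ w := by
  have hG : Nat.card Gal(M/K) = 2 := by rw [IsGalois.card_aut_eq_finrank, h2]
  have h1 : (w.under (𝓞 K)).asIdeal = (w'.under (𝓞 K)).asIdeal := by rw [h]
  have h3 : w.asIdeal.LiesOver (w'.under (𝓞 K)).asIdeal := by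
    rw [← h1]
    infer_instance
  obtain ⟨τ, hτ⟩ := Ideal.exists_smul_eq_of_isGaloisGroup (w'.under (𝓞 K)).asIdeal w.asIdeal
    w'.asIdeal Gal(M/K)
  have h4 : Places.conj τ w = w' := by
    apply HeightOneSpectrum.ext
    rw [← smul_asIdeal, hτ]
  rcases eq_one_or_of_card_two hG hσ τ with rfl | rfl
  · left
    rw [← h4, Places.conj_one]
  · right
    exact h4.symm

include h2 hσ in
lemma mem_above_iff {w w' : HeightOneSpectrum (𝓞 M)} :
    w' ∈ above M {w.under (𝓞 K)} ↔ w' = w ∨ w' = Places.conj σ w := by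
  rw [mem_above, Finset.mem_singleton]
  constructor
  · exact eq_or_eq_conj h2 hσ
  · rintro (rfl | rfl)
    · rfl
    · exact Places.below_conj σ w

include h2 hσ in
lemma mem_cong_conj {w : HeightOneSpectrum (𝓞 M)} {n : ℕ} {u : Mˣ} :
    u ∈ cong (Places.conj σ w) n ↔ sU σ u ∈ cong w n := by
  rw [mem_cong, mem_cong]
  have h1 : ((u : M) - 1) = σ (σ ((u : M) - 1)) := (apply_apply h2 hσ _).symm
  rw [h1, Places.valuation_conj, map_sub, map_one]
  exact Iff.rfl

omit [IsGalois K M] in
/-- Elements of `K` close to `1` at `w` are local squares at the place below. -/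
lemma exists_descend (w : HeightOneSpectrum (𝓞 M)) :
    ∃ n, ∀ x : Kˣ, mapU K M x ∈ cong w n → x ∈ locPow 2 (w.under (𝓞 K)) := by
  obtain ⟨m, hm⟩ := exists_cong_le_locPow 2 two_ne_zero (w.under (𝓞 K))
  obtain ⟨e, he⟩ : ∃ e, e = (w.under (𝓞 K)).asIdeal.ramificationIdx' w.asIdeal := ⟨_, rfl⟩
  have he0 : e ≠ 0 := by
    rw [he]
    exact Places.ramificationIdx'_ne_zero w
  refine ⟨e * (m + 1), fun x h1 => hm ?_⟩
  rw [mem_cong] at h1
  have h3 : ((mapU K M x : Mˣ) : M) - 1 = algebraMap K M ((x : K) - 1) := by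
    rw [map_sub, map_one]
    rfl
  rw [h3, Places.valuation_algebraMap, ← he] at h1
  rw [mem_cong]
  have h4 : (exp (-((m : ℤ) + 1)) : ℤᵐ⁰) ^ e = exp (-((e * (m + 1) : ℕ) : ℤ)) := by
    rw [← exp_nsmul, nsmul_eq_mul]
    refine congrArg _ ?_
    push_cast
    ring
  have h5 : (w.under (𝓞 K)).valuation K ((x : K) - 1) ^ e ≤ exp (-((m : ℤ) + 1)) ^ e := by
    rw [h4]
    refine h1.trans ?_
    rw [exp_le_exp]
    omega
  exact (pow_le_pow_iff_left₀ zero_le zero_le he0).mp h5

include h2 hσ in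
/-- Norms of elements close to `1` at the places above `v` are local squares at `v`. -/
lemma exists_norm_mem (w : HeightOneSpectrum (𝓞 M)) :
    ∃ n, ∀ u : Mˣ, u ∈ cong w n → u ∈ cong (Places.conj σ w) n →
      normU M u ∈ locPow 2 (w.under (𝓞 K)) := by
  obtain ⟨n, hn⟩ := exists_descend (K := K) w
  refine ⟨n, fun u hu hu' => hn _ ?_⟩
  rw [mapU_normU h2 hσ]
  exact mul_mem hu ((mem_cong_conj h2 hσ).mp hu')

include h2 hσ in
/-- Norms of local squares are local squares. -/
lemma normU_mem_locPow {w : HeightOneSpectrum (𝓞 M)} {z : Mˣ} (h1 : z ∈ locPow 2 w)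
    (h1' : z ∈ locPow 2 (Places.conj σ w)) : normU M z ∈ locPow 2 (w.under (𝓞 K)) := by
  classical
  obtain ⟨n, hn⟩ := exists_norm_mem h2 hσ w
  have key : ∀ w' ∈ ({w, Places.conj σ w} : Finset (HeightOneSpectrum (𝓞 M))),
      ∃ y : Mˣ, z / y ^ 2 ∈ cong w' n := by
    intro w' hw'
    rw [Finset.mem_insert, Finset.mem_singleton] at hw'
    rcases hw' with rfl | rfl
    · exact mem_locPow.mp h1 n
    · exact mem_locPow.mp h1' n
  choose! y hy using key
  obtain ⟨z₀, hz₀⟩ := indep_cong {w, Places.conj σ w} n y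
  have h3 : ∀ w' ∈ ({w, Places.conj σ w} : Finset (HeightOneSpectrum (𝓞 M))),
      z / z₀ ^ 2 ∈ cong w' n := by
    intro w' hw'
    have h4 := div_mem (hy w' hw') (pow_mem (hz₀ w' hw') 2)
    have h5 : z / y w' ^ 2 / (z₀ / y w') ^ 2 = z / z₀ ^ 2 := by
      rw [div_pow, div_div_div_cancel_right]
    rwa [h5] at h4
  have h6 := hn _ (h3 w (by simp)) (h3 _ (by simp))
  rw [_root_.map_div, map_pow] at h6
  have h7 := mul_mem h6 (pow_mem_locPow 2 (w.under (𝓞 K)) (normU M z₀))
  rwa [div_mul_cancel] at h7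

/-- Simultaneous solution of norm equations. -/
lemma exists_norm_simul (LS' : LocalSymbols 2 M) (T : Finset (HeightOneSpectrum (𝓞 M))) (A y : Mˣ)
    (h : ∀ w ∈ T, LS'.sym w A y = 1) :
    ∃ (s t : M) (b : Mˣ), (b : M) = s ^ 2 - A * t ^ 2 ∧ ∀ w ∈ T, y / b ∈ locPow 2 w := by
  classical
  obtain ⟨s, t, b, hb, h'⟩ := exists_binary LS' T 1 (-A) (fun w => if w ∈ T then y else 1)
    (fun w => by
      change LS'.sym w (-(1 * -A)) (1 * if w ∈ T then y else 1) = 1
      rw [one_mul, one_mul, neg_neg]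
      split_ifs with hw
      · exact h w hw
      · exact map_one _)
  refine ⟨s, t, b, ?_, fun w hw => ?_⟩
  · rw [hb, Units.val_one, Units.val_neg]
    ring
  · have h1 := h' w hw
    rw [if_pos hw] at h1
    rw [← inv_div]
    exact inv_mem h1

include h2 hσ in
/-- The norm of a value of `s ^ 2 - a t ^ 2`. -/
lemma isNormFrom_normU {a : Kˣ} {s t : M} {b : Mˣ}
    (hb : (b : M) = s ^ 2 - (mapU K M a : Mˣ) * t ^ 2) : IsNormFrom 2 a (normU M b) := by
  have hA : ((mapU K M a : Mˣ) : M) = algebraMap K M a := rfl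
  obtain ⟨p, hp⟩ := Unr.mem_range_of_fixed h2 hσ
    (x := s * σ s + algebraMap K M a * (t * σ t)) (by
      rw [map_add, map_mul, map_mul, map_mul, AlgEquiv.commutes, apply_apply h2 hσ,
        apply_apply h2 hσ]
      ring)
  obtain ⟨q, hq⟩ := Unr.mem_range_of_fixed h2 hσ (x := s * σ t + t * σ s) (by
      rw [map_add, map_mul, map_mul, apply_apply h2 hσ, apply_apply h2 hσ]
      ring)
  refine (isNormFrom_two_iff _ _).mpr ⟨p, q, (algebraMap K M).injective ?_⟩
  have h3 : algebraMap K M ((normU M b : Kˣ) : K) = b * σ b := norm_eq_mul h2 hσ (b : M)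
  rw [h3, map_sub, map_mul, map_pow, map_pow, hp, hq, hb, hA, map_sub, map_mul, map_pow, map_pow,
    AlgEquiv.commutes]
  ring

include h2 hσ in
/-- One half of the projection formula. -/
lemma sym_normU_eq_one (LS : LocalSymbols 2 K) (LS' : LocalSymbols 2 M)
    {w : HeightOneSpectrum (𝓞 M)} {a : Kˣ} {y : Mˣ} (h1 : LS'.sym w (mapU K M a) y = 1)
    (h1' : LS'.sym (Places.conj σ w) (mapU K M a) y = 1) :
    LS.sym (w.under (𝓞 K)) a (normU M y) = 1 := by
  classical
  obtain ⟨s, t, b, hb, hT⟩ := exists_norm_simul LS' {w, Places.conj σ w} (mapU K M a) y (by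
    intro w' hw'
    rw [Finset.mem_insert, Finset.mem_singleton] at hw'
    rcases hw' with rfl | rfl
    · exact h1
    · exact h1')
  have h3 : LS.sym (w.under (𝓞 K)) a (normU M b) = 1 :=
    LS.norm_mem _ _ _ (isNormFrom_normU h2 hσ hb)
  have h4 : normU M (y / b) ∈ locPow 2 (w.under (𝓞 K)) :=
    normU_mem_locPow h2 hσ (hT w (by simp)) (hT _ (by simp))
  have h5 := LS.sym_eq_one_of_right (a := a) h4
  rw [_root_.map_div, _root_.map_div, h3, div_one] at h5
  exact h5

include h2 hσ in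
/-- There are elements `y` with `(a, N y)_v ≠ 1` as soon as `a` and `δ a` are not squares in
`K_v`, `M = K(√δ)`. -/
lemma exists_sym_normU_ne_one' (LS : LocalSymbols 2 K) {v : HeightOneSpectrum (𝓞 K)} {r : M}
    {δ a : Kˣ} (hr : r ^ 2 = algebraMap K M δ) (hσr : σ r = -r) (ha1 : a ∉ locPow 2 v)
    (ha2 : δ * a ∉ locPow 2 v) : ∃ y : Mˣ, LS.sym v a (normU M y) ≠ 1 := by
  obtain ⟨c, hc1, hc2⟩ : ∃ c : Kˣ, LS.sym v δ c = 1 ∧ LS.sym v a c = Multiplicative.ofAdd 1 := by
    by_cases hδ1 : δ ∈ locPow 2 v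
    · obtain ⟨c, hc⟩ := LS.sym_surjective Nat.prime_two ha1 (Multiplicative.ofAdd 1)
      exact ⟨c, LS.sym_eq_one_of_left hδ1, hc⟩
    · exact exists_sym_eq LS hδ1 ha1 ha2 1 (Multiplicative.ofAdd 1)
  obtain ⟨s, t, b, hb, hcb⟩ := mem_norm_mul_locPow LS _ δ c hc1
  have hz : (algebraMap K M s + algebraMap K M t * r) * σ (algebraMap K M s + algebraMap K M t * r) =
      algebraMap K M b := by
    rw [map_add, map_mul, AlgEquiv.commutes, AlgEquiv.commutes, hσr, hb, map_sub, map_mul, map_pow,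
      map_pow, ← hr]
    ring
  have hz0 : algebraMap K M s + algebraMap K M t * r ≠ 0 := by
    intro h0
    rw [h0, zero_mul] at hz
    exact (map_ne_zero (algebraMap K M)).mpr b.ne_zero hz.symm
  refine ⟨Units.mk0 _ hz0, ?_⟩
  have h6 : normU M (Units.mk0 _ hz0) = b := by
    apply Units.ext
    apply (algebraMap K M).injective
    have h7 : algebraMap K M ((normU M (Units.mk0 _ hz0) : Kˣ) : K) =
        (algebraMap K M s + algebraMap K M t * r) * σ (algebraMap K M s + algebraMap K M t * r) :=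
      norm_eq_mul h2 hσ _
    rw [h7, hz]
  rw [h6]
  have h8 := LS.sym_eq_one_of_right (a := a) hcb
  rw [_root_.map_div, div_eq_one] at h8
  rw [← h8, hc2]
  decide

omit [NumberField K] [IsGalois K M] in
lemma mapU_mem_locPow_of_sq {r : M} {δ : Kˣ} (hr : r ^ 2 = algebraMap K M δ)
    (w : HeightOneSpectrum (𝓞 M)) : mapU K M δ ∈ locPow 2 w := by
  have hr0 : r ≠ 0 := by
    rintro rfl
    rw [zero_pow two_ne_zero] at hr
    exact (map_ne_zero (algebraMap K M)).mpr δ.ne_zero hr.symm
  have h3 : mapU K M δ = Units.mk0 r hr0 ^ 2 := Units.ext hr.symm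
  rw [h3]
  exact pow_mem_locPow 2 w _

include h2 hσ in
/-- There are elements `y` with `(a, N y)_v ≠ 1` as soon as `a` is not a square in `M_w`. -/
lemma exists_sym_normU_ne_one (LS : LocalSymbols 2 K) {w : HeightOneSpectrum (𝓞 M)} {a : Kˣ}
    (ha : mapU K M a ∉ locPow 2 w) : ∃ y : Mˣ, LS.sym (w.under (𝓞 K)) a (normU M y) ≠ 1 := by
  obtain ⟨r, δ, hr, hσr, -, -⟩ := Unr.exists_gen_quad (F := K) h2 hσ
  refine exists_sym_normU_ne_one' h2 hσ LS hr hσr (fun h => ha (map_mem_locPow h)) fun h => ha ?_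
  have h4 := map_mem_locPow (L := M) h
  rw [map_mul] at h4
  have h5 := div_mem h4 (mapU_mem_locPow_of_sq hr w)
  rwa [mul_div_cancel_left] at h5

lemma val_cases (t : Multiplicative (ZMod 2)) : t = 1 ∨ t = Multiplicative.ofAdd 1 := by
  revert t
  decide

include h2 hσ in
/-- The projection formula at a place which does not split. -/
theorem sym_normU_of_conj_eq (LS : LocalSymbols 2 K) (LS' : LocalSymbols 2 M)
    {w : HeightOneSpectrum (𝓞 M)} (hw : Places.conj σ w = w) (a : Kˣ) (y : Mˣ) :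
    LS'.sym w (mapU K M a) y = LS.sym (w.under (𝓞 K)) a (normU M y) := by
  have hle : ∀ z : Mˣ, LS'.sym w (mapU K M a) z = 1 →
      LS.sym (w.under (𝓞 K)) a (normU M z) = 1 := fun z hz =>
    sym_normU_eq_one h2 hσ LS LS' hz (by rw [hw]; exact hz)
  by_cases ha : mapU K M a ∈ locPow 2 w
  · rw [LS'.sym_eq_one_of_left ha, hle y (LS'.sym_eq_one_of_left ha)]
  · obtain ⟨z, hz⟩ := exists_sym_normU_ne_one h2 hσ LS ha
    have hz1 : LS'.sym w (mapU K M a) z = Multiplicative.ofAdd 1 :=
      (val_cases _).resolve_left fun h => hz (hle z h)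
    have hz2 : LS.sym (w.under (𝓞 K)) a (normU M z) = Multiplicative.ofAdd 1 :=
      (val_cases _).resolve_left hz
    rcases val_cases (LS'.sym w (mapU K M a) y) with h | h
    · rw [h, hle y h]
    · have h3 : LS'.sym w (mapU K M a) (y * z) = 1 := by
        rw [map_mul, h, hz1]
        decide
      have h4 := hle _ h3
      rw [map_mul, map_mul, hz2] at h4
      rw [h]
      rcases val_cases (LS.sym (w.under (𝓞 K)) a (normU M y)) with h5 | h5
      · rw [h5] at h4
        exact absurd h4 (by decide)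
      · exact h5.symm

include h2 hσ in
/-- Elements concentrated at one of two conjugate places. -/
lemma exists_concentrated (LS : LocalSymbols 2 K) (LS' : LocalSymbols 2 M)
    {w : HeightOneSpectrum (𝓞 M)} (hw : Places.conj σ w ≠ w) {a : Kˣ}
    (ha : a ∉ locPow 2 (w.under (𝓞 K))) :
    ∃ y : Mˣ, LS'.sym w (mapU K M a) y = Multiplicative.ofAdd 1 ∧
      LS'.sym (Places.conj σ w) (mapU K M a) y = 1 ∧
      LS.sym (w.under (𝓞 K)) a (normU M y) = Multiplicative.ofAdd 1 := by
  classical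
  obtain ⟨c, hc⟩ := LS.sym_surjective Nat.prime_two ha (Multiplicative.ofAdd 1)
  obtain ⟨n, hn⟩ := exists_descend (K := K) w
  obtain ⟨n', hn'⟩ := exists_cong_le_locPow 2 two_ne_zero (Places.conj σ w)
  obtain ⟨y, hy⟩ := indep_cong {w, Places.conj σ w} (max n n')
    (fun w' => if w' = w then mapU K M c else 1)
  have hy1 := hy w (by simp)
  have hy2 := hy (Places.conj σ w) (by simp)
  rw [if_pos rfl] at hy1
  rw [if_neg hw, div_one] at hy2
  have h3 : LS.sym (w.under (𝓞 K)) a (normU M y) = Multiplicative.ofAdd 1 := by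
    have hk : normU M y / c ∈ locPow 2 (w.under (𝓞 K)) := by
      refine hn _ ?_
      have hk1 : mapU K M (normU M y / c) = y / mapU K M c * sU σ y := by
        rw [_root_.map_div, mapU_normU h2 hσ, mul_div_right_comm]
      rw [hk1]
      exact mul_mem (cong_anti _ (le_max_left n n') hy1)
        (cong_anti _ (le_max_left n n') ((mem_cong_conj h2 hσ).mp hy2))
    have h4 := LS.sym_eq_one_of_right (a := a) hk
    rw [_root_.map_div, div_eq_one] at h4
    rw [h4, hc]
  have h5 : LS'.sym (Places.conj σ w) (mapU K M a) y = 1 :=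
    LS'.sym_eq_one_of_right (hn' (cong_anti _ (le_max_right n n') hy2))
  refine ⟨y, (val_cases _).resolve_left fun h => ?_, h5, h3⟩
  have h6 := sym_normU_eq_one h2 hσ LS LS' h h5
  rw [h3] at h6
  exact absurd h6 (by decide)

include h2 hσ in
/-- The projection formula at a place which splits. -/
theorem sym_normU_of_conj_ne (LS : LocalSymbols 2 K) (LS' : LocalSymbols 2 M)
    {w : HeightOneSpectrum (𝓞 M)} (hw : Places.conj σ w ≠ w) (a : Kˣ) (y : Mˣ) :
    LS'.sym w (mapU K M a) y * LS'.sym (Places.conj σ w) (mapU K M a) y =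
      LS.sym (w.under (𝓞 K)) a (normU M y) := by
  by_cases ha : a ∈ locPow 2 (w.under (𝓞 K))
  · have h1 : mapU K M a ∈ locPow 2 w := map_mem_locPow ha
    have h2' : mapU K M a ∈ locPow 2 (Places.conj σ w) := by
      refine map_mem_locPow ?_
      rw [Places.below_conj]
      exact ha
    rw [LS'.sym_eq_one_of_left h1, LS'.sym_eq_one_of_left h2', LS.sym_eq_one_of_left ha, one_mul]
  · obtain ⟨z, hz1, hz2, hz3⟩ := exists_concentrated h2 hσ LS LS' hw ha
    have hw' : Places.conj σ (Places.conj σ w) ≠ Places.conj σ w := by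
      rw [conj_conj h2 hσ]
      exact hw.symm
    obtain ⟨z', hz1', hz2', hz3'⟩ := exists_concentrated h2 hσ LS LS' hw'
      (a := a) (by rwa [Places.below_conj])
    rw [conj_conj h2 hσ] at hz2'
    rw [Places.below_conj] at hz3'
    -- reduce to elements with both symbols trivial
    have hone : ∀ y : Mˣ, LS'.sym w (mapU K M a) y = 1 →
        LS'.sym (Places.conj σ w) (mapU K M a) y = 1 →
        LS.sym (w.under (𝓞 K)) a (normU M y) = 1 := fun y h h' =>
      sym_normU_eq_one h2 hσ LS LS' h h'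
    rcases val_cases (LS'.sym w (mapU K M a) y) with h | h <;>
      rcases val_cases (LS'.sym (Places.conj σ w) (mapU K M a) y) with h' | h'
    · rw [h, h', hone y h h', one_mul]
    · have h5 := hone (y * z') (by rw [map_mul, h, hz2', one_mul])
        (by rw [map_mul, h', hz1']; decide)
      rw [map_mul, map_mul, hz3'] at h5
      rcases val_cases (LS.sym (w.under (𝓞 K)) a (normU M y)) with h6 | h6
      · rw [h6] at h5
        exact absurd h5 (by decide)
      · rw [h, h', h6]
        decide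
    · have h5 := hone (y * z) (by rw [map_mul, h, hz1]; decide)
        (by rw [map_mul, h', hz2, one_mul])
      rw [map_mul, map_mul, hz3] at h5
      rcases val_cases (LS.sym (w.under (𝓞 K)) a (normU M y)) with h6 | h6
      · rw [h6] at h5
        exact absurd h5 (by decide)
      · rw [h, h', h6]
        decide
    · have h5 := hone (y * z * z') (by rw [map_mul, map_mul, h, hz1, hz2']; decide)
        (by rw [map_mul, map_mul, h', hz2, hz1']; decide)
      rw [map_mul, map_mul, map_mul, map_mul, hz3, hz3'] at h5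
      rcases val_cases (LS.sym (w.under (𝓞 K)) a (normU M y)) with h6 | h6
      · rw [h, h', h6]
        decide
      · rw [h6] at h5
        exact absurd h5 (by decide)

include h2 hσ in
/-- **The projection formula** `(a, N y)_v = ∏_{w ∣ v} (a, y)_w` for quadratic extensions. -/
theorem prod_sym_eq_sym_normU (LS : LocalSymbols 2 K) (LS' : LocalSymbols 2 M)
    (v : HeightOneSpectrum (𝓞 K)) (a : Kˣ) (y : Mˣ) :
    ∏ w ∈ above M {v}, LS'.sym w (mapU K M a) y = LS.sym v a (normU M y) := by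
  classical
  obtain ⟨w, rfl⟩ := Places.exists_below_eq M v
  by_cases hw : Places.conj σ w = w
  · have h1 : above M {w.under (𝓞 K)} = {w} := by
      ext w'
      rw [mem_above_iff h2 hσ, hw, or_self, Finset.mem_singleton]
    rw [h1, Finset.prod_singleton]
    exact sym_normU_of_conj_eq h2 hσ LS LS' hw a y
  · have h1 : above M {w.under (𝓞 K)} = {w, Places.conj σ w} := by
      ext w'
      rw [mem_above_iff h2 hσ, Finset.mem_insert, Finset.mem_singleton]
    rw [h1, Finset.prod_pair (Ne.symm hw)]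
    exact sym_normU_of_conj_ne h2 hσ LS LS' hw a y

include h2 hσ in
/-- The kernel of `K_vˣ/2 → ∏_{w ∣ v} M_wˣ/2`, `M = K(√δ)`, is generated by `δ`. -/
theorem mem_or_mul_mem (LS : LocalSymbols 2 K) (LS' : LocalSymbols 2 M)
    {v : HeightOneSpectrum (𝓞 K)} {r : M} {δ a : Kˣ} (hr : r ^ 2 = algebraMap K M δ)
    (hσr : σ r = -r) (h : ∀ w : HeightOneSpectrum (𝓞 M), w.under (𝓞 K) = v →
      mapU K M a ∈ locPow 2 w) : a ∈ locPow 2 v ∨ δ * a ∈ locPow 2 v := by
  by_contra hcon
  push Not at hcon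
  obtain ⟨y, hy⟩ := exists_sym_normU_ne_one' h2 hσ LS hr hσr hcon.1 hcon.2
  rw [← prod_sym_eq_sym_normU h2 hσ LS LS'] at hy
  refine hy (Finset.prod_eq_one fun w hw => LS'.sym_eq_one_of_left (h w ?_))
  rwa [mem_above, Finset.mem_singleton] at hw

end Proj

end Fermat.Agent.Cor.HM
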