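import Fermat.Agent.Corollaries.HM.AdicForms
import Fermat.Agent.CFT.Global.LocalIndex

/-!
# Algebra with the local symbols of one place

* `exists_sym_eq`: independent classes have independent symbols;
* `exists_split`: every symbol becomes trivial over `K_v(√d)`, `d ∉ K_v^2`;
* `exists_rep_of_disc`: a quaternary form whose discriminant is not a square in `K_v` is isotropic;
* `exists_two_classes`: a binary form represents at least two classes of `K_vˣ / squares`.
-/

set_option autoImplicit false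

namespace Fermat.Agent.Cor.HM

open IsDedekindDomain NumberField WithZero
open Fermat.Agent.CFT.Global Fermat.Agent.CFT.Global2
open Fermat.Agent.CFT.SUnits (ord)

section Alg

variable {K : Type*} [Field K] [NumberField K] {LS : LocalSymbols 2 K}
  {v : HeightOneSpectrum (𝓞 K)}

lemma mul_self_eq_one (t : Multiplicative (ZMod 2)) : t * t = 1 := by
  revert t
  decide

lemma sym_self_neg (a : Kˣ) : LS.sym v a (-a) = 1 :=
  LS.norm_mem v a _ ((isNormFrom_two_iff _ _).mpr ⟨0, 1, by simp⟩)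

lemma sym_neg_self (a : Kˣ) : LS.sym v (-a) a = 1 := by
  have h := sym_self_neg (LS := LS) (v := v) (-a)
  rwa [neg_neg] at h

lemma sym_mul_self_right (a b : Kˣ) : LS.sym v a (b * b) = 1 :=
  LS.sym_eq_one_of_right (sq_mem_locPow b)

lemma sym_congr_left {a b : Kˣ} (h : a * b ∈ locPow 2 v) (x : Kˣ) :
    LS.sym v a x = LS.sym v b x := by
  have h1 : LS.sym v (a * b) x = 1 := LS.sym_eq_one_of_left h
  rw [map_mul, MonoidHom.mul_apply] at h1
  have h2 := mul_self_eq_one (LS.sym v b x)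
  calc LS.sym v a x = LS.sym v a x * (LS.sym v b x * LS.sym v b x) := by rw [h2, mul_one]
    _ = LS.sym v b x := by rw [← mul_assoc, h1, one_mul]

lemma sym_congr_right {a b : Kˣ} (h : a * b ∈ locPow 2 v) (x : Kˣ) :
    LS.sym v x a = LS.sym v x b := by
  have h1 : LS.sym v x (a * b) = 1 := LS.sym_eq_one_of_right h
  rw [map_mul] at h1
  have h2 := mul_self_eq_one (LS.sym v x b)
  calc LS.sym v x a = LS.sym v x a * (LS.sym v x b * LS.sym v x b) := by rw [h2, mul_one]
    _ = LS.sym v x b := by rw [← mul_assoc, h1, one_mul]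

variable (LS) in
/-- Independent classes have independent symbols. -/
theorem exists_sym_eq {a b : Kˣ} (ha : a ∉ locPow 2 v) (hb : b ∉ locPow 2 v)
    (hab : a * b ∉ locPow 2 v) (s t : Multiplicative (ZMod 2)) :
    ∃ e, LS.sym v a e = s ∧ LS.sym v b e = t := by
  obtain ⟨x, hx⟩ := LS.sym_surjective Nat.prime_two ha (Multiplicative.ofAdd 1)
  obtain ⟨y, hy⟩ := LS.sym_surjective Nat.prime_two hb (Multiplicative.ofAdd 1)
  obtain ⟨z, hz⟩ := LS.sym_surjective Nat.prime_two hab (Multiplicative.ofAdd 1)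
  rw [map_mul, MonoidHom.mul_apply] at hz
  have key : ∀ s t p q r u : Multiplicative (ZMod 2), r * u = Multiplicative.ofAdd 1 →
      ∃ i j k : Fin 2, Multiplicative.ofAdd (1 : ZMod 2) ^ (i : ℕ) * q ^ (j : ℕ) * r ^ (k : ℕ) = s ∧
        p ^ (i : ℕ) * Multiplicative.ofAdd (1 : ZMod 2) ^ (j : ℕ) * u ^ (k : ℕ) = t := by
    decide
  obtain ⟨i, j, k, h1, h2⟩ := key s t (LS.sym v b x) (LS.sym v a y) _ _ hz
  refine ⟨x ^ (i : ℕ) * y ^ (j : ℕ) * z ^ (k : ℕ), ?_, ?_⟩
  · rw [map_mul, map_mul, map_pow, map_pow, map_pow, hx, h1]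
  · rw [map_mul, map_mul, map_pow, map_pow, map_pow, hy, h2]

variable (LS) in
/-- Every symbol becomes trivial over `K_v(√d)`, `d` not a square in `K_v`. -/
theorem exists_split (a b : Kˣ) {d : Kˣ} (hd : d ∉ locPow 2 v) :
    ∃ e : Kˣ, LS.sym v a (b * e) = 1 ∧ LS.sym v (a * d) (e * d) = 1 := by
  by_cases ha : a ∈ locPow 2 v
  · refine ⟨d, LS.sym_eq_one_of_left ha, sym_mul_self_right _ _⟩
  by_cases had : a * d ∈ locPow 2 v
  · exact ⟨b, sym_mul_self_right _ _, LS.sym_eq_one_of_left had⟩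
  obtain ⟨e, h1, h2⟩ := exists_sym_eq LS ha hd had (LS.sym v a b)
    (LS.sym v a b * LS.sym v (a * d) d)
  refine ⟨e, ?_, ?_⟩
  · rw [map_mul, h1, mul_self_eq_one]
  · rw [map_mul, map_mul (LS.sym v) a d, MonoidHom.mul_apply, h1, h2, ← map_mul,
      ← mul_assoc, mul_self_eq_one, one_mul, mul_self_eq_one]

variable (LS) in
/-- A quaternary form whose discriminant is not a square in `K_v` is isotropic. -/
theorem exists_rep_of_disc {a b c d : Kˣ} (h : a * b * c * d ∉ locPow 2 v) :
    ∃ e : Kˣ, Rep LS v a b e ∧ Rep LS v c d (-e) := by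
  by_cases h1 : -(a * b) ∈ locPow 2 v
  · refine ⟨-c, rep_of_mem h1 _, ?_⟩
    rw [neg_neg]
    exact rep_left c d
  by_cases h2 : -(c * d) ∈ locPow 2 v
  · exact ⟨a, rep_left a b, rep_of_mem h2 _⟩
  have h3 : -(a * b) * -(c * d) ∉ locPow 2 v := by
    rwa [neg_mul_neg, ← mul_assoc]
  obtain ⟨e, he1, he2⟩ := exists_sym_eq LS h1 h2 h3 (LS.sym v (-(a * b)) a)
    (LS.sym v (-(c * d)) (-c))
  refine ⟨e, ?_, ?_⟩
  · rw [Rep, map_mul, he1, mul_self_eq_one]
  · have h4 : LS.sym v (-(c * d)) (c * -e) = LS.sym v (-(c * d)) (-c) * LS.sym v (-(c * d)) e := by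
      rw [← map_mul (LS.sym v (-(c * d))), neg_mul, mul_neg]
    rw [Rep, h4, he2, mul_self_eq_one]

/-- A quaternary form of square discriminant is isotropic only if its ternary subform is. -/
theorem rep_of_rep_of_disc {a b c d e : Kˣ} (h : a * b * c * d ∈ locPow 2 v)
    (h1 : Rep LS v a b e) (h2 : Rep LS v c d (-e)) : Rep LS v a b (-c) := by
  have h3 : -(a * b) * -(c * d) ∈ locPow 2 v := by
    rwa [neg_mul_neg, ← mul_assoc]
  rw [Rep, ← sym_congr_left h3] at h2
  rw [Rep] at h1 ⊢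
  have h4 := mul_self_eq_one (LS.sym v (-(a * b)) e)
  rw [map_mul] at h1 h2
  have h5 : LS.sym v (-(a * b)) (-e) = LS.sym v (-(a * b)) (-1) * LS.sym v (-(a * b)) e := by
    rw [← map_mul, neg_one_mul]
  have h6 : LS.sym v (-(a * b)) (a * -c) =
      LS.sym v (-(a * b)) a * (LS.sym v (-(a * b)) (-1) * LS.sym v (-(a * b)) c) := by
    rw [← map_mul, ← map_mul, neg_one_mul]
  rw [h6]
  rw [h5] at h2
  calc LS.sym v (-(a * b)) a * (LS.sym v (-(a * b)) (-1) * LS.sym v (-(a * b)) c)
      = (LS.sym v (-(a * b)) a * LS.sym v (-(a * b)) e) *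
        (LS.sym v (-(a * b)) c * (LS.sym v (-(a * b)) (-1) * LS.sym v (-(a * b)) e)) *
        (LS.sym v (-(a * b)) e * LS.sym v (-(a * b)) e)⁻¹ := by
          rw [mul_inv_rev]
          have : ∀ x y z w : Multiplicative (ZMod 2),
            x * (y * z) = (x * w) * (z * (y * w)) * (w⁻¹ * w⁻¹) := by decide
          exact this _ _ _ _
    _ = 1 := by rw [h1, h2, h4, inv_one, one_mul, one_mul]

lemma not_mem_locPow_of_ord_eq_one {π : Kˣ} (hπ : ord v π = 1) : π ∉ locPow 2 v := by
  intro h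
  have h1 := dvd_ord_of_mem_locPow h
  rw [hπ] at h1
  norm_num at h1

lemma ord_neg (x : Kˣ) : ord v (-x) = ord v x := by
  have h1 := Fermat.Agent.CFT.SUnits.valuation_eq_exp_neg_ord K (R := 𝓞 K) v (-x)
  have h2 := Fermat.Agent.CFT.SUnits.valuation_eq_exp_neg_ord K (R := 𝓞 K) v x
  rw [Units.val_neg, Valuation.map_neg, h2, exp_inj] at h1
  omega

variable (LS) in
/-- A nontrivial norm group contains elements which are not squares. -/
theorem exists_sym_eq_one (d : Kˣ) : ∃ f : Kˣ, LS.sym v d f = 1 ∧ f ∉ locPow 2 v := by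
  by_contra! hcon
  obtain ⟨π, hπ⟩ := exists_ord_eq_one v
  have hg : ∀ t : Multiplicative (ZMod 2), t = 1 ∨ t = Multiplicative.ofAdd 1 := by decide
  have h1 : LS.sym v d π = Multiplicative.ofAdd 1 :=
    (hg _).resolve_left fun h => not_mem_locPow_of_ord_eq_one hπ (hcon π h)
  have hm : (-1 : Kˣ) ∈ locPow 2 v := by
    rcases hg (LS.sym v d (-1)) with h | h
    · exact hcon _ h
    · exfalso
      have h2 : LS.sym v d (-π) = 1 := by
        rw [← neg_one_mul, map_mul, h, h1]
        exact mul_self_eq_one _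
      refine not_mem_locPow_of_ord_eq_one (π := -π) ?_ (hcon _ h2)
      rw [ord_neg, hπ]
  have hππ : LS.sym v π π = 1 := by
    have h2 := sym_self_neg (LS := LS) (v := v) π
    rw [← neg_one_mul, map_mul, LS.sym_eq_one_of_right hm, one_mul] at h2
    exact h2
  refine not_mem_locPow_of_ord_eq_one hπ ((LS.mem_locPow_iff v π).mpr fun x => ?_)
  rcases hg (LS.sym v d x) with h | h
  · exact LS.sym_eq_one_of_right (hcon x h)
  · have h2 : LS.sym v d (π * x) = 1 := by
      rw [map_mul, h, h1]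
      exact mul_self_eq_one _
    have h3 : LS.sym v π (π * x) = 1 := LS.sym_eq_one_of_right (hcon _ h2)
    rwa [map_mul, hππ, one_mul] at h3

variable (LS) in
/-- A binary form represents at least two classes. -/
theorem exists_two_classes (a b D : Kˣ) : ∃ e : Kˣ, Rep LS v a b e ∧ e * D ∉ locPow 2 v := by
  by_cases haD : a * D ∈ locPow 2 v
  · obtain ⟨f, hf1, hf2⟩ := exists_sym_eq_one LS (v := v) (-(a * b))
    refine ⟨a * f, ?_, ?_⟩
    · rw [Rep, ← mul_assoc, map_mul, sym_mul_self_right, one_mul, hf1]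
    · intro h
      apply hf2
      have h1 := (locPow 2 v).div_mem h haD
      have h2 : a * f * D / (a * D) = f := by
        rw [div_eq_iff_eq_mul]
        rw [mul_comm a f, mul_assoc]
      rwa [h2] at h1
  · exact ⟨a, rep_left a b, haD⟩

/-- unit forms away from `2` -/
theorem rep_of_units (hv : ((2 : ℕ) : 𝓞 K) ∉ v.asIdeal) {e c d f : Kˣ} (hc : ord v c = 0)
    (hd : ord v d = 0) (hf : ord v f = 0) : Rep LS v e c c ∧ Rep LS v d f (-c) := by
  have hmul : ∀ x y : Kˣ, ord v x = 0 → ord v y = 0 → ord v (x * y) = 0 := by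
    intro x y hx hy
    rw [Fermat.Agent.CFT.SUnits.ord_mul, hx, hy, add_zero]
  constructor
  · exact sym_neg_self (e * c)
  · refine LS.unit_mem v hv _ _ ?_ ?_
    · rw [ord_neg]
      exact hmul _ _ hd hf
    · refine hmul _ _ hd ?_
      rw [ord_neg]
      exact hc

end Alg

end Fermat.Agent.Cor.HM
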