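import Fermat.Agent.Corollaries.HM.RatDir
import Fermat.Agent.Corollaries.HM.SymAlg

/-!
# The local symbols of `ℚ` at the odd places and at `2`
-/

set_option autoImplicit false

namespace Fermat.Agent.Cor.HM

namespace RatLoc

open IsDedekindDomain NumberField WithZero Rat.HeightOneSpectrum RatDir
open Fermat.Agent.CFT Fermat.Agent.CFT.Global Fermat.Agent.CFT.Global2
open Fermat.Agent.CFT.SUnits (ord)

section Units

/-- a non-zero integer as a unit of `ℚ` -/
noncomputable def iu (k : ℤ) (hk : k ≠ 0) : ℚˣ := Units.mk0 (k : ℚ) (by exact_mod_cast hk)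

@[simp] lemma iu_val {k : ℤ} (hk : k ≠ 0) : (iu k hk : ℚ) = k := rfl

lemma iu_mul {k l : ℤ} (hk : k ≠ 0) (hl : l ≠ 0) : iu (k * l) (mul_ne_zero hk hl) =
    iu k hk * iu l hl := by
  apply Units.ext
  push_cast [iu_val, Units.val_mul]
  rfl

/-- `ℚˣ` is generated by `-1` and the primes. -/
theorem units_induction {P : ℚˣ → Prop} (h1 : P (-1))
    (hp : ∀ (p : ℕ) (hp : p.Prime), P (iu p (by exact_mod_cast hp.ne_zero)))
    (hmul : ∀ x y, P x → P y → P (x * y)) (hinv : ∀ x, P x → P x⁻¹) (x : ℚˣ) : P x := by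
  have hone : P 1 := by
    have h := hmul _ _ h1 h1
    rwa [neg_mul_neg, one_mul] at h
  have hnat : ∀ (n : ℕ) (hn : n ≠ 0), P (iu n (by exact_mod_cast hn)) := by
    intro n
    induction n using Nat.recOnMul with
    | zero => exact fun h => absurd rfl h
    | one =>
      intro _
      have h : iu ((1 : ℕ) : ℤ) (by norm_num) = 1 := Units.ext (by simp)
      rw [h]
      exact hone
    | prime p hpp => exact fun _ => hp p hpp
    | mul a b ha hb =>
      intro hab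
      have ha0 : a ≠ 0 := left_ne_zero_of_mul hab
      have hb0 : b ≠ 0 := right_ne_zero_of_mul hab
      have h : iu ((a * b : ℕ) : ℤ) (by exact_mod_cast hab) =
          iu (a : ℤ) (by exact_mod_cast ha0) * iu (b : ℤ) (by exact_mod_cast hb0) :=
        Units.ext (by simp)
      rw [h]
      exact hmul _ _ (ha ha0) (hb hb0)
  have hnum : (x : ℚ).num.natAbs ≠ 0 := Int.natAbs_ne_zero.mpr (Rat.num_ne_zero.mpr x.ne_zero)
  have hden : (x : ℚ).den ≠ 0 := (x : ℚ).den_ne_zero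
  have hden' : (((x : ℚ).den : ℕ) : ℚ) ≠ 0 := by exact_mod_cast hden
  have hx : (x : ℚ) = ((x : ℚ).num : ℚ) / ((x : ℚ).den : ℚ) := (Rat.num_div_den _).symm
  rcases Int.natAbs_eq (x : ℚ).num with h | h
  · have h2 : x = iu (((x : ℚ).num.natAbs : ℕ) : ℤ) (by exact_mod_cast hnum) *
        (iu (((x : ℚ).den : ℕ) : ℤ) (by exact_mod_cast hden))⁻¹ := by
      apply Units.ext
      rw [Units.val_mul, Units.val_inv_eq_inv_val, iu_val, iu_val, ← h, Int.cast_natCast,
        ← div_eq_mul_inv]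
      exact hx
    rw [h2]
    exact hmul _ _ (hnat _ hnum) (hinv _ (hnat _ hden))
  · have h2 : x = (-1) * (iu (((x : ℚ).num.natAbs : ℕ) : ℤ) (by exact_mod_cast hnum) *
        (iu (((x : ℚ).den : ℕ) : ℤ) (by exact_mod_cast hden))⁻¹) := by
      apply Units.ext
      rw [Units.val_mul, Units.val_mul, Units.val_inv_eq_inv_val, iu_val, iu_val,
        Int.cast_natCast (x : ℚ).den, Units.val_neg, Units.val_one, neg_one_mul, ← neg_mul,
        ← Int.cast_neg, ← h, ← div_eq_mul_inv]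
      exact hx
    rw [h2]
    exact hmul _ _ h1 (hmul _ _ (hnat _ hnum) (hinv _ (hnat _ hden)))

end Units

section Place

variable (v : HeightOneSpectrum (𝓞 ℚ))

lemma mem_asIdeal_iff (k : ℤ) : (k : 𝓞 ℚ) ∈ v.asIdeal ↔ (natGenerator v : ℤ) ∣ k := by
  rw [← v.valuation_lt_one_iff_mem (K := ℚ), ← val_intCast_lt_one_iff]
  simp

lemma asIdeal_eq : v.asIdeal = Ideal.span {((natGenerator v : ℤ) : 𝓞 ℚ)} := by
  ext x
  obtain ⟨k, rfl⟩ := Rat.int_algebraMap_surjective (𝓞 ℚ) x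
  rw [Ideal.mem_span_singleton, eq_intCast, mem_asIdeal_iff]
  constructor
  · rintro ⟨l, rfl⟩
    exact ⟨(l : 𝓞 ℚ), by push_cast; ring⟩
  · rintro ⟨y, hy⟩
    obtain ⟨l, rfl⟩ := Rat.int_algebraMap_surjective (𝓞 ℚ) y
    rw [eq_intCast, ← Int.cast_mul] at hy
    exact ⟨l, by exact_mod_cast hy⟩

lemma val_gen : v.valuation ℚ ((natGenerator v : ℤ) : ℚ) = exp (-1 : ℤ) := by
  have h0 : ((natGenerator v : ℤ) : 𝓞 ℚ) ≠ 0 := by
    exact_mod_cast (prime_natGenerator v).ne_zero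
  have h1 := v.intValuation_singleton h0 (asIdeal_eq v)
  rw [← v.valuation_of_algebraMap (K := ℚ)] at h1
  simpa using h1

lemma pow_dvd_of_val_le {m : ℕ} {k : ℤ} (h : v.valuation ℚ (k : ℚ) ≤ exp (-(m : ℤ))) :
    (natGenerator v : ℤ) ^ m ∣ k := by
  induction m generalizing k with
  | zero => exact one_dvd _
  | succ m ih =>
    have h1 : v.valuation ℚ (k : ℚ) < 1 := by
      refine lt_of_le_of_lt h ?_
      rw [← exp_zero, exp_lt_exp]
      omega
    obtain ⟨l, rfl⟩ := (val_intCast_lt_one_iff v k).mp h1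
    rw [pow_succ']
    apply mul_dvd_mul_left
    apply ih
    rw [Int.cast_mul, map_mul, val_gen] at h
    have h2 : exp (-((m + 1 : ℕ) : ℤ)) = (exp (-1 : ℤ) : ℤᵐ⁰) * exp (-(m : ℤ)) := by
      rw [← exp_add]
      congr 1
      push_cast
      ring
    rw [h2] at h
    exact (mul_le_mul_iff_right₀ (exp_pos)).mp h

lemma ord_iu {k : ℤ} (hk : k ≠ 0) (h : ¬ (natGenerator v : ℤ) ∣ k) : ord v (iu k hk) = 0 := by
  rw [SUnits.ord_eq_zero_iff, iu_val]
  exact val_intCast_eq_one v h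

lemma ord_neg_one : ord v (-1 : ℚˣ) = 0 := by
  rw [ord_neg, SUnits.ord_one]

lemma not_dvd_num_den {v : HeightOneSpectrum (𝓞 ℚ)} {z : ℚˣ} (hz : ord v z = 0) :
    ¬ (natGenerator v : ℤ) ∣ (z : ℚ).num ∧ ¬ (natGenerator v : ℤ) ∣ ((z : ℚ).den : ℤ) := by
  have hzq : (z : ℚ) = ((z : ℚ).num : ℚ) / (((z : ℚ).den : ℤ) : ℚ) := by
    rw [Int.cast_natCast]
    exact (Rat.num_div_den _).symm
  have hden0 : (((z : ℚ).den : ℤ) : ℚ) ≠ 0 := by
    exact_mod_cast (z : ℚ).den_ne_zero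
  have hval : v.valuation ℚ (((z : ℚ).num : ℤ) : ℚ) = v.valuation ℚ ((((z : ℚ).den : ℤ)) : ℚ) := by
    have h1 := (SUnits.ord_eq_zero_iff ℚ v z).mp hz
    rw [hzq, map_div₀, div_eq_one_iff_eq ((Valuation.ne_zero_iff _).mpr hden0)] at h1
    exact h1
  have h1 : ¬ ((natGenerator v : ℤ) ∣ (z : ℚ).num ∧
      (natGenerator v : ℤ) ∣ ((z : ℚ).den : ℤ)) := by
    rintro ⟨h2, h3⟩
    have h4 := Nat.dvd_gcd (Int.natCast_dvd.mp h2) (by exact_mod_cast h3)
    rw [(z : ℚ).reduced] at h4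
    exact (prime_natGenerator v).one_lt.ne' (Nat.dvd_one.mp h4)
  have h5 : (natGenerator v : ℤ) ∣ (z : ℚ).num ↔ (natGenerator v : ℤ) ∣ ((z : ℚ).den : ℤ) := by
    rw [← val_intCast_lt_one_iff, ← val_intCast_lt_one_iff, hval]
  tauto

/-- An integer congruent to a square is a local square. -/
lemma iu_mem_locPow {m : ℕ} (hm : cong v m ≤ locPow 2 v) {u a : ℤ} (hu : u ≠ 0)
    (ha : ¬ (natGenerator v : ℤ) ∣ a) (h : (natGenerator v : ℤ) ^ (m + 1) ∣ u - a ^ 2) :
    iu u hu ∈ locPow 2 v := by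
  have ha0 : a ≠ 0 := fun h0 => ha (h0 ▸ dvd_zero _)
  have h1 : iu u hu / iu a ha0 ^ 2 ∈ locPow 2 v := by
    apply hm
    rw [mem_cong]
    have h2 : ((iu u hu / iu a ha0 ^ 2 : ℚˣ) : ℚ) - 1 = ((u - a ^ 2 : ℤ) : ℚ) / ((a ^ 2 : ℤ) : ℚ) := by
      have h3 : (a : ℚ) ≠ 0 := by exact_mod_cast ha0
      rw [Units.val_div_eq_div_val, Units.val_pow_eq_pow_val, iu_val, iu_val]
      push_cast
      field_simp
    rw [h2, map_div₀, val_intCast_eq_one v (k := a ^ 2), div_one]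
    · refine (val_le_of_pow_dvd v h).trans (le_of_eq ?_)
      push_cast
      rfl
    · intro h3
      exact ha ((Nat.prime_iff_prime_int.mp (prime_natGenerator v)).dvd_of_dvd_pow h3)
  have h2 := mul_mem h1 (pow_mem_locPow 2 v (iu a ha0))
  rwa [div_mul_cancel] at h2

/-- A local square is congruent to a square. -/
lemma exists_of_mem_locPow {u : ℤ} (hu : u ≠ 0) (hu' : ¬ (natGenerator v : ℤ) ∣ u)
    (h : iu u hu ∈ locPow 2 v) (m : ℕ) : ∃ a b : ℤ, ¬ (natGenerator v : ℤ) ∣ a ∧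
      ¬ (natGenerator v : ℤ) ∣ b ∧ (natGenerator v : ℤ) ^ (m + 1) ∣ u * b ^ 2 - a ^ 2 := by
  obtain ⟨y, hy⟩ := mem_locPow.mp h m
  have h1 : ord v (iu u hu / y ^ 2) = 0 := ord_eq_zero_of_mem_cong (n := m) (mem_cong.mpr hy)
  have h2 : ord v y = 0 := by
    rw [SUnits.ord_div, SUnits.ord_pow, ord_iu v hu hu'] at h1
    push_cast at h1
    omega
  obtain ⟨h3, h4⟩ := not_dvd_num_den h2
  refine ⟨(y : ℚ).num, ((y : ℚ).den : ℤ), h3, h4, pow_dvd_of_val_le v ?_⟩
  have h5 : (((y : ℚ).num : ℤ) : ℚ) ≠ 0 := by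
    exact_mod_cast Rat.num_ne_zero.mpr y.ne_zero
  have h6 : ((u * ((y : ℚ).den : ℤ) ^ 2 - (y : ℚ).num ^ 2 : ℤ) : ℚ) =
      (((iu u hu / y ^ 2 : ℚˣ) : ℚ) - 1) * (((y : ℚ).num ^ 2 : ℤ) : ℚ) := by
    have h7 : (y : ℚ) * ((y : ℚ).den : ℚ) = ((y : ℚ).num : ℚ) := Rat.mul_den_eq_num _
    rw [Units.val_div_eq_div_val, Units.val_pow_eq_pow_val, iu_val]
    push_cast
    rw [← h7]
    have h8 := y.ne_zero
    field_simp
  rw [h6, map_mul, val_intCast_eq_one v (k := (y : ℚ).num ^ 2), mul_one]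
  · refine le_of_le_of_eq hy ?_
    push_cast
    rfl
  · intro h7
    exact h3 ((Nat.prime_iff_prime_int.mp (prime_natGenerator v)).dvd_of_dvd_pow h7)

end Place

section Odd

variable {v : HeightOneSpectrum (𝓞 ℚ)} (hv : natGenerator v ≠ 2)

include hv

lemma two_notMem : ((2 : ℕ) : 𝓞 ℚ) ∉ v.asIdeal := by
  intro h
  have h1 : ((2 : ℤ) : 𝓞 ℚ) ∈ v.asIdeal := by exact_mod_cast h
  rw [mem_asIdeal_iff] at h1
  have h2 : natGenerator v ∣ 2 := by exact_mod_cast h1
  exact hv ((Nat.prime_dvd_prime_iff_eq (prime_natGenerator v) Nat.prime_two).mp h2)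

/-- **Local squares at an odd place.** -/
theorem iu_mem_locPow_iff {u : ℤ} (hu : u ≠ 0) (hu' : ¬ (natGenerator v : ℤ) ∣ u) :
    iu u hu ∈ locPow 2 v ↔ IsSquare (u : ZMod (natGenerator v)) := by
  have : Fact (natGenerator v).Prime := ⟨prime_natGenerator v⟩
  constructor
  · intro h
    obtain ⟨a, b, ha, hb, hab⟩ := exists_of_mem_locPow v hu hu' h 0
    rw [zero_add, pow_one, ← ZMod.intCast_zmod_eq_zero_iff_dvd] at hab
    have hb' : (b : ZMod (natGenerator v)) ≠ 0 := by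
      rwa [Ne, ZMod.intCast_zmod_eq_zero_iff_dvd]
    refine ⟨(a : ZMod (natGenerator v)) / b, ?_⟩
    push_cast at hab
    field_simp
    linear_combination hab
  · rintro ⟨y, hy⟩
    obtain ⟨a, rfl⟩ := ZMod.intCast_surjective y
    have h1 : (natGenerator v : ℤ) ∣ u - a ^ 2 := by
      rw [← ZMod.intCast_zmod_eq_zero_iff_dvd]
      push_cast
      rw [hy]
      ring
    refine iu_mem_locPow v (m := 0) (cong_zero_le_locPow 2 two_ne_zero v (two_notMem hv)) hu
      (a := a) ?_ (by rwa [zero_add, pow_one])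
    intro h2
    apply hu'
    have h3 := dvd_add h1 (dvd_pow h2 two_ne_zero)
    rwa [sub_add_cancel] at h3

end Odd

section Symbol

variable (LS : LocalSymbols 2 ℚ) (v : HeightOneSpectrum (𝓞 ℚ))

/-- the additive symbol -/
def hh (a b : ℚˣ) : ZMod 2 := (LS.sym v a b).toAdd

variable {LS} {v}

lemma hh_eq_zero_iff {a b : ℚˣ} : hh LS v a b = 0 ↔ LS.sym v a b = 1 := by
  rw [hh]
  exact toAdd_eq_zero

lemma hh_mul_left (a b c : ℚˣ) : hh LS v (a * b) c = hh LS v a c + hh LS v b c := by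
  rw [hh, map_mul, MonoidHom.mul_apply, toAdd_mul]
  rfl

lemma hh_mul_right (a b c : ℚˣ) : hh LS v a (b * c) = hh LS v a b + hh LS v a c := by
  rw [hh, map_mul, toAdd_mul]
  rfl

lemma hh_comm (a b : ℚˣ) : hh LS v a b = hh LS v b a := by
  have h := congrArg Multiplicative.toAdd (LS.skew v a b)
  rw [toAdd_mul, toAdd_one] at h
  change hh LS v a b + hh LS v b a = 0 at h
  revert h
  generalize hh LS v a b = s
  generalize hh LS v b a = t
  revert s t
  decide

lemma hh_one_right (a : ℚˣ) : hh LS v a 1 = 0 := by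
  rw [hh_eq_zero_iff, map_one]

lemma hh_one_left (a : ℚˣ) : hh LS v 1 a = 0 := by
  rw [hh_comm, hh_one_right]

lemma hh_congr_right {a b : ℚˣ} (h : a * b ∈ locPow 2 v) (x : ℚˣ) :
    hh LS v x a = hh LS v x b := by
  rw [hh, hh, sym_congr_right h]

lemma hh_self_neg (a : ℚˣ) : hh LS v a (-a) = 0 := hh_eq_zero_iff.mpr (sym_self_neg a)

lemma hh_self (a : ℚˣ) : hh LS v a a = hh LS v a (-1) := by
  have h : a = (-1) * (-a) := by rw [neg_one_mul, neg_neg]
  have h1 := hh_mul_right (LS := LS) (v := v) a (-1) (-a)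
  rw [← h, hh_self_neg, add_zero] at h1
  exact h1

lemma hh_of_norm {a x : ℚˣ} (s t : ℚ) (h : (x : ℚ) = s ^ 2 - a * t ^ 2) : hh LS v a x = 0 :=
  hh_eq_zero_iff.mpr (LS.norm_mem v a x ((isNormFrom_two_iff a x).mpr ⟨s, t, h⟩))

/-- nondegeneracy -/
lemma mem_of_hh {a : ℚˣ} (h : ∀ x, hh LS v a x = 0) : a ∈ locPow 2 v :=
  (LS.mem_locPow_iff v a).mpr fun x => hh_eq_zero_iff.mp (h x)

lemma hh_induction {a : ℚˣ} (h1 : hh LS v a (-1) = 0)
    (hp : ∀ (p : ℕ) (hp : p.Prime), hh LS v a (iu p (by exact_mod_cast hp.ne_zero)) = 0) (x : ℚˣ) :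
    hh LS v a x = 0 := by
  refine units_induction (P := fun x => hh LS v a x = 0) h1 hp (fun x y hx hy => ?_)
    (fun x hx => ?_) x
  · rw [hh_mul_right, hx, hy, add_zero]
  · have h := hh_mul_right (LS := LS) (v := v) a x x⁻¹
    rw [mul_inv_cancel, hh_one_right, hx, zero_add] at h
    exact h.symm

/-- **The symbol at an odd place.** -/
theorem hh_units (hv : natGenerator v ≠ 2) {a x : ℚˣ} (ha : ord v a = 0) (hx : ord v x = 0) :
    hh LS v a x = 0 :=
  hh_eq_zero_iff.mpr (LS.unit_mem v (two_notMem hv) a x ha hx)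

theorem hh_gen (hv : natGenerator v ≠ 2) {u : ℤ} (hu : u ≠ 0) (hu' : ¬ (natGenerator v : ℤ) ∣ u)
    {g : ℚˣ} (hg : (g : ℚ) = natGenerator v) :
    hh LS v g (iu u hu) = 0 ↔ IsSquare (u : ZMod (natGenerator v)) := by
  rw [← iu_mem_locPow_iff hv hu hu']
  constructor
  · intro h
    apply mem_of_hh (LS := LS)
    refine hh_induction (hh_units hv (ord_iu v hu hu') (ord_neg_one v)) fun p hp => ?_
    by_cases hpv : natGenerator v = p
    · have h1 : iu (p : ℤ) (by exact_mod_cast hp.ne_zero) = g := by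
        apply Units.ext
        rw [iu_val, hg, ← hpv, Int.cast_natCast]
      rw [h1, hh_comm]
      exact h
    · refine hh_units hv (ord_iu v hu hu') (ord_iu v _ fun h1 => hpv ?_)
      exact (Nat.prime_dvd_prime_iff_eq (prime_natGenerator v) hp).mp (by exact_mod_cast h1)
  · intro h
    rw [hh_eq_zero_iff]
    exact LS.sym_eq_one_of_right h

end Symbol

section Two

lemma sq_mod_eight {a : ℤ} (h : ¬ (2 : ℤ) ∣ a) : a ^ 2 % 8 = 1 := by
  have h1 : a % 8 = 1 ∨ a % 8 = 3 ∨ a % 8 = 5 ∨ a % 8 = 7 := by omega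
  rcases h1 with h1 | h1 | h1 | h1 <;> simp [pow_two, Int.mul_emod, h1]

variable {LS : LocalSymbols 2 ℚ} {v : HeightOneSpectrum (𝓞 ℚ)}

lemma cong_two_le (hv : natGenerator v = 2) : cong v 2 ≤ locPow 2 v := by
  refine cong_le_of_newton 2 v 2 fun k hk => newton 2 two_ne_zero v 1 ?_ k (by omega)
  have h := val_gen v
  rw [hv] at h
  push_cast at h ⊢
  exact h

/-- **Local squares at the place `2`.** -/
theorem iu_mem_locPow_two (hv : natGenerator v = 2) {u : ℤ} (hu : u ≠ 0) (hodd : ¬ (2 : ℤ) ∣ u) :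
    iu u hu ∈ locPow 2 v ↔ u % 8 = 1 := by
  constructor
  · intro h
    obtain ⟨a, b, ha, hb, hab⟩ := exists_of_mem_locPow v hu (by rwa [hv]) h 2
    rw [hv] at ha hb hab
    have h1 := sq_mod_eight ha
    have h2 := sq_mod_eight hb
    norm_num at hab
    have h3 : (u * b ^ 2 - a ^ 2) % 8 = 0 := Int.emod_eq_zero_of_dvd hab
    rw [Int.sub_emod, Int.mul_emod, h1, h2] at h3
    omega
  · intro h
    refine iu_mem_locPow v (m := 2) (cong_two_le hv) hu (a := 1) ?_ ?_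
    · rw [hv]
      norm_num
    · rw [hv]
      norm_num
      omega

/-- `5` as a unit -/
noncomputable abbrev five : ℚˣ := iu 5 (by norm_num)

/-- `2` as a unit -/
noncomputable abbrev two : ℚˣ := iu 2 (by norm_num)

lemma exists_class (hv : natGenerator v = 2) {u : ℤ} (hu : u ≠ 0) (hodd : ¬ (2 : ℤ) ∣ u) :
    (u % 8 = 1 ∧ ∀ x, hh LS v x (iu u hu) = 0) ∨
    (u % 8 = 7 ∧ ∀ x, hh LS v x (iu u hu) = hh LS v x (-1)) ∨
    (u % 8 = 5 ∧ ∀ x, hh LS v x (iu u hu) = hh LS v x five) ∨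
    (u % 8 = 3 ∧ ∀ x, hh LS v x (iu u hu) = hh LS v x (-1) + hh LS v x five) := by
  have h1 : u % 8 = 1 ∨ u % 8 = 7 ∨ u % 8 = 5 ∨ u % 8 = 3 := by omega
  rcases h1 with h1 | h1 | h1 | h1
  · refine Or.inl ⟨h1, fun x => ?_⟩
    rw [hh_eq_zero_iff]
    exact LS.sym_eq_one_of_right ((iu_mem_locPow_two hv hu hodd).mpr h1)
  · refine Or.inr (Or.inl ⟨h1, fun x => hh_congr_right ?_ x⟩)
    have h2 : iu u hu * (-1) = iu (-u) (neg_ne_zero.mpr hu) := Units.ext (by simp)
    rw [h2, iu_mem_locPow_two hv _ (by omega)]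
    omega
  · refine Or.inr (Or.inr (Or.inl ⟨h1, fun x => hh_congr_right ?_ x⟩))
    have h2 : iu u hu * five = iu (u * 5) (mul_ne_zero hu (by norm_num)) := Units.ext (by simp)
    rw [h2, iu_mem_locPow_two hv _ (by omega)]
    omega
  · refine Or.inr (Or.inr (Or.inr ⟨h1, fun x => ?_⟩))
    rw [← hh_mul_right]
    refine hh_congr_right ?_ x
    have h2 : iu u hu * ((-1) * five) = iu (u * (-5)) (mul_ne_zero hu (by norm_num)) :=
      Units.ext (by simp)
    rw [h2, iu_mem_locPow_two hv _ (by omega)]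
    omega

lemma hh_neg_one_two : hh LS v (-1) two = 0 :=
  hh_of_norm 1 1 (by rw [iu_val, Units.val_neg, Units.val_one]; norm_num)

lemma hh_neg_one_five : hh LS v (-1) five = 0 :=
  hh_of_norm 1 2 (by rw [iu_val, Units.val_neg, Units.val_one]; norm_num)

lemma hh_two_two : hh LS v two two = 0 := by
  rw [hh_self, hh_comm, hh_neg_one_two]

lemma hh_five_five : hh LS v five five = 0 := by
  rw [hh_self, hh_comm, hh_neg_one_five]

lemma eq_one_of_ne {t : ZMod 2} (h : t ≠ 0) : t = 1 := by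
  revert t
  decide

lemma hh_neg_one_neg_one (hv : natGenerator v = 2) : hh LS v (-1) (-1) = 1 := by
  apply eq_one_of_ne
  intro h
  have h1 : ∀ x, hh LS v (-1) x = 0 := hh_induction h fun p hp => by
    by_cases hp2 : p = 2
    · subst hp2
      exact hh_neg_one_two
    · have hodd : ¬ (2 : ℤ) ∣ (p : ℤ) := by
        intro h2
        exact hp2 ((Nat.prime_dvd_prime_iff_eq Nat.prime_two hp).mp (by exact_mod_cast h2)).symm
      rcases exists_class (LS := LS) hv (u := p) (by exact_mod_cast hp.ne_zero) hodd with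
        h2 | h2 | h2 | h2
      · exact h2.2 _
      · rw [h2.2, h]
      · rw [h2.2, hh_neg_one_five]
      · rw [h2.2, hh_neg_one_five, h, add_zero]
  have h2 := mem_of_hh h1
  have h3 : (-1 : ℚˣ) = iu (-1) (by norm_num) := Units.ext (by simp)
  rw [h3, iu_mem_locPow_two hv _ (by norm_num)] at h2
  norm_num at h2

lemma hh_five_two (hv : natGenerator v = 2) : hh LS v five two = 1 := by
  apply eq_one_of_ne
  intro h
  have h0 : hh LS v five (-1) = 0 := by rw [hh_comm, hh_neg_one_five]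
  have h1 : ∀ x, hh LS v five x = 0 := hh_induction h0 fun p hp => by
    by_cases hp2 : p = 2
    · subst hp2
      exact h
    · have hodd : ¬ (2 : ℤ) ∣ (p : ℤ) := by
        intro h2
        exact hp2 ((Nat.prime_dvd_prime_iff_eq Nat.prime_two hp).mp (by exact_mod_cast h2)).symm
      rcases exists_class (LS := LS) hv (u := p) (by exact_mod_cast hp.ne_zero) hodd with
        h2 | h2 | h2 | h2
      · exact h2.2 _
      · rw [h2.2, h0]
      · rw [h2.2, hh_five_five]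
      · rw [h2.2, hh_five_five, h0, add_zero]
  have h2 := mem_of_hh h1
  rw [iu_mem_locPow_two hv _ (by norm_num)] at h2
  norm_num at h2

/-- `(-1, u)` at `2` -/
theorem hh_neg_one_odd (hv : natGenerator v = 2) {u : ℤ} (hu : u ≠ 0) (hodd : ¬ (2 : ℤ) ∣ u) :
    hh LS v (-1) (iu u hu) = if u % 4 = 3 then 1 else 0 := by
  rcases exists_class (LS := LS) hv hu hodd with h | h | h | h
  · rw [h.2, if_neg (by omega)]
  · rw [h.2, hh_neg_one_neg_one hv, if_pos (by omega)]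
  · rw [h.2, hh_neg_one_five, if_neg (by omega)]
  · rw [h.2, hh_neg_one_neg_one hv, hh_neg_one_five, add_zero, if_pos (by omega)]

/-- `(2, u)` at `2` -/
theorem hh_two_odd (hv : natGenerator v = 2) {u : ℤ} (hu : u ≠ 0) (hodd : ¬ (2 : ℤ) ∣ u) :
    hh LS v two (iu u hu) = if u % 8 = 1 ∨ u % 8 = 7 then 0 else 1 := by
  have h0 : hh LS v two (-1) = 0 := by rw [hh_comm, hh_neg_one_two]
  have h5 : hh LS v two five = 1 := by rw [hh_comm, hh_five_two hv]
  rcases exists_class (LS := LS) hv hu hodd with h | h | h | h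
  · rw [h.2, if_pos (by omega)]
  · rw [h.2, h0, if_pos (by omega)]
  · rw [h.2, h5, if_neg (by omega)]
  · rw [h.2, h0, h5, zero_add, if_neg (by omega)]

/-- `(5, u)` at `2` for odd `u` -/
theorem hh_five_odd (hv : natGenerator v = 2) {u : ℤ} (hu : u ≠ 0) (hodd : ¬ (2 : ℤ) ∣ u) :
    hh LS v five (iu u hu) = 0 := by
  have h0 : hh LS v five (-1) = 0 := by rw [hh_comm, hh_neg_one_five]
  rcases exists_class (LS := LS) hv hu hodd with h | h | h | h
  · rw [h.2]
  · rw [h.2, h0]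
  · rw [h.2, hh_five_five]
  · rw [h.2, h0, hh_five_five, zero_add]

/-- `(u, w)` at `2` for odd `u`, `w` -/
theorem hh_odd_odd (hv : natGenerator v = 2) {u w : ℤ} (hu : u ≠ 0) (hodd : ¬ (2 : ℤ) ∣ u)
    (hw : w ≠ 0) (hodd' : ¬ (2 : ℤ) ∣ w) :
    hh LS v (iu u hu) (iu w hw) = if u % 4 = 3 ∧ w % 4 = 3 then 1 else 0 := by
  have h1 := hh_neg_one_odd (LS := LS) hv hu hodd
  have h5 := hh_five_odd (LS := LS) hv hu hodd
  rw [hh_comm] at h1 h5
  rcases exists_class (LS := LS) hv hw hodd' with h | h | h | h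
  · rw [h.2, if_neg (by omega)]
  · rw [h.2, h1]
    by_cases h6 : u % 4 = 3
    · rw [if_pos h6, if_pos (by omega)]
    · rw [if_neg h6, if_neg (by omega)]
  · rw [h.2, h5, if_neg (by omega)]
  · rw [h.2, h1, h5, add_zero]
    by_cases h6 : u % 4 = 3
    · rw [if_pos h6, if_pos (by omega)]
    · rw [if_neg h6, if_neg (by omega)]

end Two

end RatLoc

end Fermat.Agent.Cor.HM
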