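import Fermat.Agent.Corollaries.HM.Main
import Fermat.Agent.Corollaries.HM.WeakHasse

/-!
# The weak Hasse principle over totally complex number fields

`K` is a totally complex number field, `K_v = v.adicCompletion K`.

* `equivalent_iff_local`: two regular quadratic forms over `K` are equivalent iff they are
  equivalent over every `K_v`.
-/

set_option autoImplicit false

namespace Fermat.Agent.Cor.HM

open IsDedekindDomain NumberField QuadraticMap
open scoped TensorProduct

section WeakK

variable {K : Type} [Field K] [NumberField K] [IsTotallyComplex K] [Invertible (2 : K)]
  {V W : Type*} [AddCommGroup V] [Module K V] [FiniteDimensional K V] [AddCommGroup W]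
  [Module K W] [FiniteDimensional K W]

/-- **The weak Hasse principle** (Hasse 1924).  Two regular quadratic forms over a totally complex
number field are equivalent iff they are equivalent over all completions. -/
theorem equivalent_iff_local {Q : QuadraticForm K V} {Q' : QuadraticForm K W}
    (hQ : (associated (R := K) Q).SeparatingLeft) (hQ' : (associated (R := K) Q').SeparatingLeft) :
    Q.Equivalent Q' ↔ ∀ v : HeightOneSpectrum (𝓞 K),
      (Q.baseChange (v.adicCompletion K)).Equivalent (Q'.baseChange (v.adicCompletion K)) :=
  equivalent_of_family (diagLocalGlobal K) hQ hQ'

end WeakK

end Fermat.Agent.Cor.HM
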