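import Mathlib
import Fermat.Agent.Corollaries.HM.Classify

/-!
# Witt's decomposition theorem

Over every field `F` of characteristic different from two: a regular quadratic form is the
orthogonal sum of `m` hyperbolic planes and an anisotropic form (`exists_witt_decomposition`),
and `m` and the class of the anisotropic form are determined by the form (`witt_unique`). The
number `m` is the largest dimension of a totally isotropic subspace (`witt_index`).
-/

set_option autoImplicit false

namespace Fermat.Agent.Cor.HM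

open QuadraticMap Module

section Defs

variable (F : Type*) [Field F]

/-- The hyperbolic plane: the form `x y`. -/
def hypPlane : QuadraticForm F (F × F) :=
  QuadraticMap.linMulLin (LinearMap.fst F F F) (LinearMap.snd F F F)

/-- The orthogonal sum of `m` hyperbolic planes: the form `∑ᵢ xᵢ yᵢ`. -/
def hypSpace (m : ℕ) : QuadraticForm F (Fin m → F × F) :=
  QuadraticMap.pi fun _ => hypPlane F

variable {F}

@[simp] theorem hypPlane_apply (z : F × F) : hypPlane F z = z.1 * z.2 := rfl

@[simp] theorem hypSpace_apply {m : ℕ} (z : Fin m → F × F) :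
    hypSpace F m z = ∑ i, (z i).1 * (z i).2 := by
  rw [hypSpace, QuadraticMap.pi_apply]
  rfl

/-- The first plane. -/
def hypConsIso (m : ℕ) :
    ((hypPlane F).prod (hypSpace F m)).IsometryEquiv (hypSpace F (m + 1)) :=
  { Fin.consLinearEquiv F (fun _ : Fin (m + 1) => F × F) with
    map_app' := fun z => by
      simp [Fin.sum_univ_succ, Fin.consLinearEquiv, Fin.consEquiv] }

theorem hypSpace_succ_prod {V : Type*} [AddCommGroup V] [Module F V] (m : ℕ)
    (Q : QuadraticForm F V) :
    ((hypPlane F).prod ((hypSpace F m).prod Q)).Equivalent ((hypSpace F (m + 1)).prod Q) :=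
  (Equivalent.symm ⟨prodAssocIso _ _ _⟩).trans
    (Equivalent.prod ⟨hypConsIso m⟩ (Equivalent.refl Q))

/-- The hyperbolic plane is `⟨1, -1⟩`. -/
theorem hypPlane_equivalent (h2 : (2 : F) ≠ 0) :
    ((oneForm (1 : F)).prod (oneForm (-1))).Equivalent (hypPlane F) := by
  let f : (F × F) →ₗ[F] (F × F) := LinearMap.prod
    (LinearMap.fst F F F + LinearMap.snd F F F) (LinearMap.fst F F F - LinearMap.snd F F F)
  let g : (F × F) →ₗ[F] (F × F) := (2 : F)⁻¹ • LinearMap.prod
    (LinearMap.fst F F F + LinearMap.snd F F F) (LinearMap.fst F F F - LinearMap.snd F F F)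
  have hf : ∀ z : F × F, f z = (z.1 + z.2, z.1 - z.2) := fun z => rfl
  have hg : ∀ z : F × F, g z = ((2 : F)⁻¹ * (z.1 + z.2), (2 : F)⁻¹ * (z.1 - z.2)) := fun z => rfl
  have e1 : f ∘ₗ g = LinearMap.id := by
    refine LinearMap.ext fun z => ?_
    rw [LinearMap.comp_apply, hg, hf, LinearMap.id_apply]
    refine Prod.ext ?_ ?_
    · change (2 : F)⁻¹ * (z.1 + z.2) + (2 : F)⁻¹ * (z.1 - z.2) = z.1
      field_simp
      ring
    · change (2 : F)⁻¹ * (z.1 + z.2) - (2 : F)⁻¹ * (z.1 - z.2) = z.2
      field_simp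
      ring
  have e2 : g ∘ₗ f = LinearMap.id := by
    refine LinearMap.ext fun z => ?_
    rw [LinearMap.comp_apply, hf, hg, LinearMap.id_apply]
    refine Prod.ext ?_ ?_
    · change (2 : F)⁻¹ * (z.1 + z.2 + (z.1 - z.2)) = z.1
      field_simp
      ring
    · change (2 : F)⁻¹ * (z.1 + z.2 - (z.1 - z.2)) = z.2
      field_simp
      ring
  let e : (F × F) ≃ₗ[F] (F × F) := LinearEquiv.ofLinearMap f g e1 e2
  refine ⟨{ e with map_app' := fun z => ?_ }⟩
  change hypPlane F (f z) = _
  rw [hf]
  simp only [QuadraticMap.prod_apply, oneForm_apply, hypPlane_apply]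
  ring

end Defs

section Unique

variable {F V₁ V₂ : Type*} [Field F] [AddCommGroup V₁] [Module F V₁] [AddCommGroup V₂]
  [Module F V₂]

/-- Cancellation of a hyperbolic plane. -/
theorem hypPlane_cancel (h2 : (2 : F) ≠ 0) {Q₁ : QuadraticForm F V₁} {Q₂ : QuadraticForm F V₂}
    (h : ((hypPlane F).prod Q₁).Equivalent ((hypPlane F).prod Q₂)) : Q₁.Equivalent Q₂ := by
  have h1 := (((hypPlane_equivalent h2).prod (Equivalent.refl Q₁)).trans h).trans
    ((hypPlane_equivalent h2).prod (Equivalent.refl Q₂)).symm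
  have h3 : ((oneForm (1 : F)).prod ((oneForm (-1)).prod Q₁)).Equivalent
      ((oneForm (1 : F)).prod ((oneForm (-1)).prod Q₂)) :=
    ((Equivalent.symm ⟨prodAssocIso _ _ _⟩).trans h1).trans ⟨prodAssocIso _ _ _⟩
  have h4 := witt_cancel_one h2 (Q₀ := oneForm (1 : F)) (by simp) h3
  exact witt_cancel_one h2 (Q₀ := oneForm (-1 : F)) (by simp) h4

theorem not_anisotropic_of_hyp {m : ℕ} {Q₁ : QuadraticForm F V₁} {Q₂ : QuadraticForm F V₂}
    (h : Q₁.Equivalent ((hypSpace F (m + 1)).prod Q₂)) : ¬ Q₁.Anisotropic := by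
  intro h1
  obtain ⟨e⟩ := h
  have h3 := e.symm.map_app (Pi.single 0 (1, 0), 0)
  have h4 : ((hypSpace F (m + 1)).prod Q₂) (Pi.single 0 (1, 0), 0) = 0 := by
    simp only [QuadraticMap.prod_apply, hypSpace_apply, QuadraticMap.map_zero, add_zero]
    refine Finset.sum_eq_zero fun i _ => ?_
    by_cases hi : i = 0
    · subst hi
      simp
    · simp [hi]
  rw [h4] at h3
  have h5 := h1 _ h3
  have h6 : ((Pi.single 0 (1, 0), 0) : (Fin (m + 1) → F × F) × V₂) = 0 := by
    have := congrArg e h5
    rwa [QuadraticMap.IsometryEquiv.apply_symm_apply, map_zero] at this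
  have h7 := congrFun (congrArg Prod.fst h6) 0
  simp at h7

/-- **Witt's theorem, uniqueness**: the number of hyperbolic planes and the class of the
anisotropic form are determined. -/
theorem witt_unique (h2 : (2 : F) ≠ 0) {m m' : ℕ} {Q₁ : QuadraticForm F V₁}
    {Q₂ : QuadraticForm F V₂} (h₁ : Q₁.Anisotropic) (h₂ : Q₂.Anisotropic)
    (h : ((hypSpace F m).prod Q₁).Equivalent ((hypSpace F m').prod Q₂)) :
    m = m' ∧ Q₁.Equivalent Q₂ := by
  induction m generalizing m' with
  | zero =>
    have h3 := (equivalent_prod_zero (hypSpace F 0) Q₁).symm.trans h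
    cases m' with
    | zero => exact ⟨rfl, h3.trans (equivalent_prod_zero (hypSpace F 0) Q₂)⟩
    | succ m' => exact absurd h₁ (not_anisotropic_of_hyp h3)
  | succ m ih =>
    cases m' with
    | zero =>
      have h3 := h.trans (equivalent_prod_zero (hypSpace F 0) Q₂)
      exact absurd h₂ (not_anisotropic_of_hyp h3.symm)
    | succ m' =>
      have h3 := ((hypSpace_succ_prod m Q₁).trans h).trans (hypSpace_succ_prod m' Q₂).symm
      obtain ⟨h4, h5⟩ := ih (hypPlane_cancel h2 h3)
      exact ⟨congrArg (· + 1) h4, h5⟩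

end Unique

section Exists

variable {F : Type*} [Field F]

/-- an isotropic diagonal form splits off a hyperbolic plane -/
theorem exists_hyp_of_isotropic (h2 : (2 : F) ≠ 0) {n : ℕ} (a : Fin (n + 2) → Fˣ)
    (h : ¬ (wf a).Anisotropic) :
    ∃ c : Fin n → Fˣ, (wf a).Equivalent ((hypPlane F).prod (wf c)) := by
  let T : Symb F (Multiplicative (Fin 1)) :=
    { s := 1
      mul_self := fun _ _ => rfl
      symm := fun _ _ => rfl
      norm := fun _ _ _ _ _ => rfl }
  have hiso : ∀ {k : ℕ} {b : Fin k → Fˣ}, ¬ (wf b).Anisotropic →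
      ∃ x : Fin k → F, x ≠ 0 ∧ ∑ i, (b i : F) * x i ^ 2 = 0 := by
    intro k b hb
    rw [QuadraticMap.Anisotropic] at hb
    push Not at hb
    obtain ⟨x, hx, hx0⟩ := hb
    exact ⟨x, hx0, by rw [← wf_apply]; exact hx⟩
  obtain ⟨b, hb⟩ := exists_REq_cons T a 1
    (exists_value_of_isotropic h2 (fun i => (a i).ne_zero) (hiso h) _)
  have h3 : ¬ (wf (Fin.cons 1 b : Fin (n + 2) → Fˣ)).Anisotropic := by
    intro h4
    apply h
    obtain ⟨e⟩ := hb.equiv
    intro x hx
    have h5 : e x = 0 := h4 _ (by rw [e.map_app]; exact hx)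
    exact (map_eq_zero_iff _ e.toLinearEquiv.injective).1 h5
  have h4 : ∃ y : Fin (n + 1) → F, ∑ i, (b i : F) * y i ^ 2 = ((-1 : Fˣ) : F) := by
    obtain ⟨x, hx0, hx⟩ := hiso h3
    rw [Fin.sum_univ_succ] at hx
    simp only [Fin.cons_zero, Fin.cons_succ, Units.val_one, one_mul] at hx
    by_cases ht : x 0 = 0
    · refine exists_value_of_isotropic h2 (fun i => (b i).ne_zero)
        ⟨fun i => x i.succ, fun h0 => hx0 ?_, ?_⟩ _
      · funext i
        refine Fin.cases ?_ (fun j => ?_) i
        · exact ht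
        · exact congrFun h0 j
      · rw [ht] at hx
        simpa using hx
    · refine ⟨fun i => x i.succ / x 0, ?_⟩
      have h5 : ∑ i, (b i : F) * (x i.succ / x 0) ^ 2 =
          (∑ i, (b i : F) * x i.succ ^ 2) / x 0 ^ 2 := by
        rw [Finset.sum_div]
        exact Finset.sum_congr rfl fun i _ => by ring
      rw [h5, div_eq_iff (pow_ne_zero 2 ht)]
      push_cast
      linear_combination hx
  obtain ⟨c, hc⟩ := exists_REq_cons T b (-1) h4
  refine ⟨c, hb.equiv.trans ((hc.cons 1).equiv.trans ((wf_cons_cons 1 (-1) c).symm.trans ?_))⟩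
  refine Equivalent.prod ?_ (Equivalent.refl _)
  have h5 := hypPlane_equivalent h2
  push_cast
  exact h5

/-- **Witt's theorem for diagonal forms.** -/
theorem exists_witt_wf (h2 : (2 : F) ≠ 0) {n : ℕ} (a : Fin n → Fˣ) :
    ∃ (m r : ℕ) (c : Fin r → Fˣ), n = 2 * m + r ∧ (wf c).Anisotropic ∧
      (wf a).Equivalent ((hypSpace F m).prod (wf c)) := by
  induction n using Nat.strong_induction_on with
  | _ n ih =>
    by_cases h : (wf a).Anisotropic
    · exact ⟨0, n, a, by omega, h, (equivalent_prod_zero (hypSpace F 0) (wf a)).symm⟩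
    · match n, a, h, ih with
      | 0, a, h, _ => exact absurd (fun x _ => Subsingleton.elim x 0) h
      | 1, a, h, _ =>
        refine absurd (fun x hx => ?_) h
        rw [wf_apply, Fin.sum_univ_one] at hx
        have h3 := (mul_eq_zero.1 hx).resolve_left (a 0).ne_zero
        funext i
        rw [Subsingleton.elim i 0]
        exact pow_eq_zero_iff (two_ne_zero) |>.1 h3
      | n + 2, a, h, ih =>
        obtain ⟨c, hc⟩ := exists_hyp_of_isotropic h2 a h
        obtain ⟨m, r, d, hn, hd, he⟩ := ih n (by omega) c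
        exact ⟨m + 1, r, d, by omega, hd, hc.trans (((Equivalent.refl _).prod he).trans
          (hypSpace_succ_prod m (wf d)))⟩

/-- **Witt's decomposition theorem**: over a field of characteristic different from two every
regular quadratic form is the orthogonal sum of hyperbolic planes and an anisotropic form. -/
theorem exists_witt_decomposition [Invertible (2 : F)] {V : Type*} [AddCommGroup V] [Module F V]
    [FiniteDimensional F V] (Q : QuadraticForm F V)
    (hQ : (associated (R := F) Q).SeparatingLeft) :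
    ∃ (m r : ℕ) (c : Fin r → Fˣ), finrank F V = 2 * m + r ∧ (wf c).Anisotropic ∧
      Q.Equivalent ((hypSpace F m).prod (wf c)) := by
  obtain ⟨a, ha⟩ := exists_wf Q hQ
  obtain ⟨m, r, c, hn, hc, he⟩ := exists_witt_wf (Invertible.ne_zero 2) a
  exact ⟨m, r, c, hn, hc, ha.trans he⟩

end Exists

section Index

variable {F V V₁ : Type*} [Field F] [AddCommGroup V] [Module F V] [AddCommGroup V₁]
  [Module F V₁] [FiniteDimensional F V₁]

theorem finrank_le_of_isotropic {m : ℕ} {Q₁ : QuadraticForm F V₁} (h₁ : Q₁.Anisotropic)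
    (W : Submodule F ((Fin m → F × F) × V₁))
    (hW : ∀ w ∈ W, ((hypSpace F m).prod Q₁) w = 0) : finrank F W ≤ m := by
  let p : ((Fin m → F × F) × V₁) →ₗ[F] (Fin m → F) :=
    { toFun := fun z i => (z.1 i).1
      map_add' := fun _ _ => rfl
      map_smul' := fun _ _ => rfl }
  let pW : W →ₗ[F] (Fin m → F) := p ∘ₗ W.subtype
  have hpol : ∀ w ∈ W, ∀ w' ∈ W, (∀ i, (w.1 i).1 = 0) → ∑ i, (w'.1 i).1 * (w.1 i).2 = 0 := by
    intro w hw w' hw' h0
    have e1 := hW _ (W.add_mem hw hw')
    have e2 := hW _ hw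
    have e3 := hW _ hw'
    have e4 : w.2 = 0 := by
      apply h₁
      simpa [QuadraticMap.prod_apply, h0] using e2
    simp only [QuadraticMap.prod_apply, hypSpace_apply] at e1 e3
    have e5 : ∑ i, ((w + w').1 i).1 * ((w + w').1 i).2 =
        ∑ i, (w'.1 i).1 * (w.1 i).2 + ∑ i, (w'.1 i).1 * (w'.1 i).2 := by
      rw [← Finset.sum_add_distrib]
      refine Finset.sum_congr rfl fun i _ => ?_
      simp only [Prod.fst_add, Pi.add_apply, Prod.snd_add, h0 i]
      ring
    have e6 : (w + w').2 = w'.2 := by rw [Prod.snd_add, e4, zero_add]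
    rw [e5, e6] at e1
    linear_combination e1 - e3
  let δ : (Fin m → F) →ₗ[F] Module.Dual F (Fin m → F) :=
    LinearMap.mk₂ F (fun y x => ∑ i, x i * y i)
      (fun y y' x => by simp [mul_add, Finset.sum_add_distrib])
      (fun c y x => by simp [Finset.mul_sum, mul_left_comm])
      (fun y x x' => by simp [add_mul, Finset.sum_add_distrib])
      (fun c y x => by simp [Finset.mul_sum, mul_assoc])
  let q : ((Fin m → F × F) × V₁) →ₗ[F] (Fin m → F) :=
    { toFun := fun z i => (z.1 i).2
      map_add' := fun _ _ => rfl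
      map_smul' := fun _ _ => rfl }
  let φ : LinearMap.ker pW →ₗ[F] Module.Dual F (Fin m → F) :=
    δ ∘ₗ q ∘ₗ W.subtype ∘ₗ (LinearMap.ker pW).subtype
  have hφ' : LinearMap.range φ ≤ (LinearMap.range pW).dualAnnihilator := by
    rintro _ ⟨w, rfl⟩
    rw [Submodule.mem_dualAnnihilator]
    rintro x ⟨w', rfl⟩
    exact hpol w.1.1 w.1.2 w'.1 w'.2 fun i => congrFun (LinearMap.mem_ker.1 w.2) i
  have e1 : ∀ w : LinearMap.ker pW, ∀ i, (w.1.1.1 i).1 = 0 := fun w i =>
    congrFun (LinearMap.mem_ker.1 w.2) i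
  have e4 : ∀ w : LinearMap.ker pW, w.1.1.2 = 0 := by
    intro w
    apply h₁
    have e5 := hW _ w.1.2
    simpa [QuadraticMap.prod_apply, e1 w] using e5
  have e3 : ∀ (w : LinearMap.ker pW) (i : Fin m), φ w (Pi.single i 1) = (w.1.1.1 i).2 := by
    intro w i
    have e5 : φ w (Pi.single i 1) = ∑ j, (Pi.single i (1 : F) : Fin m → F) j * (w.1.1.1 j).2 := rfl
    rw [e5, Finset.sum_eq_single i (fun j _ hj => by rw [Pi.single_eq_of_ne hj, zero_mul])
      (fun h => absurd (Finset.mem_univ i) h), Pi.single_eq_same, one_mul]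
  have hφ : Function.Injective φ := by
    intro w w' h
    refine Subtype.ext (Subtype.ext (Prod.ext (funext fun i => Prod.ext ?_ ?_) ?_))
    · rw [e1 w, e1 w']
    · rw [← e3 w, ← e3 w', h]
    · rw [e4 w, e4 w']
  have h3 := Submodule.finrank_mono hφ'
  rw [LinearMap.finrank_range_of_inj hφ] at h3
  have h4 := LinearMap.finrank_range_add_finrank_ker pW
  have h5 := Subspace.finrank_add_finrank_dualAnnihilator_eq (LinearMap.range pW)
  rw [finrank_fin_fun] at h5
  omega

/-- **The Witt index**: if `Q` is the orthogonal sum of `m` hyperbolic planes and an anisotropic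
form, then `m` is the largest dimension of a totally isotropic subspace. -/
theorem witt_index {m : ℕ} {Q : QuadraticForm F V} {Q₁ : QuadraticForm F V₁}
    (h₁ : Q₁.Anisotropic) (h : Q.Equivalent ((hypSpace F m).prod Q₁)) :
    IsGreatest {d | ∃ W : Submodule F V, (∀ w ∈ W, Q w = 0) ∧ finrank F W = d} m := by
  obtain ⟨e⟩ := h
  constructor
  · let j : (Fin m → F) →ₗ[F] ((Fin m → F × F) × V₁) :=
      { toFun := fun x => (fun i => (x i, 0), 0)
        map_add' := fun x y => by
          refine Prod.ext (funext fun i => Prod.ext rfl (add_zero _).symm) (add_zero _).symm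
        map_smul' := fun c x => by
          refine Prod.ext (funext fun i => Prod.ext rfl (smul_zero c).symm) (smul_zero c).symm }
    have hj : Function.Injective j := fun x y hxy => by
      funext i
      exact congrArg Prod.fst (congrFun (congrArg Prod.fst hxy) i)
    refine ⟨(LinearMap.range j).map (e.symm.toLinearEquiv : _ →ₗ[F] V), ?_, ?_⟩
    · rintro w ⟨z, ⟨x, rfl⟩, rfl⟩
      have h3 := e.symm.map_app (j x)
      have h4 : ((hypSpace F m).prod Q₁) (j x) = 0 := by
        change hypSpace F m (fun i => (x i, 0)) + Q₁ 0 = 0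
        rw [hypSpace_apply, QuadraticMap.map_zero, add_zero]
        exact Finset.sum_eq_zero fun i _ => mul_zero _
      exact h3.trans h4
    · rw [LinearEquiv.finrank_map_eq, LinearMap.finrank_range_of_inj hj, finrank_fin_fun]
  · rintro d ⟨W, hW, rfl⟩
    rw [← LinearEquiv.finrank_map_eq e.toLinearEquiv W]
    refine finrank_le_of_isotropic h₁ _ ?_
    rintro _ ⟨w, hw, rfl⟩
    exact (e.map_app w).trans (hW w hw)

end Index

end Fermat.Agent.Cor.HM
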