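import Mathlib
import Fermat.Agent.Corollaries.HM.Witt

/-!
# Witt's extension theorem

Over a field of characteristic different from two, an isometry between two subspaces of a
quadratic space extends to an isometry of the whole space, if the form is regular on the
subspaces (`witt_extension`).
-/

set_option autoImplicit false

namespace Fermat.Agent.Cor.HM

open QuadraticMap

variable {F V : Type*} [Field F] [AddCommGroup V] [Module F V]

theorem polarBilin_isRefl (Q : QuadraticForm F V) : (Q.polarBilin).IsRefl := by
  intro x y h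
  rw [QuadraticMap.polarBilin_apply_apply] at h ⊢
  rw [polar_comm]
  exact h

/-- `V = U ⊥ U^⊥`. -/
noncomputable def orthIso (Q : QuadraticForm F V) (U : Submodule F V)
    (hU : IsCompl U (LinearMap.BilinForm.orthogonal Q.polarBilin U)) :
    ((Q.comp U.subtype).prod
      (Q.comp (LinearMap.BilinForm.orthogonal Q.polarBilin U).subtype)).IsometryEquiv Q :=
  { Submodule.prodEquivOfIsCompl _ _ hU with
    map_app' := fun z => by
      have h1 : polar Q (z.1 : V) (z.2 : V) = 0 := z.2.2 z.1 z.1.2
      change Q ((z.1 : V) + (z.2 : V)) = Q (z.1 : V) + Q (z.2 : V)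
      rw [polar] at h1
      linear_combination h1 }

theorem orthIso_apply (Q : QuadraticForm F V) (U : Submodule F V)
    (hU : IsCompl U (LinearMap.BilinForm.orthogonal Q.polarBilin U)) (u : U) :
    orthIso Q U hU (u, 0) = u := by
  change (u : V) + 0 = u
  rw [add_zero]

/-- **Witt's extension theorem**: an isometry between two regular subspaces extends to the
whole space. -/
theorem witt_extension [Invertible (2 : F)] [FiniteDimensional F V] (Q : QuadraticForm F V)
    {U U' : Submodule F V}
    (hU : Disjoint U (LinearMap.BilinForm.orthogonal Q.polarBilin U))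
    (σ : U ≃ₗ[F] U') (hσ : ∀ u : U, Q (σ u) = Q u) :
    ∃ ρ : Q.IsometryEquiv Q, ∀ u : U, ρ u = σ u := by
  have hpol : ∀ u v : U, polar Q (σ u) (σ v) = polar Q u v := by
    intro u v
    have e1 := hσ (u + v)
    rw [map_add, Submodule.coe_add, Submodule.coe_add] at e1
    rw [polar, polar, e1, hσ, hσ]
  have hU' : Disjoint U' (LinearMap.BilinForm.orthogonal Q.polarBilin U') := by
    rw [Submodule.disjoint_def] at hU ⊢
    intro x hx hx'
    obtain ⟨u, hu⟩ := σ.surjective ⟨x, hx⟩
    have e1 : (u : V) ∈ LinearMap.BilinForm.orthogonal Q.polarBilin U := by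
      intro v hv
      have e2 : polar Q ((σ ⟨v, hv⟩ : U') : V) x = 0 := hx' _ (σ ⟨v, hv⟩).2
      have e3 : x = ((σ u : U') : V) := by rw [hu]
      rw [e3, hpol] at e2
      exact e2
    have e4 : u = 0 := Subtype.ext (hU u u.2 e1)
    have e5 := congrArg Subtype.val hu
    rw [e4, map_zero] at e5
    exact e5.symm
  have hc := (LinearMap.BilinForm.isCompl_orthogonal_iff_disjoint (polarBilin_isRefl Q)).2 hU
  have hc' := (LinearMap.BilinForm.isCompl_orthogonal_iff_disjoint (polarBilin_isRefl Q)).2 hU'
  let A := orthIso Q U hc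
  let A' := orthIso Q U' hc'
  let s : (Q.comp U.subtype).IsometryEquiv (Q.comp U'.subtype) :=
    { σ with map_app' := fun u => hσ u }
  have hsep : (associated (R := F) (Q.comp U.subtype)).SeparatingLeft := by
    intro x hx
    apply Subtype.ext
    refine (Submodule.disjoint_def.1 hU) x x.2 ?_
    intro v hv
    have e1 := hx ⟨v, hv⟩
    rw [QuadraticMap.associated_apply] at e1
    have e2 : Q ((x : V) + v) - Q x - Q v = 0 := by
      have e3 := congrArg (fun t => (2 : F) * t) e1
      have e4 : (2 : F) = 0 ∨ Q ((x : V) + v) - Q x - Q v = 0 := by simpa using e3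
      exact e4.resolve_left (Invertible.ne_zero 2)
    change polar Q v x = 0
    rw [polar_comm, polar]
    exact e2
  have h : ((Q.comp U.subtype).prod
      (Q.comp (LinearMap.BilinForm.orthogonal Q.polarBilin U).subtype)).Equivalent
      ((Q.comp U.subtype).prod
        (Q.comp (LinearMap.BilinForm.orthogonal Q.polarBilin U').subtype)) :=
    (Equivalent.trans ⟨A⟩ (Equivalent.symm ⟨A'⟩)).trans
      ((Equivalent.symm ⟨s⟩).prod (Equivalent.refl _))
  obtain ⟨t⟩ := witt_cancel hsep h
  refine ⟨(A.symm.trans (s.prod t)).trans A', fun u => ?_⟩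
  have e1 : A.symm (u : V) = (u, 0) := by
    rw [QuadraticMap.IsometryEquiv.symm_apply_eq]
    exact (orthIso_apply Q U hc u).symm
  change A' ((s.prod t) (A.symm (u : V))) = _
  rw [e1]
  have e2 : (s.prod t) (u, 0) = (σ u, 0) := Prod.ext rfl (map_zero t)
  rw [e2]
  exact orthIso_apply Q U' hc' (σ u)

end Fermat.Agent.Cor.HM
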